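/-
GATE-E (S59 pre-work) / node E8.5 RAISE-P, STATEMENTS (helper80; claims row GE8-5-RAISEP-STMT).
Prelude-only (seconds to build): every node enters as a `…Stmt : Prop`, so that consumers
(E8.7 MINDATUM, the Dict binder of `GE/Top/S59Top`) can be written before the proofs.

Situation [B-peu] of GRAPH v0 (board 6671, R3): `W` has multiplicative reduction at `p`, `ρ̄_{W,p}`
is residually modular of a level `N` PRIME TO `p` (e.g. after S39, or because the newform companion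
of `hres₀` has level prime to `p`), but `ρ_W` is strict-ordinary and NOT flat at `p`: the minimal
Hecke datum has to be `p`-NEW of level `N p`.

* `IsResiduallyModularNewAt W p M q` : `W.IsResiduallyModularOfLevel p M` through a form NEW at `q`
  (frozen `CuspForm.IsNewAt` : `a_q(g)² = 1`);
* `RaisePCoreStmt p` : Ribet's level raising AT `p` from `a_p(f)² ≡ 1 (𝔪)` — a THEOREM:
  `GE8/RaiseP/Core.exists_pNew_of_model` (the proof of frozen S41 on main never uses `q' ≠ p`);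
* `DeligneModPStmt p` : (i) DELIGNE-MODP — `f` of level `N`, `p ∤ N`, congruent to `W` multiplicative
  at `p` ⟹ `a_p(f)² ≡ 1 (𝔪)`  [owner helper25, route board 6853: Eichler–Shimura AT `p`
  (`RaiseP/RedAtP`, `Deligne/ESp`) + (NU) for the kernel of reduction (`Deligne/KerNU`, helper71) +
  BLR on `eigQ` + the Tate line (`Deligne/Abs`, `Deligne/Line`) + the eigenform form
  (`Deligne/Eigen`)];  side condition `p = 3 → 2 ∣ N` (level package of GJ/S37 at `ℓ = 3`);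
* `RaisePStmt p` : RAISE-P in the residual vocabulary;
* `raisePStmt_of_core_of_deligne : RaisePCoreStmt p → DeligneModPStmt p → RaisePStmt p`.

(ii) PNEW-PATCH (the `p`-new variant of `R ↠ T` and of the patching module) is NOT stated here as a
single Prop: its algebra is `GE8/RaiseP/NewKer` (kernel of a surjection of free `𝒪[Δ_Q]`-modules:
free, compatible with coinvariants, rank additive), its Galois side is GATE-B's GB-PNEW
(`GB/B10/L/{StrictQ, GalPkgSOImg, ThetaNew}` : the pushed representation over the `p`-new quotient is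
strict-ordinary), and its one geometric input is the surjectivity of the pair of push-forwards
`H¹(Γ₀(pN) ∩ Γ_H(Q), 𝒪)_𝔪 → H¹(Γ₀(N) ∩ Γ_H(Q), 𝒪)_𝔪²` (dual of Ihara's lemma at `p`, `GM/CSP` for
`Γ₀(N) ∩ Γ_H(Q)`).
-/
import Fermat.Prelude.Def_FLTPrelim_ModularRep
import Fermat.Prelude.Def_FreyPackage_LevelRaising

set_option autoImplicit false

open WeierstrassCurve CuspForm

namespace Fermat.Agent.GE8.RaiseP.Stmt

/-- `ℤ̄ ⊆ ℂ`. -/
local notation "Zbar" => integralClosure ℤ ℂ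

/-- `W` is residually modular of level `M` through an eigenform which is NEW at `q`. -/
def IsResiduallyModularNewAt (W : WeierstrassCurve ℤ) (p M q : ℕ) : Prop :=
  ∃ (g : CuspForm (CongruenceSubgroup.Gamma0 M) 2) (𝔪 : Ideal Zbar),
    g.IsNormalizedEigenform ∧ 𝔪.IsMaximal ∧ (p : Zbar) ∈ 𝔪 ∧
    (∀ ℓ : ℕ, ℓ.Prime → W.IsGoodPrimeFor ℓ → ¬ ℓ ∣ M → ℓ ≠ p →
      ∃ a : Zbar, (a : ℂ) = ModularFormClass.qCoeff g ℓ ∧
        a - ((W.apOfModel ℓ : ℤ) : Zbar) ∈ 𝔪) ∧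
    g.IsNewAt q

theorem IsResiduallyModularNewAt.isResiduallyModularOfLevel {W : WeierstrassCurve ℤ}
    {p M q : ℕ} (h : IsResiduallyModularNewAt W p M q) : W.IsResiduallyModularOfLevel p M := by
  obtain ⟨g, 𝔪, hg, hmax, hpm, hcong, -⟩ := h
  exact ⟨g, 𝔪, hg, hmax, hpm, hcong⟩

/-- **RAISE-P, core** (the type of `GE8/RaiseP/Core.exists_pNew_of_model`). -/
def RaisePCoreStmt (p : ℕ) : Prop :=
  ∀ (W : WeierstrassCurve ℤ), W.Δ ≠ 0 → ∀ {N : ℕ}, p.Prime → p ≠ 2 → 0 < N → ¬ p ∣ N →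
    W.ModRepIsIrreducible p →
    ∀ (f : CuspForm (CongruenceSubgroup.Gamma0 N) 2) (𝔪 : Ideal Zbar),
      f.IsNormalizedEigenform → 𝔪.IsMaximal → (p : Zbar) ∈ 𝔪 →
      (∀ ℓ : ℕ, ℓ.Prime → W.IsGoodPrimeFor ℓ → ¬ ℓ ∣ N → ℓ ≠ p →
        ∃ a : Zbar, (a : ℂ) = ModularFormClass.qCoeff f ℓ ∧
          a - ((W.apOfModel ℓ : ℤ) : Zbar) ∈ 𝔪) →
      (∃ a : Zbar, (a : ℂ) = ModularFormClass.qCoeff f p ∧ a ^ 2 - 1 ∈ 𝔪) →
      IsResiduallyModularNewAt W p (N * p) p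

/-- **(i) DELIGNE-MODP**: for `W` with multiplicative reduction at `p` and `ρ̄_{W,p}` irreducible,
every eigenform `f` of level `N` prime to `p` congruent to `W` modulo `𝔪 ∣ p` has
`a_p(f)² ≡ 1 (mod 𝔪)`. -/
def DeligneModPStmt (p : ℕ) : Prop :=
  ∀ (W : WeierstrassCurve ℤ), W.Δ ≠ 0 → (p : ℤ) ∣ W.Δ → ¬ (p : ℤ) ∣ W.c₄ →
    W.ModRepIsIrreducible p →
    ∀ {N : ℕ}, 0 < N → ¬ p ∣ N → (p = 3 → 2 ∣ N) →
    ∀ (f : CuspForm (CongruenceSubgroup.Gamma0 N) 2) (𝔪 : Ideal Zbar),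
      f.IsNormalizedEigenform → 𝔪.IsMaximal → (p : Zbar) ∈ 𝔪 →
      (∀ ℓ : ℕ, ℓ.Prime → W.IsGoodPrimeFor ℓ → ¬ ℓ ∣ N → ℓ ≠ p →
        ∃ a : Zbar, (a : ℂ) = ModularFormClass.qCoeff f ℓ ∧
          a - ((W.apOfModel ℓ : ℤ) : Zbar) ∈ 𝔪) →
      ∃ a : Zbar, (a : ℂ) = ModularFormClass.qCoeff f p ∧ a ^ 2 - 1 ∈ 𝔪

/-- **RAISE-P** in the residual vocabulary: multiplicative at `p`, residually modular of a level
prime to `p` ⟹ residually modular of level `N p` through a `p`-NEW form. -/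
def RaisePStmt (p : ℕ) : Prop :=
  ∀ (W : WeierstrassCurve ℤ), W.Δ ≠ 0 → (p : ℤ) ∣ W.Δ → ¬ (p : ℤ) ∣ W.c₄ →
    W.ModRepIsIrreducible p →
    ∀ {N : ℕ}, 0 < N → ¬ p ∣ N → (p = 3 → 2 ∣ N) →
    W.IsResiduallyModularOfLevel p N → IsResiduallyModularNewAt W p (N * p) p

/-- **RAISE-P = core ∘ DELIGNE-MODP.** -/
theorem raisePStmt_of_core_of_deligne {p : ℕ} (hp : p.Prime) (hp2 : p ≠ 2)
    (hC : RaisePCoreStmt p) (hD : DeligneModPStmt p) : RaisePStmt p := by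
  intro W hΔ hpΔ hc₄ hirr N hN hpN hside hres
  obtain ⟨f, 𝔪, hf, hmax, hpm, hcong⟩ := hres
  exact hC W hΔ hp hp2 hN hpN hirr f 𝔪 hf hmax hpm hcong
    (hD W hΔ hpΔ hc₄ hirr hN hpN hside f 𝔪 hf hmax hpm hcong)

end Fermat.Agent.GE8.RaiseP.Stmt
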