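/-
GATE-E / RISK-4 PNEW-STAGE, leaf R4-G (g0-b) (helper57; assignment helper80 board 7924 / 7932):
**transport of a module structure along a linear equivalence** (Mathlib only).

`e : K ≃ₗ[𝒪] L`, `T` a commutative `𝒪`-algebra acting on `L` (`[Module T L] [IsScalarTower 𝒪 T L]`).
In the application `K = ker (f₁, f₂)` is the `Hom`-model of the `p`-new base module, `L` the
`Lam`-model (the local part of `KNew`), `T = T₀ := ImageRing.TQ 𝒪 θ tw_L` the exposed image carrier
on the `Lam`-model, and `e = eK₀` the `T_ℓ`-equivariant comparison of (g0-c).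

* `modOfEquiv e`   : the `T`-module structure on `K`, `t • y := e.symm (t • e y)` (`smul_def`);
* `isScalarTower e` : `IsScalarTower 𝒪 T K`;
* `equivT e`       : `K ≃ₗ[T] L`, `T`-linear by construction (the `e` of
  `WireNew.twLevelsStmt_newBase_pkg_congr`);
* `faithful e`     : `T` faithful on `L` ⟹ faithful on `K` (`hfaith` of
  `WireNew.nonempty_newSide_of_frob`);
* `intertwine e`   : if `u • x = a_L x` on `L` and `e ∘ a_K = a_L ∘ e`, then `u • y = a_K y` on `K`
  (`htQ` / `hgen` of `WireNew` at `u = π'(T_ℓ)`);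
* `intertwine_exists` : the `hgen`-shaped corollary.
-/
import Mathlib

set_option autoImplicit false
set_option linter.style.haveILetI false

namespace Fermat.Agent.GE8.RaiseP.TransportMod

variable {𝒪 : Type*} [CommRing 𝒪] {T : Type*} [CommRing T] [Algebra 𝒪 T]
  {K : Type*} [AddCommGroup K] [Module 𝒪 K] {L : Type*} [AddCommGroup L] [Module 𝒪 L]
  [Module T L] [IsScalarTower 𝒪 T L]

/-- the ring hom `T → End_𝒪 K`, `t ↦ e⁻¹ ∘ (t • ·) ∘ e`. -/
noncomputable def toEnd (e : K ≃ₗ[𝒪] L) : T →+* Module.End 𝒪 K :=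
  ((e.symm.conjRingEquiv : Module.End 𝒪 L ≃+* Module.End 𝒪 K) : Module.End 𝒪 L →+* Module.End 𝒪 K).comp
    (Module.toModuleEnd 𝒪 (S := T) L : T →+* Module.End 𝒪 L)

theorem toEnd_apply (e : K ≃ₗ[𝒪] L) (t : T) (y : K) : toEnd e t y = e.symm (t • e y) := rfl

/-- **the `T`-module structure on `K` transported along `e`**: `t • y := e.symm (t • e y)`. -/
@[reducible] noncomputable def modOfEquiv (e : K ≃ₗ[𝒪] L) : Module T K :=
  Module.compHom K (toEnd (T := T) e)

theorem smul_def (e : K ≃ₗ[𝒪] L) (t : T) (y : K) :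
    letI := modOfEquiv (T := T) e
    t • y = e.symm (t • e y) := rfl

theorem apply_smul (e : K ≃ₗ[𝒪] L) (t : T) (y : K) :
    letI := modOfEquiv (T := T) e
    e (t • y) = t • e y := by
  letI := modOfEquiv (T := T) e
  rw [smul_def, LinearEquiv.apply_symm_apply]

/-- `𝒪`-linearity of the transported action. -/
theorem isScalarTower (e : K ≃ₗ[𝒪] L) :
    letI := modOfEquiv (T := T) e
    IsScalarTower 𝒪 T K := by
  letI := modOfEquiv (T := T) e
  refine ⟨fun c t y => ?_⟩
  rw [smul_def, smul_def, smul_assoc, map_smul]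

/-- **`e` is `T`-linear for the transported structure.** -/
noncomputable def equivT (e : K ≃ₗ[𝒪] L) :
    letI := modOfEquiv (T := T) e
    K ≃ₗ[T] L :=
  letI := modOfEquiv (T := T) e
  { e.toAddEquiv with
    map_smul' := fun t y => apply_smul e t y }

theorem equivT_apply (e : K ≃ₗ[𝒪] L) (y : K) :
    letI := modOfEquiv (T := T) e
    equivT (T := T) e y = e y := rfl

theorem equivT_symm_apply (e : K ≃ₗ[𝒪] L) (x : L) :
    letI := modOfEquiv (T := T) e
    (equivT (T := T) e).symm x = e.symm x := rfl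

/-- **faithfulness is transported.** -/
theorem faithful (e : K ≃ₗ[𝒪] L) (hL : ∀ u : T, (∀ x : L, u • x = 0) → u = 0) (u : T)
    (hu : letI := modOfEquiv (T := T) e
      ∀ y : K, u • y = 0) : u = 0 := by
  letI := modOfEquiv (T := T) e
  refine hL u fun x => ?_
  have h := hu (e.symm x)
  rw [smul_def, LinearEquiv.apply_symm_apply] at h
  exact e.symm.injective (h.trans (map_zero e.symm).symm)

/-- **intertwined operators**: `u` acts on `L` as `a_L`, `e` intertwines `a_K` and `a_L` ⟹ `u` acts
on `K` as `a_K`. -/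
theorem intertwine (e : K ≃ₗ[𝒪] L) (aK : K → K) (aL : L → L) (he : ∀ y, e (aK y) = aL (e y))
    (u : T) (hu : ∀ x : L, u • x = aL x) (y : K) :
    letI := modOfEquiv (T := T) e
    u • y = aK y := by
  letI := modOfEquiv (T := T) e
  rw [smul_def, hu, ← he, LinearEquiv.symm_apply_apply]

/-- the `hgen`-shaped corollary: an operator of `K` intertwined with the action of some `u : T` on
`L` is the action of `u` on `K`. -/
theorem intertwine_exists (e : K ≃ₗ[𝒪] L) (aK : K → K) (aL : L → L)
    (he : ∀ y, e (aK y) = aL (e y)) (hL : ∃ u : T, ∀ x : L, u • x = aL x) :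
    letI := modOfEquiv (T := T) e
    ∃ u : T, ∀ y : K, u • y = aK y := by
  obtain ⟨u, hu⟩ := hL
  exact ⟨u, fun y => intertwine e aK aL he u hu y⟩

end Fermat.Agent.GE8.RaiseP.TransportMod
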