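/-
GATE-E (S59 pre-work) / node E8.5 RAISE-P, part (ii) PNEW-PATCH, algebra leaf (helper80; claims row
GE8-5-RAISEP-NEWKER).  Mathlib-only.

**The kernel of a surjection of free modules over a local ring is free, and its formation commutes
with coinvariants.**

Application (the `p`-new Taylor–Wiles module).  `Λ = 𝒪[Δ_Q]` (local), `I` its augmentation ideal,
`A = H¹(Γ_Q(pN), 𝒪)_𝔪`, `B = H¹(Γ_Q(N), 𝒪)_𝔪²`, both finite free over `Λ` (GATE-B R5), and
`f = ((π₁)_*, (π₂)_*) : A → B` the pair of push-forwards, SURJECTIVE after localisation at the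
non-Eisenstein `𝔪` (dual of Ihara's lemma at `p` for `Γ₀(N) ∩ Γ_H(Q)` — the one geometric input).
Then `M^{new}_Q := ker f` is finite free over `Λ` (`free_ker`), and
`M^{new}_Q / I M^{new}_Q = ker (A/IA → B/IB) = M^{new}_∅`:

* `exists_sub_mem_of_map_mem` : every `x ∈ A` with `f x ∈ I B` is congruent modulo `I A` to an
  element of `ker f`  (surjectivity of `ker f → ker f̄`);
* `mem_smul_ker_of_mem_smul_top` : `ker f ∩ I A = I · ker f`  (injectivity of
  `ker f / I ker f → A / I A`);
* `rank_add` : `rank A = rank (ker f) + rank B` (so the rank of `M^{new}_Q` is independent of `Q`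
  when those of `A` and `B` are).
-/
import Mathlib

set_option autoImplicit false

namespace Fermat.Agent.GE8.RaiseP.NewKer

open Submodule

variable {Λ : Type*} [CommRing Λ] {A B : Type*} [AddCommGroup A] [Module Λ A]
  [AddCommGroup B] [Module Λ B]

/-- a section of a surjection onto a projective module. -/
theorem exists_section [Module.Projective Λ B] (f : A →ₗ[Λ] B) (hf : Function.Surjective f) :
    ∃ s : B →ₗ[Λ] A, f ∘ₗ s = LinearMap.id :=
  Module.projective_lifting_property f LinearMap.id hf

/-- the projection `1 − s f` onto the kernel, as a map to `ker f`. -/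
noncomputable def kerProj (f : A →ₗ[Λ] B) (s : B →ₗ[Λ] A) (hs : f ∘ₗ s = LinearMap.id) :
    A →ₗ[Λ] LinearMap.ker f :=
  LinearMap.codRestrict (LinearMap.ker f) (LinearMap.id - s ∘ₗ f) (fun x => by
    rw [LinearMap.mem_ker, LinearMap.sub_apply, LinearMap.id_apply, LinearMap.comp_apply, map_sub]
    have := LinearMap.congr_fun hs (f x)
    rw [LinearMap.comp_apply, LinearMap.id_apply] at this
    rw [this, sub_self])

theorem coe_kerProj (f : A →ₗ[Λ] B) (s : B →ₗ[Λ] A) (hs : f ∘ₗ s = LinearMap.id) (x : A) :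
    ((kerProj f s hs x : LinearMap.ker f) : A) = x - s (f x) := rfl

theorem kerProj_of_mem (f : A →ₗ[Λ] B) (s : B →ₗ[Λ] A) (hs : f ∘ₗ s = LinearMap.id)
    (x : LinearMap.ker f) : kerProj f s hs (x : A) = x := by
  apply Subtype.ext
  rw [coe_kerProj, LinearMap.mem_ker.mp x.2, map_zero, sub_zero]

theorem kerProj_comp_subtype (f : A →ₗ[Λ] B) (s : B →ₗ[Λ] A) (hs : f ∘ₗ s = LinearMap.id) :
    kerProj f s hs ∘ₗ (LinearMap.ker f).subtype = LinearMap.id :=
  LinearMap.ext fun x => kerProj_of_mem f s hs x

theorem kerProj_surjective (f : A →ₗ[Λ] B) (s : B →ₗ[Λ] A) (hs : f ∘ₗ s = LinearMap.id) :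
    Function.Surjective (kerProj f s hs) := fun x => ⟨x, kerProj_of_mem f s hs x⟩

/-- the kernel of a surjection of projective modules is projective. -/
theorem projective_ker [Module.Projective Λ A] [Module.Projective Λ B] (f : A →ₗ[Λ] B)
    (hf : Function.Surjective f) : Module.Projective Λ (LinearMap.ker f) := by
  obtain ⟨s, hs⟩ := exists_section f hf
  exact Module.Projective.of_split (LinearMap.ker f).subtype (kerProj f s hs)
    (kerProj_comp_subtype f s hs)

/-- the kernel of a surjection from a finite module onto a projective module is finite. -/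
theorem finite_ker [Module.Finite Λ A] [Module.Projective Λ B] (f : A →ₗ[Λ] B)
    (hf : Function.Surjective f) : Module.Finite Λ (LinearMap.ker f) := by
  obtain ⟨s, hs⟩ := exists_section f hf
  exact Module.Finite.of_surjective (kerProj f s hs) (kerProj_surjective f s hs)

/-- **the kernel of a surjection of finite free modules over a local ring is finite free.** -/
theorem free_ker [IsLocalRing Λ] [Module.Finite Λ A] [Module.Free Λ A] [Module.Free Λ B]
    (f : A →ₗ[Λ] B) (hf : Function.Surjective f) :
    Module.Free Λ (LinearMap.ker f) ∧ Module.Finite Λ (LinearMap.ker f) := by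
  have := projective_ker f hf
  have := finite_ker f hf
  exact ⟨Module.free_of_flat_of_isLocalRing, inferInstance⟩

/-- **surjectivity of `ker f → ker f̄`**: an element whose image lies in `I B` is congruent modulo
`I A` to an element of the kernel. -/
theorem exists_sub_mem_of_map_mem [Module.Projective Λ B] (f : A →ₗ[Λ] B)
    (hf : Function.Surjective f) (I : Ideal Λ) {x : A}
    (hx : f x ∈ I • (⊤ : Submodule Λ B)) :
    ∃ y : A, f y = 0 ∧ x - y ∈ I • (⊤ : Submodule Λ A) := by
  obtain ⟨s, hs⟩ := exists_section f hf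
  refine ⟨x - s (f x), ?_, ?_⟩
  · exact LinearMap.mem_ker.mp (kerProj f s hs x).2
  · rw [sub_sub_cancel]
    have h1 : (I • (⊤ : Submodule Λ B)).map s ≤ I • (⊤ : Submodule Λ A) := by
      rw [Submodule.map_smul'']
      exact Submodule.smul_mono le_rfl le_top
    exact h1 (Submodule.mem_map_of_mem hx)

/-- **`ker f ∩ I A = I · ker f`** (as submodules of `ker f`). -/
theorem mem_smul_top_ker_of_mem_smul_top [Module.Projective Λ B] (f : A →ₗ[Λ] B)
    (hf : Function.Surjective f) (I : Ideal Λ) (y : LinearMap.ker f)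
    (hy : (y : A) ∈ I • (⊤ : Submodule Λ A)) :
    y ∈ I • (⊤ : Submodule Λ (LinearMap.ker f)) := by
  obtain ⟨s, hs⟩ := exists_section f hf
  have h1 : (I • (⊤ : Submodule Λ A)).map (kerProj f s hs) ≤
      I • (⊤ : Submodule Λ (LinearMap.ker f)) := by
    rw [Submodule.map_smul'']
    exact Submodule.smul_mono le_rfl le_top
  have h2 := h1 (Submodule.mem_map_of_mem hy)
  rwa [kerProj_of_mem] at h2

/-- the same inside `A`: `ker f ∩ I A ⊆ I · ker f`. -/
theorem mem_smul_ker_of_mem_smul_top [Module.Projective Λ B] (f : A →ₗ[Λ] B)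
    (hf : Function.Surjective f) (I : Ideal Λ) {y : A} (hy0 : f y = 0)
    (hy : y ∈ I • (⊤ : Submodule Λ A)) : y ∈ I • LinearMap.ker f := by
  have h := mem_smul_top_ker_of_mem_smul_top f hf I ⟨y, LinearMap.mem_ker.mpr hy0⟩ hy
  have h1 : (I • (⊤ : Submodule Λ (LinearMap.ker f))).map (LinearMap.ker f).subtype =
      I • LinearMap.ker f := by
    rw [Submodule.map_smul'', Submodule.map_top, Submodule.range_subtype]
  rw [← h1]
  exact ⟨⟨y, LinearMap.mem_ker.mpr hy0⟩, h, rfl⟩

/-- conversely `I · ker f ⊆ ker f ∩ I A`. -/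
theorem mem_smul_top_of_mem_smul_ker (f : A →ₗ[Λ] B) (I : Ideal Λ) {y : A}
    (hy : y ∈ I • LinearMap.ker f) : f y = 0 ∧ y ∈ I • (⊤ : Submodule Λ A) :=
  ⟨LinearMap.mem_ker.mp ((Submodule.smul_le_right : I • LinearMap.ker f ≤ LinearMap.ker f) hy),
    (Submodule.smul_mono le_rfl le_top : I • LinearMap.ker f ≤ I • ⊤) hy⟩

/-- **the coinvariants of the kernel are the kernel of the coinvariants**: the natural map
`ker f / I ker f → A / I A` is injective with image `ker (A/IA → B/IB)`. -/
theorem ker_mapQ_eq [Module.Projective Λ B] (f : A →ₗ[Λ] B) (hf : Function.Surjective f)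
    (I : Ideal Λ) (hI : I • (⊤ : Submodule Λ A) ≤ (I • (⊤ : Submodule Λ B)).comap f) :
    LinearMap.ker ((I • (⊤ : Submodule Λ A)).mapQ (I • (⊤ : Submodule Λ B)) f hI) =
      (LinearMap.ker f).map (I • (⊤ : Submodule Λ A)).mkQ := by
  apply le_antisymm
  · intro z hz
    obtain ⟨x, rfl⟩ := Submodule.mkQ_surjective _ z
    rw [LinearMap.mem_ker, Submodule.mkQ_apply, Submodule.mapQ_apply,
      Submodule.Quotient.mk_eq_zero] at hz
    obtain ⟨y, hy0, hxy⟩ := exists_sub_mem_of_map_mem f hf I hz
    refine ⟨y, LinearMap.mem_ker.mpr hy0, ?_⟩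
    rw [Submodule.mkQ_apply, Submodule.mkQ_apply, eq_comm, Submodule.Quotient.eq]
    exact hxy
  · rintro _ ⟨y, hy, rfl⟩
    rw [LinearMap.mem_ker, Submodule.mkQ_apply, Submodule.mapQ_apply, LinearMap.mem_ker.mp hy,
      Submodule.Quotient.mk_zero]

/-- the hypothesis `hI` of `ker_mapQ_eq` always holds. -/
theorem smul_top_le_comap (f : A →ₗ[Λ] B) (I : Ideal Λ) :
    I • (⊤ : Submodule Λ A) ≤ (I • (⊤ : Submodule Λ B)).comap f := by
  rw [← Submodule.map_le_iff_le_comap, Submodule.map_smul'']
  exact Submodule.smul_mono le_rfl le_top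

/-- `A ≃ ker f × B`. -/
noncomputable def splitEquiv [Module.Projective Λ B] (f : A →ₗ[Λ] B)
    (hf : Function.Surjective f) : A ≃ₗ[Λ] (LinearMap.ker f × B) :=
  LinearEquiv.ofBijective
    ((kerProj f (exists_section f hf).choose (exists_section f hf).choose_spec).prod f) (by
    set s := (exists_section f hf).choose with hsdef
    have hs : f ∘ₗ s = LinearMap.id := (exists_section f hf).choose_spec
    constructor
    · rw [← LinearMap.ker_eq_bot, LinearMap.ker_eq_bot']
      intro x hx
      have h1 : kerProj f s hs x = 0 := congrArg Prod.fst hx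
      have h2 : f x = 0 := congrArg Prod.snd hx
      have h3 : ((kerProj f s hs x : LinearMap.ker f) : A) = 0 := by rw [h1]; rfl
      rw [coe_kerProj, h2, map_zero, sub_zero] at h3
      exact h3
    · rintro ⟨k, b⟩
      have hb : f (s b) = b := LinearMap.congr_fun hs b
      refine ⟨(k : A) + s b, ?_⟩
      apply Prod.ext
      · apply Subtype.ext
        show ((kerProj f s hs ((k : A) + s b) : LinearMap.ker f) : A) = k
        rw [coe_kerProj, map_add, LinearMap.mem_ker.mp k.2, zero_add, hb, add_sub_cancel_right]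
      · show f ((k : A) + s b) = b
        rw [map_add, LinearMap.mem_ker.mp k.2, zero_add, hb])

/-- **ranks add**: `finrank A = finrank (ker f) + finrank B` over a local ring. -/
theorem finrank_add [IsLocalRing Λ] [Module.Finite Λ A] [Module.Free Λ A] [Module.Finite Λ B]
    [Module.Free Λ B] (f : A →ₗ[Λ] B) (hf : Function.Surjective f) :
    Module.finrank Λ A = Module.finrank Λ (LinearMap.ker f) + Module.finrank Λ B := by
  have := (free_ker f hf).1
  have := (free_ker f hf).2
  rw [(splitEquiv f hf).finrank_eq, Module.finrank_prod]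

end Fermat.Agent.GE8.RaiseP.NewKer
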