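/-
GATE-E (S59 pre-work) / node E8.5 (ii) PNEW-PATCH, leaf (P1) (helper80; claims row GE8-5-PNEW-LEVEL):
**the kernel of a morphism of Taylor–Wiles levels is a Taylor–Wiles level.**

Vocabulary: `FreeLevel O 𝕋 M0 act0 k N` of GATE-B (`GB/B3/TWLevel`): a module `M_Q`, free over
`O[Δ_Q]` in basis form (monomials `mono D a (e j)`), with coinvariants `π : M_Q → M0`.

Situation: `F` = the level of `Γ₀(N'p) ∩ Γ_H(Q)`, `G` = the level of `(Γ₀(N') ∩ Γ_H(Q))²`,
`φ = (cores, coresD) : F.M → G.M` over `f0 : M0 → P0` at `Q = ∅`.  If `f0` is SURJECTIVE (dual of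
Ihara's lemma at `p` at the BASE level only) and `O` is local with `p ∈ 𝔪_O`, `N i = p ^ n_i`:

* `eq_top_of_sup_iSup_range`  : nilpotent Nakayama for the augmentation ideal of `O[Δ_Q]`
  (a `D`-stable `O`-submodule `Z` with `M = Z + ∑ (D_i − 1) M` is everything);
* `exists_basis_of_lift`      : every lift `e'` of an `O`-basis of `M0` is an `O[Δ_Q]`-basis of `M_Q`;
* `LevelHom.surjective`       : `φ` is surjective (NO Ihara-type input at the level `Q`);
* `kerLevel`                  : `ker φ` is a `FreeLevel` over `ker f0` (the `p`-NEW level), with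
  `kerLevel_M` (`= ker φ.f`, `rfl`), `kerLevel_act/D/π` (restrictions), `kerLevel_d_add` (ranks);
* `prodLevel`, `LevelHom.prod` : the product of two levels (for `G = G₁ × G₂`, `φ = (φ₁, φ₂)`).

Mathlib + `GB/B3/{TWLevel, MonoCoinv}` + `GE8/RaiseP/NewKer` only.
-/
import Mathlib
import Fermat.Agent.GB.B3.TWLevel
import Fermat.Agent.GB.B3.MonoCoinv
import Fermat.Agent.GE8.RaiseP.NewKer

set_option autoImplicit false
set_option linter.unusedSectionVars false

namespace Fermat.Agent.GE8.RaiseP.NewLevel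

open Module IsLocalRing Fermat.Agent.GB.B3.TWLevel Fermat.Agent.GB.B3.MonoCoinv
  Fermat.Agent.GB.B3.Chi

/-! ### monomial calculus -/

section Mono

variable {O M M' : Type*} [CommRing O] [AddCommGroup M] [Module O M] [AddCommGroup M']
  [Module O M']

/-- an equivariant map intertwines the monomial operators. -/
theorem map_mono {k : ℕ} (D : Fin k → Module.End O M) (D' : Fin k → Module.End O M')
    (f : M →ₗ[O] M') (hf : ∀ i x, f (D i x) = D' i (f x)) (a : Fin k → ℕ) (x : M) :
    f (mono D a x) = mono D' a (f x) := by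
  induction k generalizing x with
  | zero => rw [mono_fin_zero, mono_fin_zero, Module.End.one_apply, Module.End.one_apply]
  | succ k ih =>
    have hpow : ∀ (n : ℕ) (y : M), f ((D 0 ^ n) y) = (D' 0 ^ n) (f y) := by
      intro n
      induction n with
      | zero => intro y; rw [pow_zero, pow_zero, Module.End.one_apply, Module.End.one_apply]
      | succ n ihn =>
        intro y
        rw [pow_succ', pow_succ', Module.End.mul_apply, Module.End.mul_apply, hf, ihn]
    rw [mono_succ, mono_succ, Module.End.mul_apply, Module.End.mul_apply, hpow,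
      ih (fun i => D i.succ) (fun i => D' i.succ) (fun i x => hf i.succ x)]

/-- `D i` permutes the monomial vectors. -/
theorem exists_D_mono {k : ℕ} {N : Fin k → ℕ} (hN : ∀ i, 0 < N i) (D : Fin k → Module.End O M)
    (hpow : ∀ i, D i ^ N i = 1) (hcomm : ∀ i j, D i * D j = D j * D i) (i : Fin k)
    (a : ∀ i : Fin k, Fin (N i)) (x : M) :
    ∃ a' : ∀ i : Fin k, Fin (N i),
      D i (mono D (fun i => (a i : ℕ)) x) = mono D (fun i => (a' i : ℕ)) x := by
  classical
  let s : Fin (N i) := if h : (a i : ℕ) + 1 < N i then ⟨(a i : ℕ) + 1, h⟩ else ⟨0, hN i⟩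
  have hDs : D i ^ ((a i : ℕ) + 1) = D i ^ (s : ℕ) := by
    by_cases h : (a i : ℕ) + 1 < N i
    · simp only [s, dif_pos h]
    · have h' : (a i : ℕ) + 1 = N i := by have := (a i).isLt; omega
      simp only [s, dif_neg h]
      rw [h', hpow, pow_zero]
  refine ⟨Function.update a i s, ?_⟩
  rw [← Module.End.mul_apply, mul_mono D hcomm]
  congr 1
  refine mono_congr D _ _ fun i' => ?_
  by_cases hi : i' = i
  · subst hi
    simp only [Function.update_self]
    exact hDs
  · simp only [Function.update_of_ne hi]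

/-- the monomial at exponent `0`. -/
theorem mono_zero_apply {k : ℕ} {N : Fin k → ℕ} (hN : ∀ i, 0 < N i) (D : Fin k → Module.End O M)
    (x : M) : mono D (fun i => (((⟨0, hN i⟩ : Fin (N i)) : Fin (N i)) : ℕ)) x = x := by
  have h : mono D (fun i => (((⟨0, hN i⟩ : Fin (N i)) : Fin (N i)) : ℕ)) = 1 := mono_zero D
  rw [h, Module.End.one_apply]

end Mono

/-! ### nilpotent Nakayama -/

section Nakayama

variable {O M : Type*} [CommRing O] [AddCommGroup M] [Module O M]

/-- commuting operators `u i`, nilpotent modulo a stable submodule `Z`, with `M = Z + ∑ u i M`: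
then `Z = M`. -/
theorem eq_top_of_nilpotent {k : ℕ} (u : Fin k → Module.End O M)
    (hcomm : ∀ i j, u i * u j = u j * u i) (Z : Submodule O M)
    (hZ : ∀ i, ∀ z ∈ Z, u i z ∈ Z) (hnil : ∀ i, ∃ n : ℕ, ∀ x, (u i ^ n) x ∈ Z)
    (htop : ∀ x : M, x ∈ Z ⊔ ⨆ i, LinearMap.range (u i)) : Z = ⊤ := by
  induction k with
  | zero =>
    refine eq_top_iff.2 fun x _ => ?_
    have h := htop x
    rwa [iSup_of_empty, sup_bot_eq] at h
  | succ k ih =>
    set V : Submodule O M := ⨆ i : Fin k, LinearMap.range (u i.succ) with hV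
    -- `V` is stable under `u 0`
    have hV0 : ∀ v ∈ V, u 0 v ∈ V := by
      intro v hv
      refine Submodule.iSup_induction _ (motive := fun v => u 0 v ∈ V) hv ?_ ?_ ?_
      · rintro i _ ⟨w, rfl⟩
        have h1 : u 0 (u i.succ w) = u i.succ (u 0 w) := by
          rw [← Module.End.mul_apply, hcomm, Module.End.mul_apply]
        rw [h1]
        exact (le_iSup (fun i : Fin k => LinearMap.range (u i.succ)) i) ⟨_, rfl⟩
      · rw [map_zero]; exact Submodule.zero_mem _
      · intro y z hy hz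
        rw [map_add]; exact Submodule.add_mem _ hy hz
    have hV0n : ∀ (n : ℕ), ∀ v ∈ V, (u 0 ^ n) v ∈ V := by
      intro n
      induction n with
      | zero => intro v hv; rwa [pow_zero, Module.End.one_apply]
      | succ n ihn =>
        intro v hv
        rw [pow_succ', Module.End.mul_apply]
        exact hV0 _ (ihn v hv)
    have hZ0n : ∀ (n : ℕ), ∀ z ∈ Z, (u 0 ^ n) z ∈ Z := by
      intro n
      induction n with
      | zero => intro z hz; rwa [pow_zero, Module.End.one_apply]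
      | succ n ihn =>
        intro z hz
        rw [pow_succ', Module.End.mul_apply]
        exact hZ 0 _ (ihn z hz)
    have hall : (⨆ i, LinearMap.range (u i)) ≤ LinearMap.range (u 0) ⊔ V := by
      refine iSup_le fun i => ?_
      refine Fin.cases ?_ (fun i' => ?_) i
      · exact le_sup_left
      · exact le_trans (le_iSup (fun i : Fin k => LinearMap.range (u i.succ)) i') le_sup_right
    -- `M = Z + u 0 ^ n M + V` for every `n`
    have key : ∀ (n : ℕ) (x : M), x ∈ Z ⊔ LinearMap.range (u 0 ^ n) ⊔ V := by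
      intro n
      induction n with
      | zero =>
        intro x
        refine Submodule.mem_sup_left (Submodule.mem_sup_right ?_)
        exact ⟨x, by rw [pow_zero, Module.End.one_apply]⟩
      | succ n ihn =>
        intro x
        obtain ⟨zy, hzy, v, hv, rfl⟩ := Submodule.mem_sup.1 (ihn x)
        obtain ⟨z, hz, y', ⟨y, rfl⟩, rfl⟩ := Submodule.mem_sup.1 hzy
        obtain ⟨z', hz', w, hw, rfl⟩ := Submodule.mem_sup.1 (htop y)
        obtain ⟨y₀, ⟨y₁, rfl⟩, v', hv', rfl⟩ := Submodule.mem_sup.1 (hall hw)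
        have h1 : (u 0 ^ n) (z' + (u 0 y₁ + v')) =
            (u 0 ^ n) z' + (u 0 ^ (n + 1)) y₁ + (u 0 ^ n) v' := by
          rw [map_add, map_add, pow_succ, Module.End.mul_apply, add_assoc]
        rw [h1]
        have h2 : z + ((u 0 ^ n) z' + (u 0 ^ (n + 1)) y₁ + (u 0 ^ n) v') + v =
            ((z + (u 0 ^ n) z') + (u 0 ^ (n + 1)) y₁) + ((u 0 ^ n) v' + v) := by abel
        rw [h2]
        refine Submodule.add_mem_sup (Submodule.add_mem_sup ?_ ⟨y₁, rfl⟩) ?_
        · exact Z.add_mem hz (hZ0n n z' hz')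
        · exact V.add_mem (hV0n n v' hv') hv
    obtain ⟨n, hn⟩ := hnil 0
    refine ih (fun i => u i.succ) (fun i j => hcomm _ _) (fun i => hZ i.succ)
      (fun i => hnil i.succ) fun x => ?_
    obtain ⟨zy, hzy, v, hv, rfl⟩ := Submodule.mem_sup.1 (key n x)
    obtain ⟨z, hz, y', ⟨y, rfl⟩, rfl⟩ := Submodule.mem_sup.1 hzy
    exact Submodule.add_mem_sup (Z.add_mem hz (hn y)) hv

variable [IsLocalRing O] [Module.Finite O M]

/-- **nilpotent Nakayama for the augmentation ideal of `O[Δ]`**: commuting `D i` of `p`-power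
order, `p ∈ 𝔪_O`, `Z` a `D`-stable `O`-submodule with `M = Z + ∑ (D i − 1) M`: then `Z = M`. -/
theorem eq_top_of_sup_iSup_range {p : ℕ} (hp : p.Prime) (hpO : (p : O) ∈ maximalIdeal O) {k : ℕ}
    {N : Fin k → ℕ} (hNp : ∀ i, ∃ n : ℕ, N i = p ^ n) (D : Fin k → Module.End O M)
    (hpow : ∀ i, D i ^ N i = 1) (hcomm : ∀ i j, D i * D j = D j * D i) (Z : Submodule O M)
    (hZ : ∀ i, ∀ z ∈ Z, D i z ∈ Z)
    (htop : ∀ x : M, x ∈ Z ⊔ ⨆ i, LinearMap.range (D i - 1)) : Z = ⊤ := by
  set Z' : Submodule O M := Z ⊔ maximalIdeal O • (⊤ : Submodule O M) with hZ'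
  have hmap : ∀ (g : Module.End O M), ∀ w ∈ maximalIdeal O • (⊤ : Submodule O M),
      g w ∈ maximalIdeal O • (⊤ : Submodule O M) := by
    intro g w hw
    have h1 : (maximalIdeal O • (⊤ : Submodule O M)).map g ≤
        maximalIdeal O • (⊤ : Submodule O M) := by
      rw [Submodule.map_smul'']
      exact Submodule.smul_mono le_rfl le_top
    exact h1 ⟨w, hw, rfl⟩
  have h1 : Z' = ⊤ := by
    refine eq_top_of_nilpotent (fun i => D i - 1) (fun i j => ?_) Z' (fun i z hz => ?_)
      (fun i => ?_) (fun x => ?_)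
    · have h3 : Commute (D i - 1) (D j) :=
        (show Commute (D i) (D j) from hcomm i j).sub_left (Commute.one_left _)
      exact (h3.sub_right (Commute.one_right _)).eq
    · obtain ⟨y, hy, w, hw, rfl⟩ := Submodule.mem_sup.1 hz
      rw [map_add]
      refine Submodule.add_mem_sup ?_ (hmap _ w hw)
      rw [LinearMap.sub_apply, Module.End.one_apply]
      exact Z.sub_mem (hZ i y hy) hy
    · obtain ⟨n, hn⟩ := hNp i
      refine ⟨N i, fun x => Submodule.mem_sup_right ?_⟩
      have hc : Commute (D i - 1) (1 : Module.End O M) := Commute.one_right _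
      obtain ⟨r, hr⟩ := hc.exists_add_pow_prime_pow_eq hp n
      rw [sub_add_cancel, one_pow, ← hn, hpow] at hr
      have h2 : (D i - 1) ^ N i = (p : Module.End O M) * (-((D i - 1) * r)) := by
        rw [add_right_comm] at hr
        have h4 : (D i - 1) ^ N i + (p : Module.End O M) * (D i - 1) * 1 * r = 0 :=
          add_eq_right.mp hr.symm
        rw [eq_neg_of_add_eq_zero_left h4, mul_one, mul_assoc, mul_neg]
      rw [h2, ← nsmul_eq_mul, LinearMap.smul_apply, ← Nat.cast_smul_eq_nsmul O]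
      exact Submodule.smul_mem_smul hpO Submodule.mem_top
    · obtain ⟨z, hz, w, hw, rfl⟩ := Submodule.mem_sup.1 (htop x)
      exact Submodule.add_mem_sup (Submodule.mem_sup_left hz) hw
  have hfin : (⊤ : Submodule O M).FG := Module.Finite.fg_top
  exact top_le_iff.mp (Submodule.le_of_le_smul_of_le_jacobson_bot hfin
    (maximalIdeal_le_jacobson ⊥) (le_of_eq h1.symm))

end Nakayama

/-! ### every lift of a basis of the coinvariants is an `O[Δ]`-basis -/

section Lift

variable {O M M0 : Type*} [CommRing O] [IsLocalRing O] [AddCommGroup M] [Module O M]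
  [AddCommGroup M0] [Module O M0]

/-- **rebasing**: `M` free over `O[Δ]` in basis form on `e`, `π : M → M0` with
`ker π ⊆ ∑ (D i − 1) M`, `M0` free of the same rank; then for EVERY family `e'` whose images under `π`
are an `O`-basis of `M0`, the monomials `mono D a (e' j)` are an `O`-basis of `M`. -/
theorem exists_basis_of_lift {p : ℕ} (hp : p.Prime) (hpO : (p : O) ∈ maximalIdeal O) {k : ℕ}
    {N : Fin k → ℕ} (hNp : ∀ i, ∃ n : ℕ, N i = p ^ n) (D : Fin k → Module.End O M)
    (hpow : ∀ i, D i ^ N i = 1) (hcomm : ∀ i j, D i * D j = D j * D i) {d : ℕ}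
    (b : Basis ((∀ i : Fin k, Fin (N i)) × Fin d) O M) (b00 : Basis (Fin d) O M0)
    (π : M →ₗ[O] M0) (hker : ∀ x, π x = 0 → x ∈ ⨆ i, LinearMap.range (D i - 1))
    {ι : Type*} [Fintype ι] (e' : ι → M) (b0 : Basis ι O M0) (hb0 : ∀ j, b0 j = π (e' j)) :
    ∃ b' : Basis ((∀ i : Fin k, Fin (N i)) × ι) O M,
      ∀ a j, b' (a, j) = mono D (fun i => (a i : ℕ)) (e' j) := by
  classical
  have hN : ∀ i, 0 < N i := fun i => by
    obtain ⟨n, hn⟩ := hNp i
    rw [hn]; exact pow_pos hp.pos n
  have hfin : Module.Finite O M := Module.Finite.of_basis b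
  set v : ((∀ i : Fin k, Fin (N i)) × ι) → M :=
    fun x => mono D (fun i => (x.1 i : ℕ)) (e' x.2) with hv
  set P : Submodule O M := Submodule.span O (Set.range v) with hP
  -- `P` is `D`-stable
  have hPD : ∀ i, ∀ y ∈ P, D i y ∈ P := by
    intro i y hy
    refine Submodule.span_induction (p := fun y _ => D i y ∈ P) ?_ ?_ ?_ ?_ hy
    · rintro _ ⟨⟨a, j⟩, rfl⟩
      obtain ⟨a', ha'⟩ := exists_D_mono hN D hpow hcomm i a (e' j)
      show D i (mono D (fun i => (a i : ℕ)) (e' j)) ∈ P
      rw [ha']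
      exact Submodule.subset_span ⟨(a', j), rfl⟩
    · rw [map_zero]; exact Submodule.zero_mem _
    · intro y z _ _ hy hz
      rw [map_add]; exact Submodule.add_mem _ hy hz
    · intro c y _ hy
      rw [map_smul]; exact Submodule.smul_mem _ c hy
  have he' : ∀ j, e' j ∈ P := fun j =>
    Submodule.subset_span ⟨(fun i => ⟨0, hN i⟩, j), mono_zero_apply hN D (e' j)⟩
  -- `M = P + ∑ (D i − 1) M`
  have hsplit : ∀ m : M, m ∈ P ⊔ ⨆ i, LinearMap.range (D i - 1) := by
    intro m
    set y : M := ∑ j, b0.repr (π m) j • e' j with hy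
    have hyP : y ∈ P := Submodule.sum_mem _ fun j _ => Submodule.smul_mem _ _ (he' j)
    have hπy : π y = π m := by
      rw [hy, map_sum]
      simp_rw [map_smul, ← hb0]
      exact b0.sum_repr (π m)
    have h1 : m - y ∈ ⨆ i, LinearMap.range (D i - 1) := hker _ (by rw [map_sub, hπy, sub_self])
    have h2 : m = y + (m - y) := by abel
    rw [h2]
    exact Submodule.add_mem_sup hyP h1
  have hPtop : P = ⊤ := eq_top_of_sup_iSup_range hp hpO hNp D hpow hcomm P hPD hsplit
  -- a spanning family of the right cardinality is a basis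
  let b₂ : Basis ((∀ i : Fin k, Fin (N i)) × ι) O M :=
    b.reindex (Equiv.prodCongr (Equiv.refl _) (b00.indexEquiv b0))
  let Φ := Fintype.linearCombination O v
  have hΦsurj : Function.Surjective Φ := by
    rw [← LinearMap.range_eq_top, Fintype.range_linearCombination, ← hP, hPtop]
  have hcomp : Function.Injective (b₂.equivFun.toLinearMap ∘ₗ Φ) :=
    OrzechProperty.injective_of_surjective_endomorphism _
      (b₂.equivFun.surjective.comp hΦsurj)
  have hΦinj : Function.Injective Φ := fun x y hxy => hcomp (by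
    show b₂.equivFun (Φ x) = b₂.equivFun (Φ y)
    rw [hxy])
  have hli : LinearIndependent O v := by
    rw [Fintype.linearIndependent_iff]
    intro c hc i
    have h1 : Φ c = Φ 0 := by
      rw [map_zero]
      exact hc
    rw [hΦinj h1]
    rfl
  refine ⟨Basis.mk hli (by rw [← hP, hPtop]), fun a j => ?_⟩
  rw [Basis.mk_apply]

/-- **the kernel of a map which is "triangular" in two bases**: `B₁` a basis of `M` indexed by
`I ⊕ J`, `B₂` a basis of `M'` indexed by `J`, `f (B₁ (inl i)) = 0`, `f (B₁ (inr j)) = B₂ j`: the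
`B₁ (inl i)` are a basis of `ker f`. -/
theorem exists_basis_ker {M' : Type*} [AddCommGroup M'] [Module O M'] {I J : Type*} [Fintype I]
    [Fintype J] (B₁ : Basis (I ⊕ J) O M) (B₂ : Basis J O M') (f : M →ₗ[O] M')
    (hl : ∀ i, f (B₁ (Sum.inl i)) = 0) (hr : ∀ j, f (B₁ (Sum.inr j)) = B₂ j) :
    ∃ B : Basis I O (LinearMap.ker f), ∀ i, ((B i : LinearMap.ker f) : M) = B₁ (Sum.inl i) := by
  classical
  let w : I → LinearMap.ker f := fun i => ⟨B₁ (Sum.inl i), LinearMap.mem_ker.2 (hl i)⟩
  have hli : LinearIndependent O w := by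
    refine LinearIndependent.of_comp (LinearMap.ker f).subtype ?_
    exact B₁.linearIndependent.comp _ Sum.inl_injective
  have hspan : ⊤ ≤ Submodule.span O (Set.range w) := by
    intro x _
    have hx : f (x : M) = 0 := LinearMap.mem_ker.1 x.2
    have h1 : ∑ s, B₁.repr (x : M) s • B₁ s = (x : M) := B₁.sum_repr _
    rw [Fintype.sum_sum_type] at h1
    have h2 : ∑ j, B₁.repr (x : M) (Sum.inr j) • B₂ j = 0 := by
      have h3 := congrArg f h1
      rw [map_add, map_sum, map_sum, hx] at h3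
      simp_rw [map_smul, hl, hr, smul_zero] at h3
      rwa [Finset.sum_const_zero, zero_add] at h3
    have h4 : ∀ j, B₁.repr (x : M) (Sum.inr j) = 0 := fun j => by
      have h5 := (Fintype.linearIndependent_iff.1 B₂.linearIndependent) _ h2
      exact h5 j
    have h5 : ∑ j, B₁.repr (x : M) (Sum.inr j) • B₁ (Sum.inr j) = 0 :=
      Finset.sum_eq_zero fun j _ => by rw [h4, zero_smul]
    rw [h5, add_zero] at h1
    have h6 : x = ∑ i, B₁.repr (x : M) (Sum.inl i) • w i := by
      apply Subtype.ext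
      rw [Submodule.coe_sum]
      simp_rw [Submodule.coe_smul]
      exact h1.symm
    rw [h6]
    exact Submodule.sum_mem _ fun i _ => Submodule.smul_mem _ _ (Submodule.subset_span ⟨i, rfl⟩)
  refine ⟨Basis.mk hli hspan, fun i => ?_⟩
  rw [Basis.mk_apply]

end Lift

/-! ### restriction of an algebra action -/

section Restrict

variable {O : Type*} [CommRing O] {𝕋 : Type*} [CommRing 𝕋] [Algebra O 𝕋] {M : Type*}
  [AddCommGroup M] [Module O M]

/-- restriction of an algebra action to a stable submodule. -/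
noncomputable def restrictAct (act : 𝕋 →ₐ[O] Module.End O M) (K : Submodule O M)
    (hK : ∀ t, ∀ x ∈ K, act t x ∈ K) : 𝕋 →ₐ[O] Module.End O K where
  toFun t := (act t).restrict (hK t)
  map_one' := by
    ext x
    simp [LinearMap.restrict_apply]
  map_mul' s t := by
    ext x
    simp [LinearMap.restrict_apply, map_mul]
  map_zero' := by
    ext x
    simp [LinearMap.restrict_apply]
  map_add' s t := by
    ext x
    simp [LinearMap.restrict_apply, map_add]
  commutes' r := by
    ext x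
    simp [LinearMap.restrict_apply, AlgHom.commutes, Module.algebraMap_end_apply]

theorem coe_restrictAct (act : 𝕋 →ₐ[O] Module.End O M) (K : Submodule O M)
    (hK : ∀ t, ∀ x ∈ K, act t x ∈ K) (t : 𝕋) (x : K) :
    ((restrictAct act K hK t x : K) : M) = act t x := rfl

end Restrict

/-! ### morphisms of Taylor–Wiles levels and their kernels -/

section KerLevel

variable {O : Type} [CommRing O] [IsLocalRing O] {𝕋 : Type} [CommRing 𝕋] [Algebra O 𝕋]
  {M0 : Type} [AddCommGroup M0] [Module O M0] {act0 : 𝕋 →ₐ[O] Module.End O M0}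
  {P0 : Type} [AddCommGroup P0] [Module O P0] {actP0 : 𝕋 →ₐ[O] Module.End O P0}
  {k : ℕ} {N : Fin k → ℕ}

/-- **a morphism of Taylor–Wiles levels** over `f0 : M0 → P0`: `O`-linear, equivariant for the
diamonds and the Hecke action, compatible with the projections to the coinvariants. -/
structure LevelHom (F : FreeLevel O 𝕋 M0 act0 k N) (G : FreeLevel O 𝕋 P0 actP0 k N)
    (f0 : M0 →ₗ[O] P0) where
  /-- the map `M_Q → M'_Q` -/
  f : F.M →ₗ[O] G.M
  f_D : ∀ i x, f (F.D i x) = G.D i (f x)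
  f_act : ∀ t x, f (F.act t x) = G.act t (f x)
  f_π : ∀ x, G.π (f x) = f0 (F.π x)

variable {F : FreeLevel O 𝕋 M0 act0 k N} {G : FreeLevel O 𝕋 P0 actP0 k N} {f0 : M0 →ₗ[O] P0}

/-- **a morphism of levels over a surjective `f0` is surjective** (Nakayama over `O[Δ_Q]`): no
Ihara-type input at the level `Q`. -/
theorem LevelHom.surjective {p : ℕ} (hp : p.Prime) (hpO : (p : O) ∈ maximalIdeal O)
    (hNp : ∀ i, ∃ n : ℕ, N i = p ^ n) (φ : LevelHom F G f0) (hf0 : Function.Surjective f0) :
    Function.Surjective φ.f := by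
  have : Module.Finite O G.M := Module.Finite.of_basis G.basis
  have h := eq_top_of_sup_iSup_range hp hpO hNp G.D G.D_pow G.D_comm (LinearMap.range φ.f)
    (by
      rintro i _ ⟨x, rfl⟩
      exact ⟨F.D i x, φ.f_D i x⟩)
    (by
      intro y
      obtain ⟨m0, hm0⟩ := hf0 (G.π y)
      obtain ⟨m, hm⟩ := F.π_surjective m0
      have h1 : y - φ.f m ∈ ⨆ i, LinearMap.range (G.D i - 1) := by
        refine (G.ker_π _).1 ?_
        rw [map_sub, φ.f_π, hm, hm0, sub_self]
      have h2 : y = φ.f m + (y - φ.f m) := by abel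
      rw [h2]
      exact Submodule.add_mem_sup ⟨m, rfl⟩ h1)
  exact LinearMap.range_eq_top.1 h

/-- classes of the kernel of `f0` lift to the kernel of `φ`. -/
theorem LevelHom.exists_lift_ker {p : ℕ} (hp : p.Prime) (hpO : (p : O) ∈ maximalIdeal O)
    (hNp : ∀ i, ∃ n : ℕ, N i = p ^ n) (φ : LevelHom F G f0) (hf0 : Function.Surjective f0)
    (y0 : M0) (hy0 : f0 y0 = 0) : ∃ m : F.M, φ.f m = 0 ∧ F.π m = y0 := by
  have hsurj := φ.surjective hp hpO hNp hf0
  obtain ⟨m₁, hm₁⟩ := F.π_surjective y0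
  have h1 : φ.f m₁ ∈ ⨆ i, LinearMap.range (G.D i - 1) := by
    refine (G.ker_π _).1 ?_
    rw [φ.f_π, hm₁, hy0]
  have h2 : (⨆ i, LinearMap.range (G.D i - 1)) ≤
      (⨆ i, LinearMap.range (F.D i - 1)).map φ.f := by
    refine iSup_le fun i => ?_
    rintro _ ⟨z, rfl⟩
    obtain ⟨x, rfl⟩ := hsurj z
    refine ⟨(F.D i - 1) x, (le_iSup (fun i => LinearMap.range (F.D i - 1)) i) ⟨x, rfl⟩, ?_⟩
    rw [LinearMap.sub_apply, LinearMap.sub_apply, Module.End.one_apply, Module.End.one_apply,
      map_sub, φ.f_D]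
  obtain ⟨x, hx, hxm⟩ := h2 h1
  refine ⟨m₁ - x, ?_, ?_⟩
  · rw [map_sub, hxm, sub_self]
  · rw [map_sub, hm₁, (F.ker_π x).2 hx, sub_zero]

/-- **the data of the kernel level**: generators `e' j ∈ ker φ` whose monomials are an `O`-basis of
`ker φ` and whose images are an `O`-basis of `ker f0`. -/
structure KerData (φ : LevelHom F G f0) where
  /-- the rank -/
  d : ℕ
  /-- the generators -/
  e : Fin d → F.M
  e_mem : ∀ j, φ.f (e j) = 0
  /-- the monomial basis -/
  basis : Basis ((∀ i : Fin k, Fin (N i)) × Fin d) O (LinearMap.ker φ.f)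
  basis_eq : ∀ a j, ((basis (a, j) : LinearMap.ker φ.f) : F.M) =
    mono F.D (fun i => (a i : ℕ)) (e j)
  /-- the basis of the kernel at the base level -/
  basis0 : Basis (Fin d) O (LinearMap.ker f0)
  basis0_eq : ∀ j, ((basis0 j : LinearMap.ker f0) : M0) = F.π (e j)

/-- **the kernel of a morphism of levels over a surjective `f0` is free over `O[Δ_Q]`, with
coinvariants `ker f0`**, basis form. -/
theorem nonempty_kerData {p : ℕ} (hp : p.Prime) (hpO : (p : O) ∈ maximalIdeal O)
    (hNp : ∀ i, ∃ n : ℕ, N i = p ^ n) (φ : LevelHom F G f0) (hf0 : Function.Surjective f0) :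
    Nonempty (KerData φ) := by
  classical
  have : Module.Finite O M0 := Module.Finite.of_basis F.basis0
  have : Module.Free O M0 := Module.Free.of_basis F.basis0
  have : Module.Free O P0 := Module.Free.of_basis G.basis0
  obtain ⟨hfree, hfinK⟩ := Fermat.Agent.GE8.RaiseP.NewKer.free_ker f0 hf0
  set d' := Module.finrank O (LinearMap.ker f0) with hd'
  let bK0 : Basis (Fin d') O (LinearMap.ker f0) := Module.finBasis O _
  -- a section of `f0`
  choose c hc using fun j => hf0 (G.basis0 j)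
  let σ : P0 →ₗ[O] M0 := G.basis0.constr O c
  have hσ : ∀ y, f0 (σ y) = y := by
    have h1 : f0 ∘ₗ σ = LinearMap.id := G.basis0.ext fun j => by
      rw [LinearMap.comp_apply, Basis.constr_basis, hc, LinearMap.id_apply]
    exact fun y => LinearMap.congr_fun h1 y
  -- `M0 = ker f0 ⊕ σ P0`
  let ψ₀ : (LinearMap.ker f0 × P0) →ₗ[O] M0 := (LinearMap.ker f0).subtype.coprod σ
  have hψ₀ : ∀ x, ψ₀ x = (x.1 : M0) + σ x.2 := fun x => LinearMap.coprod_apply _ _ x
  have hψinj : Function.Injective ψ₀ := by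
    rw [← LinearMap.ker_eq_bot, LinearMap.ker_eq_bot']
    rintro ⟨x, y⟩ hxy
    rw [hψ₀] at hxy
    have h1 := congrArg f0 hxy
    rw [map_add, LinearMap.mem_ker.1 x.2, hσ, zero_add, map_zero] at h1
    have h1' : y = 0 := h1
    subst h1'
    rw [map_zero, add_zero] at hxy
    have h2 : x = 0 := Subtype.ext hxy
    rw [h2]
    rfl
  have hψsurj : Function.Surjective ψ₀ := by
    intro m
    refine ⟨(⟨m - σ (f0 m), ?_⟩, f0 m), ?_⟩
    · rw [LinearMap.mem_ker, map_sub, hσ, sub_self]
    · rw [hψ₀]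
      show m - σ (f0 m) + σ (f0 m) = m
      abel
  let ψ : (LinearMap.ker f0 × P0) ≃ₗ[O] M0 := LinearEquiv.ofBijective ψ₀ ⟨hψinj, hψsurj⟩
  let βM0 : Basis (Fin d' ⊕ Fin G.d) O M0 := (bK0.prod G.basis0).map ψ
  have hβl : ∀ j, βM0 (Sum.inl j) = (bK0 j : M0) := by
    intro j
    show ψ₀ ((bK0.prod G.basis0) (Sum.inl j)) = _
    rw [hψ₀, Basis.prod_apply_inl_fst, Basis.prod_apply_inl_snd, map_zero, add_zero]
  have hβr : ∀ j, βM0 (Sum.inr j) = c j := by
    intro j
    show ψ₀ ((bK0.prod G.basis0) (Sum.inr j)) = _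
    rw [hψ₀, Basis.prod_apply_inr_fst, Basis.prod_apply_inr_snd, Submodule.coe_zero, zero_add]
    exact Basis.constr_basis _ _ _ _
  -- the lifts
  choose et het using fun j : Fin d' =>
    φ.exists_lift_ker hp hpO hNp hf0 (bK0 j : M0) (LinearMap.mem_ker.1 (bK0 j).2)
  choose ct hct using fun j : Fin G.d => F.π_surjective (c j)
  -- the rebased `F`
  obtain ⟨bF', hbF'⟩ := exists_basis_of_lift hp hpO hNp F.D F.D_pow F.D_comm F.basis F.basis0 F.π
    (fun x hx => (F.ker_π x).1 hx) (Sum.elim et ct) βM0 (by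
      rintro (j | j)
      · rw [hβl, Sum.elim_inl, (het j).2]
      · rw [hβr, Sum.elim_inr, hct])
  -- the rebased `G`
  obtain ⟨bG', hbG'⟩ := exists_basis_of_lift hp hpO hNp G.D G.D_pow G.D_comm G.basis G.basis0 G.π
    (fun x hx => (G.ker_π x).1 hx) (fun j => φ.f (ct j)) G.basis0 (by
      intro j
      rw [φ.f_π, hct, hc])
  -- the kernel
  let B₁ : Basis (((∀ i : Fin k, Fin (N i)) × Fin d') ⊕ ((∀ i : Fin k, Fin (N i)) × Fin G.d)) O
      F.M := bF'.reindex (Equiv.prodSumDistrib _ _ _)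
  have hB₁l : ∀ a j, B₁ (Sum.inl (a, j)) = mono F.D (fun i => (a i : ℕ)) (et j) := by
    intro a j
    rw [Basis.reindex_apply, Equiv.prodSumDistrib_symm_apply_left, hbF', Sum.elim_inl]
  have hB₁r : ∀ a j, B₁ (Sum.inr (a, j)) = mono F.D (fun i => (a i : ℕ)) (ct j) := by
    intro a j
    rw [Basis.reindex_apply, Equiv.prodSumDistrib_symm_apply_right, hbF', Sum.elim_inr]
  obtain ⟨B, hB⟩ := exists_basis_ker B₁ bG' φ.f
    (by
      rintro ⟨a, j⟩
      rw [hB₁l, map_mono F.D G.D φ.f φ.f_D, (het j).1, map_zero])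
    (by
      rintro ⟨a, j⟩
      rw [hB₁r, map_mono F.D G.D φ.f φ.f_D, hbG'])
  exact ⟨⟨d', et, fun j => (het j).1, B, fun a j => by rw [hB, hB₁l], bK0,
    fun j => ((het j).2).symm⟩⟩

/-! ### the kernel level -/

section KerLevelDef

variable (φ : LevelHom F G f0)

/-- `ker φ` is stable under the diamonds. -/
theorem LevelHom.D_mem_ker (i : Fin k) : ∀ x ∈ LinearMap.ker φ.f, F.D i x ∈ LinearMap.ker φ.f :=
  fun x hx => by
    rw [LinearMap.mem_ker] at hx ⊢
    rw [φ.f_D, hx, map_zero]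

/-- `ker φ` is stable under the Hecke action. -/
theorem LevelHom.act_mem_ker (t : 𝕋) :
    ∀ x ∈ LinearMap.ker φ.f, F.act t x ∈ LinearMap.ker φ.f := fun x hx => by
  rw [LinearMap.mem_ker] at hx ⊢
  rw [φ.f_act, hx, map_zero]

/-- `π` maps `ker φ` into `ker f0`. -/
theorem LevelHom.π_mem_ker : ∀ x ∈ LinearMap.ker φ.f, F.π x ∈ LinearMap.ker f0 := fun x hx => by
  rw [LinearMap.mem_ker] at hx ⊢
  rw [← φ.f_π, hx, map_zero]

/-- the diamonds of the kernel level. -/
noncomputable def LevelHom.kerD (i : Fin k) : Module.End O (LinearMap.ker φ.f) :=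
  (F.D i).restrict (φ.D_mem_ker i)

/-- the projection of the kernel level. -/
noncomputable def LevelHom.kerπ : LinearMap.ker φ.f →ₗ[O] LinearMap.ker f0 :=
  F.π.restrict φ.π_mem_ker

theorem LevelHom.coe_kerD (i : Fin k) (x : LinearMap.ker φ.f) :
    ((φ.kerD i x : LinearMap.ker φ.f) : F.M) = F.D i x := rfl

theorem LevelHom.coe_kerπ (x : LinearMap.ker φ.f) :
    ((φ.kerπ x : LinearMap.ker f0) : M0) = F.π x := rfl

theorem LevelHom.coe_mono_kerD (a : Fin k → ℕ) (x : LinearMap.ker φ.f) :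
    ((mono φ.kerD a x : LinearMap.ker φ.f) : F.M) = mono F.D a (x : F.M) :=
  map_mono φ.kerD F.D (LinearMap.ker φ.f).subtype (fun _ _ => rfl) a x

theorem LevelHom.kerD_pow (i : Fin k) : φ.kerD i ^ N i = 1 := by
  refine LinearMap.ext fun x => Subtype.ext ?_
  have h1 : ∀ (n : ℕ) (y : LinearMap.ker φ.f),
      (((φ.kerD i ^ n) y : LinearMap.ker φ.f) : F.M) = (F.D i ^ n) (y : F.M) := by
    intro n
    induction n with
    | zero => intro y; rw [pow_zero, pow_zero, Module.End.one_apply, Module.End.one_apply]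
    | succ n ih =>
      intro y
      rw [pow_succ', pow_succ', Module.End.mul_apply, Module.End.mul_apply, φ.coe_kerD, ih]
  rw [h1, F.D_pow, Module.End.one_apply, Module.End.one_apply]

theorem LevelHom.kerD_comm (i j : Fin k) : φ.kerD i * φ.kerD j = φ.kerD j * φ.kerD i := by
  refine LinearMap.ext fun x => Subtype.ext ?_
  rw [Module.End.mul_apply, Module.End.mul_apply, φ.coe_kerD, φ.coe_kerD, φ.coe_kerD, φ.coe_kerD,
    ← Module.End.mul_apply, F.D_comm, Module.End.mul_apply]

/-- the augmentation submodule of the kernel maps into the augmentation submodule of `F.M`. -/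
theorem LevelHom.coe_mem_iSup_range {x : LinearMap.ker φ.f}
    (hx : x ∈ ⨆ i, LinearMap.range (φ.kerD i - 1)) :
    (x : F.M) ∈ ⨆ i, LinearMap.range (F.D i - 1) := by
  refine Submodule.iSup_induction _
    (motive := fun x : LinearMap.ker φ.f => (x : F.M) ∈ ⨆ i, LinearMap.range (F.D i - 1)) hx
    ?_ ?_ ?_
  · rintro i _ ⟨y, rfl⟩
    refine (le_iSup (fun i => LinearMap.range (F.D i - 1)) i) ⟨(y : F.M), ?_⟩
    rw [LinearMap.sub_apply, LinearMap.sub_apply, Module.End.one_apply, Module.End.one_apply,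
      Submodule.coe_sub, φ.coe_kerD]
  · exact Submodule.zero_mem _
  · intro y z hy hz
    rw [Submodule.coe_add]
    exact Submodule.add_mem _ hy hz

variable {φ}

/-- **coinvariants of the kernel level**: `ker (π|_{ker φ}) = ∑ (D i − 1) ker φ`. -/
theorem KerData.ker_kerπ (X : KerData φ) (hN : ∀ i, 0 < N i) (x : LinearMap.ker φ.f) :
    φ.kerπ x = 0 ↔ x ∈ ⨆ i, LinearMap.range (φ.kerD i - 1) := by
  classical
  constructor
  · intro hx
    let e : Fin X.d → LinearMap.ker φ.f := fun j => ⟨X.e j, LinearMap.mem_ker.2 (X.e_mem j)⟩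
    have hb : ∀ a j, X.basis (a, j) = mono φ.kerD (fun i => (a i : ℕ)) (e j) := fun a j =>
      Subtype.ext (by rw [X.basis_eq, φ.coe_mono_kerD])
    set WK : Submodule O (LinearMap.ker φ.f) := ⨆ i, chiRange (φ.kerD i) (1 : O) with hWK
    obtain ⟨b', hb'⟩ : ∃ b' : Basis (Fin X.d) O (LinearMap.ker φ.f ⧸ WK),
        ∀ j, b' j = Submodule.Quotient.mk (e j) :=
      exists_basis_quot hN φ.kerD φ.kerD_pow φ.kerD_comm e X.basis hb
        (fun _ => (1 : O)) (fun _ => one_pow _)
    have hWK' : WK = ⨆ i, LinearMap.range (φ.kerD i - 1) := by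
      rw [hWK]
      refine iSup_congr fun i => ?_
      rw [chiRange_one]
      rfl
    rw [← hWK']
    -- coordinates of the class of `x`
    have h1 : WK.mkQ x = WK.mkQ (∑ j, b'.repr (WK.mkQ x) j • e j) := by
      rw [map_sum]
      simp_rw [map_smul, Submodule.mkQ_apply, ← hb']
      exact (b'.sum_repr _).symm
    have h2 : x - ∑ j, b'.repr (WK.mkQ x) j • e j ∈ WK := by
      rw [← Submodule.Quotient.mk_eq_zero, Submodule.Quotient.mk_sub, sub_eq_zero]
      exact h1
    have h3 : φ.kerπ (x - ∑ j, b'.repr (WK.mkQ x) j • e j) = 0 := by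
      refine Subtype.ext ?_
      rw [φ.coe_kerπ, Submodule.coe_zero]
      exact (F.ker_π _).2 (φ.coe_mem_iSup_range (hWK' ▸ h2))
    have h4 : ∑ j, b'.repr (WK.mkQ x) j • X.basis0 j = 0 := by
      rw [map_sub, hx, zero_sub, neg_eq_zero, map_sum] at h3
      simp_rw [map_smul] at h3
      have h5 : ∀ j, φ.kerπ (e j) = X.basis0 j := fun j =>
        Subtype.ext (by rw [φ.coe_kerπ, X.basis0_eq])
      simp_rw [h5] at h3
      exact h3
    have h6 : ∀ j, b'.repr (WK.mkQ x) j = 0 :=
      Fintype.linearIndependent_iff.1 X.basis0.linearIndependent _ h4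
    have h7 : x = x - ∑ j, b'.repr (WK.mkQ x) j • e j := by
      simp_rw [h6, zero_smul]
      rw [Finset.sum_const_zero, sub_zero]
    rw [h7]
    exact h2
  · intro hx
    refine Subtype.ext ?_
    rw [φ.coe_kerπ, Submodule.coe_zero]
    exact (F.ker_π _).2 (φ.coe_mem_iSup_range hx)

/-- **the kernel level** from its data. -/
noncomputable def KerData.level (X : KerData φ) (hN : ∀ i, 0 < N i)
    (hf0act : ∀ t x, f0 (act0 t x) = actP0 t (f0 x)) :
    FreeLevel O 𝕋 (LinearMap.ker f0)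
      (restrictAct act0 (LinearMap.ker f0) (fun t x hx => by
        rw [LinearMap.mem_ker] at hx ⊢
        rw [hf0act, hx, map_zero])) k N where
  M := LinearMap.ker φ.f
  act := restrictAct F.act (LinearMap.ker φ.f) φ.act_mem_ker
  D := φ.kerD
  D_pow := φ.kerD_pow
  D_comm := φ.kerD_comm
  act_D := fun t i => by
    refine LinearMap.ext fun x => Subtype.ext ?_
    rw [Module.End.mul_apply, Module.End.mul_apply, coe_restrictAct, φ.coe_kerD, φ.coe_kerD,
      coe_restrictAct, ← Module.End.mul_apply, F.act_D, Module.End.mul_apply]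
  d := X.d
  e := fun j => ⟨X.e j, LinearMap.mem_ker.2 (X.e_mem j)⟩
  basis := X.basis
  basis_eq := fun a j => Subtype.ext (by rw [X.basis_eq, φ.coe_mono_kerD])
  π := φ.kerπ
  π_surjective := by
    intro y
    refine ⟨∑ j, X.basis0.repr y j • ⟨X.e j, LinearMap.mem_ker.2 (X.e_mem j)⟩, ?_⟩
    rw [map_sum]
    simp_rw [map_smul]
    have h5 : ∀ j, φ.kerπ ⟨X.e j, LinearMap.mem_ker.2 (X.e_mem j)⟩ = X.basis0 j := fun j =>
      Subtype.ext (by rw [φ.coe_kerπ, X.basis0_eq])
    simp_rw [h5]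
    exact X.basis0.sum_repr y
  ker_π := X.ker_kerπ hN
  π_act := fun t x => Subtype.ext (by
    rw [φ.coe_kerπ, coe_restrictAct, coe_restrictAct, φ.coe_kerπ, F.π_act])
  basis0 := X.basis0
  basis0_eq := fun j => Subtype.ext (by rw [X.basis0_eq, φ.coe_kerπ])

/-- **THE `p`-NEW LEVEL**: the kernel of a morphism of Taylor–Wiles levels over a surjective
`f0 : M0 → P0` is a Taylor–Wiles level over `ker f0` (`O` local, `p ∈ 𝔪_O`, diamonds of `p`-power
order).  `(kerLevel …).M = ker φ.f`, with the restricted diamonds, Hecke action and projection. -/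
noncomputable def kerLevel {p : ℕ} (hp : p.Prime) (hpO : (p : O) ∈ maximalIdeal O)
    (hNp : ∀ i, ∃ n : ℕ, N i = p ^ n) (φ : LevelHom F G f0) (hf0 : Function.Surjective f0)
    (hf0act : ∀ t x, f0 (act0 t x) = actP0 t (f0 x)) :
    FreeLevel O 𝕋 (LinearMap.ker f0)
      (restrictAct act0 (LinearMap.ker f0) (fun t x hx => by
        rw [LinearMap.mem_ker] at hx ⊢
        rw [hf0act, hx, map_zero])) k N :=
  (Classical.choice (nonempty_kerData hp hpO hNp φ hf0)).level
    (fun i => by
      obtain ⟨n, hn⟩ := hNp i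
      rw [hn]; exact pow_pos hp.pos n) hf0act

section API

variable {p : ℕ} (hp : p.Prime) (hpO : (p : O) ∈ maximalIdeal O)
  (hNp : ∀ i, ∃ n : ℕ, N i = p ^ n) (φ : LevelHom F G f0) (hf0 : Function.Surjective f0)
  (hf0act : ∀ t x, f0 (act0 t x) = actP0 t (f0 x))

/-- the module of the kernel level IS `ker φ`. -/
theorem kerLevel_M : (kerLevel hp hpO hNp φ hf0 hf0act).M = LinearMap.ker φ.f := rfl

theorem kerLevel_act (t : 𝕋) (x : LinearMap.ker φ.f) :
    (LinearMap.ker φ.f).subtype ((kerLevel hp hpO hNp φ hf0 hf0act).act t x) = F.act t x := rfl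

theorem kerLevel_D (i : Fin k) (x : LinearMap.ker φ.f) :
    (LinearMap.ker φ.f).subtype ((kerLevel hp hpO hNp φ hf0 hf0act).D i x) = F.D i x := rfl

theorem kerLevel_π (x : LinearMap.ker φ.f) :
    (((kerLevel hp hpO hNp φ hf0 hf0act).π x : LinearMap.ker f0) : M0) = F.π x := rfl

/-- the rank is additive: `rank F = rank (ker) + rank G`. -/
theorem kerLevel_d_add : (kerLevel hp hpO hNp φ hf0 hf0act).d + G.d = F.d := by
  have : Module.Finite O M0 := Module.Finite.of_basis F.basis0
  have : Module.Free O M0 := Module.Free.of_basis F.basis0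
  have : Module.Finite O P0 := Module.Finite.of_basis G.basis0
  have : Module.Free O P0 := Module.Free.of_basis G.basis0
  have h1 := Fermat.Agent.GE8.RaiseP.NewKer.finrank_add f0 hf0
  rw [Module.finrank_eq_card_basis F.basis0, Module.finrank_eq_card_basis G.basis0,
    Module.finrank_eq_card_basis (kerLevel hp hpO hNp φ hf0 hf0act).basis0, Fintype.card_fin,
    Fintype.card_fin, Fintype.card_fin] at h1
  exact h1.symm

end API

end KerLevelDef

end KerLevel

/-! ### the product of two levels -/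

section ProdLevel

variable {O : Type} [CommRing O] {𝕋 : Type} [CommRing 𝕋] [Algebra O 𝕋]
  {P₁ : Type} [AddCommGroup P₁] [Module O P₁] {act₁ : 𝕋 →ₐ[O] Module.End O P₁}
  {P₂ : Type} [AddCommGroup P₂] [Module O P₂] {act₂ : 𝕋 →ₐ[O] Module.End O P₂}
  {k : ℕ} {N : Fin k → ℕ}

/-- the product action. -/
noncomputable def prodAct {M₁ M₂ : Type*} [AddCommGroup M₁] [Module O M₁] [AddCommGroup M₂]
    [Module O M₂] (a₁ : 𝕋 →ₐ[O] Module.End O M₁) (a₂ : 𝕋 →ₐ[O] Module.End O M₂) :
    𝕋 →ₐ[O] Module.End O (M₁ × M₂) :=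
  (LinearMap.prodMapAlgHom O M₁ M₂).comp (a₁.prod a₂)

theorem prodAct_apply {M₁ M₂ : Type*} [AddCommGroup M₁] [Module O M₁] [AddCommGroup M₂]
    [Module O M₂] (a₁ : 𝕋 →ₐ[O] Module.End O M₁) (a₂ : 𝕋 →ₐ[O] Module.End O M₂) (t : 𝕋)
    (z : M₁ × M₂) : prodAct a₁ a₂ t z = (a₁ t z.1, a₂ t z.2) := rfl

variable (G₁ : FreeLevel O 𝕋 P₁ act₁ k N) (G₂ : FreeLevel O 𝕋 P₂ act₂ k N)

/-- the diamonds of the product level. -/
noncomputable def prodD (i : Fin k) : Module.End O (G₁.M × G₂.M) :=
  LinearMap.prodMapAlgHom O G₁.M G₂.M (G₁.D i, G₂.D i)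

theorem prodD_apply (i : Fin k) (z : G₁.M × G₂.M) :
    prodD G₁ G₂ i z = (G₁.D i z.1, G₂.D i z.2) := rfl

theorem mono_prodD (a : Fin k → ℕ) (z : G₁.M × G₂.M) :
    mono (prodD G₁ G₂) a z = (mono G₁.D a z.1, mono G₂.D a z.2) := by
  refine Prod.ext ?_ ?_
  · exact map_mono (prodD G₁ G₂) G₁.D (LinearMap.fst O G₁.M G₂.M) (fun _ _ => rfl) a z
  · exact map_mono (prodD G₁ G₂) G₂.D (LinearMap.snd O G₁.M G₂.M) (fun _ _ => rfl) a z

/-- **the product of two Taylor–Wiles levels** (same diamonds data). -/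
noncomputable def prodLevel : FreeLevel O 𝕋 (P₁ × P₂) (prodAct act₁ act₂) k N where
  M := G₁.M × G₂.M
  act := prodAct G₁.act G₂.act
  D := prodD G₁ G₂
  D_pow := fun i => by
    show (LinearMap.prodMapAlgHom O G₁.M G₂.M (G₁.D i, G₂.D i)) ^ N i = 1
    rw [← map_pow, Prod.pow_mk, G₁.D_pow, G₂.D_pow]
    exact map_one _
  D_comm := fun i j => by
    show (LinearMap.prodMapAlgHom O G₁.M G₂.M (G₁.D i, G₂.D i)) *
        (LinearMap.prodMapAlgHom O G₁.M G₂.M (G₁.D j, G₂.D j)) =
      (LinearMap.prodMapAlgHom O G₁.M G₂.M (G₁.D j, G₂.D j)) *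
        (LinearMap.prodMapAlgHom O G₁.M G₂.M (G₁.D i, G₂.D i))
    rw [← map_mul, ← map_mul, Prod.mk_mul_mk, Prod.mk_mul_mk, G₁.D_comm, G₂.D_comm]
  act_D := fun t i => by
    refine LinearMap.ext fun z => ?_
    rw [Module.End.mul_apply, Module.End.mul_apply, prodAct_apply, prodD_apply, prodD_apply,
      prodAct_apply]
    refine Prod.ext ?_ ?_
    · show G₁.act t (G₁.D i z.1) = G₁.D i (G₁.act t z.1)
      rw [← Module.End.mul_apply, G₁.act_D, Module.End.mul_apply]
    · show G₂.act t (G₂.D i z.2) = G₂.D i (G₂.act t z.2)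
      rw [← Module.End.mul_apply, G₂.act_D, Module.End.mul_apply]
  d := G₁.d + G₂.d
  e := fun j => Sum.elim (fun j₁ => ((G₁.e j₁, 0) : G₁.M × G₂.M)) (fun j₂ => (0, G₂.e j₂))
    (finSumFinEquiv.symm j)
  basis := (G₁.basis.prod G₂.basis).reindex
    ((Equiv.prodSumDistrib _ _ _).symm.trans (Equiv.prodCongr (Equiv.refl _) finSumFinEquiv))
  basis_eq := fun a j => by
    rw [Basis.reindex_apply, mono_prodD]
    obtain ⟨s, rfl⟩ := finSumFinEquiv.surjective j
    rw [Equiv.symm_apply_apply]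
    have h0 : ((Equiv.prodSumDistrib (∀ i : Fin k, Fin (N i)) (Fin G₁.d) (Fin G₂.d)).symm.trans
        (Equiv.prodCongr (Equiv.refl _) finSumFinEquiv)).symm (a, finSumFinEquiv s) =
        Equiv.prodSumDistrib _ _ _ (a, s) := by
      rw [Equiv.symm_trans_apply, Equiv.symm_symm, Equiv.prodCongr_symm, Equiv.prodCongr_apply]
      simp
    rw [h0]
    rcases s with j₁ | j₂
    · rw [Equiv.prodSumDistrib_apply_left, Sum.elim_inl]
      refine Prod.ext ?_ ?_
      · rw [Basis.prod_apply_inl_fst, G₁.basis_eq]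
      · rw [Basis.prod_apply_inl_snd]
        exact (map_zero _).symm
    · rw [Equiv.prodSumDistrib_apply_right, Sum.elim_inr]
      refine Prod.ext ?_ ?_
      · rw [Basis.prod_apply_inr_fst]
        exact (map_zero _).symm
      · rw [Basis.prod_apply_inr_snd, G₂.basis_eq]
  π := G₁.π.prodMap G₂.π
  π_surjective := fun y => by
    obtain ⟨x₁, h₁⟩ := G₁.π_surjective y.1
    obtain ⟨x₂, h₂⟩ := G₂.π_surjective y.2
    exact ⟨(x₁, x₂), Prod.ext h₁ h₂⟩
  ker_π := fun z => by
    constructor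
    · intro hz
      have h1 : G₁.π z.1 = 0 := congrArg Prod.fst hz
      have h2 : G₂.π z.2 = 0 := congrArg Prod.snd hz
      have hl : (⨆ i, LinearMap.range (G₁.D i - 1)).map (LinearMap.inl O G₁.M G₂.M) ≤
          ⨆ i, LinearMap.range (prodD G₁ G₂ i - 1) := by
        rw [Submodule.map_iSup]
        refine iSup_le fun i => ?_
        rintro _ ⟨_, ⟨x, rfl⟩, rfl⟩
        refine (le_iSup (fun i => LinearMap.range (prodD G₁ G₂ i - 1)) i) ⟨(x, 0), ?_⟩
        rw [LinearMap.sub_apply, Module.End.one_apply, prodD_apply]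
        refine Prod.ext ?_ ?_
        · simp [LinearMap.sub_apply]
        · simp
      have hr : (⨆ i, LinearMap.range (G₂.D i - 1)).map (LinearMap.inr O G₁.M G₂.M) ≤
          ⨆ i, LinearMap.range (prodD G₁ G₂ i - 1) := by
        rw [Submodule.map_iSup]
        refine iSup_le fun i => ?_
        rintro _ ⟨_, ⟨x, rfl⟩, rfl⟩
        refine (le_iSup (fun i => LinearMap.range (prodD G₁ G₂ i - 1)) i) ⟨(0, x), ?_⟩
        rw [LinearMap.sub_apply, Module.End.one_apply, prodD_apply]
        refine Prod.ext ?_ ?_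
        · simp
        · simp [LinearMap.sub_apply]
      have h3 : z = LinearMap.inl O G₁.M G₂.M z.1 + LinearMap.inr O G₁.M G₂.M z.2 := by
        refine Prod.ext ?_ ?_ <;> simp
      rw [h3]
      exact Submodule.add_mem _ (hl ⟨z.1, (G₁.ker_π _).1 h1, rfl⟩)
        (hr ⟨z.2, (G₂.ker_π _).1 h2, rfl⟩)
    · intro hz
      refine Submodule.iSup_induction _
        (motive := fun z : G₁.M × G₂.M => (G₁.π.prodMap G₂.π) z = 0) hz ?_ ?_ ?_
      · rintro i _ ⟨x, rfl⟩
        rw [LinearMap.sub_apply, Module.End.one_apply, prodD_apply]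
        refine Prod.ext ?_ ?_
        · show G₁.π (G₁.D i x.1 - x.1) = 0
          exact (G₁.ker_π _).2 ((le_iSup (fun i => LinearMap.range (G₁.D i - 1)) i) ⟨x.1, by
            rw [LinearMap.sub_apply, Module.End.one_apply]⟩)
        · show G₂.π (G₂.D i x.2 - x.2) = 0
          exact (G₂.ker_π _).2 ((le_iSup (fun i => LinearMap.range (G₂.D i - 1)) i) ⟨x.2, by
            rw [LinearMap.sub_apply, Module.End.one_apply]⟩)
      · exact map_zero _
      · intro y z hy hz
        rw [map_add, hy, hz, add_zero]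
  π_act := fun t z => Prod.ext (G₁.π_act t z.1) (G₂.π_act t z.2)
  basis0 := (G₁.basis0.prod G₂.basis0).reindex finSumFinEquiv
  basis0_eq := fun j => by
    rw [Basis.reindex_apply]
    rcases h : finSumFinEquiv.symm j with j₁ | j₂
    · rw [Sum.elim_inl]
      refine Prod.ext ?_ ?_
      · rw [Basis.prod_apply_inl_fst, G₁.basis0_eq]; rfl
      · rw [Basis.prod_apply_inl_snd]
        exact (map_zero G₂.π).symm
    · rw [Sum.elim_inr]
      refine Prod.ext ?_ ?_
      · rw [Basis.prod_apply_inr_fst]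
        exact (map_zero G₁.π).symm
      · rw [Basis.prod_apply_inr_snd, G₂.basis0_eq]; rfl

/-- a pair of morphisms into `G₁`, `G₂` is a morphism into the product level. -/
noncomputable def LevelHom.prod {M0 : Type} [AddCommGroup M0] [Module O M0]
    {act0 : 𝕋 →ₐ[O] Module.End O M0} {F : FreeLevel O 𝕋 M0 act0 k N} {f₁ : M0 →ₗ[O] P₁}
    {f₂ : M0 →ₗ[O] P₂} (φ₁ : LevelHom F G₁ f₁) (φ₂ : LevelHom F G₂ f₂) :
    LevelHom F (prodLevel G₁ G₂) (f₁.prod f₂) where
  f := φ₁.f.prod φ₂.f
  f_D := fun i x => Prod.ext (φ₁.f_D i x) (φ₂.f_D i x)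
  f_act := fun t x => Prod.ext (φ₁.f_act t x) (φ₂.f_act t x)
  f_π := fun x => Prod.ext (φ₁.f_π x) (φ₂.f_π x)

end ProdLevel

end Fermat.Agent.GE8.RaiseP.NewLevel
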