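/-
GATE-E / RISK-4 PNEW-STAGE, leaf R4-G (helper55; claims row GE8-PNEW-R4G-BASEB):
**BASE (b) = E6-SO(b): the minimal `R = T` for the `p`-NEW part, hypothesis form.**

Case (b) of E8.5 (ii): `W` multiplicative at `p`, `ρ̄` flat at `p`.  The strict-ordinary Hecke ring
`T^new_∅` acts on the `p`-NEW base module

  `K_∅ = ker (f₁, f₂)`,   `(f₁, f₂) = (cores, coresD) : M_∅(N'p) → M_∅(N')²`,

and the Taylor–Wiles levels of `K_∅` are the KERNEL levels of helper80's `NewLevel.kerLevel`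
applied to helper15's pair of morphisms of levels (`P2/Pair.exists_levelHom_pair`: ONE lower level
`G`, two morphisms `φα : LevelHom F G f₁`, `φβ : LevelHom F G f₂`) over the surjective base map
`(f₁, f₂)` (helper46's dual Ihara at `p`, BASE level only).

Contents (everything in the vocabulary of `GE6/Inst` — helper12's `ModSideData`/`ModSideStmt`):

* `levelHom_f0_act` : the base map of a morphism of levels is Hecke-equivariant (so the binder
  `hf0act` of `kerLevel` is automatic);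
* `newLevel` : the `p`-new level `kerLevel (pairHom φα φβ)` over `ker (f₁.prod f₂)`, with its API
  (`newLevel_M` (`rfl`), `mem_newLevel_iff`, `coe_newLevel_D/act/π`);
* `restrictEnd`, `newTw`, `newTw_D` : a ring action `twP` on the big level whose operators
  intertwine with `φα`, `φβ` restricts to the new level, and still commutes with the diamonds;
* `modSideDataOfHom` : the `ModSideData` twin of `UnitInst.twDepthEOfHom` (ANY `FreeLevel`);
* `NewSide` : the module side of the `p`-new part at ONE Taylor–Wiles set, hypothesis form: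
  the pair of morphisms, the Hecke ring `T` of the new level with its action `a`, the classifying
  map `f : R_Q → T`, (UNIT) and semilinearity ON THE NEW LEVEL;  `NewSide.modSideData`;
* `NewSideStmt`, `modSideStmt_of_newSideStmt` : the supply for every Taylor–Wiles set gives
  helper12's `ModSideStmt … (condSO 𝒪 p Smin) D0 φ0 (ker (f₁.prod f₂))`;
* `twLevelsEStmt_newBase`, `minRT_newBase`, `exists_rtData_newBase` : hence `R^SO_∅ ≅ T^new_∅`,
  `K_∅` free over `T^new_∅`, complete-intersection presentation, and the engine record `RTData`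
  (the base of the case-(b) induction: `wf ∅ = #Ω(K_∅)`).
-/
import Fermat.Agent.GE8.RaiseP.NewLevel
import Fermat.Agent.GE6.Inst.ModSide
import Fermat.Agent.GE6.Inst.UnitInst

set_option autoImplicit false
set_option linter.unusedSectionVars false
set_option linter.unusedVariables false
set_option linter.style.haveILetI false

namespace Fermat.Agent.GE8.RaiseP.BaseB

open Module IsLocalRing Function Polynomial GaloisRep
open Fermat.Agent.GB.B3.TWLevel Fermat.Agent.GE8.RaiseP.NewLevel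
open Fermat.Agent.GE6.Inst.LevelE Fermat.Agent.GE6.Inst.AssemblyE Fermat.Agent.GE6.Inst.ModSide
open Fermat.Agent.GE6.Inst.UnitInst Fermat.Agent.GE.Graph
open Fermat.Agent.GE2.DeltaQData Fermat.Agent.GB.E2.TameGenAdic

/-- `ℚ̄`. -/
local notation "Qb" => AlgebraicClosure ℚ
/-- `G_ℚ`. -/
local notation "GQ" => (AlgebraicClosure ℚ ≃ₐ[ℚ] AlgebraicClosure ℚ)

/-! ### the base map of a morphism of levels is equivariant -/

section Equivariant

variable {O : Type} [CommRing O] {𝕋 : Type} [CommRing 𝕋] [Algebra O 𝕋]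
  {M0 : Type} [AddCommGroup M0] [Module O M0] {act0 : 𝕋 →ₐ[O] Module.End O M0}
  {P0 : Type} [AddCommGroup P0] [Module O P0] {actP0 : 𝕋 →ₐ[O] Module.End O P0}
  {k : ℕ} {N : Fin k → ℕ}
  {F : FreeLevel O 𝕋 M0 act0 k N} {G : FreeLevel O 𝕋 P0 actP0 k N} {f0 : M0 →ₗ[O] P0}

/-- **the base map of a morphism of Taylor–Wiles levels is Hecke-equivariant** (`F.π` is onto and
everything else is equivariant): the binder `hf0act` of `NewLevel.kerLevel` is automatic. -/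
theorem levelHom_f0_act (φ : LevelHom F G f0) (t : 𝕋) (x : M0) :
    f0 (act0 t x) = actP0 t (f0 x) := by
  obtain ⟨m, rfl⟩ := F.π_surjective x
  rw [← F.π_act, ← φ.f_π, φ.f_act, G.π_act, φ.f_π]

end Equivariant

/-! ### the `p`-new level of a pair of morphisms of levels -/

section NewLevel

variable {O : Type} [CommRing O] [IsLocalRing O] {𝕋 : Type} [CommRing 𝕋] [Algebra O 𝕋]
  {M0 : Type} [AddCommGroup M0] [Module O M0] {act0 : 𝕋 →ₐ[O] Module.End O M0}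
  {P₁ : Type} [AddCommGroup P₁] [Module O P₁] {act₁ : 𝕋 →ₐ[O] Module.End O P₁}
  {P₂ : Type} [AddCommGroup P₂] [Module O P₂] {act₂ : 𝕋 →ₐ[O] Module.End O P₂}
  {k : ℕ} {N : Fin k → ℕ}
  {F : FreeLevel O 𝕋 M0 act0 k N} {G₁ : FreeLevel O 𝕋 P₁ act₁ k N}
  {G₂ : FreeLevel O 𝕋 P₂ act₂ k N} {f₁ : M0 →ₗ[O] P₁} {f₂ : M0 →ₗ[O] P₂}

/-- the pair `(φα, φβ)` as ONE morphism into the product level (`NewLevel.LevelHom.prod` with the
two lower levels implicit). -/
noncomputable abbrev pairHom (φα : LevelHom F G₁ f₁) (φβ : LevelHom F G₂ f₂) :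
    LevelHom F (prodLevel G₁ G₂) (f₁.prod f₂) :=
  LevelHom.prod G₁ G₂ φα φβ

/-- the kernel of the base map `(f₁, f₂)` is stable under the Hecke symbols. -/
theorem act_mem_ker_prod (φα : LevelHom F G₁ f₁) (φβ : LevelHom F G₂ f₂) (t : 𝕋) :
    ∀ x ∈ LinearMap.ker (f₁.prod f₂), act0 t x ∈ LinearMap.ker (f₁.prod f₂) := by
  intro x hx
  rw [LinearMap.mem_ker] at hx ⊢
  rw [levelHom_f0_act (pairHom φα φβ), hx, map_zero]

/-- the Hecke symbols on the `p`-new base module `ker (f₁, f₂)`. -/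
noncomputable def newAct0 (φα : LevelHom F G₁ f₁) (φβ : LevelHom F G₂ f₂) :
    𝕋 →ₐ[O] Module.End O (LinearMap.ker (f₁.prod f₂)) :=
  restrictAct act0 (LinearMap.ker (f₁.prod f₂)) (act_mem_ker_prod φα φβ)

variable {p : ℕ} (hp : p.Prime) (hpO : (p : O) ∈ maximalIdeal O)
  (hNp : ∀ i, ∃ n : ℕ, N i = p ^ n) (φα : LevelHom F G₁ f₁) (φβ : LevelHom F G₂ f₂)
  (hf0 : Surjective (f₁.prod f₂))

/-- **THE `p`-NEW LEVEL of a pair of degeneracy morphisms** `φα = cores`, `φβ = coresD`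
(`NewLevel.kerLevel` of `φα.prod φβ`): a Taylor–Wiles level over `ker (f₁, f₂)`. -/
noncomputable def newLevel :
    FreeLevel O 𝕋 (LinearMap.ker (f₁.prod f₂)) (newAct0 φα φβ) k N :=
  kerLevel hp hpO hNp (pairHom φα φβ) hf0 (fun t x => levelHom_f0_act (pairHom φα φβ) t x)

/-- the module of the new level IS the common kernel of `φα`, `φβ`. -/
theorem newLevel_M :
    (newLevel hp hpO hNp φα φβ hf0).M = LinearMap.ker (pairHom φα φβ).f := rfl

theorem mem_ker_prod_iff (x : F.M) :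
    x ∈ LinearMap.ker (pairHom φα φβ).f ↔ φα.f x = 0 ∧ φβ.f x = 0 := by
  rw [LinearMap.mem_ker]
  show (φα.f x, φβ.f x) = 0 ↔ _
  rw [Prod.mk_eq_zero]

theorem coe_newLevel_D (i : Fin k) (x : LinearMap.ker (pairHom φα φβ).f) :
    (LinearMap.ker (pairHom φα φβ).f).subtype ((newLevel hp hpO hNp φα φβ hf0).D i x)
      = F.D i x := rfl

theorem coe_newLevel_act (t : 𝕋) (x : LinearMap.ker (pairHom φα φβ).f) :
    (LinearMap.ker (pairHom φα φβ).f).subtype ((newLevel hp hpO hNp φα φβ hf0).act t x)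
      = F.act t x := rfl

theorem coe_newLevel_π (x : LinearMap.ker (pairHom φα φβ).f) :
    (((newLevel hp hpO hNp φα φβ hf0).π x : LinearMap.ker (f₁.prod f₂)) : M0) = F.π x := rfl

/-- ranks: `rank F = rank (new level) + rank G₁ + rank G₂`. -/
theorem newLevel_d_add :
    (newLevel hp hpO hNp φα φβ hf0).d + (prodLevel G₁ G₂).d = F.d :=
  kerLevel_d_add hp hpO hNp (pairHom φα φβ) hf0 _

end NewLevel

/-! ### restriction of a ring action on the big level to the new level -/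

section Restrict

variable {O : Type} [CommRing O] {A : Type} [CommRing A]
  {M M₁ M₂ : Type} [AddCommGroup M] [Module O M] [AddCommGroup M₁] [Module O M₁]
  [AddCommGroup M₂] [Module O M₂]

/-- the restriction of a ring action `tw : A →+* End_O M` to a stable submodule. -/
noncomputable def restrictEnd (tw : A →+* Module.End O M) (K : Submodule O M)
    (hK : ∀ (t : A), ∀ x ∈ K, tw t x ∈ K) : A →+* Module.End O K where
  toFun t := (tw t).restrict (hK t)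
  map_one' := by
    refine LinearMap.ext fun x => Subtype.ext ?_
    rw [LinearMap.coe_restrict_apply, map_one]
    rfl
  map_mul' t t' := by
    refine LinearMap.ext fun x => Subtype.ext ?_
    rw [LinearMap.coe_restrict_apply, map_mul]
    rfl
  map_zero' := by
    refine LinearMap.ext fun x => Subtype.ext ?_
    rw [LinearMap.coe_restrict_apply, map_zero]
    rfl
  map_add' t t' := by
    refine LinearMap.ext fun x => Subtype.ext ?_
    rw [LinearMap.coe_restrict_apply, map_add]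
    rfl

@[simp] theorem coe_restrictEnd (tw : A →+* Module.End O M) (K : Submodule O M)
    (hK : ∀ (t : A), ∀ x ∈ K, tw t x ∈ K) (t : A) (x : K) :
    ((restrictEnd tw K hK t x : K) : M) = tw t (x : M) := rfl

/-- a ring action intertwined by `(g₁, g₂)` with actions on the two targets preserves the common
kernel. -/
theorem tw_mem_ker_prod (tw : A →+* Module.End O M) (tw₁ : A →+* Module.End O M₁)
    (tw₂ : A →+* Module.End O M₂) (g₁ : M →ₗ[O] M₁) (g₂ : M →ₗ[O] M₂)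
    (h₁ : ∀ t x, g₁ (tw t x) = tw₁ t (g₁ x)) (h₂ : ∀ t x, g₂ (tw t x) = tw₂ t (g₂ x)) (t : A) :
    ∀ x ∈ LinearMap.ker (g₁.prod g₂), tw t x ∈ LinearMap.ker (g₁.prod g₂) := by
  intro x hx
  rw [LinearMap.mem_ker] at hx ⊢
  have hx' : (g₁ x, g₂ x) = 0 := hx
  rw [Prod.mk_eq_zero] at hx'
  show (g₁ (tw t x), g₂ (tw t x)) = 0
  rw [h₁, h₂, hx'.1, hx'.2, map_zero, map_zero]
  rfl

end Restrict

section NewTw

variable {O : Type} [CommRing O] [IsLocalRing O] {𝕋 : Type} [CommRing 𝕋] [Algebra O 𝕋]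
  {M0 : Type} [AddCommGroup M0] [Module O M0] {act0 : 𝕋 →ₐ[O] Module.End O M0}
  {P₁ : Type} [AddCommGroup P₁] [Module O P₁] {act₁ : 𝕋 →ₐ[O] Module.End O P₁}
  {P₂ : Type} [AddCommGroup P₂] [Module O P₂] {act₂ : 𝕋 →ₐ[O] Module.End O P₂}
  {k : ℕ} {N : Fin k → ℕ}
  {F : FreeLevel O 𝕋 M0 act0 k N} {G₁ : FreeLevel O 𝕋 P₁ act₁ k N}
  {G₂ : FreeLevel O 𝕋 P₂ act₂ k N} {f₁ : M0 →ₗ[O] P₁} {f₂ : M0 →ₗ[O] P₂}
  {p : ℕ} (hp : p.Prime) (hpO : (p : O) ∈ maximalIdeal O)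
  (hNp : ∀ i, ∃ n : ℕ, N i = p ^ n) (φα : LevelHom F G₁ f₁) (φβ : LevelHom F G₂ f₂)
  (hf0 : Surjective (f₁.prod f₂))
  {A : Type} [CommRing A] (twP : A →+* Module.End O F.M)
  (tw₁ : A →+* Module.End O G₁.M) (tw₂ : A →+* Module.End O G₂.M)
  (h₁ : ∀ t x, φα.f (twP t x) = tw₁ t (φα.f x)) (h₂ : ∀ t x, φβ.f (twP t x) = tw₂ t (φβ.f x))

/-- **the (twisted) Hecke action on the `p`-new level**: the restriction of an action `twP` on the
big level which the two degeneracy morphisms intertwine with actions on the lower levels. -/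
noncomputable def newTw : A →+* Module.End O (newLevel hp hpO hNp φα φβ hf0).M :=
  restrictEnd twP (LinearMap.ker (pairHom φα φβ).f)
    (tw_mem_ker_prod twP tw₁ tw₂ φα.f φβ.f h₁ h₂)

theorem coe_newTw (t : A) (x : LinearMap.ker (pairHom φα φβ).f) :
    (LinearMap.ker (pairHom φα φβ).f).subtype (newTw hp hpO hNp φα φβ hf0 twP tw₁ tw₂ h₁ h₂ t x)
      = twP t x := rfl

/-- the restricted action still commutes with the diamonds. -/
theorem newTw_D (hcomm : ∀ t i, twP t * F.D i = F.D i * twP t) (t : A) (i : Fin k) :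
    newTw hp hpO hNp φα φβ hf0 twP tw₁ tw₂ h₁ h₂ t * (newLevel hp hpO hNp φα φβ hf0).D i
      = (newLevel hp hpO hNp φα φβ hf0).D i * newTw hp hpO hNp φα φβ hf0 twP tw₁ tw₂ h₁ h₂ t := by
  refine LinearMap.ext fun x => ?_
  have hx : ∀ y : LinearMap.ker (pairHom φα φβ).f, ∀ z : LinearMap.ker (pairHom φα φβ).f,
      (LinearMap.ker (pairHom φα φβ).f).subtype y = (LinearMap.ker (pairHom φα φβ).f).subtype z →
      y = z := fun y z h => Subtype.ext h
  refine hx _ _ ?_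
  exact LinearMap.congr_fun (hcomm t i) ((LinearMap.ker (pairHom φα φβ).f).subtype x)

end NewTw

/-! ### `ModSideData` from a level, a Hecke ring and a classifying map -/

section OfHom

variable {𝒪 : Type} [CommRing 𝒪] {p r : ℕ} {E : Fin r → ℕ}
  {𝕋 : Type} [CommRing 𝕋] [Algebra 𝒪 𝕋]
  {R : Type} [CommRing R] [Algebra 𝒪 R]
  {M0 : Type} [AddCommGroup M0] [Module 𝒪 M0] [Module R M0]
  {act0 : 𝕋 →ₐ[𝒪] Module.End 𝒪 M0}
  {RQ : Type} [CommRing RQ] [Algebra 𝒪 RQ] {g : Fin r → RQ} {β : RQ →ₐ[𝒪] R}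

/-- **the `ModSideData` twin of `UnitInst.twDepthEOfHom`**: ANY `FreeLevel` `F` (e.g. `newLevel`),
a Hecke ring `T` acting through `a`, a classifying map `f : R_Q → T`, (UNIT) over `T` for
`x j = f (g j)` and `F.π (a (f y) m) = β y • F.π m`. -/
noncomputable def modSideDataOfHom (F : FreeLevel 𝒪 𝕋 M0 act0 r (fun j => p ^ E j))
    {T : Type} [CommRing T] [Algebra 𝒪 T] (a : T →ₐ[𝒪] Module.End 𝒪 F.M) (f : RQ →ₐ[𝒪] T)
    (x : Fin r → T) (hxg : ∀ j, x j = f (g j))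
    (h : ∀ j (m : F.M), ∃ m' : F.M, F.D j m - m = a (x j) m' - m')
    (hπ : ∀ (y : RQ) (m : F.M), F.π (a (f y) m) = β y • F.π m) :
    ModSideData 𝒪 p r E M0 R RQ g β :=
  letI := moduleOfHom a f
  haveI := isScalarTower_of_hom a f
  { 𝕋 := 𝕋
    act0 := act0
    F := F
    unit := hunit_compHom a f F.D g x hxg h
    semilin := hπ }

end OfHom

/-! ### the module side of the `p`-new part at one Taylor–Wiles set -/

section NewSide

/-- **The module side of the `p`-NEW part at one Taylor–Wiles set, hypothesis form.**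
`MF`, `P0` are the (FIXED, `Q`-independent) base modules at the levels `N'p`, `N'`,
`f₁ = cores`, `f₂ = coresD` the two degeneracy maps at `Q = ∅` with `(f₁, f₂)` onto; `R = R^SO_∅`
acts on `ker (f₁, f₂)`.  Fields: the big level `F`, ONE lower level `G` (helper15's
`exists_levelHom_pair`), the two morphisms, the Hecke ring `T` of the new level with its action
`a` commuting with the diamonds, the classifying map `f : R_Q → T` (`= ψ_Q` of
`exists_psi…strict` with `hAnn := NewAnn.hAnn_ker_new`), and (UNIT) + semilinearity ON THE NEW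
LEVEL (`UnitInst.hunit_of_labelled` at `L := newLevel …`; `KappaAbs`/`Semilin` at its `π`). -/
structure NewSide (𝒪 : Type) [CommRing 𝒪] [IsLocalRing 𝒪] (p r : ℕ) (hp : p.Prime)
    (hp𝒪 : (p : 𝒪) ∈ maximalIdeal 𝒪) (E : Fin r → ℕ)
    (MF : Type) [AddCommGroup MF] [Module 𝒪 MF] (P0 : Type) [AddCommGroup P0] [Module 𝒪 P0]
    (f₁ f₂ : MF →ₗ[𝒪] P0) (hf0 : Surjective (f₁.prod f₂))
    (R : Type) [CommRing R] [Algebra 𝒪 R] [Module R (LinearMap.ker (f₁.prod f₂))]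
    (RQ : Type) [CommRing RQ] [Algebra 𝒪 RQ] (g : Fin r → RQ) (β : RQ →ₐ[𝒪] R) : Type 1 where
  /-- the Hecke symbols -/
  𝕋 : Type
  [instCommRing𝕋 : CommRing 𝕋]
  [instAlgebra𝕋 : Algebra 𝒪 𝕋]
  /-- their actions on the two base modules -/
  actF : 𝕋 →ₐ[𝒪] Module.End 𝒪 MF
  actP : 𝕋 →ₐ[𝒪] Module.End 𝒪 P0
  /-- the big level (level `N'p`) -/
  F : FreeLevel 𝒪 𝕋 MF actF r (fun j => p ^ E j)
  /-- the lower level (level `N'`) -/
  G : FreeLevel 𝒪 𝕋 P0 actP r (fun j => p ^ E j)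
  /-- `cores` -/
  φα : LevelHom F G f₁
  /-- `coresD` -/
  φβ : LevelHom F G f₂
  /-- the Hecke ring of the new level -/
  T : Type
  [instCommRingT : CommRing T]
  [instAlgebraT : Algebra 𝒪 T]
  /-- its action on the new level -/
  a : T →ₐ[𝒪] Module.End 𝒪
    (newLevel hp hp𝒪 (fun j => ⟨E j, rfl⟩) φα φβ hf0).M
  /-- the classifying map `R_Q → T` -/
  f : RQ →ₐ[𝒪] T
  /-- (UNIT) on the new level -/
  unit : ∀ (j : Fin r) (m : (newLevel hp hp𝒪 (fun j => ⟨E j, rfl⟩) φα φβ hf0).M),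
    ∃ m' : (newLevel hp hp𝒪 (fun j => ⟨E j, rfl⟩) φα φβ hf0).M,
      (newLevel hp hp𝒪 (fun j => ⟨E j, rfl⟩) φα φβ hf0).D j m - m = a (f (g j)) m' - m'
  /-- semilinearity of the projection of the new level -/
  semilin : ∀ (y : RQ) (m : (newLevel hp hp𝒪 (fun j => ⟨E j, rfl⟩) φα φβ hf0).M),
    (newLevel hp hp𝒪 (fun j => ⟨E j, rfl⟩) φα φβ hf0).π (a (f y) m)
      = β y • (newLevel hp hp𝒪 (fun j => ⟨E j, rfl⟩) φα φβ hf0).π m

attribute [instance] NewSide.instCommRing𝕋 NewSide.instAlgebra𝕋 NewSide.instCommRingT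
  NewSide.instAlgebraT

variable {𝒪 : Type} [CommRing 𝒪] [IsLocalRing 𝒪] {p r : ℕ} {hp : p.Prime}
  {hp𝒪 : (p : 𝒪) ∈ maximalIdeal 𝒪} {E : Fin r → ℕ}
  {MF : Type} [AddCommGroup MF] [Module 𝒪 MF] {P0 : Type} [AddCommGroup P0] [Module 𝒪 P0]
  {f₁ f₂ : MF →ₗ[𝒪] P0} {hf0 : Surjective (f₁.prod f₂)}
  {R : Type} [CommRing R] [Algebra 𝒪 R] [Module R (LinearMap.ker (f₁.prod f₂))]
  {RQ : Type} [CommRing RQ] [Algebra 𝒪 RQ] {g : Fin r → RQ} {β : RQ →ₐ[𝒪] R}

/-- **the `p`-new module side is a module side** (helper12's `ModSideData`) over the base module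
`ker (f₁, f₂)`. -/
noncomputable def NewSide.modSideData (X : NewSide 𝒪 p r hp hp𝒪 E MF P0 f₁ f₂ hf0 R RQ g β) :
    ModSideData 𝒪 p r E (LinearMap.ker (f₁.prod f₂)) R RQ g β :=
  modSideDataOfHom (newLevel hp hp𝒪 (fun j => ⟨E j, rfl⟩) X.φα X.φβ hf0) X.a X.f
    (fun j => X.f (g j)) (fun _ => rfl) X.unit X.semilin

end NewSide

/-! ### the statement for all Taylor–Wiles sets, and the base of the case-(b) induction -/

section Stmt

variable {𝒪 : Type} [CommRing 𝒪] [IsDomain 𝒪] [IsDiscreteValuationRing 𝒪]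
  [IsAdicComplete (maximalIdeal 𝒪) 𝒪]
  {ρbar : ResidualGaloisRep (ResidueField 𝒪)}

/-- **E6-SO(b)-MOD, the modular input of the base of case (b)**: helper12's `ModSideStmt` with
`ModSideData` replaced by the `p`-new module side `NewSide` (same binders, same labels). -/
def NewSideStmt (p : ℕ) (hp : p.Prime) (hp𝒪 : (p : 𝒪) ∈ maximalIdeal 𝒪) (S : Finset ℕ)
    (𝒟 : Finset ℕ → DefCondE 𝒪)
    (D0 : DeformationRingData 𝒪 ρbar (𝒟 ∅)) {T : Type} [CommRing T] [Algebra 𝒪 T]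
    (φ0 : D0.R →ₐ[𝒪] T)
    (MF : Type) [AddCommGroup MF] [Module 𝒪 MF] (P0 : Type) [AddCommGroup P0] [Module 𝒪 P0]
    (f₁ f₂ : MF →ₗ[𝒪] P0) (hf0 : Surjective (f₁.prod f₂))
    [Module T (LinearMap.ker (f₁.prod f₂))] : Prop :=
  ∀ (r n : ℕ) (qv : Fin r → ℕ), Injective qv →
    (∀ i, (qv i).Prime ∧ qv i ∉ S ∧ p ^ (n + 1) ∣ qv i - 1) →
    ∀ (DQ : DeformationRingData 𝒪 ρbar (𝒟 (Finset.univ.image qv)))
      (P : Fin r → ValuationSubring Qb) (φ : Fin r → GQ) (α β : Fin r → ResidueField 𝒪)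
      (τ : Fin r → GQ),
      (∀ j, (P j).LiesOverPrime (qv j)) → (∀ j, (P j).IsFrobeniusAt (φ j) (qv j)) →
      (∀ j, α j ≠ β j ∧
        LinearMap.charpoly (ρbar.ρ (φ j)) = (X - C (α j)) * (X - C (β j))) →
      (∀ j, IsTameGenerator (P j) p (τ j)) →
      ∀ (π : DQ.R →ₐ[𝒪] D0.R) (hπ : IsLocalHom (π : DQ.R →+* D0.R)) (g : Fin r → (DQ.R)ˣ),
        Surjective π →
        RingHom.ker (π : DQ.R →+* D0.R) = Ideal.span (Set.range fun j => (g j : DQ.R) - 1) →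
        (DQ.ρ.baseChangeAlong (π : DQ.R →+* D0.R) hπ).IsEquiv D0.ρ →
        (∀ j, LabelledAt DQ.ρ (ResidueField.map (algebraMap 𝒪 DQ.R)) (P j) (φ j) (τ j)
          (α j) (β j) (g j)) →
        ∃ E : Fin r → ℕ, (∀ j, ∃ m : ℕ, qv j = p ^ E j * m + 1 ∧ ¬ p ∣ m) ∧
          Nonempty (@NewSide 𝒪 _ _ p r hp hp𝒪 E MF _ _ P0 _ _ f₁ f₂ hf0 D0.R _ _
            (Module.compHom (LinearMap.ker (f₁.prod f₂)) (φ0 : D0.R →+* T))
            DQ.R _ _ (fun j => (g j : DQ.R)) π)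

/-- the `p`-new supply is a supply in the sense of `GE6/Inst/ModSide`. -/
theorem modSideStmt_of_newSideStmt {p : ℕ} (hp : p.Prime) (hp𝒪 : (p : 𝒪) ∈ maximalIdeal 𝒪)
    (S : Finset ℕ) (𝒟 : Finset ℕ → DefCondE 𝒪)
    (D0 : DeformationRingData 𝒪 ρbar (𝒟 ∅)) {T : Type} [CommRing T] [Algebra 𝒪 T]
    (φ0 : D0.R →ₐ[𝒪] T)
    {MF : Type} [AddCommGroup MF] [Module 𝒪 MF] {P0 : Type} [AddCommGroup P0] [Module 𝒪 P0]
    (f₁ f₂ : MF →ₗ[𝒪] P0) (hf0 : Surjective (f₁.prod f₂))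
    [Module T (LinearMap.ker (f₁.prod f₂))]
    (h : NewSideStmt p hp hp𝒪 S 𝒟 D0 φ0 MF P0 f₁ f₂ hf0) :
    ModSideStmt p S 𝒟 D0 φ0 (LinearMap.ker (f₁.prod f₂)) := by
  intro r n qv hinj hqv DQ P φ α β τ hP hφ hαβ hτ π hπ g hπs hker hπρ hlab
  obtain ⟨E, hE, ⟨X⟩⟩ := h r n qv hinj hqv DQ P φ α β τ hP hφ hαβ hτ π hπ g hπs hker hπρ hlab
  letI : Module D0.R (LinearMap.ker (f₁.prod f₂)) :=
    Module.compHom (LinearMap.ker (f₁.prod f₂)) (φ0 : D0.R →+* T)
  exact ⟨E, hE, ⟨X.modSideData⟩⟩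

variable [Finite (ResidueField 𝒪)]

/-- **E6-SO(b): Taylor–Wiles data of every depth for the `p`-new base module.**  `hring` is the
conclusion of `GE6/Inst/Ring.ringSide_SO` verbatim. -/
theorem twLevelsEStmt_newBase {p : ℕ} [Fact p.Prime] (hp2 : p ≠ 2)
    (hp𝒪 : (p : 𝒪) ∈ maximalIdeal 𝒪)
    (S Smin : Finset ℕ) (hpSmin : p ∈ Smin) (hSmin : Smin ⊆ S)
    (hmin : ∀ q : ℕ, q.Prime → q ≠ p → (q ∈ Smin ↔ ¬ ρbar.IsUnramifiedAt q))
    (D0 : DeformationRingData 𝒪 ρbar (condSO 𝒪 p Smin ∅)) {T : Type} [CommRing T] [Algebra 𝒪 T]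
    (φ0 : D0.R →ₐ[𝒪] T)
    {MF : Type} [AddCommGroup MF] [Module 𝒪 MF] {P0 : Type} [AddCommGroup P0] [Module 𝒪 P0]
    (f₁ f₂ : MF →ₗ[𝒪] P0) (hf0 : Surjective (f₁.prod f₂))
    [Module T (LinearMap.ker (f₁.prod f₂))]
    (hring : ∃ r : ℕ, ∀ n : ℕ, ∃ qv : Fin r → ℕ, Injective qv ∧
      (∀ i, (qv i).Prime ∧ qv i ∉ S ∧ p ^ (n + 1) ∣ qv i - 1) ∧
      (∀ i, ∀ P : ValuationSubring Qb, P.LiesOverPrime (qv i) →
        ∀ φ : GQ, P.IsFrobeniusAt φ (qv i) →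
          ∃ α β : ResidueField 𝒪, α ≠ β ∧
            LinearMap.charpoly (ρbar.ρ φ) = (X - C α) * (X - C β)) ∧
      Nonempty (DeformationRingData 𝒪 ρbar (condSO 𝒪 p Smin (Finset.univ.image qv))) ∧
      ∀ DQ : DeformationRingData 𝒪 ρbar (condSO 𝒪 p Smin (Finset.univ.image qv)),
        ∃ γ : MvPowerSeries (Fin r) 𝒪 →ₐ[𝒪] DQ.R, Surjective γ)
    (hmod : NewSideStmt p (Fact.out : p.Prime) hp𝒪 S (condSO 𝒪 p Smin) D0 φ0 MF P0 f₁ f₂ hf0) :
    TWLevelsEStmt p D0 φ0 (LinearMap.ker (f₁.prod f₂)) :=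
  twLevelsEStmt_SO hp2 hp𝒪 S Smin hpSmin hSmin hmin D0 φ0 (LinearMap.ker (f₁.prod f₂)) hring
    (modSideStmt_of_newSideStmt Fact.out hp𝒪 S (condSO 𝒪 p Smin) D0 φ0 f₁ f₂ hf0 hmod)

/-- **BASE (b), ring-theoretic output**: `R^SO_∅ ≅ T^new_∅`, the `p`-new base module `K_∅` is free
over `R^SO_∅` and over `T^new_∅`, and `R^SO_∅` has a complete-intersection presentation (the input
of the base numerics `#Ω(K_∅) = etaCard^d`). -/
theorem minRT_newBase {p : ℕ} [Fact p.Prime] (hp2 : p ≠ 2) (hp𝒪 : (p : 𝒪) ∈ maximalIdeal 𝒪)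
    (S Smin : Finset ℕ) (hpSmin : p ∈ Smin) (hSmin : Smin ⊆ S)
    (hmin : ∀ q : ℕ, q.Prime → q ≠ p → (q ∈ Smin ↔ ¬ ρbar.IsUnramifiedAt q))
    (D0 : DeformationRingData 𝒪 ρbar (condSO 𝒪 p Smin ∅)) {T : Type} [CommRing T] [Algebra 𝒪 T]
    (φ0 : D0.R →ₐ[𝒪] T) (hφ0 : Surjective φ0)
    {MF : Type} [AddCommGroup MF] [Module 𝒪 MF] {P0 : Type} [AddCommGroup P0] [Module 𝒪 P0]
    (f₁ f₂ : MF →ₗ[𝒪] P0) (hf0 : Surjective (f₁.prod f₂))
    [Module T (LinearMap.ker (f₁.prod f₂))] [Nontrivial (LinearMap.ker (f₁.prod f₂))]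
    (hring : ∃ r : ℕ, ∀ n : ℕ, ∃ qv : Fin r → ℕ, Injective qv ∧
      (∀ i, (qv i).Prime ∧ qv i ∉ S ∧ p ^ (n + 1) ∣ qv i - 1) ∧
      (∀ i, ∀ P : ValuationSubring Qb, P.LiesOverPrime (qv i) →
        ∀ φ : GQ, P.IsFrobeniusAt φ (qv i) →
          ∃ α β : ResidueField 𝒪, α ≠ β ∧
            LinearMap.charpoly (ρbar.ρ φ) = (X - C α) * (X - C β)) ∧
      Nonempty (DeformationRingData 𝒪 ρbar (condSO 𝒪 p Smin (Finset.univ.image qv))) ∧
      ∀ DQ : DeformationRingData 𝒪 ρbar (condSO 𝒪 p Smin (Finset.univ.image qv)),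
        ∃ γ : MvPowerSeries (Fin r) 𝒪 →ₐ[𝒪] DQ.R, Surjective γ)
    (hmod : NewSideStmt p (Fact.out : p.Prime) hp𝒪 S (condSO 𝒪 p Smin) D0 φ0 MF P0 f₁ f₂ hf0) :
    letI : Module D0.R (LinearMap.ker (f₁.prod f₂)) :=
      Module.compHom (LinearMap.ker (f₁.prod f₂)) (φ0 : D0.R →+* T)
    Bijective φ0 ∧ Module.Free D0.R (LinearMap.ker (f₁.prod f₂)) ∧
      Module.Free T (LinearMap.ker (f₁.prod f₂)) ∧
      ∃ (r : ℕ) (L' : Algebra.PatchingLevel 𝒪 r D0.R (LinearMap.ker (f₁.prod f₂)) ⊥),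
        RingHom.ker L'.ψ = Ideal.span (Set.range fun i : Fin r => L'.φ (MvPowerSeries.X i)) :=
  minRT_of_twLevelsEStmt (Fact.out : p.Prime) hp𝒪 D0 φ0 hφ0
    (twLevelsEStmt_newBase hp2 hp𝒪 S Smin hpSmin hSmin hmin D0 φ0 f₁ f₂ hf0 hring hmod)

/-- **BASE (b), engine output**: an `R = T` datum for the strict-ordinary minimal problem with
the `p`-new Hecke ring `T = T^new_∅` at the level `N` (`= N_∅ p`). -/
theorem exists_rtData_newBase {p : ℕ} [Fact p.Prime] (hp2 : p ≠ 2)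
    (hp𝒪 : (p : 𝒪) ∈ maximalIdeal 𝒪)
    (S Smin : Finset ℕ) (hpSmin : p ∈ Smin) (hSmin : Smin ⊆ S)
    (hmin : ∀ q : ℕ, q.Prime → q ≠ p → (q ∈ Smin ↔ ¬ ρbar.IsUnramifiedAt q))
    (D0 : DeformationRingData 𝒪 ρbar (condSO 𝒪 p Smin ∅))
    {N : ℕ} [NeZero N] {S' : Set ℕ} {T : Type} [CommRing T] [IsLocalRing T] [Algebra 𝒪 T]
    (πT : CuspForm.heckeAlgebra N 2 S' →+* T) (ρT : GaloisRepAdic T)
    (hcp : ∀ (q : ℕ) (hq : q.Prime) (hqN : ¬ q ∣ N) (hqS : q ∉ S'),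
      ∀ A : ValuationSubring Qb, A.LiesOverPrime q →
        ∀ σ : GQ, A.IsFrobeniusAt σ q →
          LinearMap.charpoly (ρT.ρ σ) =
            X ^ 2 - C (πT (CuspForm.heckeAlgebra.T hq hqN hqS)) * X + C ((q : T)))
    (φ0 : D0.R →ₐ[𝒪] T) (hφ0 : Surjective φ0) (φ0_local : IsLocalHom (φ0 : D0.R →+* T))
    (φ0_ρ : (D0.ρ.baseChangeAlong (φ0 : D0.R →+* T) φ0_local).IsEquiv ρT)
    {MF : Type} [AddCommGroup MF] [Module 𝒪 MF] {P0 : Type} [AddCommGroup P0] [Module 𝒪 P0]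
    (f₁ f₂ : MF →ₗ[𝒪] P0) (hf0 : Surjective (f₁.prod f₂))
    [Module T (LinearMap.ker (f₁.prod f₂))] [Nontrivial (LinearMap.ker (f₁.prod f₂))]
    (hring : ∃ r : ℕ, ∀ n : ℕ, ∃ qv : Fin r → ℕ, Injective qv ∧
      (∀ i, (qv i).Prime ∧ qv i ∉ S ∧ p ^ (n + 1) ∣ qv i - 1) ∧
      (∀ i, ∀ P : ValuationSubring Qb, P.LiesOverPrime (qv i) →
        ∀ φ : GQ, P.IsFrobeniusAt φ (qv i) →
          ∃ α β : ResidueField 𝒪, α ≠ β ∧
            LinearMap.charpoly (ρbar.ρ φ) = (X - C α) * (X - C β)) ∧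
      Nonempty (DeformationRingData 𝒪 ρbar (condSO 𝒪 p Smin (Finset.univ.image qv))) ∧
      ∀ DQ : DeformationRingData 𝒪 ρbar (condSO 𝒪 p Smin (Finset.univ.image qv)),
        ∃ γ : MvPowerSeries (Fin r) 𝒪 →ₐ[𝒪] DQ.R, Surjective γ)
    (hmod : NewSideStmt p (Fact.out : p.Prime) hp𝒪 S (condSO 𝒪 p Smin) D0 φ0 MF P0 f₁ f₂ hf0) :
    ∃ X' : RTData ρbar (condSO 𝒪 p Smin ∅), X'.N = N ∧ X'.S = S' ∧ X'.D = D0 :=
  exists_rtData_of_twLevelsEStmt (Fact.out : p.Prime) hp𝒪 D0 πT ρT hcp φ0 hφ0 φ0_local φ0_ρ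
    (twLevelsEStmt_newBase hp2 hp𝒪 S Smin hpSmin hSmin hmin D0 φ0 f₁ f₂ hf0 hring hmod)

end Stmt

end Fermat.Agent.GE8.RaiseP.BaseB
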