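/-
GATE-E / RISK-4 PNEW-STAGE, leaf R4-G (g5) WIRE (helper55): **from the `p`-new module side to the
field `htw` of `GE/Engine/Base.BaseInput` on ANY model of the `p`-new base module.**

`GE8/RaiseP/BaseB` reduces E6-SO(b) to `NewSideStmt` (for every Taylor–Wiles set a `NewSide`: two
levels `F`, `G` over the FIXED base maps `f₁ f₂ : MF → P0`, the Hecke ring `T_Q` of the new level
`K_Q = ker (φα, φβ)`, `ψ : R_Q → T_Q`, (UNIT), (SEMILIN)).  This file closes the formal part of the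
instance:

* `smul_compHom` : the `R_∅`-action through `φ₀` (rfl);
* **`nonempty_newSide_of_frob`** : a `NewSide` from (g1) the two levels with their morphisms over
  the fixed base maps, (g2) `ψ : R_Q → T_Q` with `ρ^univ_Q ⊗_ψ ≅ ρ_Q` and the Eichler–Shimura
  relation of `ρ_Q`, (g3) (UNIT) on the new level, and (g4) the Hecke compatibility of the
  projection of the new level ON GENERATORS — (SEMILIN) is helper12's
  `GE6/Inst/PiSemilin.semilin_of_frob` at `MQ := K_Q`, `πM := (newLevel …).π`, `L := ker (f₁, f₂)`;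
* **`twLevelsStmt_newBase`** : `NewSideStmt` + the hypotheses of `GE6/Inst/Ring.ringSide_SO` ⟹ the
  UNIFORM `GE6.Stmt.TWLevelsStmt p D₀ φ₀ (ker (f₁, f₂))` (through `BaseB.twLevelsEStmt_newBase` and
  helper12's `Trunc`);
* **`twLevelsStmt_newBase_congr`** : the same on any `T`-module `L` with a `T`-linear equivalence
  `ker (f₁, f₂) ≃ₗ[T] L` (`GE6/Inst/CongrBase`): the `Hom`-model of `K_∅` used by the Taylor–Wiles
  levels is decoupled from the `Lam`-model used by the pairing/`η` fields of `BaseInput`;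
* `smin_subset_S0`, `prime_of_mem_S0`, **`twLevelsStmt_newBase_pkg`**,
  **`twLevelsStmt_newBase_pkg_congr`** : the same at a bundle `P : Pkg` (the ring side from the
  fields of `P`).
-/
import Fermat.Agent.GE8.RaiseP.BaseB
import Fermat.Agent.GE6.Inst.PiSemilin
import Fermat.Agent.GE6.Inst.Trunc
import Fermat.Agent.GE6.Inst.CongrBase
import Fermat.Agent.GE6.Inst.Ring
import Fermat.Agent.GB.Setup.SetupPkg

set_option autoImplicit false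
set_option linter.unusedSectionVars false
set_option linter.unusedVariables false
set_option linter.style.haveILetI false

namespace Fermat.Agent.GE8.RaiseP.WireNew

open IsLocalRing Function Polynomial GaloisRep
open Fermat.Agent.GB.B3.TWLevel
open Fermat.Agent.GE8.RaiseP.NewLevel Fermat.Agent.GE8.RaiseP.BaseB
open Fermat.Agent.GE6.Inst.ModSide Fermat.Agent.GE6.Inst.AssemblyE
open Fermat.Agent.GE.Graph

/-- `ℚ̄`. -/
local notation "Qb" => AlgebraicClosure ℚ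
/-- `G_ℚ`. -/
local notation "GQ" => (AlgebraicClosure ℚ ≃ₐ[ℚ] AlgebraicClosure ℚ)

/-- the action through a ring homomorphism (rfl). -/
theorem smul_compHom {R T M : Type} [CommRing R] [CommRing T] [AddCommGroup M] [Module T M]
    (f : R →+* T) (x : R) (m : M) :
    (letI : Module R M := Module.compHom M f; x • m) = f x • m := rfl

/-! ### a `NewSide` from the Frobenius data -/

section Frob

variable {𝒪 : Type} [CommRing 𝒪] [IsDomain 𝒪] [IsDiscreteValuationRing 𝒪]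
  [IsAdicComplete (maximalIdeal 𝒪) 𝒪]
  {ρbar : ResidualGaloisRep (ResidueField 𝒪)}
  {𝒟₀ 𝒟Q : ∀ ⦃A : Type⦄ [CommRing A] [IsLocalRing A] [Algebra 𝒪 A], GaloisRepAdic A → Prop}
  (D₀ : DeformationRingData 𝒪 ρbar 𝒟₀) (DQ : DeformationRingData 𝒪 ρbar 𝒟Q)
  {T₀ : Type} [CommRing T₀] [IsLocalRing T₀] [IsNoetherianRing T₀]
  [IsAdicComplete (maximalIdeal T₀) T₀] [Algebra 𝒪 T₀]
  {p r : ℕ} (hp : p.Prime) (hp𝒪 : (p : 𝒪) ∈ maximalIdeal 𝒪) (E : Fin r → ℕ)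
  {MF : Type} [AddCommGroup MF] [Module 𝒪 MF] {P0 : Type} [AddCommGroup P0] [Module 𝒪 P0]
  (f₁ f₂ : MF →ₗ[𝒪] P0) (hf0 : Surjective (f₁.prod f₂))
  [Module T₀ (LinearMap.ker (f₁.prod f₂))] [IsScalarTower 𝒪 T₀ (LinearMap.ker (f₁.prod f₂))]
  {𝕋 : Type} [CommRing 𝕋] [Algebra 𝒪 𝕋]
  {actF : 𝕋 →ₐ[𝒪] Module.End 𝒪 MF} {actP : 𝕋 →ₐ[𝒪] Module.End 𝒪 P0}
  (F : FreeLevel 𝒪 𝕋 MF actF r (fun j => p ^ E j))
  (G : FreeLevel 𝒪 𝕋 P0 actP r (fun j => p ^ E j))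
  (φα : LevelHom F G f₁) (φβ : LevelHom F G f₂)
  {TQ : Type} [CommRing TQ] [IsLocalRing TQ] [Algebra 𝒪 TQ]

/-- **R4-G WIRE, one Taylor–Wiles set**: the `p`-new module side `NewSide` from the two levels over
the fixed base maps (g1), the ring-to-Hecke map `ψ : R_Q → T_Q` with its representation and the
Eichler–Shimura relation (g2), (UNIT) on the new level (g3), and the Hecke compatibility of the
projection `K_Q → K_∅` on generators (g4).  (SEMILIN) is `PiSemilin.semilin_of_frob`. -/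
theorem nonempty_newSide_of_frob (h𝒟Q : IsDeformationCondition 𝒪 𝒟Q)
    (hlocT : IsLocalHom (algebraMap 𝒪 T₀))
    (hresT : Surjective (IsLocalRing.residue T₀ ∘ algebraMap 𝒪 T₀))
    (π : DQ.R →ₐ[𝒪] D₀.R) (hπ : IsLocalHom (π : DQ.R →+* D₀.R))
    (hπρ : (DQ.ρ.baseChangeAlong (π : DQ.R →+* D₀.R) hπ).IsEquiv D₀.ρ)
    (g : Fin r → DQ.R)
    (φ₀ : D₀.R →ₐ[𝒪] T₀) (hφ₀ : IsLocalHom (φ₀ : D₀.R →+* T₀)) (ρT₀ : GaloisRepAdic T₀)
    (h₀ρ : (D₀.ρ.baseChangeAlong (φ₀ : D₀.R →+* T₀) hφ₀).IsEquiv ρT₀)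
    (ψ : DQ.R →ₐ[𝒪] TQ) (hψ : IsLocalHom (ψ : DQ.R →+* TQ)) (ρQ : GaloisRepAdic TQ)
    (hQρ : (DQ.ρ.baseChangeAlong (ψ : DQ.R →+* TQ) hψ).IsEquiv ρQ)
    (a : TQ →ₐ[𝒪] Module.End 𝒪 (newLevel hp hp𝒪 (fun j => ⟨E j, rfl⟩) φα φβ hf0).M)
    (hunit : ∀ (j : Fin r) (m : (newLevel hp hp𝒪 (fun j => ⟨E j, rfl⟩) φα φβ hf0).M),
      ∃ m' : (newLevel hp hp𝒪 (fun j => ⟨E j, rfl⟩) φα φβ hf0).M,
        (newLevel hp hp𝒪 (fun j => ⟨E j, rfl⟩) φα φβ hf0).D j m - m = a (ψ (g j)) m' - m')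
    (hfaith : ∀ u : T₀, (∀ y : LinearMap.ker (f₁.prod f₂), u • y = 0) → u = 0)
    (Gs : Set TQ) (hG : Algebra.adjoin 𝒪 Gs = ⊤)
    (hgen : ∀ x ∈ Gs, ∃ u : T₀, ∀ m,
      (newLevel hp hp𝒪 (fun j => ⟨E j, rfl⟩) φα φβ hf0).π (a x m)
        = u • (newLevel hp hp𝒪 (fun j => ⟨E j, rfl⟩) φα φβ hf0).π m)
    (B : Finset ℕ) (tQ : ℕ → TQ) (t₀ : ℕ → T₀)
    (htQ : ∀ ℓ : ℕ, ℓ.Prime → ℓ ∉ B → ∀ m,
      (newLevel hp hp𝒪 (fun j => ⟨E j, rfl⟩) φα φβ hf0).π (a (tQ ℓ) m)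
        = t₀ ℓ • (newLevel hp hp𝒪 (fun j => ⟨E j, rfl⟩) φα φβ hf0).π m)
    (hQ : ∀ ℓ : ℕ, ℓ.Prime → ℓ ∉ B → ∀ P : ValuationSubring Qb, P.LiesOverPrime ℓ →
      ∀ σ : GQ, P.IsFrobeniusAt σ ℓ →
        LinearMap.charpoly (ρQ.ρ σ) = X ^ 2 - C (tQ ℓ) * X + C ((ℓ : ℕ) : TQ))
    (h₀ : ∀ ℓ : ℕ, ℓ.Prime → ℓ ∉ B → ∀ P : ValuationSubring Qb, P.LiesOverPrime ℓ →
      ∀ σ : GQ, P.IsFrobeniusAt σ ℓ →
        LinearMap.charpoly (ρT₀.ρ σ) = X ^ 2 - C (t₀ ℓ) * X + C ((ℓ : ℕ) : T₀)) :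
    Nonempty (@NewSide 𝒪 _ _ p r hp hp𝒪 E MF _ _ P0 _ _ f₁ f₂ hf0 D₀.R _ _
      (Module.compHom (LinearMap.ker (f₁.prod f₂)) (φ₀ : D₀.R →+* T₀))
      DQ.R _ _ g π) := by
  letI : Module D₀.R (LinearMap.ker (f₁.prod f₂)) :=
    Module.compHom (LinearMap.ker (f₁.prod f₂)) (φ₀ : D₀.R →+* T₀)
  have hsemi : ∀ (y : DQ.R) (m : (newLevel hp hp𝒪 (fun j => ⟨E j, rfl⟩) φα φβ hf0).M),
      (newLevel hp hp𝒪 (fun j => ⟨E j, rfl⟩) φα φβ hf0).π (a (ψ y) m)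
        = π y • (newLevel hp hp𝒪 (fun j => ⟨E j, rfl⟩) φα φβ hf0).π m := fun y m =>
    Fermat.Agent.GE6.Inst.PiSemilin.semilin_of_frob D₀ DQ h𝒟Q hlocT hresT π hπ hπρ φ₀ hφ₀ ρT₀ h₀ρ
      ψ hψ ρQ hQρ a hfaith (newLevel hp hp𝒪 (fun j => ⟨E j, rfl⟩) φα φβ hf0).π
      (newLevel hp hp𝒪 (fun j => ⟨E j, rfl⟩) φα φβ hf0).π_surjective Gs hG hgen B tQ t₀ htQ hQ h₀
      y m
  exact ⟨{ 𝕋 := 𝕋, actF := actF, actP := actP, F := F, G := G, φα := φα, φβ := φβ, T := TQ,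
           a := a, f := ψ, unit := hunit, semilin := hsemi }⟩

end Frob

/-! ### from `NewSideStmt` to the uniform Taylor–Wiles levels -/

section Levels

variable {𝒪 : Type} [CommRing 𝒪] [IsDomain 𝒪] [IsDiscreteValuationRing 𝒪]
  [IsAdicComplete (maximalIdeal 𝒪) 𝒪] [Finite (ResidueField 𝒪)]
  {ρbar : ResidualGaloisRep (ResidueField 𝒪)}

/-- **E6-SO(b), uniform form**: the field `htw` of `BaseInput` on the `p`-new base module
`ker (f₁, f₂)` from `NewSideStmt` and the hypotheses of `Ring.ringSide_SO`. -/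
theorem twLevelsStmt_newBase {p : ℕ} [Fact p.Prime] [Algebra (ZMod p) (ResidueField 𝒪)]
    (hp2 : p ≠ 2)
    (hp𝒪 : (p : 𝒪) ∈ maximalIdeal 𝒪)
    (habs : ρbar.IsAbsolutelyIrreducible)
    (hdet : (GaloisRepAdic.ofResidualGaloisRep ρbar).DetIsCyclotomic p)
    (hsplit : ∀ σ : GQ, ∃ α β : ResidueField 𝒪,
      LinearMap.charpoly (ρbar.ρ σ) = (X - C α) * (X - C β))
    (hTW : ∀ (K : Type) [Field K] [Algebra (ResidueField 𝒪) K] (G : Subgroup GQ), G.index = 2 →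
      ∀ V : Submodule K (ρbar.baseChange K).V,
        (∀ σ ∈ G, ∀ x ∈ V, (ρbar.baseChange K).ρ σ x ∈ V) → V = ⊥ ∨ V = ⊤)
    (S Smin : Finset ℕ) (hpSmin : p ∈ Smin) (hSmin : Smin ⊆ S) (hS : ∀ q ∈ S, q.Prime)
    (hmin : ∀ q : ℕ, q.Prime → q ≠ p → (q ∈ Smin ↔ ¬ ρbar.IsUnramifiedAt q))
    (hbar : condSO 𝒪 p Smin ∅ (GaloisRepAdic.ofResidualGaloisRep ρbar))
    (D0 : DeformationRingData 𝒪 ρbar (condSO 𝒪 p Smin ∅)) {T : Type} [CommRing T] [Algebra 𝒪 T]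
    (φ0 : D0.R →ₐ[𝒪] T)
    {MF : Type} [AddCommGroup MF] [Module 𝒪 MF] {P0 : Type} [AddCommGroup P0] [Module 𝒪 P0]
    (f₁ f₂ : MF →ₗ[𝒪] P0) (hf0 : Surjective (f₁.prod f₂))
    [Module T (LinearMap.ker (f₁.prod f₂))]
    (hmod : NewSideStmt p (Fact.out : p.Prime) hp𝒪 S (condSO 𝒪 p Smin) D0 φ0 MF P0 f₁ f₂ hf0) :
    Fermat.Agent.GE6.Stmt.TWLevelsStmt p D0 φ0 (LinearMap.ker (f₁.prod f₂)) :=
  Fermat.Agent.GE6.Inst.Trunc.twLevelsStmt_of_twLevelsEStmt (Fact.out : p.Prime).pos D0 φ0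
    (twLevelsEStmt_newBase hp2 hp𝒪 S Smin hpSmin hSmin hmin D0 φ0 f₁ f₂ hf0
      (Fermat.Agent.GE6.Inst.Ring.ringSide_SO p ρbar hp2 hp𝒪 habs hdet hsplit hTW S Smin hpSmin
        hSmin hS hmin hbar) hmod)

/-- **E6-SO(b) on any model of the `p`-new base module**: transport along a `T`-linear
equivalence `ker (f₁, f₂) ≃ₗ[T] L`. -/
theorem twLevelsStmt_newBase_congr {p : ℕ} [Fact p.Prime] [Algebra (ZMod p) (ResidueField 𝒪)]
    (hp2 : p ≠ 2)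
    (hp𝒪 : (p : 𝒪) ∈ maximalIdeal 𝒪)
    (habs : ρbar.IsAbsolutelyIrreducible)
    (hdet : (GaloisRepAdic.ofResidualGaloisRep ρbar).DetIsCyclotomic p)
    (hsplit : ∀ σ : GQ, ∃ α β : ResidueField 𝒪,
      LinearMap.charpoly (ρbar.ρ σ) = (X - C α) * (X - C β))
    (hTW : ∀ (K : Type) [Field K] [Algebra (ResidueField 𝒪) K] (G : Subgroup GQ), G.index = 2 →
      ∀ V : Submodule K (ρbar.baseChange K).V,
        (∀ σ ∈ G, ∀ x ∈ V, (ρbar.baseChange K).ρ σ x ∈ V) → V = ⊥ ∨ V = ⊤)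
    (S Smin : Finset ℕ) (hpSmin : p ∈ Smin) (hSmin : Smin ⊆ S) (hS : ∀ q ∈ S, q.Prime)
    (hmin : ∀ q : ℕ, q.Prime → q ≠ p → (q ∈ Smin ↔ ¬ ρbar.IsUnramifiedAt q))
    (hbar : condSO 𝒪 p Smin ∅ (GaloisRepAdic.ofResidualGaloisRep ρbar))
    (D0 : DeformationRingData 𝒪 ρbar (condSO 𝒪 p Smin ∅)) {T : Type} [CommRing T] [Algebra 𝒪 T]
    (φ0 : D0.R →ₐ[𝒪] T)
    {MF : Type} [AddCommGroup MF] [Module 𝒪 MF] {P0 : Type} [AddCommGroup P0] [Module 𝒪 P0]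
    (f₁ f₂ : MF →ₗ[𝒪] P0) (hf0 : Surjective (f₁.prod f₂))
    [Module T (LinearMap.ker (f₁.prod f₂))]
    (hmod : NewSideStmt p (Fact.out : p.Prime) hp𝒪 S (condSO 𝒪 p Smin) D0 φ0 MF P0 f₁ f₂ hf0)
    {L : Type} [AddCommGroup L] [Module T L] (e : LinearMap.ker (f₁.prod f₂) ≃ₗ[T] L) :
    Fermat.Agent.GE6.Stmt.TWLevelsStmt p D0 φ0 L :=
  Fermat.Agent.GE6.Inst.CongrBase.twLevelsStmt_congr D0 φ0 e
    (twLevelsStmt_newBase hp2 hp𝒪 habs hdet hsplit hTW S Smin hpSmin hSmin hS hmin hbar D0 φ0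
      f₁ f₂ hf0 hmod)

end Levels

/-! ### at a bundle -/

section PkgSec

open WeierstrassCurve WeierstrassCurve.Affine.Point
open Fermat.Agent.GB.Setup.SetupPkg

variable {p : ℕ} [hpF : Fact p.Prime] {W : WeierstrassCurve ℤ}
  {hcard₁ : Nat.card (Submodule.torsionBy ℤ
    ((W.map (Int.castRingHom ℚ)).toAffine.baseChange (AlgebraicClosure ℚ)).Point p) = p ^ 2}
  {hker : GaloisFactorsThroughFiniteLevel
    (WeierstrassCurve.Affine.Point.galoisRepModuleEnd (K := AlgebraicClosure ℚ) ℚ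
      (W.map (Int.castRingHom ℚ)) p)}
  {M A : ℕ} (P : Pkg p W hcard₁ hker M A)

theorem smin_subset_S0 : P.Smin ⊆ P.S0 := by
  intro q hq
  rcases P.dvd_of_mem_Smin hq with rfl | h
  · exact Finset.mem_coe.mp P.hpS0
  · exact Finset.mem_coe.mp (P.hMS0 q (P.prime_of_mem_Smin hq) h)

theorem prime_of_mem_S0 : ∀ q ∈ P.S0, q.Prime := by
  intro q hq
  simp only [Pkg.S0, Finset.mem_union, Finset.mem_singleton] at hq
  rcases hq with (h | rfl) | h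
  · exact Nat.prime_of_mem_primeFactors h
  · exact hpF.out
  · exact Nat.prime_of_mem_primeFactors h

/-- **E6-SO(b) at a bundle** (the level of `P` is `M = M₀ p`; `MF`, `P0` are the Hecke modules of
the levels `M₀ p`, `M₀`, `f₁ f₂` the two transfers): the field `htw` of `BaseInput` on the `p`-new
base module. -/
theorem twLevelsStmt_newBase_pkg
    (hbar : condSO P.O p P.Smin ∅ (GaloisRepAdic.ofResidualGaloisRep P.rhobar))
    (D0 : DeformationRingData P.O P.rhobar (condSO P.O p P.Smin ∅))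
    {T : Type} [CommRing T] [Algebra P.O T] (φ0 : D0.R →ₐ[P.O] T)
    {MF : Type} [AddCommGroup MF] [Module P.O MF] {P0 : Type} [AddCommGroup P0] [Module P.O P0]
    (f₁ f₂ : MF →ₗ[P.O] P0) (hf0 : Surjective (f₁.prod f₂))
    [Module T (LinearMap.ker (f₁.prod f₂))]
    (hmod : NewSideStmt p (Fact.out : p.Prime) P.hpO P.S0 (condSO P.O p P.Smin) D0 φ0 MF P0
      f₁ f₂ hf0) :
    Fermat.Agent.GE6.Stmt.TWLevelsStmt p D0 φ0 (LinearMap.ker (f₁.prod f₂)) :=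
  twLevelsStmt_newBase P.hp2 P.hpO P.habs P.hdet P.hsplit P.hTW P.S0 P.Smin P.p_mem_Smin
    (smin_subset_S0 P) (prime_of_mem_S0 P) P.hmin hbar D0 φ0 f₁ f₂ hf0 hmod

/-- **E6-SO(b) at a bundle, on any model `L` of the `p`-new base module.** -/
theorem twLevelsStmt_newBase_pkg_congr
    (hbar : condSO P.O p P.Smin ∅ (GaloisRepAdic.ofResidualGaloisRep P.rhobar))
    (D0 : DeformationRingData P.O P.rhobar (condSO P.O p P.Smin ∅))
    {T : Type} [CommRing T] [Algebra P.O T] (φ0 : D0.R →ₐ[P.O] T)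
    {MF : Type} [AddCommGroup MF] [Module P.O MF] {P0 : Type} [AddCommGroup P0] [Module P.O P0]
    (f₁ f₂ : MF →ₗ[P.O] P0) (hf0 : Surjective (f₁.prod f₂))
    [Module T (LinearMap.ker (f₁.prod f₂))]
    (hmod : NewSideStmt p (Fact.out : p.Prime) P.hpO P.S0 (condSO P.O p P.Smin) D0 φ0 MF P0
      f₁ f₂ hf0)
    {L : Type} [AddCommGroup L] [Module T L] (e : LinearMap.ker (f₁.prod f₂) ≃ₗ[T] L) :
    Fermat.Agent.GE6.Stmt.TWLevelsStmt p D0 φ0 L :=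
  Fermat.Agent.GE6.Inst.CongrBase.twLevelsStmt_congr D0 φ0 e
    (twLevelsStmt_newBase_pkg P hbar D0 φ0 f₁ f₂ hf0 hmod)

end PkgSec

end Fermat.Agent.GE8.RaiseP.WireNew
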