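/-
GATE-E / E8.5 (ii) (P3)-ℤ (helper46): **the dual of Ihara's lemma over `ℤ`** — for `q ∤ N` prime,
`p` an odd prime (`p = q` ALLOWED), `l0 ∤ N` a prime and `E = T_{l0} - (l0 + 1)` on `Λ_N`:

  `E · (Λ_N × Λ_N) ⊆ β (Λ_{N q}) + p · (Λ_N × Λ_N)`,   `β = (cores, cores_δ)`,

as a `ℤ`-LINEAR factorisation `E × E = β ∘ C' + p • D'` (so that it survives every base change).
Consequence: the cokernel of `β ⊗ O` modulo `ϖ ∣ p` is killed by `E`, i.e. `β` is onto on every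
non-Eisenstein localisation (the surjectivity `f0` of helper80's PNEW-PATCH (P1)/(P3)).

Proof: Ihara's lemma `GM/End/Plug.ihara_latT_of_csp` + the kernel transfer factorisation
`GE9/Eta/KTransfer.exists_factor` (`E × E = C ∘ α + p • D`), dualised along the unimodular cup
forms `lamB` (`α ⊣ β`: `GM/Asm/DAsm.lamB_resP_coresP`, `GM/Theta/Outer.lamB_O1`; `T_l` self-adjoint:
`lamB_latT`).
-/
import Mathlib
import Fermat.Agent.GM.End.Plug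
import Fermat.Agent.GM.CSP.Main
import Fermat.Agent.GM.Theta.Outer
import Fermat.Agent.GE9.Eta.KTransfer

set_option autoImplicit false

open scoped TensorProduct

namespace Fermat.Agent.GE8.RaiseP.DualIhara

/-! ### abstract: dualising a factorisation -/

section Abstract

variable {Λ₁ Λ₂ : Type*} [AddCommGroup Λ₁] [AddCommGroup Λ₂]

/-- pointwise form. -/
theorem exists_dual_pointwise
    (B₁ : Λ₁ →ₗ[ℤ] Λ₁ →ₗ[ℤ] ℤ) (B₂ : Λ₂ →ₗ[ℤ] Λ₂ →ₗ[ℤ] ℤ)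
    (hB₁inj : ∀ z, (∀ u, B₁ u z = 0) → z = 0)
    (hB₁surj : ∀ φ : Λ₁ →ₗ[ℤ] ℤ, ∃ z, ∀ u, B₁ u z = φ u)
    (hB₂surj : ∀ φ : Λ₂ →ₗ[ℤ] ℤ, ∃ w, ∀ v, B₂ v w = φ v)
    (A : Λ₁ →ₗ[ℤ] Λ₂) (β : Λ₂ →ₗ[ℤ] Λ₁) (hadj : ∀ u w, B₂ (A u) w = B₁ u (β w))
    (G : Λ₁ →ₗ[ℤ] Λ₁) (hG : ∀ u z, B₁ (G u) z = B₁ u (G z))
    (p : ℤ) (C : Λ₂ →ₗ[ℤ] Λ₁) (D : Λ₁ →ₗ[ℤ] Λ₁) (hfac : G = C ∘ₗ A + p • D) (z : Λ₁) :
    ∃ (w : Λ₂) (z' : Λ₁), G z = β w + p • z' := by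
  obtain ⟨w, hw⟩ := hB₂surj ((B₁.flip z) ∘ₗ C)
  obtain ⟨z', hz'⟩ := hB₁surj ((B₁.flip z) ∘ₗ D)
  refine ⟨w, z', ?_⟩
  rw [← sub_eq_zero]
  refine hB₁inj _ fun u => ?_
  rw [map_sub, map_add, map_smul, ← hG, ← hadj, hw, hz', sub_eq_zero]
  have h1 := LinearMap.congr_fun hfac u
  rw [h1, LinearMap.add_apply, LinearMap.comp_apply, LinearMap.smul_apply, map_add,
    LinearMap.add_apply, map_smul, LinearMap.smul_apply]
  rfl

/-- **dualising a factorisation**: `G = C ∘ A + p • D`, `A ⊣ β`, `G` self-adjoint, unimodular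
forms ⟹ `G = β ∘ C' + p • D'` with `ℤ`-linear `C'`, `D'`. -/
theorem exists_dual_factor [Module.Projective ℤ Λ₁]
    (B₁ : Λ₁ →ₗ[ℤ] Λ₁ →ₗ[ℤ] ℤ) (B₂ : Λ₂ →ₗ[ℤ] Λ₂ →ₗ[ℤ] ℤ)
    (hB₁inj : ∀ z, (∀ u, B₁ u z = 0) → z = 0)
    (hB₁surj : ∀ φ : Λ₁ →ₗ[ℤ] ℤ, ∃ z, ∀ u, B₁ u z = φ u)
    (hB₂surj : ∀ φ : Λ₂ →ₗ[ℤ] ℤ, ∃ w, ∀ v, B₂ v w = φ v)
    (A : Λ₁ →ₗ[ℤ] Λ₂) (β : Λ₂ →ₗ[ℤ] Λ₁) (hadj : ∀ u w, B₂ (A u) w = B₁ u (β w))
    (G : Λ₁ →ₗ[ℤ] Λ₁) (hG : ∀ u z, B₁ (G u) z = B₁ u (G z))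
    (p : ℤ) (C : Λ₂ →ₗ[ℤ] Λ₁) (D : Λ₁ →ₗ[ℤ] Λ₁) (hfac : G = C ∘ₗ A + p • D) :
    ∃ (C' : Λ₁ →ₗ[ℤ] Λ₂) (D' : Λ₁ →ₗ[ℤ] Λ₁), G = β ∘ₗ C' + p • D' := by
  set Φ : (Λ₂ × Λ₁) →ₗ[ℤ] Λ₁ := β.coprod (p • LinearMap.id) with hΦ
  have hΦapp : ∀ w z', Φ (w, z') = β w + p • z' := by
    intro w z'
    rw [hΦ, LinearMap.coprod_apply, LinearMap.smul_apply, LinearMap.id_apply]
  have hmem : ∀ z, G z ∈ LinearMap.range Φ := by
    intro z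
    obtain ⟨w, z', h⟩ := exists_dual_pointwise B₁ B₂ hB₁inj hB₁surj hB₂surj A β hadj G hG p C D
      hfac z
    exact ⟨(w, z'), by rw [hΦapp, h]⟩
  obtain ⟨h, hh⟩ := Module.projective_lifting_property Φ.rangeRestrict
    (G.codRestrict (LinearMap.range Φ) hmem) (LinearMap.surjective_rangeRestrict Φ)
  refine ⟨(LinearMap.fst ℤ Λ₂ Λ₁) ∘ₗ h, (LinearMap.snd ℤ Λ₂ Λ₁) ∘ₗ h, LinearMap.ext fun z => ?_⟩
  have h1 := congrArg Subtype.val (LinearMap.congr_fun hh z)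
  have h2 : Φ (h z) = G z := by simpa using h1
  rw [← h2, LinearMap.add_apply, LinearMap.comp_apply, LinearMap.smul_apply, LinearMap.comp_apply,
    LinearMap.comp_apply, LinearMap.fst_apply, LinearMap.snd_apply, ← hΦapp]

/-- base change of a dual factorisation. -/
theorem baseChange_of_dual_factor (G : Λ₁ →ₗ[ℤ] Λ₁) (β : Λ₂ →ₗ[ℤ] Λ₁) (C' : Λ₁ →ₗ[ℤ] Λ₂)
    (D' : Λ₁ →ₗ[ℤ] Λ₁) (p : ℕ) (h : G = β ∘ₗ C' + (p : ℤ) • D')
    (O : Type*) [CommRing O] (ϖ : O) (hpϖ : ∃ c : O, (p : O) = ϖ * c) (z : O ⊗[ℤ] Λ₁) :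
    ∃ (w : O ⊗[ℤ] Λ₂) (z' : O ⊗[ℤ] Λ₁), G.baseChange O z = β.baseChange O w + ϖ • z' := by
  obtain ⟨c, hc⟩ := hpϖ
  refine ⟨C'.baseChange O z, c • D'.baseChange O z, ?_⟩
  rw [h, LinearMap.baseChange_add, LinearMap.baseChange_comp, LinearMap.baseChange_smul,
    LinearMap.add_apply, LinearMap.comp_apply, LinearMap.smul_apply, smul_smul, ← hc,
    ← Int.cast_smul_eq_zsmul O, Int.cast_natCast]

end Abstract

/-! ### the dual of Ihara's lemma on the lattices `Λ_N` -/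

section Concrete

open CongruenceSubgroup ModularCurve.Period
open Fermat.Agent.GM.B Fermat.Agent.GJ.J2.Lat Fermat.Agent.GM.Asm Fermat.Agent.GM.Theta.Outer
open Fermat.Agent.GM.End Fermat.Agent.GM.Ihara

/-- `E_l = T_l - (l + 1)` on `Λ_N`. -/
noncomputable def eisE (N : ℕ) [NeZero N] (l : Nat.Primes) : Lam N →ₗ[ℤ] Lam N :=
  latT N l - (((l : ℕ) : ℤ) + 1) • LinearMap.id

theorem eisE_apply (N : ℕ) [NeZero N] (l : Nat.Primes) (x : Lam N) :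
    eisE N l x = latT N l x - (((l : ℕ) : ℤ) + 1) • x := rfl

/-- the orthogonal sum of two copies of the cup form. -/
noncomputable def lamB2 (N : ℕ) [NeZero N] :
    (Lam N × Lam N) →ₗ[ℤ] (Lam N × Lam N) →ₗ[ℤ] ℤ :=
  (lamB N).compl₁₂ (LinearMap.fst ℤ (Lam N) (Lam N)) (LinearMap.fst ℤ (Lam N) (Lam N))
    + (lamB N).compl₁₂ (LinearMap.snd ℤ (Lam N) (Lam N)) (LinearMap.snd ℤ (Lam N) (Lam N))

theorem lamB2_apply (N : ℕ) [NeZero N] (u z : Lam N × Lam N) :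
    lamB2 N u z = lamB N u.1 z.1 + lamB N u.2 z.2 := rfl

theorem lamB_right_inj (M : ℕ) [NeZero M] (z : Lam M) (h : ∀ u, lamB M u z = 0) : z = 0 := by
  have h1 : lamB M z = 0 := LinearMap.ext fun u => by
    rw [lamB_skew, h u, neg_zero]
    rfl
  exact (lamB_bijective M).1 (by rw [h1, map_zero])

theorem lamB_right_surj (M : ℕ) [NeZero M] (φ : Lam M →ₗ[ℤ] ℤ) :
    ∃ z, ∀ u, lamB M u z = φ u := by
  obtain ⟨z, hz⟩ := (lamB_bijective M).2 φ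
  refine ⟨-z, fun u => ?_⟩
  rw [lamB_skew, map_neg, LinearMap.neg_apply, neg_neg, hz]

theorem lamB2_right_inj (N : ℕ) [NeZero N] (z : Lam N × Lam N)
    (h : ∀ u, lamB2 N u z = 0) : z = 0 := by
  refine Prod.ext (lamB_right_inj N z.1 fun x => ?_) (lamB_right_inj N z.2 fun y => ?_)
  · have := h (x, 0)
    rw [lamB2_apply] at this
    simpa using this
  · have := h (0, y)
    rw [lamB2_apply] at this
    simpa using this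

theorem lamB2_right_surj (N : ℕ) [NeZero N] (φ : (Lam N × Lam N) →ₗ[ℤ] ℤ) :
    ∃ z, ∀ u, lamB2 N u z = φ u := by
  obtain ⟨z1, hz1⟩ := lamB_right_surj N (φ ∘ₗ LinearMap.inl ℤ (Lam N) (Lam N))
  obtain ⟨z2, hz2⟩ := lamB_right_surj N (φ ∘ₗ LinearMap.inr ℤ (Lam N) (Lam N))
  refine ⟨(z1, z2), fun u => ?_⟩
  rw [lamB2_apply, hz1, hz2, LinearMap.comp_apply, LinearMap.comp_apply, ← map_add]
  congr 1
  rw [LinearMap.inl_apply, LinearMap.inr_apply, Prod.mk_add_mk, add_zero, zero_add]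

variable {N q : ℕ} [hqF : Fact q.Prime] [NeZero N] [NeZero (N * q)]

/-- `α ⊣ β` for the cup forms, over `ℤ`. -/
theorem lamB_alphaP_betaP (hqN : ¬ q ∣ N) (u : Lam N × Lam N) (w : Lam (N * q)) :
    lamB (N * q) (alphaP ℤ N q u) w = lamB2 N u (betaP ℤ hqN w) := by
  obtain ⟨x, y⟩ := u
  rw [alphaP_apply, betaP_apply, lamB2_apply, map_add, LinearMap.add_apply,
    lamB_resP_coresP hqN, lamB_O1 hqN]

omit hqF [NeZero (N * q)] in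
/-- `E_l` is self-adjoint for the cup form. -/
theorem lamB_eisE (l : Nat.Primes) (hl : ¬ (l : ℕ) ∣ N) (x y : Lam N) :
    lamB N (eisE N l x) y = lamB N x (eisE N l y) := by
  rw [eisE_apply, eisE_apply, map_sub, LinearMap.sub_apply, map_sub, map_smul,
    LinearMap.smul_apply, map_smul, lamB_latT l hl]

/-- **the dual of Ihara's lemma over `ℤ`**, as a `ℤ`-linear factorisation:
`E × E = β ∘ C' + p • D'` on `Λ_N × Λ_N`; `p` any odd prime (`p = q` allowed), `l0 ∤ N`. -/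
theorem dual_ihara (hqN : ¬ q ∣ N) {p : ℕ} (hp : p.Prime) (hp2 : p ≠ 2)
    (l0 : Nat.Primes) (hl0 : ¬ (l0 : ℕ) ∣ N) :
    ∃ (C' : (Lam N × Lam N) →ₗ[ℤ] Lam (N * q)) (D' : (Lam N × Lam N) →ₗ[ℤ] (Lam N × Lam N)),
      (eisE N l0).prodMap (eisE N l0)
        = (betaP ℤ hqN).toIntLinearMap ∘ₗ C' + (p : ℤ) • D' := by
  have : Fact p.Prime := ⟨hp⟩
  have : Module.Free ℤ (Lam N) := Fermat.Agent.GJ.J2.ZStruct.free_parabolicHoms_int N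
  have : Module.Free ℤ (Lam (N * q)) := Fermat.Agent.GJ.J2.ZStruct.free_parabolicHoms_int (N * q)
  have hN : 0 < N := Nat.pos_of_ne_zero (NeZero.ne N)
  obtain ⟨C, D, hCD⟩ := Fermat.Agent.GE9.Eta.KTransfer.exists_factor p
    (alphaP ℤ N q).toIntLinearMap ((eisE N l0).prodMap (eisE N l0)) (by
      rintro ⟨x, y⟩ ⟨w, hw⟩
      obtain ⟨z1, z2, h1, h2⟩ := ihara_latT_of_csp hqN hp.ne_zero
        (Fermat.Agent.GM.CSP.Main.cspStmt hp hp2 hN hqN) l0 hl0 x y ⟨w, hw⟩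
      refine ⟨(z1, z2), ?_⟩
      rw [LinearMap.prodMap_apply, eisE_apply, eisE_apply, h1, h2, Prod.smul_mk])
  refine exists_dual_factor (lamB2 N) (lamB (N * q)) (lamB2_right_inj N) (lamB2_right_surj N)
    (lamB_right_surj (N * q)) (alphaP ℤ N q).toIntLinearMap (betaP ℤ hqN).toIntLinearMap
    (fun u w => lamB_alphaP_betaP hqN u w) _ ?_ (p : ℤ) C D hCD
  intro u z
  rw [lamB2_apply, lamB2_apply, LinearMap.prodMap_apply, LinearMap.prodMap_apply,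
    lamB_eisE l0 hl0, lamB_eisE l0 hl0]

/-- pointwise form. -/
theorem dual_ihara_pointwise (hqN : ¬ q ∣ N) {p : ℕ} (hp : p.Prime) (hp2 : p ≠ 2)
    (l0 : Nat.Primes) (hl0 : ¬ (l0 : ℕ) ∣ N) (x y : Lam N) :
    ∃ (w : Lam (N * q)) (x' y' : Lam N),
      latT N l0 x - (((l0 : ℕ) : ℤ) + 1) • x = coresP ℤ hqN w + (p : ℤ) • x' ∧
      latT N l0 y - (((l0 : ℕ) : ℤ) + 1) • y = coresDP ℤ hqN w + (p : ℤ) • y' := by
  obtain ⟨C', D', h⟩ := dual_ihara hqN hp hp2 l0 hl0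
  have h1 := LinearMap.congr_fun h (x, y)
  rw [LinearMap.prodMap_apply, LinearMap.add_apply, LinearMap.comp_apply, LinearMap.smul_apply,
    eisE_apply, eisE_apply] at h1
  refine ⟨C' (x, y), (D' (x, y)).1, (D' (x, y)).2, ?_, ?_⟩
  · exact congrArg Prod.fst h1
  · exact congrArg Prod.snd h1

/-- **base change**: over any commutative ring `O` with `ϖ ∣ p`, the image of `(E × E) ⊗ O` lies
in `range (β ⊗ O) + ϖ · (…)`. -/
theorem dual_ihara_baseChange (hqN : ¬ q ∣ N) {p : ℕ} (hp : p.Prime) (hp2 : p ≠ 2)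
    (l0 : Nat.Primes) (hl0 : ¬ (l0 : ℕ) ∣ N)
    (O : Type*) [CommRing O] (ϖ : O) (hpϖ : ∃ c : O, (p : O) = ϖ * c)
    (z : O ⊗[ℤ] (Lam N × Lam N)) :
    ∃ (w : O ⊗[ℤ] Lam (N * q)) (z' : O ⊗[ℤ] (Lam N × Lam N)),
      ((eisE N l0).prodMap (eisE N l0)).baseChange O z
        = (betaP ℤ hqN).toIntLinearMap.baseChange O w + ϖ • z' := by
  obtain ⟨C', D', h⟩ := dual_ihara hqN hp hp2 l0 hl0
  exact baseChange_of_dual_factor _ _ C' D' p h O ϖ hpϖ z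

end Concrete

end Fermat.Agent.GE8.RaiseP.DualIhara
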