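/-
GATE-E / RISK-4 R4-G, leaf (g0-a), ADAPTER (helper4): `Hf0Hom.surjective_prod_of_coe` at helper15's
FIXED base maps `G1/PairBase.f1`, `f2` (the `f₁ f₂` of `BaseB.NewSide` in the instance):

* **`surjective_f1_f2`** : `Function.Surjective ((f1 …).prod (f2 …))` — the binder `hf0` of
  `BaseB.NewSide` / `WireNew` / `NodeNew` VERBATIM for `MF := baseF O pr' hpr' p M lam'`,
  `P0 := baseG O pr' hpr' M lam'`;
* `surjective_f1_f2_of_ne` : the same with the non-Eisenstein hypothesis in the form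
  `lam' (X s₀) ≠ algebraMap O κ (pr' s₀ + 1)`;
* `mem_ker_f1_f2_iff` : `ker (f1, f2)` is the `p`-new part (helper41's `pNewSub`).
-/
import Mathlib
import Fermat.Agent.GE8.RaiseP.Hf0Hom
import Fermat.Agent.GE8.RaiseP.G1.PairBase

set_option autoImplicit false
set_option linter.unusedSectionVars false
set_option linter.style.haveILetI false

open scoped MatrixGroups
open CongruenceSubgroup

namespace Fermat.Agent.GE8.RaiseP.Hf0Pair

open MvPolynomial
open Fermat.Agent.GM.B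
open Fermat.Agent.GB.B8.LevelStage Fermat.Agent.GB.B8.LevelGen Fermat.Agent.GB.B8.LevelIter
open Fermat.Agent.GE8.RaiseP.DegCommGen Fermat.Agent.GE8.RaiseP.Hf0Hom
open Fermat.Agent.GE8.RaiseP.G1.PairBase

section Pair

variable {O : Type} [CommRing O] {σ' : Type} (pr' : σ' → ℕ) (hpr' : ∀ s, (pr' s).Prime)
  (p : ℕ) [Fact p.Prime] (hp' : ∀ s, pr' s ≠ p) (M : ℕ) (hpM : ¬ p ∣ M)
  {κ : Type} [Field κ] [Algebra O κ] (lam' : MvPolynomial σ' O →ₐ[O] κ)

theorem coe_f1_eq (x : baseF O pr' hpr' p M lam') :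
    ((f1 O pr' hpr' p hp' M hpM lam' x : baseG O pr' hpr' M lam') : Additive (Gamma0 M) →+ O)
      = coresAtLin O (rfl : M * p = M * p) hpM (x : Additive (Gamma0 (M * p)) →+ O) := by
  rw [coe_f1, coresAtLin_apply, coresAt_rfl]

theorem coe_f2_eq (x : baseF O pr' hpr' p M lam') :
    ((f2 O pr' hpr' p hp' M hpM lam' x : baseG O pr' hpr' M lam') : Additive (Gamma0 M) →+ O)
      = coresDAtLin O (rfl : M * p = M * p) hpM (x : Additive (Gamma0 (M * p)) →+ O) := by
  rw [coe_f2, coresDAtLin_apply, coresDAt_rfl]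

/-- the kernel of helper15's fixed pair is the `p`-new part of the primary part -/
theorem mem_ker_f1_f2_iff (x : baseF O pr' hpr' p M lam') :
    x ∈ LinearMap.ker ((f1 O pr' hpr' p hp' M hpM lam').prod (f2 O pr' hpr' p hp' M hpM lam'))
      ↔ (x : Additive (Gamma0 (M * p)) →+ O)
          ∈ Fermat.Agent.GE8.RaiseP.DegComm.pNewSub p O O (M * p) := by
  rw [pNewSub_eq_at (rfl : M * p = M * p) hpM, Submodule.mem_inf, LinearMap.mem_ker,
    LinearMap.mem_ker, LinearMap.mem_ker, ← coe_f1_eq pr' hpr' p hp' M hpM lam',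
    ← coe_f2_eq pr' hpr' p hp' M hpM lam', Submodule.coe_eq_zero, Submodule.coe_eq_zero]
  exact Prod.mk_eq_zero

variable [IsLocalRing O] [IsNoetherianRing O] [IsAdicComplete (IsLocalRing.maximalIdeal O) O]
  [IsDomain O] [CharZero O] [NeZero M]

/-- **`hf0` at helper15's fixed base maps** (`G1/PairBase.f1`, `f2`): the dual of Ihara's lemma at
`p` on the `ker lam'`-primary parts. -/
theorem surjective_f1_f2 (hsurj : Function.Surjective (algebraMap O κ)) (hp2 : p ≠ 2)
    (hpO : (p : O) ∈ IsLocalRing.maximalIdeal O) (hM : Squarefree M)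
    (s₀ : σ') (hs₀M : ¬ pr' s₀ ∣ M)
    (hτ : (X s₀ - C (((pr' s₀ + 1 : ℕ) : O)) : MvPolynomial σ' O)
      ∉ RingHom.ker (lam' : MvPolynomial σ' O →+* κ)) :
    Function.Surjective
      ((f1 O pr' hpr' p hp' M hpM lam').prod (f2 O pr' hpr' p hp' M hpM lam')) := by
  haveI : (RingHom.ker (lam' : MvPolynomial σ' O →+* κ)).IsMaximal := by
    refine RingHom.ker_isMaximal_of_surjective _ fun x => ?_
    obtain ⟨c, rfl⟩ := hsurj x
    exact ⟨C c, by
      show lam' (C c) = algebraMap O κ c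
      rw [← MvPolynomial.algebraMap_eq, AlgHom.commutes]⟩
  exact surjective_prod_of_coe pr' hpr' (rfl : M * p = M * p) hpM hp2 hpO hM hp'
    (RingHom.ker (lam' : MvPolynomial σ' O →+* κ)) s₀ hs₀M hτ _ _
    (coe_f1_eq pr' hpr' p hp' M hpM lam') (coe_f2_eq pr' hpr' p hp' M hpM lam')

/-- the same with the non-Eisenstein hypothesis on the eigenvalue. -/
theorem surjective_f1_f2_of_ne (hsurj : Function.Surjective (algebraMap O κ)) (hp2 : p ≠ 2)
    (hpO : (p : O) ∈ IsLocalRing.maximalIdeal O) (hM : Squarefree M)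
    (s₀ : σ') (hs₀M : ¬ pr' s₀ ∣ M)
    (hτ : lam' (X s₀) ≠ algebraMap O κ (((pr' s₀ + 1 : ℕ) : O))) :
    Function.Surjective
      ((f1 O pr' hpr' p hp' M hpM lam').prod (f2 O pr' hpr' p hp' M hpM lam')) := by
  refine surjective_f1_f2 pr' hpr' p hp' M hpM lam' hsurj hp2 hpO hM s₀ hs₀M fun hmem => hτ ?_
  rw [RingHom.mem_ker] at hmem
  have h1 : lam' (X s₀ - C (((pr' s₀ + 1 : ℕ) : O)) : MvPolynomial σ' O) = 0 := hmem
  rw [map_sub, sub_eq_zero] at h1
  rw [h1, ← MvPolynomial.algebraMap_eq, AlgHom.commutes]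

end Pair

end Fermat.Agent.GE8.RaiseP.Hf0Pair
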