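/-
GATE-E / RISK-4 R4-G, leaf (g0-a) AT A BUNDLE (helper4): `Hf0Pair.surjective_f1_f2` with every binder
discharged from `P : Pkg … (M * p) A` — the `hf0` of `BaseB.NewSide` / `WireNew` / `NodeNew` /
`BaseSOb` at the objects of record of the SO(b) base:

  `σ' := I0 W p (M * p)`, `pr' := pr0 W p (M * p)`, `lam' := lam0 P`, `𝔪 := ker (lam0 P)`,
  `MF := baseF P.O … p M (lam0 P) = Mbase P`, `P0 := baseG P.O … M (lam0 P)`,
  `f₁ := PairBase.f1 …`, `f₂ := PairBase.f2 …`.

* `pr0_ne_p` : no good symbol of `P` is `p`;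
* **`surjective_f1_f2_pkg`** : `Function.Surjective ((f1 …).prod (f2 …))` from `¬ p ∣ M` and
  `Squarefree (M * p)` ALONE (the non-Eisenstein symbol is `P.exists_nonEis`, `p ≠ 2`, `p ∈ 𝔪_O`,
  characteristic `0` and completeness are fields of `P`).
-/
import Mathlib
import Fermat.Agent.GE8.RaiseP.Hf0Pair
import Fermat.Agent.GE6.Inst.FreeLevelInst

set_option autoImplicit false
set_option linter.unusedSectionVars false
set_option linter.style.haveILetI false

open scoped MatrixGroups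
open CongruenceSubgroup

namespace Fermat.Agent.GE8.RaiseP.Hf0Pkg

open MvPolynomial IsLocalRing Function
open WeierstrassCurve WeierstrassCurve.Affine.Point
open Fermat.Agent.GB.Setup.SetupPkg
open Fermat.Agent.GE6.Inst.FreeLevelInst
open Fermat.Agent.GE8.RaiseP.G1.PairBase Fermat.Agent.GE8.RaiseP.Hf0Pair

variable {p : ℕ} [hpF : Fact p.Prime] {W : WeierstrassCurve ℤ}
  {hcard₁ : Nat.card (Submodule.torsionBy ℤ
    ((W.map (Int.castRingHom ℚ)).toAffine.baseChange (AlgebraicClosure ℚ)).Point p) = p ^ 2}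
  {hker : GaloisFactorsThroughFiniteLevel
    (WeierstrassCurve.Affine.Point.galoisRepModuleEnd (K := AlgebraicClosure ℚ) ℚ
      (W.map (Int.castRingHom ℚ)) p)}

/-- no good symbol is `p` -/
theorem pr0_ne_p (N : ℕ) (s : I0 W p N) : pr0 W p N s ≠ p := s.2.2.2.2

variable {M A : ℕ} (P : Pkg p W hcard₁ hker (M * p) A) [NeZero M]

/-- **`hf0` at a bundle of level `M p`**: helper15's fixed pair `(f1, f2) = (cores_p, cores_{p,δ})`
between the `ker (lam0 P)`-primary parts of `Hom(Γ₀(M p), O)` and `Hom(Γ₀(M), O)` is onto. -/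
theorem surjective_f1_f2_pkg (hpM : ¬ p ∣ M) (hsq : Squarefree (M * p)) :
    Function.Surjective
      ((f1 P.O (pr0 W p (M * p)) (pr0_prime W p (M * p)) p (pr0_ne_p (M * p)) M hpM (lam0 P)).prod
        (f2 P.O (pr0 W p (M * p)) (pr0_prime W p (M * p)) p (pr0_ne_p (M * p)) M hpM (lam0 P))) := by
  obtain ⟨ℓ, hℓ, -, hgood, hℓM, hℓp, hne⟩ := P.exists_nonEis ∅
  let s₀ : I0 W p (M * p) := ⟨ℓ, hℓ, hgood, hℓM, hℓp⟩
  have hs₀M : ¬ pr0 W p (M * p) s₀ ∣ M := fun h => hℓM (Dvd.dvd.mul_right h p)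
  have hsurj : Function.Surjective (algebraMap P.O P.k) := IsLocalRing.residue_surjective
  have hM : Squarefree M := Squarefree.of_mul_left hsq
  refine surjective_f1_f2_of_ne (pr0 W p (M * p)) (pr0_prime W p (M * p)) p (pr0_ne_p (M * p)) M
    hpM (lam0 P) hsurj P.hp2 P.hpO hM s₀ hs₀M ?_
  rw [lam0_X]
  intro h
  apply hne
  rw [h]
  show algebraMap P.O P.k (((ℓ + 1 : ℕ) : P.O)) = _
  rw [map_natCast]
  push_cast
  rfl

end Fermat.Agent.GE8.RaiseP.Hf0Pkg
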