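/-
GATE-E (S59 pre-work) / node E8.5 RAISE-P, CORE (helper80; claims row GE8-5-RAISEP-CORE).

**Ribet's level raising at an arbitrary prime `q' ∤ N`, INCLUDING `q' = p`.**

The frozen statement S41 carries the hypothesis `hq'p : q' ≠ p`, but its proof on main
(`Fermat/Agent/S41.lean` = `GM/End/Plug.S41_of_remaining_leaves` + the four leaves CSP/Ihara,
`α`/`β` on lattices, `U_q²`, the `D`-package) never uses it: only `hq'N : ¬ q' ∣ N` enters.  So the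
same proof term gives

* `exists_newAt_congruentEigenform` : S41 VERBATIM with `hq'p` deleted;
* `exists_pNew_congruentEigenform`  : the case `q' := p` — a normalized eigenform `f` of level `N`,
  `p ∤ N`, congruent to `W` modulo `𝔪 ∣ p`, with `a_p(f)² ≡ 1 (mod 𝔪)` is congruent to a normalized
  eigenform `g` of level `N p` which is NEW at `p` (the level-raising congruence
  `a_p² ≡ (p + 1)²` reads `a_p² ≡ 1` because `p ∈ 𝔪`).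
-/
import Fermat.Agent.S41

set_option autoImplicit false
open WeierstrassCurve WeierstrassCurve.Affine WeierstrassCurve.Affine.Point
open scoped CongruenceSubgroup
open WeierstrassCurve

namespace Fermat.Agent.GE8.RaiseP

/-- **Level raising at any prime `q' ∤ N`** (`q' = p` allowed): frozen S41 without `q' ≠ p`. -/
theorem exists_newAt_congruentEigenform
    (E : WeierstrassCurve ℚ) [E.IsElliptic] {W : WeierstrassCurve ℤ} (hW : W.IsIntegralModelOf E)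
    {p N q' : ℕ} (hp : p.Prime) (hp2 : p ≠ 2) (hN : 0 < N) (hq' : q'.Prime) (hq'N : ¬ q' ∣ N)
    (hirr : GaloisRepIsIrreducible (K := AlgebraicClosure ℚ) ℚ E p)
    (f : CuspForm (CongruenceSubgroup.Gamma0 N) 2) (𝔪 : Ideal (integralClosure ℤ ℂ))
    (hf : f.IsNormalizedEigenform) (hmax : 𝔪.IsMaximal) (hpm : (p : integralClosure ℤ ℂ) ∈ 𝔪)
    (hcong : ∀ ℓ : ℕ, ℓ.Prime → W.IsGoodPrimeFor ℓ → ¬ ℓ ∣ N → ℓ ≠ p →
      ∃ a : integralClosure ℤ ℂ, (a : ℂ) = ModularFormClass.qCoeff f ℓ ∧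
        a - ((W.apOfModel ℓ : ℤ) : integralClosure ℤ ℂ) ∈ 𝔪)
    (hLR : ∃ a : integralClosure ℤ ℂ, (a : ℂ) = ModularFormClass.qCoeff f q' ∧
      a ^ 2 - ((q' : integralClosure ℤ ℂ) + 1) ^ 2 ∈ 𝔪) :
    ∃ (g : CuspForm (CongruenceSubgroup.Gamma0 (N * q')) 2) (𝔪' : Ideal (integralClosure ℤ ℂ)),
      g.IsNormalizedEigenform ∧ 𝔪'.IsMaximal ∧ (p : integralClosure ℤ ℂ) ∈ 𝔪' ∧
      (∀ ℓ : ℕ, ℓ.Prime → W.IsGoodPrimeFor ℓ → ¬ ℓ ∣ N * q' → ℓ ≠ p →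
        ∃ a : integralClosure ℤ ℂ, (a : ℂ) = ModularFormClass.qCoeff g ℓ ∧
          a - ((W.apOfModel ℓ : ℤ) : integralClosure ℤ ℂ) ∈ 𝔪') ∧
      g.IsNewAt q' := by
  have : Fact q'.Prime := ⟨hq'⟩
  have : NeZero N := ⟨hN.ne'⟩
  have : NeZero (N * q') := ⟨Nat.mul_ne_zero hN.ne' hq'.ne_zero⟩
  exact Fermat.Agent.GM.End.S41_of_remaining_leaves E hW hp hp2 hq'N hirr f 𝔪 hf hmax hpm hcong hLR
    (Fermat.Agent.GM.CSP.Main.cspStmt hp hp2 hN hq'N)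
    (Fermat.Agent.GM.B5.alphaP_latT hq'N)
    (Fermat.Agent.GM.B5.betaP_latT hq'N)
    (fun z hz => Fermat.Agent.GM.B5.latT_latT_eq_of_betaP_eq_zero hq'N (Fact.out : q'.Prime) z hz)
    (Fermat.Agent.GM.Theta.Outer.dPackage_full p hq'N)

/-- **(RAISE-P), core**: level raising AT `p`.  The congruence `a_p² ≡ (p + 1)²` is `a_p² ≡ 1`
modulo `𝔪 ∣ p`. -/
theorem exists_pNew_congruentEigenform
    (E : WeierstrassCurve ℚ) [E.IsElliptic] {W : WeierstrassCurve ℤ} (hW : W.IsIntegralModelOf E)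
    {p N : ℕ} (hp : p.Prime) (hp2 : p ≠ 2) (hN : 0 < N) (hpN : ¬ p ∣ N)
    (hirr : GaloisRepIsIrreducible (K := AlgebraicClosure ℚ) ℚ E p)
    (f : CuspForm (CongruenceSubgroup.Gamma0 N) 2) (𝔪 : Ideal (integralClosure ℤ ℂ))
    (hf : f.IsNormalizedEigenform) (hmax : 𝔪.IsMaximal) (hpm : (p : integralClosure ℤ ℂ) ∈ 𝔪)
    (hcong : ∀ ℓ : ℕ, ℓ.Prime → W.IsGoodPrimeFor ℓ → ¬ ℓ ∣ N → ℓ ≠ p →
      ∃ a : integralClosure ℤ ℂ, (a : ℂ) = ModularFormClass.qCoeff f ℓ ∧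
        a - ((W.apOfModel ℓ : ℤ) : integralClosure ℤ ℂ) ∈ 𝔪)
    (hap : ∃ a : integralClosure ℤ ℂ, (a : ℂ) = ModularFormClass.qCoeff f p ∧ a ^ 2 - 1 ∈ 𝔪) :
    ∃ (g : CuspForm (CongruenceSubgroup.Gamma0 (N * p)) 2) (𝔪' : Ideal (integralClosure ℤ ℂ)),
      g.IsNormalizedEigenform ∧ 𝔪'.IsMaximal ∧ (p : integralClosure ℤ ℂ) ∈ 𝔪' ∧
      (∀ ℓ : ℕ, ℓ.Prime → W.IsGoodPrimeFor ℓ → ¬ ℓ ∣ N * p → ℓ ≠ p →
        ∃ a : integralClosure ℤ ℂ, (a : ℂ) = ModularFormClass.qCoeff g ℓ ∧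
          a - ((W.apOfModel ℓ : ℤ) : integralClosure ℤ ℂ) ∈ 𝔪') ∧
      g.IsNewAt p := by
  refine exists_newAt_congruentEigenform E hW hp hp2 hN hp hpN hirr f 𝔪 hf hmax hpm hcong ?_
  obtain ⟨a, ha, ha2⟩ := hap
  refine ⟨a, ha, ?_⟩
  -- `a² - (p + 1)² = (a² - 1) - p (p + 2)`
  have h1 : a ^ 2 - ((p : integralClosure ℤ ℂ) + 1) ^ 2 =
      (a ^ 2 - 1) - (p : integralClosure ℤ ℂ) * ((p : integralClosure ℤ ℂ) + 2) := by ring
  rw [h1]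
  exact 𝔪.sub_mem ha2 (𝔪.mul_mem_right _ hpm)

/-- **(RAISE-P), core, in the `W`-vocabulary of frozen S38/S39/S59**: `W : WeierstrassCurve ℤ` with
`Δ ≠ 0` and `ρ̄_{W,p}` irreducible; `f` a normalized eigenform of level `N`, `p ∤ N`, congruent to
`W` modulo `𝔪 ∣ p` (the body of `W.IsResiduallyModularOfLevel p N`) with `a_p(f)² ≡ 1 (mod 𝔪)`.
Then `W` is residually modular of level `N p` through a form `g` that is NEW at `p`
(`a_p(g)² = 1`). -/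
theorem exists_pNew_of_model (W : WeierstrassCurve ℤ) (hΔ : W.Δ ≠ 0)
    {p N : ℕ} (hp : p.Prime) (hp2 : p ≠ 2) (hN : 0 < N) (hpN : ¬ p ∣ N)
    (hirr : W.ModRepIsIrreducible p)
    (f : CuspForm (CongruenceSubgroup.Gamma0 N) 2) (𝔪 : Ideal (integralClosure ℤ ℂ))
    (hf : f.IsNormalizedEigenform) (hmax : 𝔪.IsMaximal) (hpm : (p : integralClosure ℤ ℂ) ∈ 𝔪)
    (hcong : ∀ ℓ : ℕ, ℓ.Prime → W.IsGoodPrimeFor ℓ → ¬ ℓ ∣ N → ℓ ≠ p →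
      ∃ a : integralClosure ℤ ℂ, (a : ℂ) = ModularFormClass.qCoeff f ℓ ∧
        a - ((W.apOfModel ℓ : ℤ) : integralClosure ℤ ℂ) ∈ 𝔪)
    (hap : ∃ a : integralClosure ℤ ℂ, (a : ℂ) = ModularFormClass.qCoeff f p ∧ a ^ 2 - 1 ∈ 𝔪) :
    ∃ (g : CuspForm (CongruenceSubgroup.Gamma0 (N * p)) 2) (𝔪' : Ideal (integralClosure ℤ ℂ)),
      g.IsNormalizedEigenform ∧ 𝔪'.IsMaximal ∧ (p : integralClosure ℤ ℂ) ∈ 𝔪' ∧
      (∀ ℓ : ℕ, ℓ.Prime → W.IsGoodPrimeFor ℓ → ¬ ℓ ∣ N * p → ℓ ≠ p →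
        ∃ a : integralClosure ℤ ℂ, (a : ℂ) = ModularFormClass.qCoeff g ℓ ∧
          a - ((W.apOfModel ℓ : ℤ) : integralClosure ℤ ℂ) ∈ 𝔪') ∧
      g.IsNewAt p := by
  have hEΔ : (W.map (Int.castRingHom ℚ)).Δ ≠ 0 := by
    rw [WeierstrassCurve.map_Δ]
    simpa using hΔ
  have : (W.map (Int.castRingHom ℚ)).IsElliptic := ⟨isUnit_iff_ne_zero.mpr hEΔ⟩
  have hW : W.IsIntegralModelOf (W.map (Int.castRingHom ℚ)) := ⟨1, one_smul _ _⟩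
  exact exists_pNew_congruentEigenform (W.map (Int.castRingHom ℚ)) hW hp hp2 hN hpN hirr f 𝔪 hf hmax
    hpm hcong hap

/-- The same, packaged: the conclusion contains `W.IsResiduallyModularOfLevel p (N * p)`. -/
theorem isResiduallyModularOfLevel_mul_of_model (W : WeierstrassCurve ℤ) (hΔ : W.Δ ≠ 0)
    {p N : ℕ} (hp : p.Prime) (hp2 : p ≠ 2) (hN : 0 < N) (hpN : ¬ p ∣ N)
    (hirr : W.ModRepIsIrreducible p)
    (f : CuspForm (CongruenceSubgroup.Gamma0 N) 2) (𝔪 : Ideal (integralClosure ℤ ℂ))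
    (hf : f.IsNormalizedEigenform) (hmax : 𝔪.IsMaximal) (hpm : (p : integralClosure ℤ ℂ) ∈ 𝔪)
    (hcong : ∀ ℓ : ℕ, ℓ.Prime → W.IsGoodPrimeFor ℓ → ¬ ℓ ∣ N → ℓ ≠ p →
      ∃ a : integralClosure ℤ ℂ, (a : ℂ) = ModularFormClass.qCoeff f ℓ ∧
        a - ((W.apOfModel ℓ : ℤ) : integralClosure ℤ ℂ) ∈ 𝔪)
    (hap : ∃ a : integralClosure ℤ ℂ, (a : ℂ) = ModularFormClass.qCoeff f p ∧ a ^ 2 - 1 ∈ 𝔪) :
    W.IsResiduallyModularOfLevel p (N * p) := by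
  obtain ⟨g, 𝔪', hg, hmax', hpm', hcong', -⟩ :=
    exists_pNew_of_model W hΔ hp hp2 hN hpN hirr f 𝔪 hf hmax hpm hcong hap
  exact ⟨g, 𝔪', hg, hmax', hpm', hcong'⟩

end Fermat.Agent.GE8.RaiseP
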