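/-
GATE-E (S59 pre-work) / node E8.5 RAISE-P, the PLUG (helper80; claims row GE8-5-RAISEP-PLUG).

* `raisePCoreStmt p : Stmt.RaisePCoreStmt p`            — `Core.exists_pNew_of_model`;
* `ClaimStmt p`                                          — helper25's CLAIM (board 6853;
  `Deligne/Main.lean`): for `W` multiplicative at `p`, `ρ̄_{W,p}` irreducible, `p ∤ N`
  (`p = 3 → 2 ∣ N`), residually modular of level `N`: there is a finite set `S ∋ p` of primes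
  containing the primes of `N` and of `Δ_W` such that `T_p = kumTl N p _ hpN` acts on
  `eigQ N p S hNS a_W ⊆ Kum_p(F_N)` as a scalar `ε` with `ε² = 1`;
* `deligneModPStmt_of_claim : ClaimStmt p → Stmt.DeligneModPStmt p`  (`Deligne/Eigen.hap_of_claim`);
* `raisePStmt_of_claim      : ClaimStmt p → Stmt.RaisePStmt p`.
-/
import Fermat.Agent.GE8.RaiseP.Core
import Fermat.Agent.GE8.RaiseP.Stmt
import Fermat.Agent.GE8.RaiseP.Deligne.Eigen

set_option autoImplicit false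

namespace Fermat.Agent.GE8.RaiseP.Plug

open WeierstrassCurve CuspForm
open Fermat.Agent.GE8.RaiseP.Stmt
open Fermat.Agent.GB.A.A6.EigQ Fermat.Agent.GK.UQ

/-- `ℤ̄ ⊆ ℂ`. -/
local notation "Zbar" => integralClosure ℤ ℂ

/-- **RAISE-P, core, is a theorem.** -/
theorem raisePCoreStmt (p : ℕ) : RaisePCoreStmt p := by
  intro W hΔ N hp hp2 hN hpN hirr f 𝔪 hf hmax hpm hcong hap
  exact Fermat.Agent.GE8.RaiseP.exists_pNew_of_model W hΔ hp hp2 hN hpN hirr f 𝔪 hf hmax hpm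
    hcong hap

/-- **helper25's CLAIM** (`Deligne/Main.lean`), as a `Prop`. -/
def ClaimStmt (p : ℕ) [Fact p.Prime] : Prop :=
  ∀ (W : WeierstrassCurve ℤ), W.Δ ≠ 0 → (p : ℤ) ∣ W.Δ → ¬ (p : ℤ) ∣ W.c₄ →
    W.ModRepIsIrreducible p →
    ∀ (N : ℕ) [NeZero N] (hpN : ¬ p ∣ N), (p = 3 → 2 ∣ N) →
    W.IsResiduallyModularOfLevel p N →
    ∃ (S : Finset ℕ) (hNS : ∀ q : ℕ, q.Prime → q ∣ N → q ∈ S), p ∈ S ∧
      (∀ ℓ : ℕ, ℓ.Prime → (ℓ : ℤ) ∣ W.Δ → ℓ ∈ S) ∧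
      ∃ ε : ZMod p, ε ^ 2 = 1 ∧
        ∀ z ∈ eigQ N p S hNS (fun ℓ => W.apOfModel ℓ),
          kumTl N p (Fact.out : p.Prime) hpN z = ε • z

/-- **(i) DELIGNE-MODP from the CLAIM.** -/
theorem deligneModPStmt_of_claim {p : ℕ} [Fact p.Prime] (hC : ClaimStmt p) :
    DeligneModPStmt p := by
  intro W hΔ hpΔ hc₄ hirr N hN hpN hside f 𝔪 hf hmax hpm hcong
  have : NeZero N := ⟨hN.ne'⟩
  obtain ⟨S, hNS, hpS, hΔS, ε, hε, hclaim⟩ :=
    hC W hΔ hpΔ hc₄ hirr N hpN hside ⟨f, 𝔪, hf, hmax, hpm, hcong⟩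
  exact Fermat.Agent.GE8.RaiseP.Deligne.Eigen.hap_of_claim W (Fact.out : p.Prime) hpN S hNS hpS
    hΔS ε hε hclaim f 𝔪 hf hmax hpm hcong

/-- **RAISE-P from the CLAIM.** -/
theorem raisePStmt_of_claim {p : ℕ} [Fact p.Prime] (hp2 : p ≠ 2) (hC : ClaimStmt p) :
    RaisePStmt p :=
  raisePStmt_of_core_of_deligne (Fact.out : p.Prime) hp2 (raisePCoreStmt p)
    (deligneModPStmt_of_claim hC)

end Fermat.Agent.GE8.RaiseP.Plug
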