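/-
GATE-E / RISK-4 R4-H, leaf PNEW-POINT (N3) (helper33): **the residual eigensystem of `W` is
supported on the `p`-new lattice, in the frozen vocabulary.**

helper35's `GE9/PNew/Point/AnnNew.ann_lamNew_le_of_model` (the fact `hALG` inside the proof of S41)
speaks about polynomials `s : GoodHecke M p` in the good Hecke symbols acting through `actL`, and
about the maximal ideal `𝔪.comap (thetaOf hf)` of the free Hecke ring.  Here it is transported to
the anemic Hecke algebra `heckeAlgebra (M * p) 2 S` acting through `latAct`, and to ANY residual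
character `θ` with `θ (T_ℓ) = a_ℓ(W)`:

* `theta_eq_zero_of_kills_lamNew` : `S ⊇ primes (M p)`, every prime `ℓ ∉ S` good for `W`, `k` a
  ring with `p = 0`, `θ : heckeAlgebra (M * p) 2 S →+* k` with `θ (T_ℓ) = a_ℓ(W)`; then every
  `t : heckeAlgebra (M * p) 2 S` with `latAct t = 0` on `LamNew hpM` has `θ t = 0`
  (helper32's `hsupp`, board 7818, for `θ := P₀.theta`, `S := ↑P₀.S0`).

Proof: adjoin induction writes `t` as a good polynomial `s` (`latAct t = actL (goodIncl s)`,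
`θ t = n mod p`, `goodIncl s − C n ∈ 𝔪A`); `s` kills `LamNew`, so `goodIncl s ∈ 𝔪A`, hence
`C n ∈ 𝔪A`; `𝔪A` is proper and contains `p`, so `p ∣ n`.
-/
import Fermat.Agent.GE9.PNew.Point.AnnNew
import Fermat.Agent.GJ.J2.LatAct

set_option autoImplicit false
set_option linter.unusedSectionVars false
set_option linter.unusedVariables false

open scoped MatrixGroups
open CongruenceSubgroup ModularCurve ModularCurve.Period CuspForm ModularFormClass

namespace Fermat.Agent.GE8.RaiseP.NewSupp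

open Fermat.Agent.GJ.J2.Lat Fermat.Agent.GJ.J2.LatAct Fermat.Agent.GM.End
open Fermat.Agent.GB.B10.L.ThetaNew Fermat.Agent.GE9.PNew.Point.AnnNew

variable {p M : ℕ} [hpF : Fact p.Prime] [NeZero M]

/-- the instance `NeZero (M * p)` (local). -/
local instance neZero_mul_newSupp : NeZero (M * p) :=
  ⟨Nat.mul_ne_zero (NeZero.ne M) (Fact.out : p.Prime).ne_zero⟩

/-- **(N3) PNEW-POINT, support of `θ̄` on the `p`-new lattice, frozen vocabulary.** -/
theorem theta_eq_zero_of_kills_lamNew (W : WeierstrassCurve ℤ) (hΔ : W.Δ ≠ 0) (hp2 : p ≠ 2)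
    (hpM : ¬ p ∣ M) (hirr : W.ModRepIsIrreducible p)
    (f : CuspForm (CongruenceSubgroup.Gamma0 M) 2) (𝔪 : Ideal (integralClosure ℤ ℂ))
    (hf : f.IsNormalizedEigenform) (hmax : 𝔪.IsMaximal) (hpm : (p : integralClosure ℤ ℂ) ∈ 𝔪)
    (hcong : ∀ ℓ : ℕ, ℓ.Prime → W.IsGoodPrimeFor ℓ → ¬ ℓ ∣ M → ℓ ≠ p →
      ∃ a : integralClosure ℤ ℂ, (a : ℂ) = ModularFormClass.qCoeff f ℓ ∧
        a - ((W.apOfModel ℓ : ℤ) : integralClosure ℤ ℂ) ∈ 𝔪)
    (hap : ∃ a : integralClosure ℤ ℂ, (a : ℂ) = ModularFormClass.qCoeff f p ∧ a ^ 2 - 1 ∈ 𝔪)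
    (S : Set ℕ) (hNS : ∀ q : ℕ, q.Prime → q ∣ M * p → q ∈ S)
    (hgood : ∀ ℓ : ℕ, ℓ.Prime → ℓ ∉ S → W.IsGoodPrimeFor ℓ)
    {k : Type*} [CommRing k] (hpk : (p : k) = 0)
    (θ : heckeAlgebra (M * p) 2 S →+* k)
    (hθ : ∀ (ℓ : ℕ) (hℓ : ℓ.Prime) (hℓN : ¬ ℓ ∣ M * p) (hℓS : ℓ ∉ S),
      θ (heckeAlgebra.T hℓ hℓN hℓS) = ((W.apOfModel ℓ : ℤ) : k))
    (t : heckeAlgebra (M * p) 2 S)
    (ht : ∀ x ∈ LamNew hpM, latAct (M * p) S t x = 0) : θ t = 0 := by
  classical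
  have hp : p.Prime := hpF.out
  obtain ⟨h1, h2, h3, h4⟩ := ann_lamNew_le_of_model W hΔ hp2 hpM hirr f 𝔪 hf hmax hpm hcong hap
  -- every element of the Hecke algebra is a good polynomial
  have key : ∀ (x : Module.End ℂ (CuspForm (CongruenceSubgroup.Gamma0 (M * p)) 2))
      (hx : x ∈ heckeAlgebra (M * p) 2 S),
      ∃ (s : GoodHecke M p) (n : ℤ),
        (∀ z : Lam (M * p), latAct (M * p) S ⟨x, hx⟩ z = actL (M * p) (goodIncl M p s) z) ∧
        θ ⟨x, hx⟩ = (n : k) ∧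
        goodIncl M p s - MvPolynomial.C n ∈ 𝔪.comap (thetaOf hf) := by
    intro x hx
    induction hx using Algebra.adjoin_induction with
    | mem x hx =>
      rcases hx with ⟨ℓ, hℓ, hℓN, hℓS, rfl⟩ | ⟨q, hqN, hq, hqS, rfl⟩
      · have hℓM : ¬ ℓ ∣ M := fun h => hℓN (h.mul_right p)
        have hℓp : ℓ ≠ p := fun h => hℓN (h ▸ Dvd.intro_left M rfl)
        refine ⟨MvPolynomial.X ⟨⟨ℓ, hℓ⟩, hℓN⟩, W.apOfModel ℓ, fun z => ?_, ?_, ?_⟩
        · rw [goodIncl_X, actL_heckeGen]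
          show latAct (M * p) S (heckeAlgebra.T hℓ hℓN hℓS) z = _
          rw [latAct_T (M * p) S hℓ hℓN hℓS]
        · exact hθ ℓ hℓ hℓN hℓS
        · rw [goodIncl_X]
          exact h4 ℓ hℓ (hgood ℓ hℓ hℓS) hℓM hℓp
      · exact absurd (hNS q hq hqN) hqS
    | algebraMap r =>
      have e : (⟨algebraMap ℤ _ r, Subalgebra.algebraMap_mem _ r⟩ : heckeAlgebra (M * p) 2 S) =
          ((r : ℤ) : heckeAlgebra (M * p) 2 S) := by
        rw [← eq_intCast (algebraMap ℤ (heckeAlgebra (M * p) 2 S)) r]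
        rfl
      refine ⟨MvPolynomial.C r, r, fun z => ?_, ?_, ?_⟩
      · rw [goodIncl_C, actL_C, e, map_intCast, Module.End.intCast_apply]
      · rw [e, map_intCast]
      · rw [goodIncl_C, sub_self]
        exact Ideal.zero_mem _
    | add x y hx hy ihx ihy =>
      obtain ⟨s₁, n₁, ha₁, hb₁, hc₁⟩ := ihx
      obtain ⟨s₂, n₂, ha₂, hb₂, hc₂⟩ := ihy
      have e : (⟨x + y, Subalgebra.add_mem _ hx hy⟩ : heckeAlgebra (M * p) 2 S) =
          ⟨x, hx⟩ + ⟨y, hy⟩ := rfl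
      refine ⟨s₁ + s₂, n₁ + n₂, fun z => ?_, ?_, ?_⟩
      · rw [e, map_add, LinearMap.add_apply, ha₁, ha₂, map_add, actL_add]
      · rw [e, map_add, hb₁, hb₂, Int.cast_add]
      · have h : goodIncl M p (s₁ + s₂) - MvPolynomial.C (n₁ + n₂) =
            (goodIncl M p s₁ - MvPolynomial.C n₁) + (goodIncl M p s₂ - MvPolynomial.C n₂) := by
          rw [map_add, map_add]
          ring
        rw [h]
        exact Ideal.add_mem _ hc₁ hc₂
    | mul x y hx hy ihx ihy =>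
      obtain ⟨s₁, n₁, ha₁, hb₁, hc₁⟩ := ihx
      obtain ⟨s₂, n₂, ha₂, hb₂, hc₂⟩ := ihy
      have e : (⟨x * y, Subalgebra.mul_mem _ hx hy⟩ : heckeAlgebra (M * p) 2 S) =
          ⟨x, hx⟩ * ⟨y, hy⟩ := rfl
      refine ⟨s₁ * s₂, n₁ * n₂, fun z => ?_, ?_, ?_⟩
      · rw [e, map_mul, Module.End.mul_apply, ha₁, ha₂, map_mul, actL_mul]
      · rw [e, map_mul, hb₁, hb₂, Int.cast_mul]
      · have h : goodIncl M p (s₁ * s₂) - MvPolynomial.C (n₁ * n₂) =
            (goodIncl M p s₁ - MvPolynomial.C n₁) * goodIncl M p s₂ +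
              MvPolynomial.C n₁ * (goodIncl M p s₂ - MvPolynomial.C n₂) := by
          rw [map_mul, map_mul]
          ring
        rw [h]
        exact Ideal.add_mem _ (Ideal.mul_mem_right _ _ hc₁) (Ideal.mul_mem_left _ _ hc₂)
  obtain ⟨t, htmem⟩ := t
  obtain ⟨s, n, ha, hb, hc⟩ := key t htmem
  have hs : goodIncl M p s ∈ 𝔪.comap (thetaOf hf) :=
    h1 s (fun z hz => by rw [← ha z]; exact ht z hz)
  have hCn : (MvPolynomial.C n : HeckeAlg) ∈ 𝔪.comap (thetaOf hf) := by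
    have h := Ideal.sub_mem _ hs hc
    rwa [sub_sub_cancel] at h
  have hpn : (p : ℤ) ∣ n := by
    by_contra hn
    have hcop : IsCoprime (p : ℤ) n := by
      rw [Int.isCoprime_iff_gcd_eq_one]
      have h : ¬ p ∣ n.natAbs := fun h => hn (Int.natCast_dvd.mpr h)
      have := (Nat.Prime.coprime_iff_not_dvd hp).mpr h
      simpa [Int.gcd] using this
    obtain ⟨u, v, huv⟩ := hcop
    have h1' : (MvPolynomial.C (u * (p : ℤ) + v * n) : HeckeAlg) ∈ 𝔪.comap (thetaOf hf) := by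
      rw [map_add, map_mul, map_mul]
      exact Ideal.add_mem _ (Ideal.mul_mem_left _ _ h3) (Ideal.mul_mem_left _ _ hCn)
    rw [huv, map_one] at h1'
    exact h2.ne_top ((Ideal.eq_top_iff_one _).mpr h1')
  rw [hb]
  obtain ⟨c, rfl⟩ := hpn
  rw [Int.cast_mul, Int.cast_natCast, hpk, zero_mul]

end Fermat.Agent.GE8.RaiseP.NewSupp
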