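/-
GATE-E (S59) / node E8.5 (i) RAISE-P, **the side condition `p = 3 → 2 ∣ N` removed**
(helper10, gate lead; RISK-3 = the strict-ordinary branch at `p = 3` and ODD level).

`Stmt.DeligneModPStmt p` (a theorem: `Deligne/ClaimPlug.deligneModP`) carries the frame side
condition `(p = 3 → 2 ∣ N)`.  Its conclusion `a_p(f)² ≡ 1 (mod 𝔪)` only involves the eigenvalue of
`f` at `p`, so at `p = 3` and an ODD level `N` it can be read off the `2`-stabilisation `f'` of `f`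
(`GE/Stab.exists_eigenform_of_dvd`: an eigenform of level `N · 2` with `a_ℓ(f') = a_ℓ(f)`, `ℓ ≠ 2`).
`Stmt.RaisePCoreStmt` has no side condition, hence RAISE-P holds at EVERY level prime to `p`:

* `DeligneModPNoSideStmt p`, `RaisePNoSideStmt p` : the two nodes without `(p = 3 → 2 ∣ N)`;
* `deligneModPNoSide_of_deligneModP`, **`deligneModP_noSide`**;
* `raisePNoSide_of_core_of_deligne`, **`raiseP_noSide`** : `W` multiplicative at `p` (odd),
  residually modular of ANY level `N` prime to `p` ⟹ residually modular of level `N p` through a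
  `p`-NEW form.
-/
import Mathlib
import Fermat.Agent.GE8.RaiseP.Deligne.ClaimPlug
import Fermat.Agent.GE.Stab

set_option autoImplicit false

open WeierstrassCurve CuspForm

namespace Fermat.Agent.GE8.RaiseP.NoSide

open Fermat.Agent.GE8.RaiseP.Stmt

/-- `ℤ̄ ⊆ ℂ`. -/
local notation "Zbar" => integralClosure ℤ ℂ

/-- **(i) DELIGNE-MODP without side condition.** -/
def DeligneModPNoSideStmt (p : ℕ) : Prop :=
  ∀ (W : WeierstrassCurve ℤ), W.Δ ≠ 0 → (p : ℤ) ∣ W.Δ → ¬ (p : ℤ) ∣ W.c₄ →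
    W.ModRepIsIrreducible p →
    ∀ {N : ℕ}, 0 < N → ¬ p ∣ N →
    ∀ (f : CuspForm (CongruenceSubgroup.Gamma0 N) 2) (𝔪 : Ideal Zbar),
      f.IsNormalizedEigenform → 𝔪.IsMaximal → (p : Zbar) ∈ 𝔪 →
      (∀ ℓ : ℕ, ℓ.Prime → W.IsGoodPrimeFor ℓ → ¬ ℓ ∣ N → ℓ ≠ p →
        ∃ a : Zbar, (a : ℂ) = ModularFormClass.qCoeff f ℓ ∧
          a - ((W.apOfModel ℓ : ℤ) : Zbar) ∈ 𝔪) →
      ∃ a : Zbar, (a : ℂ) = ModularFormClass.qCoeff f p ∧ a ^ 2 - 1 ∈ 𝔪

/-- **RAISE-P without side condition.** -/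
def RaisePNoSideStmt (p : ℕ) : Prop :=
  ∀ (W : WeierstrassCurve ℤ), W.Δ ≠ 0 → (p : ℤ) ∣ W.Δ → ¬ (p : ℤ) ∣ W.c₄ →
    W.ModRepIsIrreducible p →
    ∀ {N : ℕ}, 0 < N → ¬ p ∣ N →
    W.IsResiduallyModularOfLevel p N → IsResiduallyModularNewAt W p (N * p) p

/-- the side condition of DELIGNE-MODP is removed by `2`-stabilisation. -/
theorem deligneModPNoSide_of_deligneModP {p : ℕ} (hp : p.Prime) (hp2 : p ≠ 2)
    (hD : DeligneModPStmt p) : DeligneModPNoSideStmt p := by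
  intro W hΔ hpΔ hc₄ hirr N hN hpN f 𝔪 hf hmax hpm hcong
  by_cases hs : p = 3 → 2 ∣ N
  · exact hD W hΔ hpΔ hc₄ hirr hN hpN hs f 𝔪 hf hmax hpm hcong
  · -- `p = 3`, `N` odd: pass to the level `N * 2`
    have h2N : ¬ 2 ∣ N := fun h => hs fun _ => h
    have hN2 : N * 2 ≠ 0 := mul_ne_zero (Nat.pos_iff_ne_zero.mp hN) two_ne_zero
    obtain ⟨f', hf', hff'⟩ :=
      Fermat.Agent.GE.Stab.exists_eigenform_of_dvd (Dvd.intro 2 rfl : N ∣ N * 2) hN2 hf
    have hdiv : N * 2 / N = 2 := Nat.mul_div_cancel_left 2 hN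
    have hp2' : ¬ p ∣ 2 := fun h => hp2 ((Nat.prime_dvd_prime_iff_eq hp Nat.prime_two).1 h)
    have hpN2 : ¬ p ∣ N * 2 := fun h => (hp.dvd_mul.1 h).elim hpN hp2'
    obtain ⟨a, ha, ham⟩ := hD W hΔ hpΔ hc₄ hirr (Nat.pos_of_ne_zero hN2) hpN2
      (fun _ => Dvd.intro_left N rfl) f' 𝔪 hf' hmax hpm
      (fun ℓ hℓ hgood hℓN2 hℓp => by
        have hℓN : ¬ ℓ ∣ N := fun h => hℓN2 (h.mul_right 2)
        have hℓ2 : ¬ ℓ ∣ N * 2 / N := by
          rw [hdiv]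
          exact fun h => hℓN2 (h.mul_left N)
        obtain ⟨a, ha, ham⟩ := hcong ℓ hℓ hgood hℓN hℓp
        exact ⟨a, by rw [ha, hff' ℓ hℓ hℓ2], ham⟩)
    refine ⟨a, ?_, ham⟩
    rw [ha, hff' p hp (by rw [hdiv]; exact hp2')]

/-- **RAISE-P = core ∘ DELIGNE-MODP, no side condition.** -/
theorem raisePNoSide_of_core_of_deligne {p : ℕ} (hp : p.Prime) (hp2 : p ≠ 2)
    (hC : RaisePCoreStmt p) (hD : DeligneModPNoSideStmt p) : RaisePNoSideStmt p := by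
  intro W hΔ hpΔ hc₄ hirr N hN hpN hres
  obtain ⟨f, 𝔪, hf, hmax, hpm, hcong⟩ := hres
  exact hC W hΔ hp hp2 hN hpN hirr f 𝔪 hf hmax hpm hcong
    (hD W hΔ hpΔ hc₄ hirr hN hpN f 𝔪 hf hmax hpm hcong)

/-- **(i) DELIGNE-MODP at EVERY level prime to `p`** (`p` odd) is a theorem. -/
theorem deligneModP_noSide {p : ℕ} [hpF : Fact p.Prime] (hp2 : p ≠ 2) :
    DeligneModPNoSideStmt p :=
  deligneModPNoSide_of_deligneModP hpF.out hp2
    (Fermat.Agent.GE8.RaiseP.Deligne.ClaimPlug.deligneModP hp2)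

/-- **RAISE-P at EVERY level prime to `p`** (`p` odd) is a theorem. -/
theorem raiseP_noSide {p : ℕ} [hpF : Fact p.Prime] (hp2 : p ≠ 2) : RaisePNoSideStmt p :=
  raisePNoSide_of_core_of_deligne hpF.out hp2
    (Fermat.Agent.GE8.RaiseP.Plug.raisePCoreStmt p) (deligneModP_noSide hp2)

/-- RAISE-P in the shape of `Stmt.RaisePStmt` (the side condition is simply ignored). -/
theorem raisePStmt_of_noSide {p : ℕ} (h : RaisePNoSideStmt p) : RaisePStmt p :=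
  fun W hΔ hpΔ hc₄ hirr _ hN hpN _ hres => h W hΔ hpΔ hc₄ hirr hN hpN hres

end Fermat.Agent.GE8.RaiseP.NoSide
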