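/-
GATE-E / RISK-4 R4-H, leaf PNEW-POINT (N3), bundle form (helper33): **`hsupp` for the SETUP bundle
at level `M * p`** — the binder of helper32's `GE9/PNew/Point/PkgNew.exists_pkg_point_new` (board
7818) VERBATIM:

  `∀ t : heckeAlgebra (M * p) 2 ↑P₀.S0, (∀ x ∈ LamNew hpM, latAct (M * p) ↑P₀.S0 t x = 0) →
      P₀.theta t = 0`

for `W` semistable, multiplicative at `p`, residually modular of the level `M` prime to `p`:
`NewSupp.theta_eq_zero_of_kills_lamNew` + DELIGNE-MODP without side condition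
(`GE8/RaiseP/NoSide.deligneModP_noSide`) + the API of the bundle (`theta_T`, `hMS0`,
`good_of_notMem_S0`).
-/
import Fermat.Agent.GE8.RaiseP.NewSupp
import Fermat.Agent.GE8.RaiseP.NoSide
import Fermat.Agent.GB.Setup.SetupPkg

set_option autoImplicit false
set_option linter.unusedSectionVars false
set_option linter.unusedVariables false

open WeierstrassCurve WeierstrassCurve.Affine.Point IsLocalRing CuspForm
open scoped WeierstrassCurve.Affine

namespace Fermat.Agent.GE8.RaiseP.NewSuppPkg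

open Fermat.Agent.GB.Setup.SetupPkg Fermat.Agent.GJ.J2.Lat Fermat.Agent.GJ.J2.LatAct
open Fermat.Agent.GB.B10.L.ThetaNew

variable {p : ℕ} [Fact p.Prime] {W : WeierstrassCurve ℤ}
  {hcard₁ : Nat.card (Submodule.torsionBy ℤ
    ((W.map (Int.castRingHom ℚ))⁄(AlgebraicClosure ℚ)).Point p) = p ^ 2}
  {hker : GaloisFactorsThroughFiniteLevel
    (galoisRepModuleEnd (K := AlgebraicClosure ℚ) ℚ (W.map (Int.castRingHom ℚ)) p)}
  {M A : ℕ} [NeZero M]

/-- the instance `NeZero (M * p)` (local). -/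
local instance neZero_mul_newSuppPkg : NeZero (M * p) :=
  ⟨Nat.mul_ne_zero (NeZero.ne M) (Fact.out : p.Prime).ne_zero⟩

/-- **`hsupp` for the bundle at level `M * p`**: `θ̄` kills the annihilator of the `p`-new
lattice. -/
theorem hsupp_pkg (hpM : ¬ p ∣ M) (P₀ : Pkg p W hcard₁ hker (M * p) A)
    (hss : W.IsSemistableModel) (hmult : (p : ℤ) ∣ W.Δ)
    (hRM : W.IsResiduallyModularOfLevel p M) :
    ∀ t : heckeAlgebra (M * p) 2 (↑P₀.S0 : Set ℕ),
      (∀ x ∈ (LamNew hpM : AddSubgroup (Lam (M * p))),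
        latAct (M * p) (↑P₀.S0 : Set ℕ) t x = 0) → P₀.theta t = 0 := by
  have hp : p.Prime := Fact.out
  obtain ⟨f, 𝔪, hf, hmax, hpm, hcong⟩ := hRM
  have hap := Fermat.Agent.GE8.RaiseP.NoSide.deligneModP_noSide P₀.hp2 W P₀.hΔ hmult
    (hss p hp hmult) P₀.hirr (Nat.pos_of_ne_zero (NeZero.ne M)) hpM f 𝔪 hf hmax hpm hcong
  have hpk : ((p : ℕ) : P₀.k) = 0 := by
    have h := (residue_eq_zero_iff (p : P₀.O)).mpr P₀.hpO
    rwa [map_natCast] at h
  intro t ht
  exact Fermat.Agent.GE8.RaiseP.NewSupp.theta_eq_zero_of_kills_lamNew W P₀.hΔ P₀.hp2 hpM P₀.hirr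
    f 𝔪 hf hmax hpm hcong hap (↑P₀.S0 : Set ℕ) P₀.hMS0
    (fun ℓ hℓ hℓS => (P₀.good_of_notMem_S0 hℓ hℓS).1) hpk P₀.theta
    (fun ℓ hℓ hℓN hℓS => P₀.theta_T hℓ hℓN hℓS) t ht

end Fermat.Agent.GE8.RaiseP.NewSuppPkg
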