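/-
GATE-E / RISK-4 R4-G (g1), route (D) (helper41): **the `q`-degeneracies preserve the `p`-new
classes** (`p ≠ q` primes).

On `Hom(Γ₀(·), A)` (GATE-M vocabulary `GM/B`, helper42's `resLe` of `GE8/Deside/ResNew`):

* `resLe_refl`, `resLe_resLe` : `resLe` along `M ∣ M` is the identity, `resLe` is transitive — so
  `resLe A (dvd_of_eq h)` is the CAST along an equality of levels `h : N = N'`, without `Eq.rec`;
* `cores_resD_comm` : `cores_p^{M q} ∘ cast ∘ resD_q^{M p} = resD_q^{M} ∘ cores_p^{M}`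
  (Mackey, ONE double coset: `δ_q r'_x δ_q⁻¹ ∈ Γ₀(M p) r_y`);
* `wOp_resD_comm`   : `w_p^{M q} ∘ cast ∘ resD_q^{M p} = cast ∘ resD_q^{M p} ∘ w_p^{M}`
  (`δ_p δ_q = δ_q δ_p`);
* `coresD_resD_comm`: `coresD_p^{M q} ∘ cast ∘ resD_q^{M p} = resD_q^{M} ∘ coresD_p^{M}`;
* `cores_res_comm`, `coresD_res_comm` : the same for `res_q` (from `ResNew.cores_resLe`,
  `coresD_resLe`);
* `pNew p A N : AddSubgroup (Hom(Γ₀(N), A))` : the `p`-new classes at an ARBITRARY level `N`
  (`∀ M, N = M p → p ∤ M → cores_p (cast φ) = 0 ∧ coresD_p (cast φ) = 0`; no condition if `p ∤ N` or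
  `p² ∣ N`), `mem_pNew_iff` : at the literal level `M p` it is `ker cores ⊓ ker coresD`;
* `res_mem_pNew`, `resD_mem_pNew` : for `q ≠ p`, `q ∤ N`: `res_q`, `resD_q` map `pNew p A N` into
  `pNew p A (N q)`;
* `smul_mem_pNew`, `pNewSub` : the `O`-submodule for `O`-module coefficients.
-/
import Mathlib
import Fermat.Agent.GE8.Deside.ResNew

set_option autoImplicit false
set_option linter.unusedSectionVars false
set_option linter.unreachableTactic false
set_option linter.unusedTactic false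

open scoped MatrixGroups
open CongruenceSubgroup Matrix Matrix.SpecialLinearGroup ModularCurve.Period
open P2MW.S_ModularForm_heckeT_slash_eq_self_of_mem_Gamma0.ModularForm.HeckeSlashInvariance
open P2MW.S_ModularForm_heckeT_slash_eq_self_of_mem_Gamma0.ModularForm
open Fermat.Agent.S16_helper49
open Fermat.Agent.GM.Amalgam
open Fermat.Agent.GM.B
open Fermat.Agent.GE8.Deside.ResNew
open scoped OnePoint

namespace Fermat.Agent.GE8.RaiseP.DegComm

/-! ### `resLe` is functorial -/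

section ResLe

variable {A : Type*} [AddCommGroup A]

theorem resLe_refl {M : ℕ} (h : M ∣ M) (φ : Additive (Gamma0 M) →+ A) : resLe A h φ = φ := by
  refine AddMonoidHom.ext fun g => ?_
  obtain ⟨g, rfl⟩ : ∃ g' : Gamma0 M, Additive.ofMul g' = g := ⟨Additive.toMul g, rfl⟩
  rw [resLe_apply]
  rfl

theorem resLe_resLe {M₁ M₂ M₃ : ℕ} (h₁ : M₁ ∣ M₂) (h₂ : M₂ ∣ M₃)
    (φ : Additive (Gamma0 M₁) →+ A) :
    resLe A h₂ (resLe A h₁ φ) = resLe A (h₁.trans h₂) φ := by
  refine AddMonoidHom.ext fun g => ?_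
  obtain ⟨g, rfl⟩ : ∃ g' : Gamma0 M₃, Additive.ofMul g' = g := ⟨Additive.toMul g, rfl⟩
  rw [resLe_apply, resLe_apply, resLe_apply]
  rfl

end ResLe

/-! ### the commutation relations -/

section Comm

variable {M p q : ℕ} [Fact p.Prime] [Fact q.Prime] {A : Type*} [AddCommGroup A]

theorem level_comm (M p q : ℕ) : M * p * q = M * q * p := Nat.mul_right_comm M p q

theorem dlt_comm (p q : ℕ) [Fact p.Prime] [Fact q.Prime] : dlt p * dlt q = dlt q * dlt p := by
  have hp : p ≠ 0 := (Fact.out : p.Prime).ne_zero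
  have hq : q ≠ 0 := (Fact.out : q.Prime).ne_zero
  ext a b
  fin_cases a <;> fin_cases b <;> simp [hp, hq, Matrix.mul_apply, Fin.sum_univ_two, mul_comm]

theorem not_dvd_left (hpMq : ¬ p ∣ M * q) : ¬ p ∣ M := fun h => hpMq (Dvd.dvd.mul_right h q)

/-- the transversal of level `M q`, pushed to `Γ₀(M)` by `δ_q · δ_q⁻¹` -/
noncomputable def gxD (hpMq : ¬ p ∣ M * q) (x : OnePoint (ZMod p)) : Gamma0 M :=
  degenDelta M q (rC (M * q) p (bez hpMq).1 (bez hpMq).2 (bez_spec hpMq) x)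

theorem gxD_rel (hpMq : ¬ p ∣ M * q) (x : OnePoint (ZMod p)) :
    dlt q * (coresSys' hpMq).a x
      = embR ((gxD hpMq x : Gamma0 M) : SL(2, ℤ)) * dlt q := by
  have h3 : (coresSys' hpMq).a x
      = embR ((rC (M * q) p (bez hpMq).1 (bez hpMq).2 (bez_spec hpMq) x : Gamma0 (M * q)) :
          SL(2, ℤ)) := coresSys_a hpMq _ _ _ x
  rw [h3]
  exact dlt_rel_degenDelta (N := M) _

/-- the system of `cores_p^{M q} ∘ cast ∘ resD_q^{M p}` -/
noncomputable def sysBig (hpMq : ¬ p ∣ M * q) : CosetSys embR (Gamma0 (M * p)) (Gamma0 (M * q)) :=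
  (resDSys (M * p) q).comp ((resLeSys (dvd_of_eq (level_comm M p q))).comp (coresSys' hpMq))

/-- the system of `resD_q^{M} ∘ cores_p^{M}` -/
noncomputable def sysSmall (hpMq : ¬ p ∣ M * q) :
    CosetSys embR (Gamma0 (M * p)) (Gamma0 (M * q)) :=
  (coresSys' (not_dvd_left hpMq)).comp (resDSys M q)

theorem sysBig_a (hpMq : ¬ p ∣ M * q) (u u' : Unit) (x : OnePoint (ZMod p)) :
    (sysBig hpMq).a (u, (u', x)) = dlt q * (coresSys' hpMq).a x := by
  show dlt q * (1 * (coresSys' hpMq).a x) = _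
  rw [one_mul]

theorem sysSmall_a (hpMq : ¬ p ∣ M * q) (y : OnePoint (ZMod p)) (u : Unit) :
    (sysSmall hpMq).a (y, u) = (coresSys' (not_dvd_left hpMq)).a y * dlt q := rfl

theorem sysSmall_distinct (hpMq : ¬ p ∣ M * q) : (sysSmall (q := q) hpMq).Distinct := by
  rintro ⟨(y : OnePoint (ZMod p)), (u : Unit)⟩ ⟨(y' : OnePoint (ZMod p)), (u' : Unit)⟩ γ h
  rw [sysSmall_a, sysSmall_a, ← mul_assoc] at h
  have h1 := mul_right_cancel h
  have hy : y = y' := coresSys'_distinct (not_dvd_left hpMq) y y' γ h1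
  subst hy
  rfl

theorem sysBig_distinct (hpMq : ¬ p ∣ M * q) : (sysBig (q := q) hpMq).Distinct := by
  rintro ⟨(u : Unit), (v : Unit), (x : OnePoint (ZMod p))⟩
    ⟨(u' : Unit), (v' : Unit), (x' : OnePoint (ZMod p))⟩ γ h
  rw [sysBig_a, sysBig_a] at h
  have h3 : ∀ y : OnePoint (ZMod p), (coresSys' hpMq).a y
      = embR ((rC (M * q) p (bez hpMq).1 (bez hpMq).2 (bez_spec hpMq) y : Gamma0 (M * q)) :
          SL(2, ℤ)) := fun y => coresSys_a hpMq _ _ _ y
  -- k = r_x r_{x'}⁻¹ ∈ Γ₀(M q), δ k = γ δ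
  set k : Gamma0 (M * q) := rC (M * q) p (bez hpMq).1 (bez hpMq).2 (bez_spec hpMq) x *
      (rC (M * q) p (bez hpMq).1 (bez hpMq).2 (bez_spec hpMq) x')⁻¹ with hk
  have hrel : dlt q * embR ((k : Gamma0 (M * q)) : SL(2, ℤ))
      = embR ((γ : Gamma0 (M * p)) : SL(2, ℤ)) * dlt q := by
    rw [hk, Subgroup.coe_mul, Subgroup.coe_inv, map_mul, map_inv, ← h3, ← h3, ← mul_assoc, h,
      mul_assoc, mul_assoc, mul_inv_cancel, mul_one]
  have hk1 : ((k : Gamma0 (M * q)) : SL(2, ℤ)) ∈ Gamma0 (M * p) := by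
    apply mem_Gamma0_of_dvd
    rw [lower_left_of_dlt_rel _ _ hrel]
    exact Dvd.dvd.mul_left (dvd_of_mem_Gamma0 γ) _
  have hmem : ((k : Gamma0 (M * q)) : SL(2, ℤ)) ∈ Gamma0 (M * q * p) :=
    mem_gamma0_mul_of_mem hpMq k.2 hk1
  have hx : x = x' := by
    refine coresSys'_distinct hpMq x x' ⟨_, hmem⟩ ?_
    rw [h3, h3, ← map_mul]
    congr 1
    show _ = ((k : Gamma0 (M * q)) : SL(2, ℤ)) * _
    rw [hk, Subgroup.coe_mul, Subgroup.coe_inv, inv_mul_cancel_right]
  subst hx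
  rfl

/-- **`cores_p` commutes with `resD_q`** (`p ≠ q`, i.e. `p ∤ M q`). -/
theorem cores_resD_comm (hpMq : ¬ p ∣ M * q) (ψ : Additive (Gamma0 (M * p)) →+ A) :
    cores A hpMq (resLe A (dvd_of_eq (level_comm M p q)) (resD A (M * p) q ψ))
      = resD A M q (cores A (not_dvd_left hpMq) ψ) := by
  have hpM : ¬ p ∣ M := not_dvd_left hpMq
  have e1 : cores A hpMq (resLe A (dvd_of_eq (level_comm M p q)) (resD A (M * p) q ψ))
      = (sysBig hpMq).op A ψ := by
    unfold sysBig cores resLe resD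
    rw [CosetSys.op_comp, CosetSys.op_comp]
  have e2 : resD A M q (cores A hpM ψ) = (sysSmall hpMq).op A ψ := by
    unfold sysSmall cores resD
    rw [CosetSys.op_comp]
  rw [e1, e2]
  symm
  refine CosetSys.op_eq_of_contained (sysBig hpMq) (sysSmall hpMq) embR_injective
    (sysBig_distinct hpMq) (sysSmall_distinct hpMq)
    (Fintype.card_congr ((Equiv.punitProd _).trans ((Equiv.punitProd _).trans
      (Equiv.prodPUnit _).symm)))
    (fun i : Unit × (Unit × OnePoint (ZMod p)) =>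
      (((coresSys' hpM).σ (gxD hpMq i.2.2) (∞ : OnePoint (ZMod p)) : OnePoint (ZMod p)), ()))
    1 (fun x => by rw [one_mul, mul_one])
    (fun i : Unit × (Unit × OnePoint (ZMod p)) =>
      ((coresSys' hpM).c (gxD hpMq i.2.2) (∞ : OnePoint (ZMod p)))⁻¹)
    ?_ ψ
  rintro ⟨(u : Unit), (v : Unit), (x : OnePoint (ZMod p))⟩
  have h2 := (coresSys' hpM).rel (gxD hpMq x) (∞ : OnePoint (ZMod p))
  rw [coresSys'_a_infty, one_mul] at h2
  rw [sysBig_a, gxD_rel, one_mul]
  refine (sysSmall_a hpMq _ ()).trans ?_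
  rw [← mul_assoc, Subgroup.coe_inv, map_inv, h2, inv_mul_cancel_left]

/-! #### the Atkin–Lehner operator `w_p` -/

/-- `δ_q r₀' δ_q⁻¹ r₀⁻¹ ∈ Γ₀(M p)`: the comparison element of the two Atkin–Lehner matrices -/
theorem gZ_mem (hpMq : ¬ p ∣ M * q) :
    ((degenDelta M q (rZero hpMq) : Gamma0 M) : SL(2, ℤ))
        * ((rZero (not_dvd_left hpMq) : Gamma0 M) : SL(2, ℤ))⁻¹ ∈ Gamma0 (M * p) := by
  have hq : (q : ℤ) ≠ 0 := by exact_mod_cast (Fact.out : q.Prime).ne_zero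
  obtain ⟨-, -, h10, h11⟩ := degenDelta_entries (N := M) (q := q) (rZero hpMq)
  rw [rZero_coe] at h10 h11
  have h10' : ((degenDelta M q (rZero hpMq) : Gamma0 M) : SL(2, ℤ)) 1 0 = (M : ℤ) := by
    have : (q : ℤ) * ((degenDelta M q (rZero hpMq) : Gamma0 M) : SL(2, ℤ)) 1 0 = q * (M : ℤ) := by
      rw [h10]
      simp [repC]
      ring
    exact mul_left_cancel₀ hq this
  apply mem_Gamma0_of_dvd
  rw [lower_left_mul_inv, h10', h11, rZero_coe]
  refine ⟨(bez (not_dvd_left hpMq)).2 - (bez hpMq).2, ?_⟩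
  simp [repC]
  ring

/-- **`w_p` commutes with `resD_q`** (`p ≠ q`). -/
theorem wOp_resD_comm (hpMq : ¬ p ∣ M * q) (ψ : Additive (Gamma0 (M * p)) →+ A) :
    wOp hpMq A (resLe A (dvd_of_eq (level_comm M p q)) (resD A (M * p) q ψ))
      = resLe A (dvd_of_eq (level_comm M p q))
          (resD A (M * p) q (wOp (not_dvd_left hpMq) A ψ)) := by
  have hpM : ¬ p ∣ M := not_dvd_left hpMq
  unfold wOp resLe resD
  rw [← CosetSys.op_comp, ← CosetSys.op_comp, ← CosetSys.op_comp, ← CosetSys.op_comp]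
  refine CosetSys.op_eq_of_equiv _ _ embR_injective
    (Equiv.refl (Unit × (Unit × Unit))) 1 (fun x => by rw [one_mul, mul_one])
    (fun _ => ⟨_, gZ_mem hpMq⟩) ?_ ?_ ψ
  · rintro ⟨(u : Unit), (v : Unit), (w : Unit)⟩
    show dlt q * (1 * wMat hpMq)
      = 1 * embR (((degenDelta M q (rZero hpMq) : Gamma0 M) : SL(2, ℤ))
          * ((rZero hpM : Gamma0 M) : SL(2, ℤ))⁻¹) * (wMat hpM * (dlt q * 1))
    have h1 := dlt_rel_degenDelta (N := M) (q := q) (rZero hpMq)
    unfold wMat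
    rw [one_mul, one_mul, mul_one, map_mul, map_inv, ← mul_assoc (dlt q), h1]
    rw [mul_assoc _ (dlt q) (dlt p), ← dlt_comm p q]
    group
  · intro g i
    rfl

/-- **`coresD_p` commutes with `resD_q`** (`p ≠ q`). -/
theorem coresD_resD_comm (hpMq : ¬ p ∣ M * q) (ψ : Additive (Gamma0 (M * p)) →+ A) :
    coresD A hpMq (resLe A (dvd_of_eq (level_comm M p q)) (resD A (M * p) q ψ))
      = resD A M q (coresD A (not_dvd_left hpMq) ψ) := by
  rw [← cores_wOp hpMq, wOp_resD_comm hpMq, cores_resD_comm hpMq, cores_wOp]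

/-- **`cores_p` commutes with `res_q`** (`p ≠ q`). -/
theorem cores_res_comm (hpMq : ¬ p ∣ M * q) (ψ : Additive (Gamma0 (M * p)) →+ A) :
    cores A hpMq (resLe A (dvd_of_eq (level_comm M p q)) (res A (M * p) q ψ))
      = res A M q (cores A (not_dvd_left hpMq) ψ) := by
  rw [← resLe_eq_res, ← resLe_eq_res, resLe_resLe]
  exact cores_resLe (dvd_mul_right M q) hpMq ψ

/-- **`coresD_p` commutes with `res_q`** (`p ≠ q`). -/
theorem coresD_res_comm (hpMq : ¬ p ∣ M * q) (ψ : Additive (Gamma0 (M * p)) →+ A) :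
    coresD A hpMq (resLe A (dvd_of_eq (level_comm M p q)) (res A (M * p) q ψ))
      = res A M q (coresD A (not_dvd_left hpMq) ψ) := by
  rw [← resLe_eq_res, ← resLe_eq_res, resLe_resLe]
  exact coresD_resLe (dvd_mul_right M q) hpMq ψ

end Comm

/-! ### the `p`-new classes at an arbitrary level -/

section PNew

variable (p : ℕ) [Fact p.Prime] (A : Type*) [AddCommGroup A]

/-- **the `p`-new classes** of `Hom(Γ₀(N), A)`, for an ARBITRARY level `N`: for every way of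
writing `N = M p` with `p ∤ M`, both `p`-transfers to level `M` vanish (the class being read at
level `M p` through the cast `resLe (dvd_of_eq _)`).  No condition when `p ∤ N` or `p² ∣ N`. -/
def pNew (N : ℕ) : AddSubgroup (Additive (Gamma0 N) →+ A) where
  carrier := {φ | ∀ (M : ℕ) (hM : N = M * p) (hp : ¬ p ∣ M),
    cores A hp (resLe A (dvd_of_eq hM) φ) = 0 ∧ coresD A hp (resLe A (dvd_of_eq hM) φ) = 0}
  zero_mem' := fun M hM hp => by rw [map_zero, map_zero, map_zero]; exact ⟨rfl, rfl⟩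
  add_mem' := fun {a b} ha hb M hM hp => by
    rw [map_add, map_add, map_add, (ha M hM hp).1, (ha M hM hp).2, (hb M hM hp).1,
      (hb M hM hp).2, add_zero]
    exact ⟨rfl, rfl⟩
  neg_mem' := fun {a} ha M hM hp => by
    rw [map_neg, map_neg, map_neg, (ha M hM hp).1, (ha M hM hp).2, neg_zero]
    exact ⟨rfl, rfl⟩

variable {p A}

theorem mem_pNew {N : ℕ} (φ : Additive (Gamma0 N) →+ A) :
    φ ∈ pNew p A N ↔ ∀ (M : ℕ) (hM : N = M * p) (hp : ¬ p ∣ M),
      cores A hp (resLe A (dvd_of_eq hM) φ) = 0 ∧ coresD A hp (resLe A (dvd_of_eq hM) φ) = 0 :=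
  Iff.rfl

/-- at the literal level `M p` the `p`-new classes are `ker cores ⊓ ker coresD` -/
theorem mem_pNew_iff {M : ℕ} (hp : ¬ p ∣ M) (φ : Additive (Gamma0 (M * p)) →+ A) :
    φ ∈ pNew p A (M * p) ↔ cores A hp φ = 0 ∧ coresD A hp φ = 0 := by
  constructor
  · intro h
    have h1 := h M rfl hp
    rwa [resLe_refl] at h1
  · intro h M' hM' hp'
    have hpos : 0 < p := (Fact.out : p.Prime).pos
    have hMM' : M = M' := Nat.eq_of_mul_eq_mul_right hpos hM'
    subst hMM'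
    rwa [resLe_refl]

/-- a level `N q = M' p` with `p ≠ q` primes is `M' = M q`, `N = M p` -/
theorem exists_eq_mul_of_mul_eq {q N M' : ℕ} [Fact q.Prime] (hpq : p ≠ q) (h : N * q = M' * p) :
    ∃ M : ℕ, N = M * p ∧ M' = M * q := by
  have hpP : p.Prime := Fact.out
  have hqP : q.Prime := Fact.out
  have hdvd : p ∣ N * q := ⟨M', by rw [h, mul_comm]⟩
  have hpN : p ∣ N := by
    rcases (Nat.Prime.dvd_mul hpP).1 hdvd with h1 | h1
    · exact h1
    · exact absurd ((Nat.prime_dvd_prime_iff_eq hpP hqP).1 h1) hpq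
  obtain ⟨M, rfl⟩ := hpN
  refine ⟨M, mul_comm p M, ?_⟩
  have h2 : M * q * p = M' * p := by rw [← h]; ring
  exact (Nat.eq_of_mul_eq_mul_right hpP.pos h2).symm

/-- **`res_q` preserves the `p`-new classes** (`q ≠ p`). -/
theorem res_mem_pNew {q N : ℕ} [Fact q.Prime] (hpq : p ≠ q) {φ : Additive (Gamma0 N) →+ A}
    (hφ : φ ∈ pNew p A N) : res A N q φ ∈ pNew p A (N * q) := by
  intro M' hM' hp'
  obtain ⟨M, rfl, rfl⟩ := exists_eq_mul_of_mul_eq hpq hM'
  have hpM : ¬ p ∣ M := not_dvd_left hp'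
  have h0 := (mem_pNew_iff hpM φ).1 hφ
  have e1 := cores_res_comm hp' φ
  have e2 := coresD_res_comm hp' φ
  refine ⟨?_, ?_⟩
  · rw [e1, h0.1, map_zero]
  · rw [e2, h0.2, map_zero]

/-- **`resD_q` preserves the `p`-new classes** (`q ≠ p`). -/
theorem resD_mem_pNew {q N : ℕ} [Fact q.Prime] (hpq : p ≠ q) {φ : Additive (Gamma0 N) →+ A}
    (hφ : φ ∈ pNew p A N) : resD A N q φ ∈ pNew p A (N * q) := by
  intro M' hM' hp'
  obtain ⟨M, rfl, rfl⟩ := exists_eq_mul_of_mul_eq hpq hM'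
  have hpM : ¬ p ∣ M := not_dvd_left hp'
  have h0 := (mem_pNew_iff hpM φ).1 hφ
  have e1 := cores_resD_comm hp' φ
  have e2 := coresD_resD_comm hp' φ
  refine ⟨?_, ?_⟩
  · rw [e1, h0.1, map_zero]
  · rw [e2, h0.2, map_zero]

end PNew

/-! ### module coefficients -/

section Mod

variable {H G : Type*} [Group H] [Group G] {emb : H →* G} {Γ₁ Γ₂ : Subgroup H}

/-- the operator of a coset system commutes with scalars of the coefficient module -/
theorem op_smul {O : Type*} [Monoid O] {A : Type*} [AddCommGroup A] [DistribMulAction O A]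
    (S : CosetSys emb Γ₁ Γ₂) (c : O) (φ : Additive Γ₁ →+ A) :
    S.op A (c • φ) = c • S.op A φ := by
  refine AddMonoidHom.ext fun g => ?_
  obtain ⟨g, rfl⟩ : ∃ g' : Γ₂, Additive.ofMul g' = g := ⟨Additive.toMul g, rfl⟩
  rw [AddMonoidHom.smul_apply, CosetSys.op_apply, CosetSys.op_apply, Finset.smul_sum]
  rfl

variable {p : ℕ} [Fact p.Prime] {O : Type*} [CommRing O] {A : Type*} [AddCommGroup A]
  [Module O A]

theorem smul_mem_pNew {N : ℕ} (c : O) {φ : Additive (Gamma0 N) →+ A} (hφ : φ ∈ pNew p A N) :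
    c • φ ∈ pNew p A N := by
  intro M hM hp
  have h := hφ M hM hp
  have e1 : resLe A (dvd_of_eq hM) (c • φ) = c • resLe A (dvd_of_eq hM) φ := op_smul _ c φ
  have e2 : ∀ ψ : Additive (Gamma0 (M * p)) →+ A, cores A hp (c • ψ) = c • cores A hp ψ :=
    fun ψ => op_smul _ c ψ
  have e3 : ∀ ψ : Additive (Gamma0 (M * p)) →+ A, coresD A hp (c • ψ) = c • coresD A hp ψ :=
    fun ψ => op_smul _ c ψ
  rw [e1, e2, e3, h.1, h.2, smul_zero]
  exact ⟨rfl, rfl⟩

variable (p O A)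

/-- the `p`-new classes as an `O`-submodule -/
def pNewSub (N : ℕ) : Submodule O (Additive (Gamma0 N) →+ A) where
  carrier := {φ | φ ∈ pNew p A N}
  zero_mem' := (pNew p A N).zero_mem
  add_mem' := fun ha hb => (pNew p A N).add_mem ha hb
  smul_mem' := fun c _ hφ => smul_mem_pNew c hφ

variable {p O A}

theorem mem_pNewSub {N : ℕ} (φ : Additive (Gamma0 N) →+ A) :
    φ ∈ pNewSub p O A N ↔ φ ∈ pNew p A N := Iff.rfl

/-- at the literal level `M p` -/
theorem mem_pNewSub_iff {M : ℕ} (hp : ¬ p ∣ M) (φ : Additive (Gamma0 (M * p)) →+ A) :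
    φ ∈ pNewSub p O A (M * p) ↔ cores A hp φ = 0 ∧ coresD A hp φ = 0 :=
  mem_pNew_iff hp φ

theorem res_mem_pNewSub {q N : ℕ} [Fact q.Prime] (hpq : p ≠ q) {φ : Additive (Gamma0 N) →+ A}
    (hφ : φ ∈ pNewSub p O A N) : res A N q φ ∈ pNewSub p O A (N * q) :=
  res_mem_pNew hpq hφ

theorem resD_mem_pNewSub {q N : ℕ} [Fact q.Prime] (hpq : p ≠ q) {φ : Additive (Gamma0 N) →+ A}
    (hφ : φ ∈ pNewSub p O A N) : resD A N q φ ∈ pNewSub p O A (N * q) :=
  resD_mem_pNew hpq hφ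

end Mod

end Fermat.Agent.GE8.RaiseP.DegComm
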