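/-
GATE-E / RISK-4 PNEW-STAGE, leaf R4-G (g3) of helper55's split (board 7643) (helper4; claims row
GE8-PNEW-R4G-G3): **the RESTRICTION layer for (UNIT) on the `p`-new level.**

The `p`-new level `K = kerLevel φ` (`NewLevel.kerLevel`, `BaseB.newLevel`) is the kernel of a
morphism of Taylor–Wiles levels `φ : F → G` onto a `Δ`-free module, hence an `O[Δ]`-DIRECT SUMMAND
of `F.M`.  (UNIT) itself does not restrict from `F` to `K` (the `Δ`-retraction is not
Hecke-linear), but its two POINTWISE inputs `(1pt)` and `(B5)` of `UnitInst.hunit_of_labelled` do: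

* `gam_map` : an equivariant map intertwines the group-algebra actions `gam`;
* `exists_section`, `exists_retraction` : a `Δ`-equivariant section of a surjective morphism of
  levels / a `Δ`-equivariant retraction of `F.M` onto `ker φ`;
* `mem_range_kerD`, `mem_unitSub_ker` : `(D_i − 1) F.M ∩ K = (D_i − 1) K`,
  `unitSub_i(F) ∩ K = unitSub_i(K)`;
* `occ₁_of_ker`, `occW_of_ker` : a point of `T_K` occurring in `K / (D_i − 1)` (resp. `K / unitSub_i`)
  occurs, through `res : T_F → T_K`, in `F / (D_i − 1)` (resp. `F / unitSub_i`);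
* `charpoly_of_h1`, `h1_of_charpoly` : `(1pt)` in basis form ⟺ basis-free form
  `(charpoly (ρ s)).map θ = (X − 1)²`; `hcp_of_isEquiv` : the comparison binder `hcp` from
  `ρ_K ≃ ρ_F ⊗_{res} T_K`;
* `h1_ker_at`, `h1_ker`, `hB5_ker` : the binders `h1`, `hB5` of `UnitInst.hunit_of_labelled` at
  `L := K` from the same statements at the big level `F`;
* `hunit_of_labelled_weak` : `UnitInst.hunit_of_labelled` with `(1pt)` asked only at the labelled
  places and tame generators;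
* **`hunit_ker`**, **`hunit_newLevel`** : (UNIT) on `K` / on `BaseB.newLevel` — the `unit` field of
  `BaseB.NewSide` — from the big-level suppliers.  Everything is abstract in the levels `F`, `G`
  (no level `N`, no symbols): it applies at any Taylor–Wiles set.
-/
import Mathlib
import Fermat.Agent.GE8.RaiseP.BaseB
import Fermat.Agent.GB.Alg.UnitLocal

set_option autoImplicit false
set_option linter.unusedSectionVars false
set_option linter.unusedVariables false
set_option linter.style.haveILetI false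

namespace Fermat.Agent.GE8.RaiseP.BaseBUnit

open Module IsLocalRing Function Polynomial
open Fermat.Agent.GB.B3.TWLevel Fermat.Agent.GE8.RaiseP.NewLevel
open Fermat.Agent.GB.Alg Fermat.Agent.GB.Alg.UnitGrp

/-! ### equivariant maps and the group-algebra action -/

section Gam

variable {O : Type*} [CommRing O] {M M' : Type*} [AddCommGroup M] [Module O M]
  [AddCommGroup M'] [Module O M'] {k : ℕ} (N : Fin k → ℕ) [∀ i, NeZero (N i)]
  (D : Fin k → Module.End O M) (hpow : ∀ i, D i ^ N i = 1) (hcomm : ∀ i j, Commute (D i) (D j))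
  (D' : Fin k → Module.End O M') (hpow' : ∀ i, D' i ^ N i = 1)
  (hcomm' : ∀ i j, Commute (D' i) (D' j))

/-- **an equivariant map intertwines the actions of `O[Δ]`.** -/
theorem gam_map (f : M →ₗ[O] M') (hf : ∀ i x, f (D i x) = D' i (f x))
    (l : MonoidAlgebra O (Grp N)) (x : M) :
    f (gam N D hpow hcomm l x) = gam N D' hpow' hcomm' l (f x) := by
  induction l using MonoidAlgebra.induction_on with
  | of g =>
    rw [MonoidAlgebra.of_apply, gam_single_one, gam_single_one, rho_apply, rho_apply]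
    exact map_mono D D' f hf (fun i => (Multiplicative.toAdd (g i)).val) x
  | add y z hy hz =>
    rw [map_add, map_add, LinearMap.add_apply, LinearMap.add_apply, map_add, hy, hz]
  | smul r y hy =>
    rw [map_smul, map_smul, LinearMap.smul_apply, LinearMap.smul_apply, map_smul, hy]

end Gam

/-! ### the `Δ`-equivariant section and retraction -/

section Retract

variable {O : Type} [CommRing O] {𝕋 : Type} [CommRing 𝕋] [Algebra O 𝕋]
  {M0 : Type} [AddCommGroup M0] [Module O M0] {act0 : 𝕋 →ₐ[O] Module.End O M0}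
  {P0 : Type} [AddCommGroup P0] [Module O P0] {actP0 : 𝕋 →ₐ[O] Module.End O P0}
  {k : ℕ} {N : Fin k → ℕ} [∀ i, NeZero (N i)]
  {F : FreeLevel O 𝕋 M0 act0 k N} {G : FreeLevel O 𝕋 P0 actP0 k N} {f0 : M0 →ₗ[O] P0}

/-- `actSum` is `Λ`-linear for the action through `γ`. -/
theorem actSum_smul {A : Type*} [CommRing A] {Λ : Type*} [CommRing Λ] [Algebra A Λ]
    {M : Type*} [AddCommGroup M] [Module A M] {ι : Type*} [Fintype ι]
    (γ : Λ →ₐ[A] Module.End A M) (e : ι → M) (l : Λ) (v : ι → Λ) :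
    actSum γ e (l • v) = γ l (actSum γ e v) := by
  rw [actSum_apply, actSum_apply, map_sum]
  refine Finset.sum_congr rfl fun j _ => ?_
  rw [Pi.smul_apply, smul_eq_mul, map_mul, Module.End.mul_apply]

/-- **a surjective morphism of Taylor–Wiles levels has a `Δ`-equivariant `O`-linear section**
(the target is free over `O[Δ]`). -/
theorem exists_section (φ : LevelHom F G f0) (hsurj : Function.Surjective φ.f) :
    ∃ s : G.M →ₗ[O] F.M, (∀ y, φ.f (s y) = y) ∧ ∀ i y, s (G.D i y) = F.D i (s y) := by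
  classical
  have hbij : Function.Bijective (actSum (gam N G.D G.D_pow G.unit_D_commute) G.e) :=
    bijective_actSum_gam N G.D G.D_pow G.unit_D_commute G.e G.basis G.unit_basis_eq
  choose e' he' using fun j => hsurj (G.e j)
  let E : (Fin G.d → MonoidAlgebra O (Grp N)) ≃ₗ[O] G.M := LinearEquiv.ofBijective _ hbij
  have hE : ∀ v, E v = actSum (gam N G.D G.D_pow G.unit_D_commute) G.e v := fun v => rfl
  have hφγ : ∀ l x, φ.f (gam N F.D F.D_pow F.unit_D_commute l x)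
      = gam N G.D G.D_pow G.unit_D_commute l (φ.f x) := fun l x =>
    gam_map N F.D F.D_pow F.unit_D_commute G.D G.D_pow G.unit_D_commute φ.f φ.f_D l x
  have h1 : ∀ v, φ.f (actSum (gam N F.D F.D_pow F.unit_D_commute) e' v) = E v := by
    intro v
    rw [hE, actSum_apply, actSum_apply, map_sum]
    refine Finset.sum_congr rfl fun j _ => ?_
    rw [hφγ, he']
  have h2 : ∀ i y, E.symm (G.D i y) = sg N O i • E.symm y := by
    intro i y
    apply E.injective
    rw [LinearEquiv.apply_symm_apply, hE, actSum_smul, ← hE, LinearEquiv.apply_symm_apply, gam_sg]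
  refine ⟨(actSum (gam N F.D F.D_pow F.unit_D_commute) e') ∘ₗ E.symm.toLinearMap, ?_, ?_⟩
  · intro y
    rw [LinearMap.comp_apply, LinearEquiv.coe_coe, h1, LinearEquiv.apply_symm_apply]
  · intro i y
    rw [LinearMap.comp_apply, LinearMap.comp_apply, LinearEquiv.coe_coe, h2, actSum_smul, gam_sg]

/-- **the kernel of a surjective morphism of levels is a `Δ`-equivariant retract of `F.M`.** -/
theorem exists_retraction (φ : LevelHom F G f0) (hsurj : Function.Surjective φ.f) :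
    ∃ ρ : F.M →ₗ[O] F.M, (∀ x, φ.f (ρ x) = 0) ∧ (∀ x, φ.f x = 0 → ρ x = x) ∧
      ∀ i x, ρ (F.D i x) = F.D i (ρ x) := by
  obtain ⟨s, hs, hsD⟩ := exists_section φ hsurj
  refine ⟨LinearMap.id - s ∘ₗ φ.f, fun x => ?_, fun x hx => ?_, fun i x => ?_⟩
  · rw [LinearMap.sub_apply, LinearMap.id_apply, LinearMap.comp_apply, map_sub, hs, sub_self]
  · rw [LinearMap.sub_apply, LinearMap.id_apply, LinearMap.comp_apply, hx, map_zero, sub_zero]
  · rw [LinearMap.sub_apply, LinearMap.sub_apply, LinearMap.id_apply, LinearMap.id_apply,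
      LinearMap.comp_apply, LinearMap.comp_apply, φ.f_D, hsD, map_sub]

end Retract

/-! ### intersections with the kernel level -/

section Inter

variable {O : Type} [CommRing O] [IsLocalRing O] {𝕋 : Type} [CommRing 𝕋] [Algebra O 𝕋]
  {M0 : Type} [AddCommGroup M0] [Module O M0] {act0 : 𝕋 →ₐ[O] Module.End O M0}
  {P0 : Type} [AddCommGroup P0] [Module O P0] {actP0 : 𝕋 →ₐ[O] Module.End O P0}
  {k : ℕ} {N : Fin k → ℕ} [∀ i, NeZero (N i)]
  {F : FreeLevel O 𝕋 M0 act0 k N} {G : FreeLevel O 𝕋 P0 actP0 k N} {f0 : M0 →ₗ[O] P0}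
  {p : ℕ} (hp : p.Prime) (hpO : (p : O) ∈ maximalIdeal O)
  (hNp : ∀ i, ∃ n : ℕ, N i = p ^ n) (φ : LevelHom F G f0) (hf0 : Function.Surjective f0)
  (hf0act : ∀ t x, f0 (act0 t x) = actP0 t (f0 x))

/-- **`(D_i − 1) F.M ∩ ker φ = (D_i − 1) ker φ`.** -/
theorem mem_range_kerD (i : Fin k) (x : LinearMap.ker φ.f)
    (hx : (x : F.M) ∈ LinearMap.range (F.D i - 1)) :
    x ∈ LinearMap.range ((kerLevel hp hpO hNp φ hf0 hf0act).D i - 1) := by
  obtain ⟨ρ, hρ0, hρid, hρD⟩ := exists_retraction φ (φ.surjective hp hpO hNp hf0)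
  obtain ⟨m, hm⟩ := hx
  refine ⟨⟨ρ m, LinearMap.mem_ker.2 (hρ0 m)⟩, Subtype.ext ?_⟩
  have h1 : ρ (x : F.M) = x := hρid _ (LinearMap.mem_ker.1 x.2)
  rw [← h1, ← hm, LinearMap.sub_apply, Module.End.one_apply, map_sub, hρD]
  rfl

/-- **`unitSub_i(F) ∩ ker φ = unitSub_i(ker φ)`.** -/
theorem mem_unitSub_ker (hN : ∀ i, p ∣ N i) (i : Fin k) (x : LinearMap.ker φ.f)
    (hx : (x : F.M) ∈ F.unitSub p hN i) :
    x ∈ (kerLevel hp hpO hNp φ hf0 hf0act).unitSub p hN i := by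
  obtain ⟨ρ, hρ0, hρid, hρD⟩ := exists_retraction φ (φ.surjective hp hpO hNp hf0)
  set K := kerLevel hp hpO hNp φ hf0 hf0act with hK
  let retK : F.M →ₗ[O] K.M := ρ.codRestrict (LinearMap.ker φ.f)
    (fun m => LinearMap.mem_ker.2 (hρ0 m))
  have hretD : ∀ j m, retK (F.D j m) = K.D j (retK m) := fun j m => Subtype.ext (hρD j m)
  have hγ : ∀ l m, retK (gam N F.D F.D_pow F.unit_D_commute l m)
      = gam N K.D K.D_pow K.unit_D_commute l (retK m) := fun l m =>
    gam_map N F.D F.D_pow F.unit_D_commute K.D K.D_pow K.unit_D_commute retK hretD l m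
  have key : ∀ n ∈ actSub (gam N F.D F.D_pow F.unit_D_commute) (RingHom.ker (chi O N p hN i)),
      retK n ∈ actSub (gam N K.D K.D_pow K.unit_D_commute) (RingHom.ker (chi O N p hN i)) := by
    intro n hn
    refine Submodule.span_induction
      (p := fun n _ => retK n ∈ actSub (gam N K.D K.D_pow K.unit_D_commute)
        (RingHom.ker (chi O N p hN i))) ?_ ?_ ?_ ?_ hn
    · rintro _ ⟨l, hl, m', rfl⟩
      rw [hγ]
      exact gam_mem_actSub _ _ hl _
    · rw [map_zero]; exact Submodule.zero_mem _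
    · intro y z _ _ hy hz; rw [map_add]; exact Submodule.add_mem _ hy hz
    · intro a y _ hy; rw [map_smul]; exact Submodule.smul_mem _ _ hy
  have h1 : retK (x : F.M) = x := Subtype.ext (hρid _ (LinearMap.mem_ker.1 x.2))
  have h2 := key (x : F.M) hx
  rw [h1] at h2
  exact h2

end Inter

/-! ### occurrence of points: from the kernel level to the big level -/

section Occ

open Fermat.Agent.GB.B9.ProviderFlat.G4

variable {O : Type} [CommRing O] [IsLocalRing O] {𝕋 : Type} [CommRing 𝕋] [Algebra O 𝕋]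
  {M0 : Type} [AddCommGroup M0] [Module O M0] {act0 : 𝕋 →ₐ[O] Module.End O M0}
  {P0 : Type} [AddCommGroup P0] [Module O P0] {actP0 : 𝕋 →ₐ[O] Module.End O P0}
  {k : ℕ} {N : Fin k → ℕ} [∀ i, NeZero (N i)]
  {F : FreeLevel O 𝕋 M0 act0 k N} {G : FreeLevel O 𝕋 P0 actP0 k N} {f0 : M0 →ₗ[O] P0}
  {p : ℕ} (hp : p.Prime) (hpO : (p : O) ∈ maximalIdeal O)
  (hNp : ∀ i, ∃ n : ℕ, N i = p ^ n) (φ : LevelHom F G f0) (hf0 : Function.Surjective f0)
  (hf0act : ∀ t x, f0 (act0 t x) = actP0 t (f0 x))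
  {TF : Type} [CommRing TF] [Algebra O TF] (aF : TF →ₐ[O] Module.End O F.M)
  {TK : Type} [CommRing TK] [Algebra O TK]
  (aK : TK →ₐ[O] Module.End O (kerLevel hp hpO hNp φ hf0 hf0act).M)
  (res : TF →ₐ[O] TK)
  (hres : ∀ (t : TF) (x : LinearMap.ker φ.f),
    (LinearMap.ker φ.f).subtype (aK (res t) x) = aF t ((LinearMap.ker φ.f).subtype x))

include hres in
/-- **a point of `T_K` occurring in `K / (D_i − 1)` occurs in `F / (D_i − 1)`.** -/
theorem occ₁_of_ker {Ω : Type*} [CommRing Ω] [Algebra O Ω] (i : Fin k) (θ : TK →ₐ[O] Ω)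
    (h : Occ₁ (kerLevel hp hpO hNp φ hf0 hf0act) aK i θ) : Occ₁ F aF i (θ.comp res) := by
  intro t ht
  rw [AlgHom.comp_apply]
  refine h (res t) fun m => mem_range_kerD hp hpO hNp φ hf0 hf0act i _ ?_
  have h1 := ht ((LinearMap.ker φ.f).subtype m)
  rw [← hres t m] at h1
  exact h1

include hres in
/-- **a point of `T_K` occurring in `K / unitSub_i` occurs in `F / unitSub_i`.** -/
theorem occW_of_ker {Ω : Type*} [CommRing Ω] [Algebra O Ω] (hN : ∀ i, p ∣ N i) (i : Fin k)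
    (θ : TK →ₐ[O] Ω) (h : OccW (kerLevel hp hpO hNp φ hf0 hf0act) aK p hN i θ) :
    OccW F aF p hN i (θ.comp res) := by
  intro t ht
  rw [AlgHom.comp_apply]
  refine h (res t) fun m => mem_unitSub_ker hp hpO hNp φ hf0 hf0act hN i _ ?_
  have h1 := ht ((LinearMap.ker φ.f).subtype m)
  rw [← hres t m] at h1
  exact h1

include hres in
/-- the same for a ring-hom point (the shape of the binder `hB5`). -/
theorem occW_ringHom_of_ker {O' : Type*} [CommRing O'] (hN : ∀ i, p ∣ N i) (i : Fin k)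
    (x : TK →+* O')
    (h : ∀ t : TK, (∀ m, aK t m ∈ (kerLevel hp hpO hNp φ hf0 hf0act).unitSub p hN i) → x t = 0) :
    ∀ t : TF, (∀ m, aF t m ∈ F.unitSub p hN i) → (x.comp (res : TF →+* TK)) t = 0 := by
  intro t ht
  rw [RingHom.comp_apply]
  refine h (res t) fun m => mem_unitSub_ker hp hpO hNp φ hf0 hf0act hN i _ ?_
  have h1 := ht ((LinearMap.ker φ.f).subtype m)
  rw [← hres t m] at h1
  exact h1

end Occ

/-! ### `(1pt)`: basis form and basis-free form -/

section OnePt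

open Fermat.Agent.GB.E2.TWDiag Fermat.Agent.GB.Alg.UnitLocal

/-- `ℚ̄`. -/
local notation "Qb" => AlgebraicClosure ℚ
/-- `G_ℚ`. -/
local notation "GQ" => (AlgebraicClosure ℚ ≃ₐ[ℚ] AlgebraicClosure ℚ)

/-- the characteristic polynomial of a base change (local copy of `S54/Formal`). -/
theorem charpoly_bc {A B : Type} [CommRing A] [IsLocalRing A] [CommRing B] [IsLocalRing B]
    (φ : A →+* B) (hφ : IsLocalHom φ) (ρ : GaloisRepAdic A) (σ : GQ) :
    LinearMap.charpoly ((ρ.baseChangeAlong φ hφ).ρ σ) = (LinearMap.charpoly (ρ.ρ σ)).map φ := by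
  let _ : Algebra A B := φ.toAlgebra
  exact LinearMap.charpoly_baseChange (ρ.ρ σ) B

/-- **the comparison binder `hcp` from an equivalence** `ρ_K ≃ ρ_F ⊗_{res} T_K` (e.g.
`GE9/CotGrowth/Same.isEquiv_of_charpoly_frob_eq`: same Frobenius characteristic polynomials off a
finite set + absolutely irreducible residual representation). -/
theorem hcp_of_isEquiv {TF TK : Type} [CommRing TF] [IsLocalRing TF] [CommRing TK]
    [IsLocalRing TK] (res : TF →+* TK) (hres : IsLocalHom res) (ρF : GaloisRepAdic TF)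
    (ρK : GaloisRepAdic TK) (h : ρK.IsEquiv (ρF.baseChangeAlong res hres)) (σ : GQ) :
    LinearMap.charpoly (ρK.ρ σ) = (LinearMap.charpoly (ρF.ρ σ)).map res := by
  obtain ⟨e⟩ := h
  have h2 : (ρF.baseChangeAlong res hres).ρ σ = e.toLinearEquiv.conj (ρK.ρ σ) := by
    apply LinearMap.ext
    intro x
    rw [LinearEquiv.conj_apply_apply, e.map_apply, LinearEquiv.apply_symm_apply]
  rw [← charpoly_bc res hres, h2, LinearEquiv.charpoly_conj]

variable {T : Type} [CommRing T] [IsLocalRing T] (ρ : GaloisRepAdic T)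
  {Ω : Type*} [CommRing Ω]

/-- **`(1pt)`, from the basis form to the basis-free form**: if `θ (χ 0 s) = 1` for EVERY
diagonalisation `(Bas, χ)` of `ρ|D_{P'}` and ONE diagonalisation exists, then the characteristic
polynomial of `ρ s` becomes `(X − 1)²` at `θ`. -/
theorem charpoly_of_h1 (θ : T →+* Ω) (P' : ValuationSubring Qb) (s : GQ)
    (hs : s ∈ P'.inertiaSubgroupIn ℚ)
    (Bas : Module.Basis (Fin 2) T ρ.V) (χ : Fin 2 → P'.decompositionSubgroup ℚ →* Tˣ)
    (hχ : ∀ (j : Fin 2) (σ : P'.decompositionSubgroup ℚ),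
      ρ.ρ (σ : GQ) (Bas j) = (χ j σ : T) • Bas j)
    (h : ∀ (Bas : Module.Basis (Fin 2) T ρ.V) (χ : Fin 2 → P'.decompositionSubgroup ℚ →* Tˣ),
      (∀ (j : Fin 2) (σ : P'.decompositionSubgroup ℚ),
        ρ.ρ (σ : GQ) (Bas j) = (χ j σ : T) • Bas j) →
      θ (χ 0 ⟨s, inertia_le_decomposition P' hs⟩ : T) = 1) :
    (LinearMap.charpoly (ρ.ρ s)).map θ = ((X : Polynomial Ω) - 1) ^ 2 := by
  have h0 := h Bas χ hχ
  have h1 := h (Bas.reindex (Equiv.swap 0 1)) (fun j => χ (Equiv.swap 0 1 j)) (fun j σ => by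
    rw [Module.Basis.reindex_apply, Equiv.symm_swap]
    exact hχ _ σ)
  have e1 : (Equiv.swap (0 : Fin 2) 1) 0 = 1 := Equiv.swap_apply_left 0 1
  rw [e1] at h1
  rw [charpoly_of_diag Bas (ρ.ρ s)
      (fun j => (χ j ⟨s, inertia_le_decomposition P' hs⟩ : T))
      (fun j => hχ j ⟨s, inertia_le_decomposition P' hs⟩),
    Polynomial.map_mul, Polynomial.map_sub, Polynomial.map_sub, Polynomial.map_X,
    Polynomial.map_C, Polynomial.map_C, h0, h1, map_one, sq]

/-- **`(1pt)`, from the basis-free form to the basis form.** -/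
theorem h1_of_charpoly [IsReduced Ω] (θ : T →+* Ω) (P' : ValuationSubring Qb) (s : GQ)
    (hs : s ∈ P'.inertiaSubgroupIn ℚ)
    (hu : (LinearMap.charpoly (ρ.ρ s)).map θ = ((X : Polynomial Ω) - 1) ^ 2)
    (Bas : Module.Basis (Fin 2) T ρ.V) (χ : Fin 2 → P'.decompositionSubgroup ℚ →* Tˣ)
    (hχ : ∀ (j : Fin 2) (σ : P'.decompositionSubgroup ℚ),
      ρ.ρ (σ : GQ) (Bas j) = (χ j σ : T) • Bas j) (j : Fin 2) :
    θ (χ j ⟨s, inertia_le_decomposition P' hs⟩ : T) = 1 :=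
  eq_one_of_map_charpoly θ Bas (ρ.ρ s)
    (fun j => (χ j ⟨s, inertia_le_decomposition P' hs⟩ : T))
    (fun j => hχ j ⟨s, inertia_le_decomposition P' hs⟩) hu j

end OnePt

/-! ### the binders `h1`, `hB5` on the kernel level, and (UNIT) -/

section Main

open Fermat.Agent.GB.B9.ProviderFlat.G4 Fermat.Agent.GB.E2.TWDiag Fermat.Agent.GB.Glue.Points
  Fermat.Agent.GB.E2.TameGenAdic Fermat.Agent.GE2.DeltaQData Fermat.Agent.Common_helper32

/-- `ℚ̄`. -/
local notation "Qb" => AlgebraicClosure ℚ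
/-- `G_ℚ`. -/
local notation "GQ" => (AlgebraicClosure ℚ ≃ₐ[ℚ] AlgebraicClosure ℚ)

variable {O : Type} [CommRing O] [IsDomain O] [IsDiscreteValuationRing O]
  [IsAdicComplete (maximalIdeal O) O] [CharZero O]
  {𝕋 : Type} [CommRing 𝕋] [Algebra O 𝕋]
  {M0 : Type} [AddCommGroup M0] [Module O M0] {act0 : 𝕋 →ₐ[O] Module.End O M0}
  {P0 : Type} [AddCommGroup P0] [Module O P0] {actP0 : 𝕋 →ₐ[O] Module.End O P0}
  {g : ℕ} {N : Fin g → ℕ} [∀ i, NeZero (N i)]
  {F : FreeLevel O 𝕋 M0 act0 g N} {G : FreeLevel O 𝕋 P0 actP0 g N} {f0 : M0 →ₗ[O] P0}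
  {p : ℕ} (hp : p.Prime) (hpO : (p : O) ∈ maximalIdeal O)
  (hNp : ∀ i, ∃ n : ℕ, N i = p ^ n) (φ : LevelHom F G f0) (hf0 : Function.Surjective f0)
  (hf0act : ∀ t x, f0 (act0 t x) = actP0 t (f0 x))
  {TF : Type} [CommRing TF] [IsLocalRing TF] [Algebra O TF]
  (aF : TF →ₐ[O] Module.End O F.M)
  {TK : Type} [CommRing TK] [IsLocalRing TK] [Algebra O TK]
  (aK : TK →ₐ[O] Module.End O (kerLevel hp hpO hNp φ hf0 hf0act).M)
  (res : TF →ₐ[O] TK)
  (hres : ∀ (t : TF) (x : LinearMap.ker φ.f),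
    (LinearMap.ker φ.f).subtype (aK (res t) x) = aF t ((LinearMap.ker φ.f).subtype x))
  (ρF : GaloisRepAdic TF) (ρK : GaloisRepAdic TK)
  (hcp : ∀ σ : GQ, LinearMap.charpoly (ρK.ρ σ)
    = (LinearMap.charpoly (ρF.ρ σ)).map (res : TF →+* TK))
  (r : Fin g → ℕ)

include hres hcp in
/-- **`(1pt)` on the kernel level at ONE place and ONE inertia element** from the same statement on
the big level, the comparison `hcp` of characteristic polynomials and ONE diagonalisation of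
`ρ_F|D_{P'}`. -/
theorem h1_ker_at {Ω : Type*} [CommRing Ω] [IsReduced Ω] [Algebra O Ω] (i : Fin g)
    (P' : ValuationSubring Qb) (s : GQ) (hs : s ∈ P'.inertiaSubgroupIn ℚ)
    (hdiagF : ∃ (Bas : Module.Basis (Fin 2) TF ρF.V)
      (χ : Fin 2 → P'.decompositionSubgroup ℚ →* TFˣ),
        ∀ (j : Fin 2) (σ : P'.decompositionSubgroup ℚ),
          ρF.ρ (σ : GQ) (Bas j) = (χ j σ : TF) • Bas j)
    (h1F : ∀ (Bas : Module.Basis (Fin 2) TF ρF.V)
      (χ : Fin 2 → P'.decompositionSubgroup ℚ →* TFˣ),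
      (∀ (j : Fin 2) (σ : P'.decompositionSubgroup ℚ),
        ρF.ρ (σ : GQ) (Bas j) = (χ j σ : TF) • Bas j) →
      ∀ θ : TF →ₐ[O] Ω, Occ₁ F aF i θ →
        θ (χ 0 ⟨s, inertia_le_decomposition P' hs⟩ : TF) = 1)
    (Bas : Module.Basis (Fin 2) TK ρK.V) (χ : Fin 2 → P'.decompositionSubgroup ℚ →* TKˣ)
    (hχ : ∀ (j : Fin 2) (σ : P'.decompositionSubgroup ℚ),
      ρK.ρ (σ : GQ) (Bas j) = (χ j σ : TK) • Bas j)
    (θ : TK →ₐ[O] Ω) (hocc : Occ₁ (kerLevel hp hpO hNp φ hf0 hf0act) aK i θ) (j : Fin 2) :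
    θ (χ j ⟨s, inertia_le_decomposition P' hs⟩ : TK) = 1 := by
  obtain ⟨BasF, χF, hχF⟩ := hdiagF
  have hoccF : Occ₁ F aF i (θ.comp res) :=
    occ₁_of_ker hp hpO hNp φ hf0 hf0act aF aK res hres i θ hocc
  have huF : (LinearMap.charpoly (ρF.ρ s)).map ((θ.comp res : TF →ₐ[O] Ω) : TF →+* Ω)
      = ((X : Polynomial Ω) - 1) ^ 2 :=
    charpoly_of_h1 ρF _ P' s hs BasF χF hχF
      (fun B' χ' hχ' => h1F B' χ' hχ' (θ.comp res) hoccF)
  have huK : (LinearMap.charpoly (ρK.ρ s)).map (θ : TK →+* Ω) = ((X : Polynomial Ω) - 1) ^ 2 := by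
    rw [hcp, Polynomial.map_map]
    exact huF
  exact h1_of_charpoly ρK (θ : TK →+* Ω) P' s hs huK Bas χ hχ j

include hres hcp in
/-- **the binder `h1` (`(1pt)`) of `UnitInst.hunit_of_labelled` on the kernel level** from the same
statement on the big level, the comparison `hcp` of characteristic polynomials and ONE
diagonalisation of `ρ_F|D_{P'}` at every place over a Taylor–Wiles prime
(`GB/E2/TWChars.exists_characters_of_residual`). -/
theorem h1_ker {Ω : Type*} [CommRing Ω] [IsReduced Ω] [Algebra O Ω]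
    (hdiagF : ∀ (i : Fin g) (P' : ValuationSubring Qb), P'.LiesOverPrime (r i) →
      ∃ (Bas : Module.Basis (Fin 2) TF ρF.V) (χ : Fin 2 → P'.decompositionSubgroup ℚ →* TFˣ),
        ∀ (j : Fin 2) (σ : P'.decompositionSubgroup ℚ),
          ρF.ρ (σ : GQ) (Bas j) = (χ j σ : TF) • Bas j)
    (h1F : ∀ (i : Fin g) (P' : ValuationSubring Qb) (hP' : P'.LiesOverPrime (r i)) (s : GQ)
      (hs : s ∈ P'.inertiaSubgroupIn ℚ) (Bas : Module.Basis (Fin 2) TF ρF.V)
      (χ : Fin 2 → P'.decompositionSubgroup ℚ →* TFˣ),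
      (∀ (j : Fin 2) (σ : P'.decompositionSubgroup ℚ),
        ρF.ρ (σ : GQ) (Bas j) = (χ j σ : TF) • Bas j) →
      ∀ θ : TF →ₐ[O] Ω, Occ₁ F aF i θ →
        θ (χ 0 ⟨s, inertia_le_decomposition P' hs⟩ : TF) = 1) :
    ∀ (i : Fin g) (P' : ValuationSubring Qb) (hP' : P'.LiesOverPrime (r i)) (s : GQ)
      (hs : s ∈ P'.inertiaSubgroupIn ℚ) (Bas : Module.Basis (Fin 2) TK ρK.V)
      (χ : Fin 2 → P'.decompositionSubgroup ℚ →* TKˣ),
      (∀ (j : Fin 2) (σ : P'.decompositionSubgroup ℚ),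
        ρK.ρ (σ : GQ) (Bas j) = (χ j σ : TK) • Bas j) →
      ∀ θ : TK →ₐ[O] Ω, Occ₁ (kerLevel hp hpO hNp φ hf0 hf0act) aK i θ →
        θ (χ 0 ⟨s, inertia_le_decomposition P' hs⟩ : TK) = 1 :=
  fun i P' hP' s hs Bas χ hχ θ hocc =>
    h1_ker_at hp hpO hNp φ hf0 hf0act aF aK res hres ρF ρK hcp i P' s hs (hdiagF i P' hP')
      (h1F i P' hP' s hs) Bas χ hχ θ hocc 0

include hres hcp in
/-- **the binder `hB5` of `UnitInst.hunit_of_labelled` on the kernel level** from the big-level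
statement in the general-point form of `GB/B5/Glue/HnuPlug.hB5_plug`. -/
theorem hB5_ker [Finite (ResidueField O)] [Module.Finite O TK]
    (hresloc : IsLocalHom (res : TF →+* TK)) (hN : ∀ i, p ∣ N i)
    (hB5F : ∀ (i : Fin g) {O' : Type} [CommRing O'] [IsDomain O'] [IsDiscreteValuationRing O']
      [IsAdicComplete (maximalIdeal O') O'] [Finite (ResidueField O')] [CharZero O']
      (hpO' : (p : O') ∈ maximalIdeal O') (x : TF →+* O') (hx : IsLocalHom x),
      (∀ t : TF, (∀ m, aF t m ∈ F.unitSub p hN i) → x t = 0) →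
      ¬ (ρF.baseChangeAlong x hx).IsUnipotentOnInertiaAt (r i)) :
    ∀ (i : Fin g) (q : Idx O TK)
      (hloc : IsLocalHom ((ψ q : TK →ₐ[O] Rq q) : TK →+* Rq q)),
      (∀ t : TK, (∀ m, aK t m ∈ (kerLevel hp hpO hNp φ hf0 hf0act).unitSub p hN i) →
        ψ q t = 0) →
      ¬ (ρK.baseChangeAlong ((ψ q : TK →ₐ[O] Rq q) : TK →+* Rq q) hloc).IsUnipotentOnInertiaAt
        (r i) := by
  intro i q hloc hocc hunip
  have hx : IsLocalHom (((ψ q : TK →ₐ[O] Rq q) : TK →+* Rq q).comp (res : TF →+* TK)) :=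
    ⟨fun a ha => hresloc.map_nonunit a (hloc.map_nonunit _ ha)⟩
  refine hB5F i (natCast_mem_maximalIdeal_Rq q hpO)
    (((ψ q : TK →ₐ[O] Rq q) : TK →+* Rq q).comp (res : TF →+* TK)) hx
    (occW_ringHom_of_ker hp hpO hNp φ hf0 hf0act aF aK res hres hN i
      ((ψ q : TK →ₐ[O] Rq q) : TK →+* Rq q) hocc) ?_
  intro P' hP' σ hσ
  have h1 := hunip P' hP' σ hσ
  rw [charpoly_bc, hcp, Polynomial.map_map] at h1
  rw [charpoly_bc]
  exact h1

include hpO in
/-- **(UNIT) for labelled units, one module, WEAK `(1pt)` binder**: `UnitInst.hunit_of_labelled`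
with `(1pt)` asked only at the labelled place `P i` and the labelled tame generator `τ i` (the only
instance its proof uses). -/
theorem hunit_of_labelled_weak {𝕋' : Type} [CommRing 𝕋'] [Algebra O 𝕋']
    {M0' : Type} [AddCommGroup M0'] [Module O M0'] {act0' : 𝕋' →ₐ[O] Module.End O M0'}
    (L : FreeLevel O 𝕋' M0' act0' g N)
    [hpF : Fact p.Prime] (hp2 : p ≠ 2) (hNpow : ∀ i, ∃ n, N i = p ^ n) (hN : ∀ i, p ∣ N i)
    (T : Type) [CommRing T] [IsLocalRing T] [Algebra O T] [IsLocalHom (algebraMap O T)]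
    [Module.Finite O T] [IsReduced T] [IsNoetherianRing T] [IsAdicComplete (maximalIdeal T) T]
    (a : T →ₐ[O] Module.End O L.M) (a_D : ∀ t i, a t * L.D i = L.D i * a t)
    (Ω : Type) [Field Ω] [IsAlgClosed Ω] [Algebra O Ω] [Module.IsTorsionFree O Ω]
    (ρ : GaloisRepAdic T) (hdet : ρ.DetIsCyclotomic p)
    (ρbar : ResidualGaloisRep (ResidueField O))
    (hres : ρ.residual.IsEquiv (ρbar.baseChangeAlong (ResidueField.map (algebraMap O T))))
    (hr : ∀ i, (r i).Prime) (hpr : ∀ i, p ∣ r i - 1)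
    (hunrbar : ∀ i, ρbar.IsUnramifiedAt (r i))
    (P : Fin g → ValuationSubring Qb) (hP : ∀ i, (P i).LiesOverPrime (r i))
    (φ' : Fin g → GQ) (hφ : ∀ i, (P i).IsFrobeniusAt (φ' i) (r i))
    (τ : Fin g → GQ) (hτ : ∀ i, IsTameGenerator (P i) p (τ i))
    (α β : Fin g → ResidueField O) (hαβ : ∀ i, α i ≠ β i)
    (hchar : ∀ i, LinearMap.charpoly (ρbar.ρ (φ' i)) = (X - C (α i)) * (X - C (β i)))
    (x : Fin g → Tˣ)
    (hx : ∀ i, LabelledAt ρ (ResidueField.map (algebraMap O T)) (P i) (φ' i) (τ i) (α i) (β i)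
      (x i))
    (hxpow : ∀ i, ∃ n, (x i : T) ^ p ^ n = 1)
    -- (1pt), at the labelled place and tame generator only
    (h1 : ∀ (i : Fin g) (Bas : Module.Basis (Fin 2) T ρ.V)
      (χ : Fin 2 → (P i).decompositionSubgroup ℚ →* Tˣ),
      (∀ (j : Fin 2) (σ : (P i).decompositionSubgroup ℚ),
        ρ.ρ (σ : GQ) (Bas j) = (χ j σ : T) • Bas j) →
      ∀ θ : T →ₐ[O] Ω, Occ₁ L a i θ →
        θ (χ 0 ⟨τ i, inertia_le_decomposition (P i) (hτ i).1⟩ : T) = 1)
    -- (B5) at the DVR points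
    (hB5 : ∀ (i : Fin g) (q : Idx O T)
      (hloc : IsLocalHom ((ψ q : T →ₐ[O] Rq q) : T →+* Rq q)),
      (∀ t : T, (∀ m, a t m ∈ L.unitSub p hN i) → ψ q t = 0) →
      ¬ (ρ.baseChangeAlong ((ψ q : T →ₐ[O] Rq q) : T →+* Rq q) hloc).IsUnipotentOnInertiaAt
        (r i)) :
    ∀ i (m : L.M), ∃ m' : L.M, L.D i m - m = a (x i : T) m' - m' := by
  classical
  have hp' : p.Prime := hpF.out
  have hreg : ∀ c : O, (p : O) * c = 0 → c = 0 := fun c hc =>
    (mul_eq_zero.mp hc).resolve_left (Nat.cast_ne_zero.mpr hp'.ne_zero)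
  have hpne : ∀ i, p ≠ r i := by
    intro i h
    have h1 := hpr i
    rw [← h] at h1
    have := Nat.le_of_dvd (by have := hp'.two_le; omega) h1
    have := hp'.two_le
    omega
  have key : ∀ i, ∃ (hτD : τ i ∈ (P i).decompositionSubgroup ℚ)
      (B : Module.Basis (Fin 2) T ρ.V) (χ : Fin 2 → (P i).decompositionSubgroup ℚ →* Tˣ),
      (∀ (j : Fin 2) (σ : (P i).decompositionSubgroup ℚ),
        ρ.ρ (σ : GQ) (B j) = (χ j σ : T) • B j) ∧ (x i : T) = (χ 0 ⟨τ i, hτD⟩ : T) := by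
    intro i
    obtain ⟨_, hτD, B, χ, hχ, -, -, hu⟩ := hx i
    exact ⟨hτD, B, χ, hχ, congrArg Units.val hu⟩
  choose hτD B χ hχ hxχ using key
  have hlift : ∀ c : ResidueField O, ∃ t : T,
      residue T t = ResidueField.map (algebraMap O T) c := by
    intro c
    obtain ⟨c₀, rfl⟩ := residue_surjective c
    exact ⟨algebraMap O T c₀, (ResidueField.map_residue (algebraMap O T) c₀).symm⟩
  choose lift hlift' using hlift
  have hunr : ∀ i, ∀ s ∈ (P i).inertiaSubgroupIn ℚ, ∀ v,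
      ρ.ρ s v - v ∈ maximalIdeal T • (⊤ : Submodule T ρ.V) := fun i =>
    (Fermat.Agent.GB.B9.ProviderFlat.G4Res.twChars_inputs ρ ρbar
      (ResidueField.map (algebraMap O T)) hres (P i) (hP i) (hunrbar i) (φ' i) (α i) (β i)
      (hαβ i) (hchar i) (lift (α i)) (lift (β i)) (hlift' _) (hlift' _)).2.2.2
  refine Fermat.Agent.GB.Alg.UnitOrder.unit_field_of_points_ne L a a_D Ω hp' hp2 hpO hreg hNpow hN
    (fun i => (x i : T)) hxpow (fun i θ hθ => ?_) ?_
  · rw [hxχ i]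
    exact h1 i (B i) (χ i) (hχ i) θ hθ
  · exact Fermat.Agent.GB.B5.Glue.Wne.hWne_occ_of_not_isUnipotent (ρ := ρ) (Ω := Ω) a
      (fun j => L.unitSub p hN j) hp' hdet r hr hpne P hP τ hτ hτD hunr B χ hχ 0
      (fun i => (x i : T)) hxχ hB5

include hres hcp in
/-- **(UNIT) on the kernel level `K = kerLevel φ` from the big-level suppliers**: `x i ∈ T_Kˣ`
labelled units for `ρ_K` (`GE2/LabelMap.labelledAt_map_algHom` along the classifying map), the
big-level `(1pt)` at the labelled places `P i` and tame generators `τ i` (any diagonalisation), ONE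
diagonalisation of `ρ_F|D_{P i}` (e.g. the one carried by a labelled unit of `ρ_F`), and the
big-level `(B5)` in the general-point form of `HnuPlug.hB5_plug`.  Conclusion = the field `unit` of
`BaseB.NewSide` (with `x j = f (g j)`). -/
theorem hunit_ker [hpF : Fact p.Prime] [Finite (ResidueField O)] (hp2 : p ≠ 2)
    (hN : ∀ i, p ∣ N i)
    [IsLocalHom (algebraMap O TK)] [Module.Finite O TK] [IsReduced TK] [IsNoetherianRing TK]
    [IsAdicComplete (maximalIdeal TK) TK]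
    (aK_D : ∀ t i, aK t * (kerLevel hp hpO hNp φ hf0 hf0act).D i
      = (kerLevel hp hpO hNp φ hf0 hf0act).D i * aK t)
    (hresloc : IsLocalHom (res : TF →+* TK))
    (Ω : Type) [Field Ω] [IsAlgClosed Ω] [Algebra O Ω] [Module.IsTorsionFree O Ω]
    (hdet : ρK.DetIsCyclotomic p)
    (ρbar : ResidualGaloisRep (ResidueField O))
    (hresid : ρK.residual.IsEquiv
      (ρbar.baseChangeAlong (ResidueField.map (algebraMap O TK))))
    (hr : ∀ i, (r i).Prime) (hpr : ∀ i, p ∣ r i - 1)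
    (hunrbar : ∀ i, ρbar.IsUnramifiedAt (r i))
    (P : Fin g → ValuationSubring Qb) (hP : ∀ i, (P i).LiesOverPrime (r i))
    (φ' : Fin g → GQ) (hφ : ∀ i, (P i).IsFrobeniusAt (φ' i) (r i))
    (τ : Fin g → GQ) (hτ : ∀ i, IsTameGenerator (P i) p (τ i))
    (α β : Fin g → ResidueField O) (hαβ : ∀ i, α i ≠ β i)
    (hchar : ∀ i, LinearMap.charpoly (ρbar.ρ (φ' i)) = (X - C (α i)) * (X - C (β i)))
    (x : Fin g → TKˣ)
    (hx : ∀ i, LabelledAt ρK (ResidueField.map (algebraMap O TK)) (P i) (φ' i) (τ i) (α i) (β i)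
      (x i))
    (hxpow : ∀ i, ∃ n, (x i : TK) ^ p ^ n = 1)
    (hdiagF : ∀ i : Fin g, ∃ (Bas : Module.Basis (Fin 2) TF ρF.V)
      (χ : Fin 2 → (P i).decompositionSubgroup ℚ →* TFˣ),
        ∀ (j : Fin 2) (σ : (P i).decompositionSubgroup ℚ),
          ρF.ρ (σ : GQ) (Bas j) = (χ j σ : TF) • Bas j)
    (h1F : ∀ (i : Fin g) (Bas : Module.Basis (Fin 2) TF ρF.V)
      (χ : Fin 2 → (P i).decompositionSubgroup ℚ →* TFˣ),
      (∀ (j : Fin 2) (σ : (P i).decompositionSubgroup ℚ),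
        ρF.ρ (σ : GQ) (Bas j) = (χ j σ : TF) • Bas j) →
      ∀ θ : TF →ₐ[O] Ω, Occ₁ F aF i θ →
        θ (χ 0 ⟨τ i, inertia_le_decomposition (P i) (hτ i).1⟩ : TF) = 1)
    (hB5F : ∀ (i : Fin g) {O' : Type} [CommRing O'] [IsDomain O'] [IsDiscreteValuationRing O']
      [IsAdicComplete (maximalIdeal O') O'] [Finite (ResidueField O')] [CharZero O']
      (hpO' : (p : O') ∈ maximalIdeal O') (x : TF →+* O') (hx : IsLocalHom x),
      (∀ t : TF, (∀ m, aF t m ∈ F.unitSub p hN i) → x t = 0) →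
      ¬ (ρF.baseChangeAlong x hx).IsUnipotentOnInertiaAt (r i)) :
    ∀ i (m : (kerLevel hp hpO hNp φ hf0 hf0act).M),
      ∃ m' : (kerLevel hp hpO hNp φ hf0 hf0act).M,
        (kerLevel hp hpO hNp φ hf0 hf0act).D i m - m = aK (x i : TK) m' - m' :=
  hunit_of_labelled_weak hpO r (kerLevel hp hpO hNp φ hf0 hf0act) hp2 hNp hN TK aK aK_D Ω ρK hdet
    ρbar hresid hr hpr hunrbar P hP φ' hφ τ hτ α β hαβ hchar x hx hxpow
    (fun i Bas χ hχ θ hocc =>
      h1_ker_at hp hpO hNp φ hf0 hf0act aF aK res hres ρF ρK hcp i (P i) (τ i) (hτ i).1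
        (hdiagF i) (h1F i) Bas χ hχ θ hocc 0)
    (hB5_ker hp hpO hNp φ hf0 hf0act aF aK res hres ρF ρK hcp r hresloc hN hB5F)

end Main

/-! ### the consumer form: the `p`-new level of `BaseB` -/

section NewLevel

open Fermat.Agent.GB.B9.ProviderFlat.G4 Fermat.Agent.GB.E2.TWDiag Fermat.Agent.GB.Glue.Points
  Fermat.Agent.GB.E2.TameGenAdic Fermat.Agent.GE2.DeltaQData Fermat.Agent.Common_helper32
  Fermat.Agent.GE8.RaiseP.BaseB

/-- `ℚ̄`. -/
local notation "Qb" => AlgebraicClosure ℚ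
/-- `G_ℚ`. -/
local notation "GQ" => (AlgebraicClosure ℚ ≃ₐ[ℚ] AlgebraicClosure ℚ)

variable {O : Type} [CommRing O] [IsDomain O] [IsDiscreteValuationRing O]
  [IsAdicComplete (maximalIdeal O) O] [CharZero O]
  {𝕋 : Type} [CommRing 𝕋] [Algebra O 𝕋]
  {M0 : Type} [AddCommGroup M0] [Module O M0] {act0 : 𝕋 →ₐ[O] Module.End O M0}
  {P₁ : Type} [AddCommGroup P₁] [Module O P₁] {act₁ : 𝕋 →ₐ[O] Module.End O P₁}
  {P₂ : Type} [AddCommGroup P₂] [Module O P₂] {act₂ : 𝕋 →ₐ[O] Module.End O P₂}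
  {g : ℕ} {N : Fin g → ℕ} [∀ i, NeZero (N i)]
  {F : FreeLevel O 𝕋 M0 act0 g N} {G₁ : FreeLevel O 𝕋 P₁ act₁ g N}
  {G₂ : FreeLevel O 𝕋 P₂ act₂ g N} {f₁ : M0 →ₗ[O] P₁} {f₂ : M0 →ₗ[O] P₂}
  {p : ℕ} (hp : p.Prime) (hpO : (p : O) ∈ maximalIdeal O)
  (hNp : ∀ i, ∃ n : ℕ, N i = p ^ n) (φα : LevelHom F G₁ f₁) (φβ : LevelHom F G₂ f₂)
  (hf0 : Function.Surjective (f₁.prod f₂))
  {TF : Type} [CommRing TF] [IsLocalRing TF] [Algebra O TF]
  (aF : TF →ₐ[O] Module.End O F.M)
  {TK : Type} [CommRing TK] [IsLocalRing TK] [Algebra O TK]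
  (aK : TK →ₐ[O] Module.End O (newLevel hp hpO hNp φα φβ hf0).M)
  (res : TF →ₐ[O] TK)
  (hres : ∀ (t : TF) (x : LinearMap.ker (pairHom φα φβ).f),
    (LinearMap.ker (pairHom φα φβ).f).subtype (aK (res t) x)
      = aF t ((LinearMap.ker (pairHom φα φβ).f).subtype x))
  (ρF : GaloisRepAdic TF) (ρK : GaloisRepAdic TK)
  (hcp : ∀ σ : GQ, LinearMap.charpoly (ρK.ρ σ)
    = (LinearMap.charpoly (ρF.ρ σ)).map (res : TF →+* TK))
  (r : Fin g → ℕ)

include hres hcp in
/-- **(UNIT) on the `p`-new level `BaseB.newLevel`** = `hunit_ker` at `φ := pairHom φα φβ`; with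
`x j = f (g j)` this is the field `unit` of `BaseB.NewSide`. -/
theorem hunit_newLevel [hpF : Fact p.Prime] [Finite (ResidueField O)] (hp2 : p ≠ 2)
    (hN : ∀ i, p ∣ N i)
    [IsLocalHom (algebraMap O TK)] [Module.Finite O TK] [IsReduced TK] [IsNoetherianRing TK]
    [IsAdicComplete (maximalIdeal TK) TK]
    (aK_D : ∀ t i, aK t * (newLevel hp hpO hNp φα φβ hf0).D i
      = (newLevel hp hpO hNp φα φβ hf0).D i * aK t)
    (hresloc : IsLocalHom (res : TF →+* TK))
    (Ω : Type) [Field Ω] [IsAlgClosed Ω] [Algebra O Ω] [Module.IsTorsionFree O Ω]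
    (hdet : ρK.DetIsCyclotomic p)
    (ρbar : ResidualGaloisRep (ResidueField O))
    (hresid : ρK.residual.IsEquiv
      (ρbar.baseChangeAlong (ResidueField.map (algebraMap O TK))))
    (hr : ∀ i, (r i).Prime) (hpr : ∀ i, p ∣ r i - 1)
    (hunrbar : ∀ i, ρbar.IsUnramifiedAt (r i))
    (P : Fin g → ValuationSubring Qb) (hP : ∀ i, (P i).LiesOverPrime (r i))
    (φ' : Fin g → GQ) (hφ : ∀ i, (P i).IsFrobeniusAt (φ' i) (r i))
    (τ : Fin g → GQ) (hτ : ∀ i, IsTameGenerator (P i) p (τ i))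
    (α β : Fin g → ResidueField O) (hαβ : ∀ i, α i ≠ β i)
    (hchar : ∀ i, LinearMap.charpoly (ρbar.ρ (φ' i)) = (X - C (α i)) * (X - C (β i)))
    (x : Fin g → TKˣ)
    (hx : ∀ i, LabelledAt ρK (ResidueField.map (algebraMap O TK)) (P i) (φ' i) (τ i) (α i) (β i)
      (x i))
    (hxpow : ∀ i, ∃ n, (x i : TK) ^ p ^ n = 1)
    (hdiagF : ∀ i : Fin g, ∃ (Bas : Module.Basis (Fin 2) TF ρF.V)
      (χ : Fin 2 → (P i).decompositionSubgroup ℚ →* TFˣ),
        ∀ (j : Fin 2) (σ : (P i).decompositionSubgroup ℚ),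
          ρF.ρ (σ : GQ) (Bas j) = (χ j σ : TF) • Bas j)
    (h1F : ∀ (i : Fin g) (Bas : Module.Basis (Fin 2) TF ρF.V)
      (χ : Fin 2 → (P i).decompositionSubgroup ℚ →* TFˣ),
      (∀ (j : Fin 2) (σ : (P i).decompositionSubgroup ℚ),
        ρF.ρ (σ : GQ) (Bas j) = (χ j σ : TF) • Bas j) →
      ∀ θ : TF →ₐ[O] Ω, Occ₁ F aF i θ →
        θ (χ 0 ⟨τ i, inertia_le_decomposition (P i) (hτ i).1⟩ : TF) = 1)
    (hB5F : ∀ (i : Fin g) {O' : Type} [CommRing O'] [IsDomain O'] [IsDiscreteValuationRing O']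
      [IsAdicComplete (maximalIdeal O') O'] [Finite (ResidueField O')] [CharZero O']
      (hpO' : (p : O') ∈ maximalIdeal O') (x : TF →+* O') (hx : IsLocalHom x),
      (∀ t : TF, (∀ m, aF t m ∈ F.unitSub p hN i) → x t = 0) →
      ¬ (ρF.baseChangeAlong x hx).IsUnipotentOnInertiaAt (r i)) :
    ∀ i (m : (newLevel hp hpO hNp φα φβ hf0).M),
      ∃ m' : (newLevel hp hpO hNp φα φβ hf0).M,
        (newLevel hp hpO hNp φα φβ hf0).D i m - m = aK (x i : TK) m' - m' :=
  hunit_ker hp hpO hNp (pairHom φα φβ) hf0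
    (fun t x => levelHom_f0_act (pairHom φα φβ) t x) aF aK res hres ρF ρK hcp r hp2 hN aK_D
    hresloc Ω hdet ρbar hresid hr hpr hunrbar P hP φ' hφ τ hτ α β hαβ hchar x hx hxpow hdiagF h1F
    hB5F

end NewLevel

end Fermat.Agent.GE8.RaiseP.BaseBUnit
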