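/-
GATE-E (S59 pre-work) / node E8.5 (ii) PNEW-PATCH, case (b) (helper85; claims row
GE8-5-PNEW-COKERLEVEL): **the cokernel of a morphism of Taylor–Wiles levels over a split injection is a
Taylor–Wiles level** — the dual of helper80's `NewLevel.kerLevel`.

Vocabulary: `FreeLevel O 𝕋 M0 act0 k N` of GATE-B (`GB/B3/TWLevel`) and `LevelHom` of
`GE8/RaiseP/NewLevel`.

Situation: `G` = the level of `(Γ₀(N') ∩ Γ_H(Q))²`, `F` = the level of `Γ₀(N'p) ∩ Γ_H(Q)`,
`ψ = α_p = (res, resD) : G.M → F.M` over `g0 : P0 → M0` at `Q = ∅`.  If `g0` is INJECTIVE WITH AN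
`O`-FREE COKERNEL (⟸ Ihara's lemma at `p` modulo the maximal ideal, at the BASE level only:
`exists_basis_coker_of_residue`) and `O` is local with `p ∈ 𝔪_O`, `N i = p ^ n_i`, then

* `cokerLevel` : `F.M ⧸ range ψ.f` is a `FreeLevel` over `M0 ⧸ range g0` with the induced diamonds,
  Hecke action (`quotAct`) and projection; `cokerLevel_d_add : G.d + d = F.d`;
* `levelHom_injective` : `ψ.f` is injective (dual of `LevelHom.surjective`).

Use (case (b) of the `p`-new patching, `W` multiplicative at `p`, `ρ̄` flat): `L_Q := M_Q ⧸ α_p (A_Q²)`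
is the `O`-dual of the `p`-new kernel `K_Q = ker (cores, coresD)`; patching the levels `L_Q` gives
`L_∅ = K_∅^*` FREE over `T^new_∅`, which is what the comparison `o_Σ = #(D_Σ ⊗ O_g)` of the old–new
congruence module needs — no Gorenstein / Tate duality for complete intersections.

Mathlib + `GB/B3/{TWLevel, MonoCoinv}` + `GE8/RaiseP/NewLevel` only.
-/
import Mathlib
import Fermat.Agent.GB.B3.TWLevel
import Fermat.Agent.GB.B3.MonoCoinv
import Fermat.Agent.GE8.RaiseP.NewLevel

set_option autoImplicit false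
set_option linter.unusedSectionVars false

namespace Fermat.Agent.GE8.RaiseP.CokerLevel

open Module IsLocalRing Fermat.Agent.GB.B3.TWLevel Fermat.Agent.GB.B3.MonoCoinv
  Fermat.Agent.GE8.RaiseP.NewLevel

/-! ### the action induced on a quotient -/

section Quot

variable {O : Type*} [CommRing O] {𝕋 : Type*} [CommRing 𝕋] [Algebra O 𝕋] {M : Type*}
  [AddCommGroup M] [Module O M]

/-- the algebra action induced on the quotient by a stable submodule. -/
noncomputable def quotAct (act : 𝕋 →ₐ[O] Module.End O M) (W : Submodule O M)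
    (hW : ∀ t, ∀ x ∈ W, act t x ∈ W) : 𝕋 →ₐ[O] Module.End O (M ⧸ W) where
  toFun t := W.mapQ W (act t) (fun x hx => hW t x hx)
  map_one' := by
    refine LinearMap.ext fun x => ?_
    obtain ⟨x, rfl⟩ := Submodule.mkQ_surjective W x
    show Submodule.Quotient.mk (act 1 x) = Submodule.Quotient.mk x
    rw [map_one, Module.End.one_apply]
  map_mul' s t := by
    refine LinearMap.ext fun x => ?_
    obtain ⟨x, rfl⟩ := Submodule.mkQ_surjective W x
    show Submodule.Quotient.mk (act (s * t) x) = Submodule.Quotient.mk (act s (act t x))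
    rw [map_mul, Module.End.mul_apply]
  map_zero' := by
    refine LinearMap.ext fun x => ?_
    obtain ⟨x, rfl⟩ := Submodule.mkQ_surjective W x
    show Submodule.Quotient.mk (act 0 x) = 0
    rw [map_zero, LinearMap.zero_apply, Submodule.Quotient.mk_zero]
  map_add' s t := by
    refine LinearMap.ext fun x => ?_
    obtain ⟨x, rfl⟩ := Submodule.mkQ_surjective W x
    show (Submodule.Quotient.mk (act (s + t) x) : M ⧸ W) =
      (Submodule.Quotient.mk (act s x) : M ⧸ W) + (Submodule.Quotient.mk (act t x) : M ⧸ W)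
    rw [map_add, LinearMap.add_apply, Submodule.Quotient.mk_add]
  commutes' r := by
    refine LinearMap.ext fun x => ?_
    obtain ⟨x, rfl⟩ := Submodule.mkQ_surjective W x
    show (Submodule.Quotient.mk (act (algebraMap O 𝕋 r) x) : M ⧸ W) =
      r • (Submodule.Quotient.mk x : M ⧸ W)
    have h1 : act (algebraMap O 𝕋 r) x = r • x := by
      rw [AlgHom.commutes]
      rfl
    rw [h1, Submodule.Quotient.mk_smul]

theorem quotAct_mk (act : 𝕋 →ₐ[O] Module.End O M) (W : Submodule O M)
    (hW : ∀ t, ∀ x ∈ W, act t x ∈ W) (t : 𝕋) (x : M) :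
    quotAct act W hW t (Submodule.Quotient.mk x) = Submodule.Quotient.mk (act t x) := rfl

end Quot

/-! ### the quotient by the span of a part of a basis -/

section QuotBasis

variable {O M : Type*} [CommRing O] [AddCommGroup M] [Module O M]

/-- `B` a basis of `M` indexed by `I ⊕ J`, `W` the span of the `inl`-part: the classes of the
`inr`-part are a basis of `M ⧸ W`. -/
theorem exists_basis_quot_of_sum {I J : Type*} [Fintype I] [Fintype J]
    (B : Basis (I ⊕ J) O M) (W : Submodule O M)
    (hW : W = Submodule.span O (Set.range fun i => B (Sum.inl i))) :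
    ∃ b : Basis J O (M ⧸ W), ∀ j, b j = Submodule.Quotient.mk (B (Sum.inr j)) := by
  classical
  let w : J → M ⧸ W := fun j => Submodule.Quotient.mk (B (Sum.inr j))
  have hinl : ∀ i, (Submodule.Quotient.mk (B (Sum.inl i)) : M ⧸ W) = 0 := fun i => by
    rw [Submodule.Quotient.mk_eq_zero, hW]
    exact Submodule.subset_span ⟨i, rfl⟩
  have hmk : ∀ x : M, (Submodule.Quotient.mk x : M ⧸ W) =
      ∑ j, B.repr x (Sum.inr j) • w j := by
    intro x
    have h1 : ∑ s, B.repr x s • B s = x := B.sum_repr x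
    rw [Fintype.sum_sum_type] at h1
    have h2 := congrArg W.mkQ h1
    rw [map_add, map_sum, map_sum] at h2
    simp only [map_smul, Submodule.mkQ_apply, hinl, smul_zero, Finset.sum_const_zero,
      zero_add] at h2
    exact h2.symm
  have hli : LinearIndependent O w := by
    rw [Fintype.linearIndependent_iff]
    intro c hc j
    -- `∑ c j • B (inr j) ∈ W = span (inl-part)`
    have h1 : W.mkQ (∑ j, c j • B (Sum.inr j)) = 0 := by
      rw [map_sum]
      simp only [map_smul, Submodule.mkQ_apply]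
      exact hc
    rw [Submodule.mkQ_apply, Submodule.Quotient.mk_eq_zero, hW] at h1
    obtain ⟨c', hc'⟩ := (Submodule.mem_span_range_iff_exists_fun O).1 h1
    -- compare coordinates at `inr j`
    have h2 := congrArg (fun y => B.repr y (Sum.inr j)) hc'
    simp only [map_sum, map_smul, Basis.repr_self, Finsupp.coe_finsetSum, Finsupp.coe_smul,
      Finset.sum_apply, Pi.smul_apply, Finsupp.single_apply, smul_eq_mul, mul_ite, mul_one,
      mul_zero, Sum.inr.injEq, reduceCtorEq, if_false, Finset.sum_const_zero,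
      Finset.sum_ite_eq', Finset.mem_univ, if_true] at h2
    exact h2.symm
  have hspan : ⊤ ≤ Submodule.span O (Set.range w) := by
    intro y _
    obtain ⟨x, rfl⟩ := Submodule.mkQ_surjective W y
    rw [Submodule.mkQ_apply, hmk]
    exact Submodule.sum_mem _ fun j _ => Submodule.smul_mem _ _ (Submodule.subset_span ⟨j, rfl⟩)
  refine ⟨Basis.mk hli hspan, fun j => ?_⟩
  rw [Basis.mk_apply]

end QuotBasis

/-! ### the cokernel of a morphism of Taylor–Wiles levels -/

section Coker

variable {O : Type} [CommRing O] [IsLocalRing O] {𝕋 : Type} [CommRing 𝕋] [Algebra O 𝕋]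
  {M0 : Type} [AddCommGroup M0] [Module O M0] {act0 : 𝕋 →ₐ[O] Module.End O M0}
  {P0 : Type} [AddCommGroup P0] [Module O P0] {actP0 : 𝕋 →ₐ[O] Module.End O P0}
  {k : ℕ} {N : Fin k → ℕ}
  {G : FreeLevel O 𝕋 P0 actP0 k N} {F : FreeLevel O 𝕋 M0 act0 k N} {g0 : P0 →ₗ[O] M0}

/-- `range ψ` is stable under the diamonds. -/
theorem D_mem_range (ψ : LevelHom G F g0) (i : Fin k) :
    ∀ x ∈ LinearMap.range ψ.f, F.D i x ∈ LinearMap.range ψ.f := by
  rintro _ ⟨y, rfl⟩
  exact ⟨G.D i y, ψ.f_D i y⟩

/-- `range ψ` is stable under the Hecke action. -/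
theorem act_mem_range (ψ : LevelHom G F g0) (t : 𝕋) :
    ∀ x ∈ LinearMap.range ψ.f, F.act t x ∈ LinearMap.range ψ.f := by
  rintro _ ⟨y, rfl⟩
  exact ⟨G.act t y, ψ.f_act t y⟩

/-- `π` maps `range ψ` into `range g0`. -/
theorem π_mem_range (ψ : LevelHom G F g0) :
    ∀ x ∈ LinearMap.range ψ.f, F.π x ∈ LinearMap.range g0 := by
  rintro _ ⟨y, rfl⟩
  exact ⟨G.π y, (ψ.f_π y).symm⟩

/-- `range g0` is stable under the Hecke action at the base level. -/
theorem act0_mem_range (hg0act : ∀ t y, g0 (actP0 t y) = act0 t (g0 y)) (t : 𝕋) :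
    ∀ x ∈ LinearMap.range g0, act0 t x ∈ LinearMap.range g0 := by
  rintro _ ⟨y, rfl⟩
  exact ⟨actP0 t y, hg0act t y⟩

/-- the diamonds on the cokernel. -/
noncomputable def cokerD (ψ : LevelHom G F g0) (i : Fin k) :
    Module.End O (F.M ⧸ LinearMap.range ψ.f) :=
  (LinearMap.range ψ.f).mapQ (LinearMap.range ψ.f) (F.D i) (fun x hx => D_mem_range ψ i x hx)

/-- the projection of the cokernel onto the cokernel at the base level. -/
noncomputable def cokerπ (ψ : LevelHom G F g0) :
    (F.M ⧸ LinearMap.range ψ.f) →ₗ[O] (M0 ⧸ LinearMap.range g0) :=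
  (LinearMap.range ψ.f).mapQ (LinearMap.range g0) F.π (fun x hx => π_mem_range ψ x hx)

theorem cokerD_mk (ψ : LevelHom G F g0) (i : Fin k) (x : F.M) :
    cokerD ψ i (Submodule.Quotient.mk x) = Submodule.Quotient.mk (F.D i x) := rfl

theorem cokerπ_mk (ψ : LevelHom G F g0) (x : F.M) :
    cokerπ ψ (Submodule.Quotient.mk x) = Submodule.Quotient.mk (F.π x) := rfl

theorem cokerD_pow_mk (ψ : LevelHom G F g0) (i : Fin k) (n : ℕ) (x : F.M) :
    (cokerD ψ i ^ n) (Submodule.Quotient.mk x) = Submodule.Quotient.mk ((F.D i ^ n) x) := by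
  induction n generalizing x with
  | zero => rw [pow_zero, pow_zero, Module.End.one_apply, Module.End.one_apply]
  | succ n ih =>
    rw [pow_succ, pow_succ, Module.End.mul_apply, Module.End.mul_apply, cokerD_mk, ih]

theorem mono_cokerD (ψ : LevelHom G F g0) (a : Fin k → ℕ) (x : F.M) :
    mono (cokerD ψ) a (Submodule.Quotient.mk x) = Submodule.Quotient.mk (mono F.D a x) :=
  (map_mono F.D (cokerD ψ) (LinearMap.range ψ.f).mkQ (fun _ _ => rfl) a x).symm

theorem cokerD_pow (ψ : LevelHom G F g0) (i : Fin k) : cokerD ψ i ^ N i = 1 := by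
  refine LinearMap.ext fun x => ?_
  obtain ⟨x, rfl⟩ := Submodule.mkQ_surjective _ x
  rw [Submodule.mkQ_apply, cokerD_pow_mk, F.D_pow, Module.End.one_apply, Module.End.one_apply]

theorem cokerD_comm (ψ : LevelHom G F g0) (i j : Fin k) :
    cokerD ψ i * cokerD ψ j = cokerD ψ j * cokerD ψ i := by
  refine LinearMap.ext fun x => ?_
  obtain ⟨x, rfl⟩ := Submodule.mkQ_surjective _ x
  rw [Submodule.mkQ_apply, Module.End.mul_apply, Module.End.mul_apply, cokerD_mk, cokerD_mk,
    cokerD_mk, cokerD_mk, ← Module.End.mul_apply, F.D_comm, Module.End.mul_apply]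

theorem quotAct_cokerD (ψ : LevelHom G F g0) (t : 𝕋) (i : Fin k) :
    quotAct F.act (LinearMap.range ψ.f) (act_mem_range ψ) t * cokerD ψ i =
      cokerD ψ i * quotAct F.act (LinearMap.range ψ.f) (act_mem_range ψ) t := by
  refine LinearMap.ext fun x => ?_
  obtain ⟨x, rfl⟩ := Submodule.mkQ_surjective _ x
  rw [Submodule.mkQ_apply, Module.End.mul_apply, Module.End.mul_apply, cokerD_mk, quotAct_mk,
    quotAct_mk, cokerD_mk, ← Module.End.mul_apply, F.act_D, Module.End.mul_apply]

/-- the image of `∑ (D i − 1) M` in the cokernel. -/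
theorem map_iSup_range_le (ψ : LevelHom G F g0) :
    (⨆ i, LinearMap.range (F.D i - 1)).map (LinearMap.range ψ.f).mkQ ≤
      ⨆ i, LinearMap.range (cokerD ψ i - 1) := by
  rw [Submodule.map_iSup]
  refine iSup_le fun i => ?_
  rintro _ ⟨_, ⟨z, rfl⟩, rfl⟩
  refine (le_iSup (fun i => LinearMap.range (cokerD ψ i - 1)) i) ⟨Submodule.Quotient.mk z, ?_⟩
  rw [LinearMap.sub_apply, LinearMap.sub_apply, Module.End.one_apply, Module.End.one_apply,
    cokerD_mk, Submodule.mkQ_apply, Submodule.Quotient.mk_sub]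

/-- **the kernel of the projection of the cokernel** is the augmentation submodule. -/
theorem ker_cokerπ (ψ : LevelHom G F g0) (x : F.M ⧸ LinearMap.range ψ.f) :
    cokerπ ψ x = 0 ↔ x ∈ ⨆ i, LinearMap.range (cokerD ψ i - 1) := by
  constructor
  · intro hx
    obtain ⟨m, rfl⟩ := Submodule.mkQ_surjective _ x
    rw [Submodule.mkQ_apply, cokerπ_mk, Submodule.Quotient.mk_eq_zero] at hx
    obtain ⟨y0, hy0⟩ := hx
    obtain ⟨y, rfl⟩ := G.π_surjective y0
    have h1 : m - ψ.f y ∈ ⨆ i, LinearMap.range (F.D i - 1) := by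
      refine (F.ker_π _).1 ?_
      rw [map_sub, ψ.f_π, hy0, sub_self]
    have h2 : (LinearMap.range ψ.f).mkQ (m - ψ.f y) = (LinearMap.range ψ.f).mkQ m := by
      rw [map_sub, sub_eq_self, Submodule.mkQ_apply, Submodule.Quotient.mk_eq_zero]
      exact ⟨y, rfl⟩
    rw [← h2]
    exact map_iSup_range_le ψ ⟨_, h1, rfl⟩
  · intro hx
    have hle : (⨆ i, LinearMap.range (cokerD ψ i - 1)) ≤ LinearMap.ker (cokerπ ψ) := by
      refine iSup_le fun i => ?_
      rintro _ ⟨z, rfl⟩
      obtain ⟨z, rfl⟩ := Submodule.mkQ_surjective _ z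
      rw [LinearMap.mem_ker, Submodule.mkQ_apply, LinearMap.sub_apply, Module.End.one_apply,
        cokerD_mk, ← Submodule.Quotient.mk_sub, cokerπ_mk]
      have h3 : F.π (F.D i z - z) = 0 := by
        refine (F.ker_π _).2 ((le_iSup (fun i => LinearMap.range (F.D i - 1)) i) ⟨z, ?_⟩)
        rw [LinearMap.sub_apply, Module.End.one_apply]
      rw [h3, Submodule.Quotient.mk_zero]
    exact LinearMap.mem_ker.1 (hle hx)

/-- **the data of the cokernel level**: lifts `e j` of a basis of `M0 ⧸ range g0` whose monomials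
are an `O`-basis of `F.M ⧸ range ψ`. -/
structure CokerData (ψ : LevelHom G F g0) {d : ℕ}
    (bQ : Basis (Fin d) O (M0 ⧸ LinearMap.range g0)) where
  /-- the generators -/
  e : Fin d → F.M
  /-- the monomial basis -/
  basis : Basis ((∀ i : Fin k, Fin (N i)) × Fin d) O (F.M ⧸ LinearMap.range ψ.f)
  basis_eq : ∀ a j, basis (a, j) =
    Submodule.Quotient.mk (mono F.D (fun i => (a i : ℕ)) (e j))
  basis0_eq : ∀ j, bQ j = Submodule.Quotient.mk (F.π (e j))
  /-- the ranks add up -/
  d_add : G.d + d = F.d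
  /-- the morphism of levels is injective -/
  f_injective : Function.Injective ψ.f

/-- **the cokernel of a morphism of levels over an injective `g0` with free cokernel is free over
`O[Δ_Q]`, with coinvariants `M0 ⧸ range g0`**, basis form. -/
theorem nonempty_cokerData {p : ℕ} (hp : p.Prime) (hpO : (p : O) ∈ maximalIdeal O)
    (hNp : ∀ i, ∃ n : ℕ, N i = p ^ n) (ψ : LevelHom G F g0) (hg0 : Function.Injective g0)
    {d : ℕ} (bQ : Basis (Fin d) O (M0 ⧸ LinearMap.range g0)) :
    Nonempty (CokerData ψ bQ) := by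
  classical
  -- a basis of `M0` adapted to `range g0`
  let eW : P0 ≃ₗ[O] LinearMap.range g0 := LinearEquiv.ofInjective g0 hg0
  let bW : Basis (Fin G.d) O (LinearMap.range g0) := G.basis0.map eW
  have hbW : ∀ j, ((bW j : LinearMap.range g0) : M0) = g0 (G.basis0 j) := fun j => by
    show ((G.basis0.map eW j : LinearMap.range g0) : M0) = _
    rw [Basis.map_apply]
    rfl
  let B0 : Basis (Fin G.d ⊕ Fin d) O M0 := Module.Basis.sumQuot bW bQ
  have hB0l : ∀ j, B0 (Sum.inl j) = g0 (G.basis0 j) := fun j => by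
    show Module.Basis.sumQuot bW bQ (Sum.inl j) = _
    rw [Module.Basis.sumQuot_inl, hbW]
  have hB0r : ∀ j, (Submodule.Quotient.mk (B0 (Sum.inr j)) : M0 ⧸ LinearMap.range g0) = bQ j :=
    fun j => Module.Basis.sumQuot_inr bW bQ j
  -- lifts to the level
  choose l hl using fun j : Fin d => F.π_surjective (B0 (Sum.inr j))
  let e' : Fin G.d ⊕ Fin d → F.M := Sum.elim (fun j => ψ.f (G.e j)) l
  have he' : ∀ s, B0 s = F.π (e' s) := by
    rintro (j | j)
    · show B0 (Sum.inl j) = F.π (ψ.f (G.e j))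
      rw [hB0l, G.basis0_eq, ψ.f_π]
    · exact (hl j).symm
  obtain ⟨b', hb'⟩ := exists_basis_of_lift hp hpO hNp F.D F.D_pow F.D_comm F.basis F.basis0 F.π
    (fun x hx => (F.ker_π x).1 hx) e' B0 he'
  -- reindex by a sum
  let B : Basis (((∀ i : Fin k, Fin (N i)) × Fin G.d) ⊕ ((∀ i : Fin k, Fin (N i)) × Fin d)) O F.M :=
    b'.reindex (Equiv.prodSumDistrib _ _ _)
  have hBl : ∀ s : (∀ i : Fin k, Fin (N i)) × Fin G.d, B (Sum.inl s) = ψ.f (G.basis s) := by
    rintro ⟨a, j⟩
    show b'.reindex (Equiv.prodSumDistrib _ _ _) (Sum.inl (a, j)) = _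
    rw [Basis.reindex_apply, Equiv.prodSumDistrib_symm_apply_left, hb', G.basis_eq]
    exact (map_mono G.D F.D ψ.f ψ.f_D _ _).symm
  have hBr : ∀ s : (∀ i : Fin k, Fin (N i)) × Fin d,
      B (Sum.inr s) = mono F.D (fun i => (s.1 i : ℕ)) (l s.2) := by
    rintro ⟨a, j⟩
    show b'.reindex (Equiv.prodSumDistrib _ _ _) (Sum.inr (a, j)) = _
    rw [Basis.reindex_apply, Equiv.prodSumDistrib_symm_apply_right, hb']
    rfl
  have hW : LinearMap.range ψ.f = Submodule.span O (Set.range fun s => B (Sum.inl s)) := by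
    have h1 : (fun s => B (Sum.inl s)) = ψ.f ∘ G.basis := funext fun s => hBl s
    rw [h1, Set.range_comp, ← Submodule.map_span, G.basis.span_eq, Submodule.map_top]
  obtain ⟨b, hb⟩ := exists_basis_quot_of_sum B (LinearMap.range ψ.f) hW
  have hcard : G.d + d = F.d := by
    have h2 := Fintype.card_congr (B0.indexEquiv F.basis0)
    rwa [Fintype.card_sum, Fintype.card_fin, Fintype.card_fin, Fintype.card_fin] at h2
  have hinjψ : Function.Injective ψ.f := by
    rw [← LinearMap.ker_eq_bot, LinearMap.ker_eq_bot']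
    intro x hx
    have h1 : ∑ s, G.basis.repr x s • G.basis s = x := G.basis.sum_repr x
    have h2 : ∑ s, G.basis.repr x s • B (Sum.inl s) = 0 := by
      have h3 := congrArg ψ.f h1
      rw [map_sum, hx] at h3
      simp_rw [map_smul, ← hBl] at h3
      exact h3
    have hli : LinearIndependent O (fun s => B (Sum.inl s)) :=
      B.linearIndependent.comp _ Sum.inl_injective
    have h4 := (Fintype.linearIndependent_iff.1 hli) _ h2
    rw [← h1]
    exact Finset.sum_eq_zero fun s _ => by rw [h4 s, zero_smul]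
  exact ⟨⟨l, b, fun a j => by rw [hb, hBr], fun j => by rw [← hB0r, hl j], hcard, hinjψ⟩⟩

/-- **a morphism of levels over an injective `g0` with free cokernel is injective** (dual of
`LevelHom.surjective`; no Ihara-type input at the level `Q`). -/
theorem levelHom_injective {p : ℕ} (hp : p.Prime) (hpO : (p : O) ∈ maximalIdeal O)
    (hNp : ∀ i, ∃ n : ℕ, N i = p ^ n) (ψ : LevelHom G F g0) (hg0 : Function.Injective g0)
    {d : ℕ} (bQ : Basis (Fin d) O (M0 ⧸ LinearMap.range g0)) : Function.Injective ψ.f :=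
  (Classical.choice (nonempty_cokerData hp hpO hNp ψ hg0 bQ)).f_injective

/-- **the cokernel level** from its data. -/
noncomputable def CokerData.level {ψ : LevelHom G F g0} {d : ℕ}
    {bQ : Basis (Fin d) O (M0 ⧸ LinearMap.range g0)} (X : CokerData ψ bQ)
    (hg0act : ∀ t y, g0 (actP0 t y) = act0 t (g0 y)) :
    FreeLevel O 𝕋 (M0 ⧸ LinearMap.range g0)
      (quotAct act0 (LinearMap.range g0) (act0_mem_range hg0act)) k N where
  M := F.M ⧸ LinearMap.range ψ.f
  act := quotAct F.act (LinearMap.range ψ.f) (act_mem_range ψ)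
  D := cokerD ψ
  D_pow := cokerD_pow ψ
  D_comm := cokerD_comm ψ
  act_D := quotAct_cokerD ψ
  d := d
  e := fun j => Submodule.Quotient.mk (X.e j)
  basis := X.basis
  basis_eq := fun a j => by rw [X.basis_eq, mono_cokerD]
  π := cokerπ ψ
  π_surjective := by
    intro y
    obtain ⟨y, rfl⟩ := Submodule.mkQ_surjective _ y
    obtain ⟨m, rfl⟩ := F.π_surjective y
    exact ⟨Submodule.Quotient.mk m, rfl⟩
  ker_π := ker_cokerπ ψ
  π_act := fun t x => by
    obtain ⟨x, rfl⟩ := Submodule.mkQ_surjective _ x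
    rw [Submodule.mkQ_apply, quotAct_mk, cokerπ_mk, cokerπ_mk, quotAct_mk, F.π_act]
  basis0 := bQ
  basis0_eq := fun j => by rw [X.basis0_eq, cokerπ_mk]

/-- **THE COKERNEL LEVEL**: the cokernel of a morphism of Taylor–Wiles levels over an injective
`g0 : P0 → M0` with `O`-free cokernel is a Taylor–Wiles level over `M0 ⧸ range g0` (`O` local,
`p ∈ 𝔪_O`, diamonds of `p`-power order).  `(cokerLevel …).M = F.M ⧸ range ψ.f`, with the induced
diamonds, Hecke action and projection. -/
noncomputable def cokerLevel {p : ℕ} (hp : p.Prime) (hpO : (p : O) ∈ maximalIdeal O)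
    (hNp : ∀ i, ∃ n : ℕ, N i = p ^ n) (ψ : LevelHom G F g0) (hg0 : Function.Injective g0)
    {d : ℕ} (bQ : Basis (Fin d) O (M0 ⧸ LinearMap.range g0))
    (hg0act : ∀ t y, g0 (actP0 t y) = act0 t (g0 y)) :
    FreeLevel O 𝕋 (M0 ⧸ LinearMap.range g0)
      (quotAct act0 (LinearMap.range g0) (act0_mem_range hg0act)) k N :=
  (Classical.choice (nonempty_cokerData hp hpO hNp ψ hg0 bQ)).level hg0act

section API

variable {p : ℕ} (hp : p.Prime) (hpO : (p : O) ∈ maximalIdeal O)
  (hNp : ∀ i, ∃ n : ℕ, N i = p ^ n) (ψ : LevelHom G F g0) (hg0 : Function.Injective g0)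
  {d : ℕ} (bQ : Basis (Fin d) O (M0 ⧸ LinearMap.range g0))
  (hg0act : ∀ t y, g0 (actP0 t y) = act0 t (g0 y))

/-- the module of the cokernel level IS `F.M ⧸ range ψ`. -/
theorem cokerLevel_M :
    (cokerLevel hp hpO hNp ψ hg0 bQ hg0act).M = (F.M ⧸ LinearMap.range ψ.f) := rfl

theorem cokerLevel_act (t : 𝕋) (x : F.M) :
    (cokerLevel hp hpO hNp ψ hg0 bQ hg0act).act t
        ((Submodule.Quotient.mk x : F.M ⧸ LinearMap.range ψ.f)) =
      (Submodule.Quotient.mk (F.act t x) : F.M ⧸ LinearMap.range ψ.f) := rfl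

theorem cokerLevel_D (i : Fin k) (x : F.M) :
    (cokerLevel hp hpO hNp ψ hg0 bQ hg0act).D i
        ((Submodule.Quotient.mk x : F.M ⧸ LinearMap.range ψ.f)) =
      (Submodule.Quotient.mk (F.D i x) : F.M ⧸ LinearMap.range ψ.f) := rfl

theorem cokerLevel_π (x : F.M) :
    (cokerLevel hp hpO hNp ψ hg0 bQ hg0act).π
        ((Submodule.Quotient.mk x : F.M ⧸ LinearMap.range ψ.f)) =
      (Submodule.Quotient.mk (F.π x) : M0 ⧸ LinearMap.range g0) := rfl

theorem cokerLevel_d : (cokerLevel hp hpO hNp ψ hg0 bQ hg0act).d = d := rfl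

/-- the rank is additive: `rank G + rank (coker) = rank F`. -/
theorem cokerLevel_d_add : G.d + (cokerLevel hp hpO hNp ψ hg0 bQ hg0act).d = F.d :=
  (Classical.choice (nonempty_cokerData hp hpO hNp ψ hg0 bQ)).d_add

end API

/-! ### the hypothesis from Ihara's lemma modulo the maximal ideal -/

/-- **injective modulo the maximal ideal ⟹ injective with a free cokernel** (finite free modules
over a local ring): the form in which Ihara's lemma at `p` (mod `λ`, base level) is consumed. -/
theorem exists_basis_coker_of_residue [Module.Finite O M0] [Module.Free O M0] [Module.Finite O P0]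
    (g0 : P0 →ₗ[O] M0) (hres : Function.Injective (g0.lTensor (ResidueField O))) :
    Function.Injective g0 ∧ ∃ d : ℕ, Nonempty (Basis (Fin d) O (M0 ⧸ LinearMap.range g0)) := by
  obtain ⟨r, hr⟩ :=
    (IsLocalRing.split_injective_iff_lTensor_residueField_injective g0).2 hres
  have hinj : Function.Injective g0 :=
    Function.HasLeftInverse.injective ⟨r, fun x => LinearMap.congr_fun hr x⟩
  have hfree : Module.Free O (M0 ⧸ LinearMap.range g0) :=
    Module.free_of_lTensor_residueField_injective g0 (LinearMap.range g0).mkQ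
      (Submodule.mkQ_surjective _) g0.exact_map_mkQ_range hres
  exact ⟨hinj, _, ⟨Module.finBasis O (M0 ⧸ LinearMap.range g0)⟩⟩

/-- the same, with the finiteness read off the two levels. -/
theorem exists_basis_coker_of_residue_level (_ψ : LevelHom G F g0)
    (hres : Function.Injective (g0.lTensor (ResidueField O))) :
    Function.Injective g0 ∧ ∃ d : ℕ, Nonempty (Basis (Fin d) O (M0 ⧸ LinearMap.range g0)) := by
  have : Module.Finite O M0 := Module.Finite.of_basis F.basis0
  have : Module.Free O M0 := Module.Free.of_basis F.basis0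
  have : Module.Finite O P0 := Module.Finite.of_basis G.basis0
  exact exists_basis_coker_of_residue g0 hres

end Coker

end Fermat.Agent.GE8.RaiseP.CokerLevel
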