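/-
GATE-E / RISK-4 R4-G (g1) (helper41): **the `p`-transfers out of an ARBITRARY level `L = M p`** —
the induction-ready forms of `GE8/RaiseP/DegComm`.

In the Taylor–Wiles iteration the levels are `L_Q = (N p) ∏ r` and `M_Q = N ∏ r`, and `L_Q = M_Q p`
holds only PROPOSITIONALLY.  For `hL : L = M * p`, `hpM : ¬ p ∣ M`:

* `coresAt hL hpM`, `coresDAt hL hpM : Hom(Γ₀(L), A) →+ Hom(Γ₀(M), A)` — `cores_p`, `coresD_p`
  after the cast `resLe (dvd_of_eq hL)` (no `Eq.rec`); `coresAt_rfl`, `coresDAt_rfl`;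
* `coresAt_res`, `coresAt_resD`, `coresDAt_res`, `coresDAt_resD` : for a prime `r ≠ p`
  (`¬ p ∣ M * r`): `coresAt (level_mul hL r) _ (res A L r ψ) = res A M r (coresAt hL _ ψ)` etc.;
* `coresAt_cohT`, `coresDAt_cohT` (`ℓ ∤ L`), `coresAt_cohU`, `coresDAt_cohU` (`ℓ ∣ M`) : Hecke
  equivariance;
* `mem_pNew_iff_at` : `φ ∈ pNew p A L ↔ coresAt hL hpM φ = 0 ∧ coresDAt hL hpM φ = 0`;
* `coresAtLin`, `coresDAtLin` : the `O`-linear forms on `Hom(Γ₀(·), O)`;
  `coresAtLin_genOp`, `coresDAtLin_genOp` (`ℓ ≠ p`), `coresAtLin_actN`, `coresDAtLin_actN`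
  (`∀ s, pr s ≠ p`) : equivariance for helper49's uniform action `LevelGen.actN`;
  `coresAtLin_res`, … : the commutation with the fields of `LevelGamma0.degen`.
-/
import Mathlib
import Fermat.Agent.GE8.RaiseP.DegComm
import Fermat.Agent.GB.B8.LevelGen

set_option autoImplicit false
set_option linter.unusedSectionVars false
set_option linter.unreachableTactic false
set_option linter.unusedTactic false
set_option linter.style.haveILetI false

open scoped MatrixGroups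
open CongruenceSubgroup Matrix Matrix.SpecialLinearGroup
open Fermat.Agent.S16_helper49
open Fermat.Agent.GM.B
open Fermat.Agent.GE8.Deside.ResNew
open Fermat.Agent.GE8.RaiseP.DegComm
open Fermat.Agent.GB.B8.LevelGamma0 Fermat.Agent.GB.B8.LevelGen

namespace Fermat.Agent.GE8.RaiseP.DegCommGen

section At

variable {p : ℕ} [Fact p.Prime] {A : Type*} [AddCommGroup A]

theorem level_mul {L M : ℕ} (hL : L = M * p) (r : ℕ) : L * r = M * r * p := by
  rw [hL]
  exact level_comm M p r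

variable (A) in
/-- `cores_p` out of an arbitrary level `L = M p` -/
noncomputable def coresAt {L M : ℕ} (hL : L = M * p) (hpM : ¬ p ∣ M) :
    (Additive (Gamma0 L) →+ A) →+ (Additive (Gamma0 M) →+ A) :=
  (cores A hpM).comp (resLe A (dvd_of_eq hL))

variable (A) in
/-- `coresD_p` out of an arbitrary level `L = M p` -/
noncomputable def coresDAt {L M : ℕ} (hL : L = M * p) (hpM : ¬ p ∣ M) :
    (Additive (Gamma0 L) →+ A) →+ (Additive (Gamma0 M) →+ A) :=
  (coresD A hpM).comp (resLe A (dvd_of_eq hL))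

theorem coresAt_apply {L M : ℕ} (hL : L = M * p) (hpM : ¬ p ∣ M)
    (ψ : Additive (Gamma0 L) →+ A) :
    coresAt A hL hpM ψ = cores A hpM (resLe A (dvd_of_eq hL) ψ) := rfl

theorem coresDAt_apply {L M : ℕ} (hL : L = M * p) (hpM : ¬ p ∣ M)
    (ψ : Additive (Gamma0 L) →+ A) :
    coresDAt A hL hpM ψ = coresD A hpM (resLe A (dvd_of_eq hL) ψ) := rfl

theorem coresAt_rfl {M : ℕ} (hpM : ¬ p ∣ M) (ψ : Additive (Gamma0 (M * p)) →+ A) :
    coresAt A rfl hpM ψ = cores A hpM ψ := by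
  rw [coresAt_apply, resLe_refl]

theorem coresDAt_rfl {M : ℕ} (hpM : ¬ p ∣ M) (ψ : Additive (Gamma0 (M * p)) →+ A) :
    coresDAt A rfl hpM ψ = coresD A hpM ψ := by
  rw [coresDAt_apply, resLe_refl]

/-- the `p`-new classes at level `L = M p` -/
theorem mem_pNew_iff_at {L M : ℕ} (hL : L = M * p) (hpM : ¬ p ∣ M)
    (φ : Additive (Gamma0 L) →+ A) :
    φ ∈ pNew p A L ↔ coresAt A hL hpM φ = 0 ∧ coresDAt A hL hpM φ = 0 := by
  subst hL
  rw [coresAt_rfl, coresDAt_rfl]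
  exact mem_pNew_iff hpM φ

variable {r : ℕ} [Fact r.Prime]

/-- **`cores_p ∘ res_r = res_r ∘ cores_p`** at an arbitrary level -/
theorem coresAt_res {L M : ℕ} (hL : L = M * p) (hpMr : ¬ p ∣ M * r)
    (ψ : Additive (Gamma0 L) →+ A) :
    coresAt A (level_mul hL r) hpMr (res A L r ψ)
      = res A M r (coresAt A hL (not_dvd_left hpMr) ψ) := by
  subst hL
  rw [coresAt_rfl, coresAt_apply]
  exact cores_res_comm hpMr ψ

/-- **`cores_p ∘ resD_r = resD_r ∘ cores_p`** at an arbitrary level -/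
theorem coresAt_resD {L M : ℕ} (hL : L = M * p) (hpMr : ¬ p ∣ M * r)
    (ψ : Additive (Gamma0 L) →+ A) :
    coresAt A (level_mul hL r) hpMr (resD A L r ψ)
      = resD A M r (coresAt A hL (not_dvd_left hpMr) ψ) := by
  subst hL
  rw [coresAt_rfl, coresAt_apply]
  exact cores_resD_comm hpMr ψ

/-- **`coresD_p ∘ res_r = res_r ∘ coresD_p`** at an arbitrary level -/
theorem coresDAt_res {L M : ℕ} (hL : L = M * p) (hpMr : ¬ p ∣ M * r)
    (ψ : Additive (Gamma0 L) →+ A) :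
    coresDAt A (level_mul hL r) hpMr (res A L r ψ)
      = res A M r (coresDAt A hL (not_dvd_left hpMr) ψ) := by
  subst hL
  rw [coresDAt_rfl, coresDAt_apply]
  exact coresD_res_comm hpMr ψ

/-- **`coresD_p ∘ resD_r = resD_r ∘ coresD_p`** at an arbitrary level -/
theorem coresDAt_resD {L M : ℕ} (hL : L = M * p) (hpMr : ¬ p ∣ M * r)
    (ψ : Additive (Gamma0 L) →+ A) :
    coresDAt A (level_mul hL r) hpMr (resD A L r ψ)
      = resD A M r (coresDAt A hL (not_dvd_left hpMr) ψ) := by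
  subst hL
  rw [coresDAt_rfl, coresDAt_apply]
  exact coresD_resD_comm hpMr ψ

/-! #### Hecke equivariance -/

variable {ℓ : ℕ} [Fact ℓ.Prime]

theorem not_dvd_of_eq {L M : ℕ} (hL : L = M * p) (hℓ : ¬ ℓ ∣ L) : ¬ ℓ ∣ M :=
  fun h => hℓ (hL ▸ Dvd.dvd.mul_right h p)

theorem dvd_of_eq_of_dvd {L M : ℕ} (hL : L = M * p) (hℓ : ℓ ∣ M) : ℓ ∣ L :=
  hL ▸ Dvd.dvd.mul_right hℓ p

theorem coresAt_cohT {L M : ℕ} (hL : L = M * p) (hpM : ¬ p ∣ M) (hℓ : ¬ ℓ ∣ L)
    (ψ : Additive (Gamma0 L) →+ A) :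
    coresAt A hL hpM (cohT hℓ A ψ) = cohT (not_dvd_of_eq hL hℓ) A (coresAt A hL hpM ψ) := by
  subst hL
  rw [coresAt_rfl, coresAt_rfl]
  exact cores_cohT hpM hℓ ψ

theorem coresDAt_cohT {L M : ℕ} (hL : L = M * p) (hpM : ¬ p ∣ M) (hℓ : ¬ ℓ ∣ L)
    (ψ : Additive (Gamma0 L) →+ A) :
    coresDAt A hL hpM (cohT hℓ A ψ) = cohT (not_dvd_of_eq hL hℓ) A (coresDAt A hL hpM ψ) := by
  subst hL
  rw [coresDAt_rfl, coresDAt_rfl]
  exact Fermat.Agent.GM.B5.coresD_cohT hpM hℓ ψ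

theorem coresAt_cohU {L M : ℕ} (hL : L = M * p) (hpM : ¬ p ∣ M) (hℓ : ℓ ∣ M)
    (ψ : Additive (Gamma0 L) →+ A) :
    coresAt A hL hpM (cohU (dvd_of_eq_of_dvd hL hℓ) A ψ) = cohU hℓ A (coresAt A hL hpM ψ) := by
  subst hL
  rw [coresAt_rfl, coresAt_rfl]
  exact Fermat.Agent.GB.B8.LevelU.cores_cohU hpM hℓ ψ

theorem coresDAt_cohU {L M : ℕ} (hL : L = M * p) (hpM : ¬ p ∣ M) (hℓ : ℓ ∣ M)
    (ψ : Additive (Gamma0 L) →+ A) :
    coresDAt A hL hpM (cohU (dvd_of_eq_of_dvd hL hℓ) A ψ) = cohU hℓ A (coresDAt A hL hpM ψ) := by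
  subst hL
  rw [coresDAt_rfl, coresDAt_rfl]
  exact Fermat.Agent.GB.B8.LevelU.coresD_cohU hpM hℓ ψ

end At

/-! ### the `O`-linear forms and helper49's uniform action -/

section Lin

variable {p : ℕ} [Fact p.Prime] (O : Type) [CommRing O]

/-- `cores_p` out of a level `L = M p`, as an `O`-linear map on `Hom(Γ₀(·), O)` -/
noncomputable def coresAtLin {L M : ℕ} (hL : L = M * p) (hpM : ¬ p ∣ M) :
    (Additive (Gamma0 L) →+ O) →ₗ[O] (Additive (Gamma0 M) →+ O) :=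
  (opLin O (A := O) (coresSys' hpM)).comp (opLin O (A := O) (resLeSys (dvd_of_eq hL)))

/-- `coresD_p` out of a level `L = M p`, as an `O`-linear map on `Hom(Γ₀(·), O)` -/
noncomputable def coresDAtLin {L M : ℕ} (hL : L = M * p) (hpM : ¬ p ∣ M) :
    (Additive (Gamma0 L) →+ O) →ₗ[O] (Additive (Gamma0 M) →+ O) :=
  (opLin O (A := O) (coresDSys' hpM)).comp (opLin O (A := O) (resLeSys (dvd_of_eq hL)))

variable {O}

@[simp] theorem coresAtLin_apply {L M : ℕ} (hL : L = M * p) (hpM : ¬ p ∣ M)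
    (ψ : Additive (Gamma0 L) →+ O) : coresAtLin O hL hpM ψ = coresAt O hL hpM ψ := rfl

@[simp] theorem coresDAtLin_apply {L M : ℕ} (hL : L = M * p) (hpM : ¬ p ∣ M)
    (ψ : Additive (Gamma0 L) →+ O) : coresDAtLin O hL hpM ψ = coresDAt O hL hpM ψ := rfl

/-- the `p`-new submodule at level `L = M p` is `ker coresAtLin ⊓ ker coresDAtLin` -/
theorem pNewSub_eq_at {L M : ℕ} (hL : L = M * p) (hpM : ¬ p ∣ M) :
    pNewSub p O O L = LinearMap.ker (coresAtLin O hL hpM) ⊓ LinearMap.ker (coresDAtLin O hL hpM) := by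
  ext φ
  rw [Submodule.mem_inf, LinearMap.mem_ker, LinearMap.mem_ker, coresAtLin_apply, coresDAtLin_apply]
  exact mem_pNew_iff_at hL hpM φ

section Degen

variable {r : ℕ} [Fact r.Prime]

/-- `coresAt` commutes with the field `res` of `LevelGamma0.degen` -/
theorem coresAtLin_res {L M : ℕ} (hL : L = M * p) (hpMr : ¬ p ∣ M * r) (hrL : ¬ r ∣ L)
    (hrM : ¬ r ∣ M) (ψ : Additive (Gamma0 L) →+ O) :
    coresAtLin O (level_mul hL r) hpMr ((degen hrL O O).res ψ)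
      = (degen hrM O O).res (coresAtLin O hL (not_dvd_left hpMr) ψ) :=
  coresAt_res hL hpMr ψ

theorem coresAtLin_resD {L M : ℕ} (hL : L = M * p) (hpMr : ¬ p ∣ M * r) (hrL : ¬ r ∣ L)
    (hrM : ¬ r ∣ M) (ψ : Additive (Gamma0 L) →+ O) :
    coresAtLin O (level_mul hL r) hpMr ((degen hrL O O).resD ψ)
      = (degen hrM O O).resD (coresAtLin O hL (not_dvd_left hpMr) ψ) :=
  coresAt_resD hL hpMr ψ

theorem coresDAtLin_res {L M : ℕ} (hL : L = M * p) (hpMr : ¬ p ∣ M * r) (hrL : ¬ r ∣ L)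
    (hrM : ¬ r ∣ M) (ψ : Additive (Gamma0 L) →+ O) :
    coresDAtLin O (level_mul hL r) hpMr ((degen hrL O O).res ψ)
      = (degen hrM O O).res (coresDAtLin O hL (not_dvd_left hpMr) ψ) :=
  coresDAt_res hL hpMr ψ

theorem coresDAtLin_resD {L M : ℕ} (hL : L = M * p) (hpMr : ¬ p ∣ M * r) (hrL : ¬ r ∣ L)
    (hrM : ¬ r ∣ M) (ψ : Additive (Gamma0 L) →+ O) :
    coresDAtLin O (level_mul hL r) hpMr ((degen hrL O O).resD ψ)
      = (degen hrM O O).resD (coresDAtLin O hL (not_dvd_left hpMr) ψ) :=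
  coresDAt_resD hL hpMr ψ

end Degen

section Gen

variable {ℓ : ℕ} [Fact ℓ.Prime]

theorem dvd_iff_of_ne {L M : ℕ} (hL : L = M * p) (hℓp : ℓ ≠ p) : ℓ ∣ L ↔ ℓ ∣ M := by
  subst hL
  constructor
  · intro h
    rcases (Nat.Prime.dvd_mul (Fact.out : ℓ.Prime)).1 h with h1 | h1
    · exact h1
    · exact absurd ((Nat.prime_dvd_prime_iff_eq (Fact.out : ℓ.Prime) (Fact.out : p.Prime)).1 h1) hℓp
  · intro h
    exact Dvd.dvd.mul_right h p

/-- **`cores_p` is equivariant for the uniform generator `genOp · ℓ`**, `ℓ ≠ p` -/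
theorem coresAtLin_genOp {L M : ℕ} (hL : L = M * p) (hpM : ¬ p ∣ M) (hℓp : ℓ ≠ p)
    (ψ : Additive (Gamma0 L) →+ O) :
    coresAtLin O hL hpM (genOp O L ℓ ψ) = genOp O M ℓ (coresAtLin O hL hpM ψ) := by
  by_cases h : ℓ ∣ M
  · rw [genOp_of_dvd O h, genOp_of_dvd O (dvd_of_eq_of_dvd hL h)]
    exact coresAt_cohU hL hpM h ψ
  · have h' : ¬ ℓ ∣ L := fun hd => h ((dvd_iff_of_ne hL hℓp).1 hd)
    rw [genOp_of_not_dvd O h, genOp_of_not_dvd O h']
    exact coresAt_cohT hL hpM h' ψ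

/-- **`coresD_p` is equivariant for the uniform generator `genOp · ℓ`**, `ℓ ≠ p` -/
theorem coresDAtLin_genOp {L M : ℕ} (hL : L = M * p) (hpM : ¬ p ∣ M) (hℓp : ℓ ≠ p)
    (ψ : Additive (Gamma0 L) →+ O) :
    coresDAtLin O hL hpM (genOp O L ℓ ψ) = genOp O M ℓ (coresDAtLin O hL hpM ψ) := by
  by_cases h : ℓ ∣ M
  · rw [genOp_of_dvd O h, genOp_of_dvd O (dvd_of_eq_of_dvd hL h)]
    exact coresDAt_cohU hL hpM h ψ
  · have h' : ¬ ℓ ∣ L := fun hd => h ((dvd_iff_of_ne hL hℓp).1 hd)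
    rw [genOp_of_not_dvd O h, genOp_of_not_dvd O h']
    exact coresDAt_cohT hL hpM h' ψ

end Gen

section Act

variable {σ : Type} (pr : σ → ℕ) (hpr : ∀ s, (pr s).Prime)

/-- a linear map intertwining the generators intertwines the whole symbol algebra -/
theorem intertwine_actN {L M : ℕ}
    (f : (Additive (Gamma0 L) →+ O) →ₗ[O] (Additive (Gamma0 M) →+ O))
    (hf : ∀ (s : σ) (ψ : Additive (Gamma0 L) →+ O),
      f (actN O pr hpr L (MvPolynomial.X s) ψ) = actN O pr hpr M (MvPolynomial.X s) (f ψ))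
    (t : MvPolynomial σ O) (ψ : Additive (Gamma0 L) →+ O) :
    f (actN O pr hpr L t ψ) = actN O pr hpr M t (f ψ) := by
  induction t using MvPolynomial.induction_on generalizing ψ with
  | C a =>
    rw [← MvPolynomial.algebraMap_eq, AlgHom.commutes, AlgHom.commutes, Module.algebraMap_end_apply,
      Module.algebraMap_end_apply, map_smul]
  | add t₁ t₂ h₁ h₂ =>
    rw [map_add, map_add, LinearMap.add_apply, LinearMap.add_apply, map_add, h₁, h₂]
  | mul_X t s h =>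
    rw [map_mul, map_mul, Module.End.mul_apply, Module.End.mul_apply, h, hf]

/-- **`cores_p` is equivariant for the uniform action of the symbols**, none of which is `p` -/
theorem coresAtLin_actN {L M : ℕ} (hL : L = M * p) (hpM : ¬ p ∣ M) (hne : ∀ s, pr s ≠ p)
    (t : MvPolynomial σ O) (ψ : Additive (Gamma0 L) →+ O) :
    coresAtLin O hL hpM (actN O pr hpr L t ψ) = actN O pr hpr M t (coresAtLin O hL hpM ψ) := by
  refine intertwine_actN pr hpr _ (fun s ψ => ?_) t ψ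
  haveI : Fact (pr s).Prime := ⟨hpr s⟩
  rw [actN_X, actN_X]
  exact coresAtLin_genOp hL hpM (hne s) ψ

/-- **`coresD_p` is equivariant for the uniform action of the symbols**, none of which is `p` -/
theorem coresDAtLin_actN {L M : ℕ} (hL : L = M * p) (hpM : ¬ p ∣ M) (hne : ∀ s, pr s ≠ p)
    (t : MvPolynomial σ O) (ψ : Additive (Gamma0 L) →+ O) :
    coresDAtLin O hL hpM (actN O pr hpr L t ψ) = actN O pr hpr M t (coresDAtLin O hL hpM ψ) := by
  refine intertwine_actN pr hpr _ (fun s ψ => ?_) t ψ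
  haveI : Fact (pr s).Prime := ⟨hpr s⟩
  rw [actN_X, actN_X]
  exact coresDAtLin_genOp hL hpM (hne s) ψ

/-- the `p`-new submodule is stable under the uniform action (symbols `≠ p`) -/
theorem actN_mem_pNewSub {L M : ℕ} (hL : L = M * p) (hpM : ¬ p ∣ M) (hne : ∀ s, pr s ≠ p)
    (t : MvPolynomial σ O) {ψ : Additive (Gamma0 L) →+ O} (hψ : ψ ∈ pNewSub p O O L) :
    actN O pr hpr L t ψ ∈ pNewSub p O O L := by
  rw [pNewSub_eq_at hL hpM, Submodule.mem_inf, LinearMap.mem_ker, LinearMap.mem_ker] at hψ ⊢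
  rw [coresAtLin_actN pr hpr hL hpM hne, coresDAtLin_actN pr hpr hL hpM hne, hψ.1, hψ.2, map_zero]
  exact ⟨rfl, rfl⟩

end Act

end Lin

end Fermat.Agent.GE8.RaiseP.DegCommGen
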