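/-
GATE-E (S59 pre-work) / node E8.5 RAISE-P, leaf (i-1) ES-AT-P (helper80; claims row
GE8-5-RAISEP-REDATP).

**The Eichler–Shimura congruence relation AT the residue characteristic, on `J₀(N)`.**

Frozen S37 (`SpecializationExists N p (JZero N)`) is stated for primes `ℓ ∤ N p`; the hypothesis
`ℓ ≠ p` is only used for the INJECTIVITY of the specialisation map on `p`-power torsion (S18) and
for the auxiliary levels at `ℓ ∈ {2, 3}`.  The reduction map itself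
(`ModularCurve.reductionModL A N : J₀(N)(ℚ̄) → Pic⁰(X₀(N)_{𝔽̄_ℓ})`), its compatibility with inertia
and Frobenius lifts, and the congruence `T_ℓ = Fr + Ve` on the special fibre
(`GJ/S37/{HRel, UniqRed2, FrobSpecial, AuxUniq, LSpaceGateProof}`) only need `ℓ ∤ N`
(`3 ∣ N` if `ℓ = 2`, `2 ∣ N` if `ℓ = 3`).  Since `Ve = ℓ · Fr⁻¹`, this gives, for ANY such `ℓ`
— in particular `ℓ = p` —

* `reductionModL_hecke_sub` : `red (T_ℓ x − σ x − σ⁻¹ (ℓ x)) = 0` for every Frobenius lift `σ` at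
  `A ∣ ℓ` and every `x ∈ J₀(N)(ℚ̄)`;
* `reductionModL_hecke_of_torsion` : `red (T_ℓ x) = red (σ x)` for `ℓ x = 0`
  (**`T_p ≡ Frob_p` on the étale quotient of `J₀(N)[p]`** — the Hecke-side half of Deligne's
  `a_p(f) ≡ (unramified quotient of ρ̄_f|D_p)(Frob_p)`);
* `reductionModL_smul_of_inertia` : `red (τ x) = red x` for `τ` in the inertia group of `A`;
* `reductionModL_eq_zero_smul_of_frobenius`, `reductionModL_eq_zero_smul_of_inertia` : the kernel of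
  `red` is stable under Frobenius lifts and inertia (so under the decomposition group).
-/
import Fermat.Agent.GJ.S37.AuxUniq
import Fermat.Agent.GJ.S37.LSpaceGateProof
import Fermat.Agent.GJ.S37.Final

set_option autoImplicit false

namespace Fermat.Agent.GE8.RaiseP.RedAtP

open ModularCurve AlgebraicCurve IsLocalRing Fermat.Agent.GJ.S37Uniq Fermat.Agent.GJ.S37Uniq2
open Fermat.Agent.GJ.S37.Frob Fermat.Agent.GJ.S37Asm

section Generic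

variable (k : Type*) [Field k] (ℓ : ℕ) [Fact ℓ.Prime] [CharP k ℓ] [PerfectRing k ℓ] (N : ℕ)

/-- `Ve y = z` as soon as `ℓ y = Fr z` (`Ve = ℓ · Fr⁻¹`). -/
theorem VePic_eq_of_nsmul_eq_FrPic {y z : JZeroC k N} (h : ℓ • y = FrPic k ℓ N z) :
    VePic k ℓ N y = z := by
  have h3 := map_nsmul (DistribSMul.toAddMonoidHom (JZeroC k N) (frobAut k ℓ N)⁻¹) ℓ y
  rw [DistribSMul.toAddMonoidHom_apply, DistribSMul.toAddMonoidHom_apply] at h3
  rw [VePic_apply, ← h3, h, FrPic_apply, inv_smul_smul]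

/-- `Fr` is injective on `Pic⁰` of the special fibre. -/
theorem FrPic_eq_zero {z : JZeroC k N} (h : FrPic k ℓ N z = 0) : z = 0 := by
  have h1 : (frobAut k ℓ N)⁻¹ • FrPic k ℓ N z = z := by rw [FrPic_apply, inv_smul_smul]
  rw [← h1, h]
  exact map_zero (DistribSMul.toAddMonoidHom (JZeroC k N) (frobAut k ℓ N)⁻¹)

end Generic

set_option synthInstance.maxHeartbeats 400000

/-- `red ∘ σ = Fr ∘ red` for a Frobenius lift `σ` at `A ∣ ℓ`, `ℓ ∤ N`. -/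
theorem reductionModL_smul_of_frobenius (N : ℕ) [NeZero N] {ℓ : ℕ} (hℓ : ℓ.Prime)
    (hℓN : ¬ ℓ ∣ N) (h2 : ℓ = 2 → 3 ∣ N) (h3 : ℓ = 3 → 2 ∣ N)
    (A : ValuationSubring (AlgebraicClosure ℚ)) (hA : A.LiesOverPrime ℓ)
    {σ : AlgebraicClosure ℚ ≃ₐ[ℚ] AlgebraicClosure ℚ} (hσ : A.IsFrobeniusAt σ ℓ) (x : JZero N) :
    haveI : Fact ℓ.Prime := ⟨hℓ⟩
    haveI : CharP (ResidueField A) ℓ := Fermat.Agent.GJ.Kum.charP_residueField A hℓ hA
    haveI : IsAlgClosed (ResidueField A) :=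
      Fermat.Agent.GJ.ResidueAlgClosed.instIsAlgClosedResidueField A
    reductionModL A N (σ • x) = FrPic (ResidueField A) ℓ N (reductionModL A N x) := by
  have : Fact ℓ.Prime := ⟨hℓ⟩
  have : CharP (ResidueField A) ℓ := Fermat.Agent.GJ.Kum.charP_residueField A hℓ hA
  have : IsAlgClosed (ResidueField A) :=
    Fermat.Agent.GJ.ResidueAlgClosed.instIsAlgClosedResidueField A
  obtain ⟨h, huniq⟩ := Fermat.Agent.GJ.S37LSpaceGate.levelPackage N hℓ hℓN h2 h3 A hA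
  exact reductionModL_smul_of_frobenius_of_uniq h huniq (frobAut (ResidueField A) ℓ N)
    (fun f => coe_frobAut_smul (ResidueField A) ℓ N f) hσ x

/-- inertia acts trivially through `red`. -/
theorem reductionModL_smul_of_inertia (N : ℕ) [NeZero N] {ℓ : ℕ} (hℓ : ℓ.Prime)
    (hℓN : ¬ ℓ ∣ N) (h2 : ℓ = 2 → 3 ∣ N) (h3 : ℓ = 3 → 2 ∣ N)
    (A : ValuationSubring (AlgebraicClosure ℚ)) (hA : A.LiesOverPrime ℓ)
    {τ : AlgebraicClosure ℚ ≃ₐ[ℚ] AlgebraicClosure ℚ} (hτ : τ ∈ A.inertiaSubgroupIn ℚ)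
    (x : JZero N) : reductionModL A N (τ • x) = reductionModL A N x := by
  obtain ⟨h, huniq⟩ := Fermat.Agent.GJ.S37LSpaceGate.levelPackage N hℓ hℓN h2 h3 A hA
  exact reductionModL_smul_of_inertia_of_uniq h huniq τ hτ x

/-- **Eichler–Shimura congruence AT `ℓ`, full form**: `T_ℓ ≡ σ + ℓ σ⁻¹` modulo the kernel of the
reduction map at `A ∣ ℓ`, for every Frobenius lift `σ`; `ℓ ∤ N` is the ONLY hypothesis on `ℓ`
(no auxiliary prime `p ≠ ℓ`). -/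
theorem reductionModL_hecke_sub (N : ℕ) [NeZero N] {ℓ : ℕ} (hℓ : ℓ.Prime)
    (hℓN : ¬ ℓ ∣ N) (h2 : ℓ = 2 → 3 ∣ N) (h3 : ℓ = 3 → 2 ∣ N)
    (A : ValuationSubring (AlgebraicClosure ℚ)) (hA : A.LiesOverPrime ℓ)
    {σ : AlgebraicClosure ℚ ≃ₐ[ℚ] AlgebraicClosure ℚ} (hσ : A.IsFrobeniusAt σ ℓ) (x : JZero N) :
    reductionModL A N (heckeOperatorBar N ⟨ℓ, hℓ⟩ x - σ • x - σ⁻¹ • (ℓ • x)) = 0 := by
  have : Fact ℓ.Prime := ⟨hℓ⟩
  have : CharP (ResidueField A) ℓ := Fermat.Agent.GJ.Kum.charP_residueField A hℓ hA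
  have : IsAlgClosed (ResidueField A) :=
    Fermat.Agent.GJ.ResidueAlgClosed.instIsAlgClosedResidueField A
  obtain ⟨h, -⟩ := Fermat.Agent.GJ.S37LSpaceGate.levelPackage N hℓ hℓN h2 h3 A hA
  have hF : ∀ z : JZero N, reductionModL A N (σ • z) =
      FrPic (ResidueField A) ℓ N (reductionModL A N z) :=
    fun z => reductionModL_smul_of_frobenius N hℓ hℓN h2 h3 A hA hσ z
  have hT := Fermat.Agent.GJ.S37.HRel.reductionModL_heckeOperatorBar A N ℓ hℓN h x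
  -- `red (σ⁻¹ (ℓ x)) = Ve (red x)`
  have hV : reductionModL A N (σ⁻¹ • (ℓ • x)) =
      VePic (ResidueField A) ℓ N (reductionModL A N x) := by
    have h1 := hF (σ⁻¹ • (ℓ • x))
    rw [smul_inv_smul, map_nsmul] at h1
    exact (VePic_eq_of_nsmul_eq_FrPic (ResidueField A) ℓ N h1).symm
  rw [map_sub, map_sub, hT, hF, hV]
  abel

/-- **`T_ℓ ≡ Frob_ℓ` on the image of `J₀(N)[ℓ]` in the special fibre at `ℓ`** (`ℓ ∤ N`). -/
theorem reductionModL_hecke_of_torsion (N : ℕ) [NeZero N] {ℓ : ℕ} (hℓ : ℓ.Prime)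
    (hℓN : ¬ ℓ ∣ N) (h2 : ℓ = 2 → 3 ∣ N) (h3 : ℓ = 3 → 2 ∣ N)
    (A : ValuationSubring (AlgebraicClosure ℚ)) (hA : A.LiesOverPrime ℓ)
    {σ : AlgebraicClosure ℚ ≃ₐ[ℚ] AlgebraicClosure ℚ} (hσ : A.IsFrobeniusAt σ ℓ) (x : JZero N)
    (hx : ℓ • x = 0) :
    reductionModL A N (heckeOperatorBar N ⟨ℓ, hℓ⟩ x) = reductionModL A N (σ • x) := by
  have h := reductionModL_hecke_sub N hℓ hℓN h2 h3 A hA hσ x
  have h0 : σ⁻¹ • (ℓ • x) = 0 := by
    rw [hx]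
    exact smul_zero (A := JZero N) σ⁻¹
  rw [h0, sub_zero, map_sub, sub_eq_zero] at h
  exact h

/-- On a `T_ℓ`-eigenvector `x ∈ J₀(N)[ℓ]` with eigenvalue `a ∈ ℤ`, every Frobenius lift at `A ∣ ℓ`
acts through `red` as the scalar `a`. -/
theorem reductionModL_frobenius_smul_of_eigen (N : ℕ) [NeZero N] {ℓ : ℕ} (hℓ : ℓ.Prime)
    (hℓN : ¬ ℓ ∣ N) (h2 : ℓ = 2 → 3 ∣ N) (h3 : ℓ = 3 → 2 ∣ N)
    (A : ValuationSubring (AlgebraicClosure ℚ)) (hA : A.LiesOverPrime ℓ)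
    {σ : AlgebraicClosure ℚ ≃ₐ[ℚ] AlgebraicClosure ℚ} (hσ : A.IsFrobeniusAt σ ℓ) (x : JZero N)
    (hx : ℓ • x = 0) (a : ℤ) (hax : heckeOperatorBar N ⟨ℓ, hℓ⟩ x = a • x) :
    reductionModL A N (σ • x) = a • reductionModL A N x := by
  rw [← reductionModL_hecke_of_torsion N hℓ hℓN h2 h3 A hA hσ x hx, hax, map_zsmul]

/-- the kernel of `red` is stable under Frobenius lifts. -/
theorem reductionModL_eq_zero_smul_of_frobenius (N : ℕ) [NeZero N] {ℓ : ℕ} (hℓ : ℓ.Prime)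
    (hℓN : ¬ ℓ ∣ N) (h2 : ℓ = 2 → 3 ∣ N) (h3 : ℓ = 3 → 2 ∣ N)
    (A : ValuationSubring (AlgebraicClosure ℚ)) (hA : A.LiesOverPrime ℓ)
    {σ : AlgebraicClosure ℚ ≃ₐ[ℚ] AlgebraicClosure ℚ} (hσ : A.IsFrobeniusAt σ ℓ) (x : JZero N)
    (hx : reductionModL A N x = 0) : reductionModL A N (σ • x) = 0 := by
  have := reductionModL_smul_of_frobenius N hℓ hℓN h2 h3 A hA hσ x
  rw [this, hx, map_zero]

/-- the kernel of `red` is stable under inverses of Frobenius lifts. -/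
theorem reductionModL_eq_zero_inv_smul_of_frobenius (N : ℕ) [NeZero N] {ℓ : ℕ} (hℓ : ℓ.Prime)
    (hℓN : ¬ ℓ ∣ N) (h2 : ℓ = 2 → 3 ∣ N) (h3 : ℓ = 3 → 2 ∣ N)
    (A : ValuationSubring (AlgebraicClosure ℚ)) (hA : A.LiesOverPrime ℓ)
    {σ : AlgebraicClosure ℚ ≃ₐ[ℚ] AlgebraicClosure ℚ} (hσ : A.IsFrobeniusAt σ ℓ) (x : JZero N)
    (hx : reductionModL A N x = 0) : reductionModL A N (σ⁻¹ • x) = 0 := by
  have : Fact ℓ.Prime := ⟨hℓ⟩
  have : CharP (ResidueField A) ℓ := Fermat.Agent.GJ.Kum.charP_residueField A hℓ hA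
  have : IsAlgClosed (ResidueField A) :=
    Fermat.Agent.GJ.ResidueAlgClosed.instIsAlgClosedResidueField A
  have h1 := reductionModL_smul_of_frobenius N hℓ hℓN h2 h3 A hA hσ (σ⁻¹ • x)
  rw [smul_inv_smul, hx] at h1
  exact FrPic_eq_zero (ResidueField A) ℓ N h1.symm

/-- the kernel of `red` is stable under inertia. -/
theorem reductionModL_eq_zero_smul_of_inertia (N : ℕ) [NeZero N] {ℓ : ℕ} (hℓ : ℓ.Prime)
    (hℓN : ¬ ℓ ∣ N) (h2 : ℓ = 2 → 3 ∣ N) (h3 : ℓ = 3 → 2 ∣ N)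
    (A : ValuationSubring (AlgebraicClosure ℚ)) (hA : A.LiesOverPrime ℓ)
    {τ : AlgebraicClosure ℚ ≃ₐ[ℚ] AlgebraicClosure ℚ} (hτ : τ ∈ A.inertiaSubgroupIn ℚ)
    (x : JZero N) (hx : reductionModL A N x = 0) : reductionModL A N (τ • x) = 0 := by
  rw [reductionModL_smul_of_inertia N hℓ hℓN h2 h3 A hA hτ x, hx]

/-! ### the same in the `HeckeAlg`-module vocabulary of frozen S37 -/

/-- `red (T_ℓ • x) = red (σ x)` on `J₀(N)[ℓ]`, for the frozen `HeckeAlg`-module structure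
`heckeModuleBar N` (`T_ℓ = heckeGen ⟨ℓ, _⟩`). -/
theorem reductionModL_heckeGen_of_torsion (N : ℕ) [NeZero N] (hcomm : HeckeOperatorsCommuteBar N)
    {ℓ : ℕ} (hℓ : ℓ.Prime)
    (hℓN : ¬ ℓ ∣ N) (h2 : ℓ = 2 → 3 ∣ N) (h3 : ℓ = 3 → 2 ∣ N)
    (A : ValuationSubring (AlgebraicClosure ℚ)) (hA : A.LiesOverPrime ℓ)
    {σ : AlgebraicClosure ℚ ≃ₐ[ℚ] AlgebraicClosure ℚ} (hσ : A.IsFrobeniusAt σ ℓ) (x : JZero N)
    (hx : ℓ • x = 0) :
    letI := heckeModuleBar N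
    reductionModL A N (heckeGen ⟨ℓ, hℓ⟩ • x) = reductionModL A N (σ • x) := by
  have e := heckeModuleBar_heckeGen_smul hcomm (⟨ℓ, hℓ⟩ : Nat.Primes) x
  exact (congrArg (reductionModL A N) e).trans
    (reductionModL_hecke_of_torsion N hℓ hℓN h2 h3 A hA hσ x hx)

/-- full form: `red ((T_ℓ − σ − ℓ σ⁻¹) x) = 0`. -/
theorem reductionModL_heckeGen_sub (N : ℕ) [NeZero N] (hcomm : HeckeOperatorsCommuteBar N)
    {ℓ : ℕ} (hℓ : ℓ.Prime)
    (hℓN : ¬ ℓ ∣ N) (h2 : ℓ = 2 → 3 ∣ N) (h3 : ℓ = 3 → 2 ∣ N)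
    (A : ValuationSubring (AlgebraicClosure ℚ)) (hA : A.LiesOverPrime ℓ)
    {σ : AlgebraicClosure ℚ ≃ₐ[ℚ] AlgebraicClosure ℚ} (hσ : A.IsFrobeniusAt σ ℓ) (x : JZero N) :
    letI := heckeModuleBar N
    reductionModL A N (heckeGen ⟨ℓ, hℓ⟩ • x - σ • x - σ⁻¹ • (ℓ • x)) = 0 := by
  have e := heckeModuleBar_heckeGen_smul hcomm (⟨ℓ, hℓ⟩ : Nat.Primes) x
  have e2 := reductionModL_hecke_sub N hℓ hℓN h2 h3 A hA hσ x
  rw [← e] at e2
  exact e2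

end Fermat.Agent.GE8.RaiseP.RedAtP
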