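/-
GATE-E (S59 pre-work) / E8.5 DELIGNE-MODP, node GE8-5-ESATP (helper18): **the Eichler–Shimura
congruence AT the residue characteristic** (`ℓ = p`), extracted from the proof of S37.

The frozen S37 is stated at primes `ℓ ∤ N p`; its proof uses `p` only for the injectivity of the
reduction on `p`-power torsion (S18).  The other three facts about `red := reductionModL A N`
(`A | ℓ`, `ℓ ∤ N`) do not involve `p`:

* `red (σ • x) = red x` for `σ` in the inertia group of `A`;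
* `red x = 0 → red (σ • x) = 0` for Frobenius lifts `σ` at `A`;
* `red (σ • σ • x - T_ℓ (σ • x) + ℓ • x) = 0` for Frobenius lifts `σ` at `A`.

`es_at_l` records them (levels with `ℓ = 2 → 3 ∣ N`, `ℓ = 3 → 2 ∣ N`, as in the level package).

Galois-module consequence (`frob_sub_smul_mem_ker`): if `V ≤ J₀(N)(ℚ̄)` is a finite subgroup killed
by `ℓ`, stable under a Frobenius lift `σ` at `A | ℓ`, on which `T_ℓ` acts by the integer `a` and
commutes with `σ`, then `red (σ • x - a • x) = 0` for all `x ∈ V`: **every Frobenius lift acts by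
`a = a_ℓ` on the unramified quotient `V / (V ∩ ker red)`** (`unramified` by the first fact).  If
moreover `a • V ⊆ ker red` (e.g. `a ≡ 0`) then `V ⊆ ker red` (`le_ker_of_smul_le_ker`).
-/
import Mathlib
import Fermat.Agent.GJ.S37.AuxUniq
import Fermat.Agent.GJ.S37.Final
import Fermat.Agent.GJ.S37.LSpaceGateProof

set_option autoImplicit false

namespace Fermat.Agent.GE8.RaiseP.ESAtP

open ModularCurve AlgebraicCurve

local notation "Qb" => AlgebraicClosure ℚ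
local notation "GQ" => (AlgebraicClosure ℚ ≃ₐ[ℚ] AlgebraicClosure ℚ)

/-- **Eichler–Shimura at the residue characteristic**: the three `p`-free facts of the S37 proof
for `red := reductionModL A N`, `A | ℓ`, `ℓ ∤ N` (no second prime involved). -/
theorem es_at_l (N : ℕ) [NeZero N] {ℓ : ℕ} (hℓ : ℓ.Prime) (hℓN : ¬ ℓ ∣ N)
    (h2 : ℓ = 2 → 3 ∣ N) (h3 : ℓ = 3 → 2 ∣ N)
    (A : ValuationSubring Qb) (hA : A.LiesOverPrime ℓ) :
    (∀ σ ∈ A.inertiaSubgroupIn ℚ, ∀ y : JZero N,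
      reductionModL A N (σ • y) = reductionModL A N y) ∧
    (∀ σ : GQ, A.IsFrobeniusAt σ ℓ → ∀ y : JZero N, reductionModL A N y = 0 →
      reductionModL A N (σ • y) = 0) ∧
    (∀ σ : GQ, A.IsFrobeniusAt σ ℓ → ∀ y : JZero N,
      reductionModL A N (σ • σ • y - heckeOperatorBar N ⟨ℓ, hℓ⟩ (σ • y) + ℓ • y) = 0) := by
  obtain ⟨h, huniq⟩ := Fermat.Agent.GJ.S37LSpaceGate.levelPackage N hℓ hℓN h2 h3 A hA
  exact Fermat.Agent.GJ.S37AuxUniq.aux_triple_of_uniq hℓ hA hℓN h huniq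

/-- an injective self-map of a finite set which preserves a subset reflects it. -/
theorem mem_of_map_mem_of_finite {J : Type*} {V K : Set J} (hV : V.Finite) (hKV : K ⊆ V) (s : J → J)
    (hs : Set.InjOn s V) (hsK : ∀ x ∈ K, s x ∈ K) {y : J} (hy : y ∈ V) (hsy : s y ∈ K) :
    y ∈ K := by
  have hKfin : K.Finite := hV.subset hKV
  have hinjK : Set.InjOn s K := hs.mono hKV
  have hmaps : Set.MapsTo s K K := fun x hx => hsK x hx
  have hbij : Set.BijOn s K K := (hKfin.injOn_iff_bijOn_of_mapsTo hmaps).1 hinjK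
  obtain ⟨x, hx, hxy⟩ := hbij.surjOn hsy
  have : x = y := hs (hKV hx) hy hxy
  exact this ▸ hx

section Abstract

variable {J M : Type*} [AddCommGroup J] [AddCommGroup M]

/-- **the Galois-module form of Eichler–Shimura at `ℓ`.**  `red` an additive map, `σ` and `T`
additive endomorphisms of `J`, `V` a finite subgroup killed by `ℓ`, stable under `σ` (injective
on `V`), on which `T = a` and `T σ = σ T`; if `ker red` is `σ`-stable and
`red (σ σ x - T σ x + ℓ x) = 0` then `red (σ x - a x) = 0` on `V`. -/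
theorem frob_sub_smul_mem_ker (red : J →+ M) (σ T : J →+ J) (ℓ : ℕ) (a : ℤ) (V : AddSubgroup J)
    (hVfin : (V : Set J).Finite) (hℓV : ∀ x ∈ V, ℓ • x = 0) (hσV : ∀ x ∈ V, σ x ∈ V)
    (hσinj : Set.InjOn σ (V : Set J)) (hTV : ∀ x ∈ V, T x = a • x)
    (hF : ∀ x : J, red x = 0 → red (σ x) = 0)
    (hR : ∀ x : J, red (σ (σ x) - T (σ x) + ℓ • x) = 0) :
    ∀ x ∈ V, red (σ x - a • x) = 0 := by
  intro x hx
  set K : Set J := {y | y ∈ V ∧ red y = 0} with hK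
  have hKV : K ⊆ (V : Set J) := fun y hy => hy.1
  have hsK : ∀ y ∈ K, σ y ∈ K := fun y hy => ⟨hσV y hy.1, hF y hy.2⟩
  have hyV : σ x - a • x ∈ V := V.sub_mem (hσV x hx) (V.zsmul_mem hx a)
  have hsy : σ (σ x - a • x) ∈ K := by
    refine ⟨hσV _ hyV, ?_⟩
    have h1 := hR x
    rw [hTV (σ x) (hσV x hx), hℓV x hx, add_zero] at h1
    rw [map_sub, map_zsmul]
    exact h1
  exact (mem_of_map_mem_of_finite hVfin hKV σ hσinj hsK hyV hsy).2

/-- if moreover `a • V ⊆ ker red` (for instance `a ≡ 0`), then all of `V` reduces to `0`. -/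
theorem le_ker_of_smul_le_ker (red : J →+ M) (σ T : J →+ J) (ℓ : ℕ) (a : ℤ) (V : AddSubgroup J)
    (hVfin : (V : Set J).Finite) (hℓV : ∀ x ∈ V, ℓ • x = 0) (hσV : ∀ x ∈ V, σ x ∈ V)
    (hσinj : Set.InjOn σ (V : Set J)) (hTV : ∀ x ∈ V, T x = a • x)
    (hF : ∀ x : J, red x = 0 → red (σ x) = 0)
    (hR : ∀ x : J, red (σ (σ x) - T (σ x) + ℓ • x) = 0)
    (ha : ∀ x ∈ V, red (a • x) = 0) : ∀ x ∈ V, red x = 0 := by
  intro x hx
  set K : Set J := {y | y ∈ V ∧ red y = 0} with hK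
  have hKV : K ⊆ (V : Set J) := fun y hy => hy.1
  have hsK : ∀ y ∈ K, σ y ∈ K := fun y hy => ⟨hσV y hy.1, hF y hy.2⟩
  have h1 := frob_sub_smul_mem_ker red σ T ℓ a V hVfin hℓV hσV hσinj hTV hF hR x hx
  rw [map_sub, ha x hx, sub_zero] at h1
  exact (mem_of_map_mem_of_finite hVfin hKV σ hσinj hsK hx ⟨hσV x hx, h1⟩).2

end Abstract

/-- **Frobenius acts by `a_ℓ` modulo the kernel of reduction**, on `J₀(N)(ℚ̄)`: `V` a finite
subgroup killed by `ℓ`, stable under the Frobenius lift `σ`, on which `T_ℓ = a` (an integer) and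
`T_ℓ` commutes with `σ`. -/
theorem reductionModL_frob_sub_smul (N : ℕ) [NeZero N] {ℓ : ℕ} (hℓ : ℓ.Prime) (hℓN : ¬ ℓ ∣ N)
    (h2 : ℓ = 2 → 3 ∣ N) (h3 : ℓ = 3 → 2 ∣ N)
    (A : ValuationSubring Qb) (hA : A.LiesOverPrime ℓ) (σ : GQ) (hσ : A.IsFrobeniusAt σ ℓ)
    (a : ℤ) (V : AddSubgroup (JZero N)) (hVfin : (V : Set (JZero N)).Finite)
    (hℓV : ∀ x ∈ V, ℓ • x = 0) (hσV : ∀ x ∈ V, σ • x ∈ V)
    (hTV : ∀ x ∈ V, heckeOperatorBar N ⟨ℓ, hℓ⟩ x = a • x) :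
    ∀ x ∈ V, reductionModL A N (σ • x - a • x) = 0 := by
  obtain ⟨-, hF, hR⟩ := es_at_l N hℓ hℓN h2 h3 A hA
  refine frob_sub_smul_mem_ker (reductionModL A N) (DistribSMul.toAddMonoidHom (JZero N) σ)
    (heckeOperatorBar N ⟨ℓ, hℓ⟩) ℓ a V hVfin hℓV hσV ?_ hTV (hF σ hσ) (hR σ hσ)
  intro x _ y _ hxy
  exact smul_left_cancel σ hxy

/-- the quotient `V / (V ∩ ker red)` is unramified: inertia acts trivially modulo `ker red`. -/
theorem reductionModL_inertia_sub (N : ℕ) [NeZero N] {ℓ : ℕ} (hℓ : ℓ.Prime) (hℓN : ¬ ℓ ∣ N)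
    (h2 : ℓ = 2 → 3 ∣ N) (h3 : ℓ = 3 → 2 ∣ N)
    (A : ValuationSubring Qb) (hA : A.LiesOverPrime ℓ) (σ : GQ) (hσ : σ ∈ A.inertiaSubgroupIn ℚ)
    (x : JZero N) : reductionModL A N (σ • x - x) = 0 := by
  obtain ⟨hI, -, -⟩ := es_at_l N hℓ hℓN h2 h3 A hA
  rw [map_sub, hI σ hσ x, sub_self]

/-- **supersingular-type exclusion**: if `T_ℓ` acts on `V` by an integer `a` with `a • V ⊆ ker red`
(e.g. `ℓ ∣ a`), then the whole of `V` reduces to `0`. -/
theorem reductionModL_eq_zero_of_smul (N : ℕ) [NeZero N] {ℓ : ℕ} (hℓ : ℓ.Prime) (hℓN : ¬ ℓ ∣ N)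
    (h2 : ℓ = 2 → 3 ∣ N) (h3 : ℓ = 3 → 2 ∣ N)
    (A : ValuationSubring Qb) (hA : A.LiesOverPrime ℓ) (σ : GQ) (hσ : A.IsFrobeniusAt σ ℓ)
    (a : ℤ) (V : AddSubgroup (JZero N)) (hVfin : (V : Set (JZero N)).Finite)
    (hℓV : ∀ x ∈ V, ℓ • x = 0) (hσV : ∀ x ∈ V, σ • x ∈ V)
    (hTV : ∀ x ∈ V, heckeOperatorBar N ⟨ℓ, hℓ⟩ x = a • x)
    (ha : ∀ x ∈ V, reductionModL A N (a • x) = 0) :
    ∀ x ∈ V, reductionModL A N x = 0 := by
  obtain ⟨-, hF, hR⟩ := es_at_l N hℓ hℓN h2 h3 A hA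
  refine le_ker_of_smul_le_ker (reductionModL A N) (DistribSMul.toAddMonoidHom (JZero N) σ)
    (heckeOperatorBar N ⟨ℓ, hℓ⟩) ℓ a V hVfin hℓV hσV ?_ hTV (hF σ hσ) (hR σ hσ) ha
  intro x _ y _ hxy
  exact smul_left_cancel σ hxy

end Fermat.Agent.GE8.RaiseP.ESAtP
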