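/-
GATE-E / E8.5 (ii) PNEW-PATCH, node (P4) (helper32): **the module-level (ANN) for the `p`-NEW PART
of a Taylor–Wiles level** — the binder `hAnn` of `GalPkgSOImg.exists_galRep_TQ_strict` /
`ProviderNew.G3Pkg.exists_psi_pkg_strict` for a module `M'` sitting inside helper95's big level
`(Plug.bigLevel Sy 𝔪 H h j).M` (level `Nl * p`) whose classes are killed by the two `p`-direction
transfers `coresq`, `coresDq` to level `Nl` (the KERNEL module `ker f_Q` of helper80's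
`NewLevel.kerLevel`), instead of the whole big level over a zero base (GATE-B `AnnPlug.hAnn_twP_new`).

* `castθ` : transport of classes along an equality of characters (`castθ rfl = id`);
* `hcores_of_new_eq` : helper15's `HCores.hcores_of_new` for ANY character `θ` of `(ℤ/N q)ˣ` with
  `θ = thQ θ' q` (the consumer holds `Theta (Δs p e) H.psi j` for the prime data `H` at level `N q`);
* `hAnn_sub_new` : **(ANN) on `M'`**: `jm : M' →ₗ[O] (Plug.bigLevel Sy 𝔪 H h j).M` injective,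
  intertwining `tw'` with `twP`, with `coresq = 0 = coresDq` on the classes `ι (jm m)`
  ⟹ every `t₀ ∈ O ⊗ heckeAlgebra (N₀ p) 2 S` killing `O ⊗ LamNew` kills `M'` through `tw'`;
* `restrictTw`, `hAnn_ker_new` : the case `M' = K` a `twP`-stable submodule (`K = ker φ.f`);
* `hAnn_big_new` : descent to `M¹ × M^χ` of ANY `FreeLevel` `B'` with `B'.M = M'` (e.g.
  `NewLevel.kerLevel`), via helper44's abstract `AnnPlug.hAnn_big`.
-/
import Fermat.Agent.GB.B10.L.AnnPlug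

set_option autoImplicit false
set_option linter.unusedSectionVars false
set_option linter.style.haveILetI false

noncomputable section

open scoped MatrixGroups TensorProduct
open CongruenceSubgroup Matrix Matrix.SpecialLinearGroup ModularCurve.Period CuspForm
open Fermat.Agent.S16_helper49 Fermat.Agent.GM.B
open Fermat.Agent.GB.B3 Fermat.Agent.GB.B3.EisGamma0 Fermat.Agent.GB.B3.GamH
open Fermat.Agent.GJ.J2.ZStruct Fermat.Agent.GJ.J2.Lat Fermat.Agent.GJ.J2.LatAct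
open Fermat.Agent.GB.B4.Twist Fermat.Agent.GB.B4.Twist.Chain Fermat.Agent.GB.B4.Twist.ChainD
open Fermat.Agent.GB.B4.Twist.Asm Fermat.Agent.GB.B4.Twist.Coeff Fermat.Agent.GB.B4.Twist.TwR
open Fermat.Agent.GB.B4.Twist.DPlug
open Fermat.Agent.GB.B4.Datum.ImageRing Fermat.Agent.GJ.Tate Fermat.Agent.GJ.Tate.Lim
open Fermat.Agent.GB.B10.L.ThetaNew
open Fermat.Agent.GB.B3.TWLevel Fermat.Agent.GB.B3.RealLevel
  Fermat.Agent.GB.B3.HeckeActH Fermat.Agent.GB.B3.TWChars Fermat.Agent.GB.B3.FinalTW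
  Fermat.Agent.GB.B3.Tower Fermat.Agent.GB.B3.StepInst Fermat.Agent.GB.B3.LocTransport
  Fermat.Agent.GB.B3.ChiLevelMulti Fermat.Agent.GB.B3.Final
open Fermat.Agent.GB.B7.UqSq
open Fermat.Agent.GB.B4.Datum.TQFields Fermat.Agent.GB.B4.Datum.TQCompat

namespace Fermat.Agent.GE8.RaiseP.NewAnn

/-! ### transport of classes along an equality of characters -/

section Cast

variable {N : ℕ} {Δ : Type} [CommGroup Δ]

/-- transport of classes along an equality of characters -/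
def castθ {θ θ₂ : (ZMod N)ˣ →* Δ} (h : θ = θ₂) (O : Type*) [AddCommGroup O] :
    (Additive (GammaH θ) →+ O) →+ (Additive (GammaH θ₂) →+ O) :=
  h ▸ AddMonoidHom.id _

@[simp] theorem castθ_rfl (θ : (ZMod N)ˣ →* Δ) (O : Type*) [AddCommGroup O]
    (v : Additive (GammaH θ) →+ O) : castθ (rfl : θ = θ) O v = v := rfl

theorem castθ_injective {θ θ₂ : (ZMod N)ˣ →* Δ} (h : θ = θ₂) (O : Type*) [AddCommGroup O] :
    Function.Injective (castθ h O) := by
  subst h
  exact fun _ _ hab => hab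

end Cast

/-! ### (HC) for a class killed by the two transfers, character given up to equality -/

section HC

variable {N q N'' : ℕ} [NeZero N] [NeZero (N * q)] [Fact q.Prime] {Δ : Type} [CommGroup Δ]
  [Fintype Δ] (θ' : (ZMod N)ˣ →* Δ)
  {O : Type*} [CommRing O] {K : Type*} [Field K] [Algebra O K]

/-- **(HC), binder form, for any `θ = thQ θ' q`** -/
theorem hcores_of_new_eq (θ : (ZMod (N * q))ˣ →* Δ) (hθeq : θ = thQ θ' q)
    (hθ : Function.Surjective θ) (L : List (TwDatum K Δ)) (h' : Adm (N * q) θ L)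
    (hqN : ¬ q ∣ N) (hqN'' : ¬ q ∣ N'')
    (rep' : Δ → Gamma0 (chainLevel (N * q) L))
    (hrep' : ∀ δ, chi (chainθ (N * q) θ L) (rep' δ) = δ)
    (hlev : chainLevel (N * q) L = N'' * q) (ε : Δ →* Kˣ)
    (v : Additive (GammaH θ) →+ O)
    (hα : coresq θ' hqN O (castθ hθeq O v) = 0) (hβ : coresDq θ' hqN O (castθ hθeq O v) = 0) :
    cores K hqN'' (castHom hlev K (chainD (N * q) θ L h' rep' hrep'
        (DiaRep.comp θ hθ ε (extK (K := K) (GammaH θ) v)))) = 0 ∧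
      coresD K hqN'' (castHom hlev K (chainD (N * q) θ L h' rep' hrep'
        (DiaRep.comp θ hθ ε (extK (K := K) (GammaH θ) v)))) = 0 := by
  subst hθeq
  exact Fermat.Agent.GB.B10.L2.HCores.hcores_of_new θ' hθ L h' hqN hqN'' rep' hrep' hlev ε v
    hα hβ

end HC

/-! ### restriction of an action to a stable submodule -/

section Restrict

variable {O : Type*} [CommRing O] {A : Type*} [CommRing A] {M : Type*} [AddCommGroup M]
  [Module O M]

/-- the restriction of a ring action `tw : A →+* End_O M` to a stable submodule `K` -/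
def restrictTw (tw : A →+* Module.End O M) (K : Submodule O M)
    (hK : ∀ (t : A), ∀ x ∈ K, tw t x ∈ K) : A →+* Module.End O K where
  toFun t := (tw t).restrict (hK t)
  map_one' := by
    refine LinearMap.ext fun x => Subtype.ext ?_
    rw [LinearMap.coe_restrict_apply, map_one]
    rfl
  map_mul' t t' := by
    refine LinearMap.ext fun x => Subtype.ext ?_
    rw [LinearMap.coe_restrict_apply, map_mul]
    rfl
  map_zero' := by
    refine LinearMap.ext fun x => Subtype.ext ?_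
    rw [LinearMap.coe_restrict_apply, map_zero]
    rfl
  map_add' t t' := by
    refine LinearMap.ext fun x => Subtype.ext ?_
    rw [LinearMap.coe_restrict_apply, map_add]
    rfl

@[simp] theorem coe_restrictTw (tw : A →+* Module.End O M) (K : Submodule O M)
    (hK : ∀ (t : A), ∀ x ∈ K, tw t x ∈ K) (t : A) (x : K) :
    ((restrictTw tw K hK t x : K) : M) = tw t (x : M) := rfl

end Restrict

/-! ### (ANN) for a module inside the big level of B3 killed by the two transfers -/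

section Plug

/-- local instance (Prop-valued class) -/
local instance factPrimeOffNA {S : Set ℕ} (l : PrimesOff S) : Fact (l.1 : ℕ).Prime := ⟨l.1.2⟩

variable {Nl p : ℕ} [NeZero Nl] [hpF : Fact p.Prime] [NeZero (Nl * p)] {Kk : ℕ}
  {r e N' N'₀ : ℕ → ℕ}
variable (Sy : Symbols (Nl * p)) (hpNl : ¬ p ∣ Nl)
variable {O : Type} [CommRing O] [IsDomain O] [IsPrincipalIdealRing O] [IsLocalRing O]
  [IsAdicComplete (IsLocalRing.maximalIdeal O) O] [Module.IsTorsionFree ℤ O] [CharZero O]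
variable (𝔪 : Ideal (Sy.𝕋 O)) [𝔪.IsMaximal]
variable (H : PrimeData (Nl * p) p Kk r e N') (H₀ : PrimeData Nl p Kk r e N'₀)
  {ϖ : O} {s0 : Sy.ι₁} (h : Plug.Hyp Sy 𝔪 p ϖ s0)
variable (j : ℕ) (hj : j ≤ Kk) (hp2 : p ≠ 2)
  {N₀ : ℕ} [NeZero N₀] [NeZero (N₀ * p)] (hN₀ : N₀ * p = Nl * p * ∏ i : Fin j, r i)
  (hpN₀ : ¬ p ∣ N₀)
  (S : Finset ℕ) (hpS : p ∈ S) (hNS : ∀ q : ℕ, q.Prime → q ∣ N₀ * p → q ∈ S)
  (dℓ : PrimesOff (↑S : Set ℕ) → Gamma0 (Nl * p))
  (hdℓ : ∀ (l : PrimesOff (↑S : Set ℕ)) (u : (ZMod (Nl * p))ˣ),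
    (u : ZMod (Nl * p)) = ((l.1 : ℕ) : ZMod (Nl * p)) →
    chi (Theta (Δs p e) H.psi j) (dℓ l) ^ 2 * Theta (Δs p e) H.psi j u = 1)
  (tw : ↥(heckeAlgebra (N₀ * p) 2 (↑S : Set ℕ)) →+*
    Module.End O ↥(parabolicHoms O (GammaH (Theta (Δs p e) H.psi j)) O))
  (htw : ∀ (l : PrimesOff (↑S : Set ℕ))
      (v : ↥(parabolicHoms O (GammaH (Theta (Δs p e) H.psi j)) O)),
    ((tw (formsGenS (N₀ * p) (↑S : Set ℕ) l) v :
        ↥(parabolicHoms O (GammaH (Theta (Δs p e) H.psi j)) O)) :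
        Additive (GammaH (Theta (Δs p e) H.psi j)) →+ O)
      = diaH (Theta (Δs p e) H.psi j) O (dℓ l) (GamH.TH (Theta (Δs p e) H.psi j) O
          (not_dvd_level (↑S : Set ℕ) (Fermat.Agent.GB.B10.L.Ann.hS_of_hNS S hNS)
            (Dvd.intro _ hN₀.symm) l)
          (v : Additive (GammaH (Theta (Δs p e) H.psi j)) →+ O)))
  (hpar : ∀ x : (Plug.bigLevel Sy 𝔪 H h j).M,
    (Plug.bigReal Sy 𝔪 H h j).ι x ∈ parabolicHoms O (GammaH (Theta (Δs p e) H.psi j)) O)
  (twP : ↥(heckeAlgebra (N₀ * p) 2 (↑S : Set ℕ)) →+*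
    Module.End O (Plug.bigLevel Sy 𝔪 H h j).M)
  (hιP : ∀ (t : ↥(heckeAlgebra (N₀ * p) 2 (↑S : Set ℕ))) (m : (Plug.bigLevel Sy 𝔪 H h j).M),
    (Plug.bigReal Sy 𝔪 H h j).ι (twP t m) =
      ((tw t ⟨(Plug.bigReal Sy 𝔪 H h j).ι m, hpar m⟩ :
        ↥(parabolicHoms O (GammaH (Theta (Δs p e) H.psi j)) O)) :
        Additive (GammaH (Theta (Δs p e) H.psi j)) →+ O))
  {M' : Type} [AddCommGroup M'] [Module O M']
  (tw' : ↥(heckeAlgebra (N₀ * p) 2 (↑S : Set ℕ)) →+* Module.End O M')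
  (jm : M' →ₗ[O] (Plug.bigLevel Sy 𝔪 H h j).M) (hjinj : Function.Injective jm)
  (hjtw : ∀ (t : ↥(heckeAlgebra (N₀ * p) 2 (↑S : Set ℕ))) (m : M'),
    jm (tw' t m) = twP t (jm m))
  (hnew : ∀ m : M',
    coresq (Theta (Δs p e) H₀.psi j) hpNl O
        (castθ (Theta_eq_infl H H₀ j) O ((Plug.bigReal Sy 𝔪 H h j).ι (jm m))) = 0 ∧
      coresDq (Theta (Δs p e) H₀.psi j) hpNl O
        (castθ (Theta_eq_infl H H₀ j) O ((Plug.bigReal Sy 𝔪 H h j).ι (jm m))) = 0)

include hj hp2 hdℓ htw hιP hjinj hjtw hnew in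
/-- **(ANN) on a module `M'` inside the big level `P_Q` of B3 whose classes are `p`-new**: every
`t₀` killing `O ⊗ LamNew` kills `M'` through `tw'`. -/
theorem hAnn_sub_new :
    ∀ t₀ : O ⊗[ℤ] ↥(heckeAlgebra (N₀ * p) 2 (↑S : Set ℕ)),
      (∀ (a : O),
        ∀ x ∈ (LamNew hpN₀ : AddSubgroup
          (Fermat.Agent.GB.B10.KumLevelHecke.levelData p (N₀ * p) hpS hNS).Λ),
        (Fermat.Agent.GB.B10.KumLevelHecke.levelData p (N₀ * p) hpS hNS).heckeTensor O t₀
          (a ⊗ₜ[ℤ] x) = 0) →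
      ∀ m : M', twO O tw' t₀ m = 0 := by
  classical
  letI : Fintype ((∀ i : Fin j, Δs p e i) →* (AlgebraicClosure (FractionRing O))ˣ) :=
    Fintype.ofFinite _
  have hinj : Function.Injective (algebraMap O (AlgebraicClosure (FractionRing O))) := by
    rw [IsScalarTower.algebraMap_eq O (FractionRing O) (AlgebraicClosure (FractionRing O))]
    exact (algebraMap (FractionRing O) (AlgebraicClosure (FractionRing O))).injective.comp
      (IsFractionRing.injective O (FractionRing O))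
  have hp : p.Prime := hpF.out
  have hNN' : Nl * p ∣ N₀ * p := Dvd.intro _ hN₀.symm
  obtain ⟨hadm, hlev, hsq, hnd, hψ, hν, hc⟩ := primeData_hyps H hp hp2 j hj hN₀ (↑S : Set ℕ)
    (Fermat.Agent.GB.B10.L.Ann.hS_of_hNS S hNS) dℓ hdℓ (AlgebraicClosure (FractionRing O))
  have hθ : Function.Surjective (Theta (Δs p e) H.psi j) :=
    Fermat.Agent.GB.B4.Twist.TwInst.Theta_surjective H j hj
  haveI hNZ : ∀ ε, NeZero (chainLevel (Nl * p)
      (LεPD H j hj (AlgebraicClosure (FractionRing O)) ε)) := fun ε => by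
    rw [hlev ε]; infer_instance
  have hsurj : ∀ ε, Function.Surjective (chainθ (Nl * p) (Theta (Δs p e) H.psi j)
      (LεPD H j hj (AlgebraicClosure (FractionRing O)) ε)) := by
    intro ε
    rw [chainθ_eq]
    exact hθ.comp (ZMod.unitsMap_surjective _)
  choose rep' hrep' using fun ε => exists_rep (chainθ (Nl * p) (Theta (Δs p e) H.psi j)
    (LεPD H j hj (AlgebraicClosure (FractionRing O)) ε)) (hsurj ε)
  refine Fermat.Agent.GB.B10.L.AnnNew.hAnn_lamNew (Theta (Δs p e) H.psi j) hθ S hpS hNS hNN' hinj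
    (LεPD H j hj (AlgebraicClosure (FractionRing O))) dℓ hadm hlev rep' hrep' hsq hnd hψ hν hc
    tw htw hpN₀ tw'
    ((LinearMap.codRestrict (parabolicHoms O (GammaH (Theta (Δs p e) H.psi j)) O)
      (Plug.bigReal Sy 𝔪 H h j).ι hpar).comp jm) ?_ ?_ ?_
  · intro a b hab
    exact hjinj ((Plug.bigReal Sy 𝔪 H h j).inj (congrArg Subtype.val hab))
  · intro t m
    apply Subtype.ext
    rw [LinearMap.comp_apply, hjtw]
    exact hιP t (jm m)
  · intro m ε
    exact hcores_of_new_eq (Theta (Δs p e) H₀.psi j) (Theta (Δs p e) H.psi j)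
      (Theta_eq_infl H H₀ j) hθ (LεPD H j hj (AlgebraicClosure (FractionRing O)) ε) (hadm ε)
      hpNl hpN₀ (rep' ε) (hrep' ε) (hlev ε) ε _ (hnew m).1 (hnew m).2

omit hjinj hjtw hnew in
include hj hp2 hdℓ htw hιP in
/-- **(ANN) on a `twP`-stable submodule `K` of the big level whose classes are `p`-new**
(`K = ker φ.f` for helper80's `NewLevel.kerLevel`). -/
theorem hAnn_ker_new (Ksub : Submodule O (Plug.bigLevel Sy 𝔪 H h j).M)
    (hK : ∀ (t : ↥(heckeAlgebra (N₀ * p) 2 (↑S : Set ℕ))), ∀ x ∈ Ksub, twP t x ∈ Ksub)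
    (hKnew : ∀ x ∈ Ksub,
      coresq (Theta (Δs p e) H₀.psi j) hpNl O
          (castθ (Theta_eq_infl H H₀ j) O ((Plug.bigReal Sy 𝔪 H h j).ι x)) = 0 ∧
        coresDq (Theta (Δs p e) H₀.psi j) hpNl O
          (castθ (Theta_eq_infl H H₀ j) O ((Plug.bigReal Sy 𝔪 H h j).ι x)) = 0) :
    ∀ t₀ : O ⊗[ℤ] ↥(heckeAlgebra (N₀ * p) 2 (↑S : Set ℕ)),
      (∀ (a : O),
        ∀ x ∈ (LamNew hpN₀ : AddSubgroup
          (Fermat.Agent.GB.B10.KumLevelHecke.levelData p (N₀ * p) hpS hNS).Λ),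
        (Fermat.Agent.GB.B10.KumLevelHecke.levelData p (N₀ * p) hpS hNS).heckeTensor O t₀
          (a ⊗ₜ[ℤ] x) = 0) →
      ∀ m : Ksub, twO O (restrictTw twP Ksub hK) t₀ m = 0 :=
  hAnn_sub_new Sy hpNl 𝔪 H H₀ h j hj hp2 hN₀ hpN₀ S hpS hNS dℓ hdℓ tw htw hpar twP hιP
    (restrictTw twP Ksub hK) Ksub.subtype Subtype.val_injective (fun _ _ => rfl)
    (fun m => hKnew m.1 m.2)

omit hjinj hjtw hnew in
include hj hp2 hdℓ htw hιP in
/-- **(ANN) on `M¹ × M^χ` of ANY Taylor–Wiles level `B'` sitting inside the big level with `p`-new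
classes** (e.g. helper80's `NewLevel.kerLevel`, `B'.M = ker φ.f`, `jm = Submodule.subtype`): the
binder `hAnn` of `GalPkgSOImg.exists_galRep_TQ_strict` for `prodTw O tw1 twChi`, via helper44's
abstract descent `AnnPlug.hAnn_big`. -/
theorem hAnn_big_new {𝕋' : Type} [CommRing 𝕋'] [Algebra O 𝕋']
    {M0' : Type} [AddCommGroup M0'] [Module O M0'] {act0' : 𝕋' →ₐ[O] Module.End O M0'}
    {s k : ℕ} {Nk : Fin (s + k) → ℕ} (B' : FreeLevel O 𝕋' M0' act0' (s + k) Nk)
    (twB : ↥(heckeAlgebra (N₀ * p) 2 (↑S : Set ℕ)) →+* Module.End O B'.M)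
    (hcommB : ∀ t i, twB t * B'.D i = B'.D i * twB t)
    (jB : B'.M →ₗ[O] (Plug.bigLevel Sy 𝔪 H h j).M) (hjBinj : Function.Injective jB)
    (hjBtw : ∀ (t : ↥(heckeAlgebra (N₀ * p) 2 (↑S : Set ℕ))) (m : B'.M),
      jB (twB t m) = twP t (jB m))
    (hBnew : ∀ m : B'.M,
      coresq (Theta (Δs p e) H₀.psi j) hpNl O
          (castθ (Theta_eq_infl H H₀ j) O ((Plug.bigReal Sy 𝔪 H h j).ι (jB m))) = 0 ∧
        coresDq (Theta (Δs p e) H₀.psi j) hpNl O
          (castθ (Theta_eq_infl H H₀ j) O ((Plug.bigReal Sy 𝔪 H h j).ι (jB m))) = 0)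
    (hNk : ∀ i, 0 < Nk i) (ϖ' : O) (c : Fin s → O)
    (hc : ∀ v, c v ^ Nk (Fin.castAdd k v) = 1) (hc1 : ∀ v, (1 : O) - c v ∈ Ideal.span {ϖ'}) :
    ∀ t₀ : O ⊗[ℤ] ↥(heckeAlgebra (N₀ * p) 2 (↑S : Set ℕ)),
      (∀ (a : O),
        ∀ x ∈ (LamNew hpN₀ : AddSubgroup
          (Fermat.Agent.GB.B10.KumLevelHecke.levelData p (N₀ * p) hpS hNS).Λ),
        (Fermat.Agent.GB.B10.KumLevelHecke.levelData p (N₀ * p) hpS hNS).heckeTensor O t₀
          (a ⊗ₜ[ℤ] x) = 0) →
      ∀ m : (twLevelDataMultiSelf B' hNk ϖ' c hc hc1).L1.M ×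
          (twLevelDataMultiSelf B' hNk ϖ' c hc hc1).Lχ.M,
        twO O (prodTw O (tw1 B' twB hcommB hNk ϖ' c hc hc1)
          (twChi B' twB hcommB hNk ϖ' c hc hc1)) t₀ m = 0 :=
  Fermat.Agent.GB.B10.L.AnnPlug.hAnn_big B' twB hcommB _
    (hAnn_sub_new Sy hpNl 𝔪 H H₀ h j hj hp2 hN₀ hpN₀ S hpS hNS dℓ hdℓ tw htw hpar twP hιP
      twB jB hjBinj hjBtw hBnew) hNk ϖ' c hc hc1

end Plug

end Fermat.Agent.GE8.RaiseP.NewAnn
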