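/-
GATE-E / RISK-4 R4-G, leaf for `RecordNewPkg` / `BaseSOb` layer 2 (helper32; claims row
GE8-PNEW-NONTRIVNEW): **the `p`-new modules are nontrivial**.

`RecordNew.nonempty_recordAt_newLevel` carries the instance binder
`[Nontrivial ↥(LinearMap.ker (pairHom φα φβ).f)]` (the `p`-new kernel of the BIG Taylor–Wiles
level).  It follows from the nontriviality of the `p`-new BASE module `ker (f₁.prod f₂)` because the
projection of the new level `BaseB.newLevel` is onto; and the base module is nontrivial as soon as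
some model `L` of it (`eK : ker (f₁.prod f₂) ≃ₗ L`, helper19's `exists_eK`) is — at a bundle
`L = ↥(KLoc hpN Z lam)` contains the full eigenvector `y₁` of
`FullLamPNew.exists_full_lam_pnew_of_kills`.

* `nontrivial_ker_pairHom` : the big-level kernel (ANY pair of morphisms of levels);
* `nontrivial_ker_prod_of_equiv`, `nontrivial_ker_pairHom_of_equiv` : through a model `eK`;
* `nontrivial_KLoc_of_eigen` : `KLoc hpN Z lam ≠ 0` from a nonzero full eigenvector with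
  `lam p ^ 2 = 1` (no `KNew`-membership hypothesis: `EigenNew.eigenTensorO_le_KNew`);
* `nontrivial_ker_prod_of_eigen`, `nontrivial_ker_pairHom_of_eigen` : the two instances from
  `(eK, y₁)`.
-/
import Mathlib
import Fermat.Agent.GE8.RaiseP.BaseB
import Fermat.Agent.GE9.PNew.Inst.BaseNewFields
import Fermat.Agent.GE9.PNew.Inst.EigenNew

set_option autoImplicit false
set_option linter.unusedSectionVars false
set_option linter.unusedVariables false
set_option linter.style.haveILetI false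

open scoped TensorProduct

namespace Fermat.Agent.GE8.RaiseP.NontrivNew

open Module IsLocalRing Function
open Fermat.Agent.GB.B3.TWLevel Fermat.Agent.GE8.RaiseP.NewLevel Fermat.Agent.GE8.RaiseP.BaseB
open Fermat.Agent.GJ.J2.Lat Fermat.Agent.GE9.Mult1
open Fermat.Agent.GE9.PNew.Inst Fermat.Agent.GE9.PNew.Inst.BaseNewFields

/-! ### the big level -/

section Big

variable {O : Type} [CommRing O] [IsLocalRing O] {𝕋 : Type} [CommRing 𝕋] [Algebra O 𝕋]
  {M0 : Type} [AddCommGroup M0] [Module O M0] {act0 : 𝕋 →ₐ[O] Module.End O M0}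
  {P₁ : Type} [AddCommGroup P₁] [Module O P₁] {act₁ : 𝕋 →ₐ[O] Module.End O P₁}
  {P₂ : Type} [AddCommGroup P₂] [Module O P₂] {act₂ : 𝕋 →ₐ[O] Module.End O P₂}
  {k : ℕ} {N : Fin k → ℕ}
  {F : FreeLevel O 𝕋 M0 act0 k N} {G₁ : FreeLevel O 𝕋 P₁ act₁ k N}
  {G₂ : FreeLevel O 𝕋 P₂ act₂ k N} {f₁ : M0 →ₗ[O] P₁} {f₂ : M0 →ₗ[O] P₂}
  {p : ℕ} (hp : p.Prime) (hpO : (p : O) ∈ maximalIdeal O)
  (hNp : ∀ i, ∃ n : ℕ, N i = p ^ n) (φα : LevelHom F G₁ f₁) (φβ : LevelHom F G₂ f₂)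
  (hf0 : Surjective (f₁.prod f₂))

include hp hpO hNp hf0 in
/-- **the `p`-new kernel of the big level is nontrivial as soon as the `p`-new base module is**:
the projection of `BaseB.newLevel` is onto. -/
theorem nontrivial_ker_pairHom [Nontrivial ↥(LinearMap.ker (f₁.prod f₂))] :
    Nontrivial ↥(LinearMap.ker (pairHom φα φβ).f) :=
  (newLevel hp hpO hNp φα φβ hf0).π_surjective.nontrivial

omit [IsLocalRing O] in
/-- the `p`-new base module is nontrivial as soon as a model of it is. -/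
theorem nontrivial_ker_prod_of_equiv {L : Type} [AddCommGroup L] [Module O L] [Nontrivial L]
    (eK : ↥(LinearMap.ker (f₁.prod f₂)) ≃ₗ[O] L) :
    Nontrivial ↥(LinearMap.ker (f₁.prod f₂)) :=
  eK.toEquiv.nontrivial

include hp hpO hNp hf0 in
/-- the big-level form through a model of the base module. -/
theorem nontrivial_ker_pairHom_of_equiv {L : Type} [AddCommGroup L] [Module O L] [Nontrivial L]
    (eK : ↥(LinearMap.ker (f₁.prod f₂)) ≃ₗ[O] L) :
    Nontrivial ↥(LinearMap.ker (pairHom φα φβ).f) :=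
  haveI := nontrivial_ker_prod_of_equiv (f₁ := f₁) (f₂ := f₂) eK
  nontrivial_ker_pairHom hp hpO hNp φα φβ hf0

end Big

/-! ### the `Lam`-model at a `p`-new eigensystem -/

section KLoc

variable {N p : ℕ} [hpF : Fact p.Prime] [NeZero N] [NeZero (N * p)] (hpN : ¬ p ∣ N)
  {O : Type} [CommRing O] [IsDomain O] [CharZero O] [IsDiscreteValuationRing O]
  (Z : Set ℕ) (lam : Nat.Primes → O)

/-- **`KLoc hpN Z lam` is nontrivial** as soon as `lam`, `lam p ^ 2 = 1`, has a nonzero full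
eigenvector. -/
theorem nontrivial_KLoc_of_eigen (hu : lam (⟨p, hpF.out⟩ : Nat.Primes) ^ 2 = 1)
    {y₁ : O ⊗[ℤ] Lam (N * p)} (hy₁0 : y₁ ≠ 0) (hy₁ : y₁ ∈ eigenTensorO (N * p) O lam) :
    Nontrivial ↥(KLoc hpN Z lam) := by
  have hK : y₁ ∈ KNew hpN O :=
    Fermat.Agent.GE9.PNew.Inst.EigenNew.eigenTensorO_le_KNew hpN lam hu hy₁
  have hmem : y₁ ∈ KLoc hpN Z lam :=
    ⟨hK, eigenTensorO_le_locPart_mP (fun _ _ => rfl) hy₁⟩
  exact ⟨⟨⟨y₁, hmem⟩, 0, fun h => hy₁0 (congrArg Subtype.val h)⟩⟩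

end KLoc

/-! ### the two instances from `(eK, y₁)` -/

section Both

variable {N p : ℕ} [hpF : Fact p.Prime] [NeZero N] [NeZero (N * p)] (hpN : ¬ p ∣ N)
  {O : Type} [CommRing O] [IsDomain O] [CharZero O] [IsDiscreteValuationRing O]
  (Z : Set ℕ) (lam : Nat.Primes → O)
  {𝕋 : Type} [CommRing 𝕋] [Algebra O 𝕋]
  {M0 : Type} [AddCommGroup M0] [Module O M0] {act0 : 𝕋 →ₐ[O] Module.End O M0}
  {P₁ : Type} [AddCommGroup P₁] [Module O P₁] {act₁ : 𝕋 →ₐ[O] Module.End O P₁}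
  {P₂ : Type} [AddCommGroup P₂] [Module O P₂] {act₂ : 𝕋 →ₐ[O] Module.End O P₂}
  {f₁ : M0 →ₗ[O] P₁} {f₂ : M0 →ₗ[O] P₂}

/-- **the `p`-new base module `ker (f₁.prod f₂)` is nontrivial** from a model
`eK : ker (f₁.prod f₂) ≃ₗ KLoc hpN Z lam` (helper19 `exists_eK`) and a nonzero full eigenvector of
`lam`, `lam p ^ 2 = 1` (`FullLamPNew.exists_full_lam_pnew_of_kills`). -/
theorem nontrivial_ker_prod_of_eigen
    (eK : ↥(LinearMap.ker (f₁.prod f₂)) ≃ₗ[O] ↥(KLoc hpN Z lam))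
    (hu : lam (⟨p, hpF.out⟩ : Nat.Primes) ^ 2 = 1)
    {y₁ : O ⊗[ℤ] Lam (N * p)} (hy₁0 : y₁ ≠ 0) (hy₁ : y₁ ∈ eigenTensorO (N * p) O lam) :
    Nontrivial ↥(LinearMap.ker (f₁.prod f₂)) :=
  haveI := nontrivial_KLoc_of_eigen hpN Z lam hu hy₁0 hy₁
  nontrivial_ker_prod_of_equiv eK

/-- **the `p`-new kernel of the big level is nontrivial** from `(eK, y₁)`: the instance binder
`[Nontrivial ↥(LinearMap.ker (pairHom φα φβ).f)]` of `RecordNew.nonempty_recordAt_newLevel`. -/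
theorem nontrivial_ker_pairHom_of_eigen
    {k : ℕ} {Nk : Fin k → ℕ}
    {F : FreeLevel O 𝕋 M0 act0 k Nk} {G₁ : FreeLevel O 𝕋 P₁ act₁ k Nk}
    {G₂ : FreeLevel O 𝕋 P₂ act₂ k Nk}
    (hpO : (p : O) ∈ maximalIdeal O) (hNp : ∀ i, ∃ n : ℕ, Nk i = p ^ n)
    (φα : LevelHom F G₁ f₁) (φβ : LevelHom F G₂ f₂) (hf0 : Surjective (f₁.prod f₂))
    (eK : ↥(LinearMap.ker (f₁.prod f₂)) ≃ₗ[O] ↥(KLoc hpN Z lam))
    (hu : lam (⟨p, hpF.out⟩ : Nat.Primes) ^ 2 = 1)
    {y₁ : O ⊗[ℤ] Lam (N * p)} (hy₁0 : y₁ ≠ 0) (hy₁ : y₁ ∈ eigenTensorO (N * p) O lam) :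
    Nontrivial ↥(LinearMap.ker (pairHom φα φβ).f) :=
  haveI := nontrivial_ker_prod_of_eigen hpN Z lam eK hu hy₁0 hy₁
  nontrivial_ker_pairHom hpF.out hpO hNp φα φβ hf0

end Both

end Fermat.Agent.GE8.RaiseP.NontrivNew
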