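/-
GATE-E (S59 pre-work) / node E8.5 RAISE-P, removal of the side condition `p = 3 → 2 ∣ N`
(helper80).

`Stmt.RaisePStmt p` carries `p = 3 → 2 ∣ N` (the level package of GJ/S37 at `ℓ = 3` needs an
auxiliary `2` in the level).  An eigenform of level `N` is an (old) eigenform of level `2 N` with
the same `a_ℓ` for `ℓ ≠ 2` (`GE/Stab.exists_eigenform_of_dvd`), so RAISE-P holds at SOME level
`N' ∈ {N, 2 N}` without side condition:

* `isResiduallyModularOfLevel_of_dvd` : residual modularity goes up along `N ∣ N'`;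
* `raiseP_exists_level` : `RaisePStmt p` ⟹ for `W` multiplicative at `p`, residually modular of
  level `N`, `p ∤ N`: `∃ N', N ∣ N' ∧ N' ∣ 2 * N ∧ ¬ p ∣ N' ∧ IsResiduallyModularNewAt W p (N' * p) p`.
-/
import Fermat.Agent.GE8.RaiseP.Stmt
import Fermat.Agent.GE.Stab

set_option autoImplicit false

namespace Fermat.Agent.GE8.RaiseP.PlugSide

open WeierstrassCurve CuspForm ModularFormClass
open Fermat.Agent.GE8.RaiseP.Stmt

/-- `ℤ̄ ⊆ ℂ`. -/
local notation "Zbar" => integralClosure ℤ ℂ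

/-- residual modularity goes up along `N ∣ N'`. -/
theorem isResiduallyModularOfLevel_of_dvd {W : WeierstrassCurve ℤ} {p N N' : ℕ} (hNN' : N ∣ N')
    (hN' : N' ≠ 0) (h : W.IsResiduallyModularOfLevel p N) : W.IsResiduallyModularOfLevel p N' := by
  obtain ⟨f, 𝔪, hf, hmax, hpm, hcong⟩ := h
  obtain ⟨g', hg', hg'ℓ⟩ := Fermat.Agent.GE.Stab.exists_eigenform_of_dvd hNN' hN' hf
  refine ⟨g', 𝔪, hg', hmax, hpm, ?_⟩
  intro ℓ hℓ hgood hℓN' hℓp
  have hℓN : ¬ ℓ ∣ N := fun h => hℓN' (h.trans hNN')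
  have hℓd : ¬ ℓ ∣ N' / N := fun h => hℓN' (h.trans (Nat.div_dvd_of_dvd hNN'))
  obtain ⟨a, ha, hmem⟩ := hcong ℓ hℓ hgood hℓN hℓp
  exact ⟨a, by rw [ha, hg'ℓ ℓ hℓ hℓd], hmem⟩

/-- **RAISE-P at some level `N' ∈ {N, 2N}`, without side condition.** -/
theorem raiseP_exists_level {p : ℕ} (hp : p.Prime) (hp2 : p ≠ 2) (hR : RaisePStmt p)
    (W : WeierstrassCurve ℤ) (hΔ : W.Δ ≠ 0) (hpΔ : (p : ℤ) ∣ W.Δ) (hc₄ : ¬ (p : ℤ) ∣ W.c₄)
    (hirr : W.ModRepIsIrreducible p) {N : ℕ} (hN : 0 < N) (hpN : ¬ p ∣ N)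
    (hres : W.IsResiduallyModularOfLevel p N) :
    ∃ N' : ℕ, N ∣ N' ∧ N' ∣ 2 * N ∧ ¬ p ∣ N' ∧ IsResiduallyModularNewAt W p (N' * p) p := by
  by_cases hside : p = 3 → 2 ∣ N
  · exact ⟨N, dvd_rfl, dvd_mul_left N 2, hpN, hR W hΔ hpΔ hc₄ hirr hN hpN hside hres⟩
  · have hp3 : p = 3 := by
      by_contra h
      exact hside (fun h' => absurd h' h)
    have h2N : ¬ 2 ∣ N := fun h => hside (fun _ => h)
    have hN2 : 0 < 2 * N := by omega
    have hpN2 : ¬ p ∣ 2 * N := by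
      intro h
      rcases (Nat.Prime.dvd_mul hp).mp h with h' | h'
      · exact hp2 ((Nat.prime_dvd_prime_iff_eq hp Nat.prime_two).mp h')
      · exact hpN h'
    have hres2 : W.IsResiduallyModularOfLevel p (2 * N) :=
      isResiduallyModularOfLevel_of_dvd (dvd_mul_left N 2) hN2.ne' hres
    exact ⟨2 * N, dvd_mul_left N 2, dvd_rfl, hpN2,
      hR W hΔ hpΔ hc₄ hirr hN2 hpN2 (fun _ => dvd_mul_right 2 N) hres2⟩

end Fermat.Agent.GE8.RaiseP.PlugSide
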