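/-
GATE-E / RISK-4 PNEW-STAGE, leaf R4-G (g2) (helper32; claims row GE8-PNEW-R4G-G2):
**`ψ_Q : R^SO_Q ↠ T^new_Q`, the ring-to-Hecke map of the `p`-NEW part at one Taylor–Wiles set.**

`T^new_Q := ImageRing.TQ 𝒪 θ (restrictTw twP K hK)` is the image of `𝒪 ⊗ heckeAlgebra (N₀ p) 2 S` in
the endomorphisms of the `p`-new kernel `K = ker (cores, coresD)` of the big level (helper80's
`NewLevel.kerLevel`, helper55's `BaseB.newLevel`, helper15's `MainPlug.exists_kerData`).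

* `twO_mem_of_stable`, `coe_twO_restrictTw` : the `𝒪`-linear extension of a restricted action is the
  restriction of the `𝒪`-linear extension;
* **`locHyp_restrictTw`** : (LOC) passes to ANY stable submodule of a finite free module (the
  inverse of a bijective `twO a` is a polynomial in it, `ImageRing.exists_aeval_mul_eq_one`);
* **`exists_psi_TQ_condSO_new`** : generic `(𝒪, ρbar, M, tw)`; `ψ : DQ.R ↠ TQ 𝒪 θ tw` for the ENGINE
  problem `DQ : DeformationRingData 𝒪 ρbar (condSO 𝒪 p Smin Q)` at a level `N' * p`, `p ∥ N' p`,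
  from (ANN) on `LamNew` — the strict-ordinary twin of `GE6/Inst/PsiCondFL.exists_psi_TQ_condFL`,
  = `Deside/G3.exists_psi_TQ_strict_noSide` at `Su := ∅` with helper11's
  `Deside/Final.galPkgSONoSideNew` plugged: NO side condition `p = 3 → 2 ∣ N' p`;
* **`exists_psi_ker_new`** : in the variable context of `NewAnn.hAnn_ker_new` (= of helper15's
  `MainPlug.exists_kerData`): for every `twP`-stable submodule `Ksub` of `Plug.bigLevel Sy 𝔪 H h j`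
  whose classes are killed by the two transfers, `ψ : DQ.R ↠ TQ O θA (restrictTw twP Ksub hK)` with
  the five conjuncts of `GE6/Inst/PsiPkgMin.exists_psi_pkg_min`.
-/
import Fermat.Agent.GE8.RaiseP.NewAnn
import Fermat.Agent.GE8.Deside.G3
import Fermat.Agent.GE8.Deside.Final
import Fermat.Agent.GE6.Inst.PsiCondFL

set_option autoImplicit false
set_option linter.unusedSectionVars false
set_option linter.unusedVariables false
set_option linter.style.haveILetI false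

noncomputable section

open scoped MatrixGroups TensorProduct
open CongruenceSubgroup CuspForm IsLocalRing Polynomial GaloisRep
open Fermat.Agent.GB.B4.Datum.ImageRing Fermat.Agent.GB.B10.L.ThetaNew
open Fermat.Agent.GE8.RaiseP.NewAnn

namespace Fermat.Agent.GE8.RaiseP.PsiNew

/-- `ℚ̄`. -/
local notation "Qb" => AlgebraicClosure ℚ
/-- `G_ℚ`. -/
local notation "GQ" => (AlgebraicClosure ℚ ≃ₐ[ℚ] AlgebraicClosure ℚ)

/-! ### the `𝒪`-linear extension of a restricted action -/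

section Restrict

variable {𝒪 : Type} [CommRing 𝒪] [IsLocalRing 𝒪] {A : Type} [CommRing A]
  {M : Type} [AddCommGroup M] [Module 𝒪 M]

/-- a submodule stable under `tw t`, every `t : A`, is stable under `twO 𝒪 tw a`, every
`a : 𝒪 ⊗ A`. -/
theorem twO_mem_of_stable (tw : A →+* Module.End 𝒪 M) (K : Submodule 𝒪 M)
    (hK : ∀ (t : A), ∀ x ∈ K, tw t x ∈ K) (a : 𝒪 ⊗[ℤ] A) :
    ∀ x ∈ K, twO 𝒪 tw a x ∈ K := by
  induction a using TensorProduct.induction_on with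
  | zero =>
    intro x _
    rw [map_zero]
    exact K.zero_mem
  | tmul c t =>
    intro x hx
    rw [twO_tmul]
    exact K.smul_mem c (hK t x hx)
  | add a b ha hb =>
    intro x hx
    rw [map_add]
    exact K.add_mem (ha x hx) (hb x hx)

/-- **the `𝒪`-linear extension of the restricted action is the restriction of the `𝒪`-linear
extension.** -/
theorem coe_twO_restrictTw (tw : A →+* Module.End 𝒪 M) (K : Submodule 𝒪 M)
    (hK : ∀ (t : A), ∀ x ∈ K, tw t x ∈ K) (a : 𝒪 ⊗[ℤ] A) (x : K) :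
    ((twO 𝒪 (restrictTw tw K hK) a x : K) : M) = twO 𝒪 tw a (x : M) := by
  induction a using TensorProduct.induction_on with
  | zero =>
    rw [map_zero, map_zero]
    rfl
  | tmul c t =>
    rw [twO_tmul, twO_tmul]
    rfl
  | add a b ha hb =>
    rw [map_add, map_add, LinearMap.add_apply, LinearMap.add_apply, Submodule.coe_add, ha, hb]

variable [Module.Finite 𝒪 M] [Module.Free 𝒪 M]

/-- **(LOC) passes to every stable submodule**: the inverse of a bijective `twO 𝒪 tw a` on the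
finite free module `M` is `twO 𝒪 tw` of a polynomial in `a`, hence preserves `K`. -/
theorem locHyp_restrictTw {θ : A →+* ResidueField 𝒪} {tw : A →+* Module.End 𝒪 M}
    (hloc : LocHyp 𝒪 θ tw) (K : Submodule 𝒪 M) (hK : ∀ (t : A), ∀ x ∈ K, tw t x ∈ K) :
    LocHyp 𝒪 θ (restrictTw tw K hK) := by
  intro a ha
  obtain ⟨P, hP⟩ := exists_aeval_mul_eq_one (twO 𝒪 tw a) (hloc a ha)
  have hab : twO 𝒪 tw (a * aeval a P) = 1 := by
    rw [map_mul, ← aeval_algHom_apply]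
    exact hP
  have h1 : ∀ x : K, twO 𝒪 (restrictTw tw K hK) (a * aeval a P) x = x := fun x =>
    Subtype.ext (by rw [coe_twO_restrictTw, hab]; rfl)
  refine ⟨fun x y hxy => ?_, fun y => ⟨twO 𝒪 (restrictTw tw K hK) (aeval a P) y, ?_⟩⟩
  · have hx := h1 x
    have hy := h1 y
    rw [mul_comm, map_mul, Module.End.mul_apply] at hx hy
    rw [← hx, ← hy, hxy]
  · have hy := h1 y
    rw [map_mul, Module.End.mul_apply] at hy
    exact hy

end Restrict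

/-! ### `ψ_Q` for the engine problem `condSO`, generic carrier -/

section Generic

open Fermat.Agent.GK.AL Fermat.Agent.GB.Def.FramedNodes Fermat.Agent.GB.B10.KumLevelHecke
  Fermat.Agent.GB.B10.L.StrictQNew Fermat.Agent.GE.Graph Fermat.Agent.GE6.Inst.PsiCondFL

variable {N' p : ℕ} [NeZero N'] [Fact p.Prime] {S : Finset ℕ}
  {𝒪 : Type} [CommRing 𝒪] [IsDomain 𝒪] [IsDiscreteValuationRing 𝒪]
  [IsAdicComplete (maximalIdeal 𝒪) 𝒪] [Finite (ResidueField 𝒪)] [CharZero 𝒪]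
  {θ : heckeAlgebra (N' * p) 2 (↑S : Set ℕ) →+* ResidueField 𝒪}
  {M : Type} [AddCommGroup M] [Module 𝒪 M] [Module.Finite 𝒪 M] [Module.Free 𝒪 M]
  [Nontrivial M] {tw : heckeAlgebra (N' * p) 2 (↑S : Set ℕ) →+* Module.End 𝒪 M}

/-- **`ψ_Q : R^SO_Q ↠ T_Q` for the engine problem `condSO 𝒪 p Smin Q`, over the image ring
`ImageRing.TQ 𝒪 θ tw`** of an `End`-valued Hecke action at a level `N' * p` with `p ∥ N' p`, from
(ANN) on the `p`-new lattice.  No side condition (`Deside/Final.galPkgSONoSideNew`). -/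
theorem exists_psi_TQ_condSO_new [hloc : Fact (LocHyp 𝒪 θ tw)]
    (hp2 : p ≠ 2) (hp𝒪 : (p : 𝒪) ∈ maximalIdeal 𝒪)
    (h : ExactDvd p (N' * p)) (hpS : p ∈ S)
    (hNS : ∀ q : ℕ, q.Prime → q ∣ N' * p → q ∈ S)
    (ρbar : ResidualGaloisRep (ResidueField 𝒪)) (habs : ρbar.IsAbsolutelyIrreducible)
    (hfrob : ∀ (ℓ : ℕ) (hℓ : ℓ.Prime) (hℓN : ¬ ℓ ∣ N' * p) (hℓS : ℓ ∉ (↑S : Set ℕ)),
      ∀ P : ValuationSubring Qb, P.LiesOverPrime ℓ → ∀ σ : GQ, P.IsFrobeniusAt σ ℓ →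
        ∃ d₀ : ResidueField 𝒪, LinearMap.charpoly (ρbar.ρ σ) =
          X ^ 2 - C (θ (heckeAlgebra.T hℓ hℓN hℓS)) * X + C d₀)
    (hordbar : (GaloisRepAdic.ofResidualGaloisRep ρbar).IsOrdinaryAt p)
    (hAnn : ∀ t₀ : 𝒪 ⊗[ℤ] heckeAlgebra (N' * p) 2 (↑S : Set ℕ),
      (∀ (a : 𝒪), ∀ x ∈ (LamNew (not_dvd_of_exactDvd h) :
          AddSubgroup (levelData p (N' * p) hpS hNS).Λ),
        (levelData p (N' * p) hpS hNS).heckeTensor 𝒪 t₀ (a ⊗ₜ[ℤ] x) = 0) →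
          ∀ m : M, twO 𝒪 tw t₀ m = 0)
    (Smin Q Sun : Finset ℕ) (hpT : p ∈ Smin ∪ Q)
    (hNT : ∀ q : ℕ, q.Prime → q ∣ N' * p → q ∈ Smin ∪ Q)
    (hSmin : ∀ q ∈ Smin, q.Prime → q ≠ p → q ∣ N' * p ∧ ¬ q ^ 2 ∣ N' * p)
    (hSun : ∀ q ∈ Sun, q.Prime → q ≠ p → q ∣ N' * p ∧ ¬ q ^ 2 ∣ N' * p)
    (DQ : DeformationRingData 𝒪 ρbar (condSO 𝒪 p Smin Q)) :
    ∃ (ψ : DQ.R →ₐ[𝒪] TQ 𝒪 θ tw) (hψ : IsLocalHom (ψ : DQ.R →+* TQ 𝒪 θ tw))
      (ρQ : GaloisRepAdic (TQ 𝒪 θ tw)),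
      Function.Surjective ψ ∧
      (DQ.ρ.baseChangeAlong (ψ : DQ.R →+* TQ 𝒪 θ tw) hψ).IsEquiv ρQ ∧
      (∀ (ℓ : ℕ) (hℓ : ℓ.Prime) (hℓN : ¬ ℓ ∣ N' * p) (hℓS : ℓ ∉ (↑S : Set ℕ))
        (A : ValuationSubring Qb), A.LiesOverPrime ℓ → ∀ σ : GQ, A.IsFrobeniusAt σ ℓ →
          LinearMap.charpoly (ρQ.ρ σ) =
            X ^ 2 - C (chi 𝒪 θ tw (heckeAlgebra.T hℓ hℓN hℓS)) * X
              + C ((ℓ : TQ 𝒪 θ tw))) ∧
      ρQ.DetIsCyclotomic p ∧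
      (∀ q ∈ Sun, q.Prime → q ≠ p → ρQ.IsUnipotentOnInertiaAt q) ∧
      ρQ.residual.IsEquiv
        (ρbar.baseChangeAlong (ResidueField.map (algebraMap 𝒪 (TQ 𝒪 θ tw)))) := by
  have hpT' : p ∈ Smin ∪ ∅ ∪ Q := by rw [Finset.union_empty]; exact hpT
  have hNT' : ∀ q : ℕ, q.Prime → q ∣ N' * p → q ∈ Smin ∪ ∅ ∪ Q := fun q hq hqN => by
    rw [Finset.union_empty]; exact hNT q hq hqN
  obtain ⟨ψ, hψ, ρQ, h1, h2, h3, h4, h5, h6⟩ :=
    Fermat.Agent.GE8.Deside.G3.exists_psi_TQ_strict_noSide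
      Fermat.Agent.GE8.Deside.Final.galPkgSONoSideNew (θ := θ) (tw := tw) hp2 hp𝒪 h hpS hNS ρbar
      habs hfrob hordbar hAnn Smin ∅ Q Sun hpT' hNT' hSmin hSun (toFramedSO DQ)
  exact ⟨ψ, hψ, ρQ, h1, h2, h3, h4, h5, h6⟩

end Generic

/-! ### `ψ_Q` on the `p`-new kernel of the big level of `GB/B3/Plug` -/

section Plug

open Matrix Matrix.SpecialLinearGroup ModularCurve.Period
open Fermat.Agent.S16_helper49 Fermat.Agent.GM.B
open Fermat.Agent.GB.B3 Fermat.Agent.GB.B3.EisGamma0 Fermat.Agent.GB.B3.GamH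
open Fermat.Agent.GJ.J2.ZStruct Fermat.Agent.GJ.J2.Lat Fermat.Agent.GJ.J2.LatAct
open Fermat.Agent.GB.B4.Twist Fermat.Agent.GB.B4.Twist.Chain Fermat.Agent.GB.B4.Twist.ChainD
open Fermat.Agent.GB.B4.Twist.Asm Fermat.Agent.GB.B4.Twist.Coeff Fermat.Agent.GB.B4.Twist.TwR
open Fermat.Agent.GB.B4.Twist.DPlug
open Fermat.Agent.GB.B3.TWLevel Fermat.Agent.GB.B3.RealLevel
  Fermat.Agent.GB.B3.HeckeActH Fermat.Agent.GB.B3.TWChars Fermat.Agent.GB.B3.FinalTW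
  Fermat.Agent.GB.B3.Tower Fermat.Agent.GB.B3.StepInst Fermat.Agent.GB.B3.LocTransport
  Fermat.Agent.GB.B3.ChiLevelMulti Fermat.Agent.GB.B3.Final
open Fermat.Agent.GB.B7.UqSq
open Fermat.Agent.GK.AL Fermat.Agent.GE.Graph

/-- a Taylor–Wiles level is a finite `O`-module (`FreeLevel.basis`). -/
instance finite_freeLevel {O : Type} [CommRing O] {𝕋 : Type} [CommRing 𝕋] [Algebra O 𝕋]
    {M0 : Type} [AddCommGroup M0] [Module O M0] {act0 : 𝕋 →ₐ[O] Module.End O M0}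
    {k : ℕ} {N : Fin k → ℕ} (F : FreeLevel O 𝕋 M0 act0 k N) : Module.Finite O F.M :=
  Module.Finite.of_basis F.basis

/-- a Taylor–Wiles level is a free `O`-module (`FreeLevel.basis`). -/
instance free_freeLevel {O : Type} [CommRing O] {𝕋 : Type} [CommRing 𝕋] [Algebra O 𝕋]
    {M0 : Type} [AddCommGroup M0] [Module O M0] {act0 : 𝕋 →ₐ[O] Module.End O M0}
    {k : ℕ} {N : Fin k → ℕ} (F : FreeLevel O 𝕋 M0 act0 k N) : Module.Free O F.M :=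
  Module.Free.of_basis F.basis

/-- (LOC) for the restricted action, as an instance. -/
instance fact_locHyp_restrictTw {𝒪 : Type} [CommRing 𝒪] [IsLocalRing 𝒪] {A : Type} [CommRing A]
    {M : Type} [AddCommGroup M] [Module 𝒪 M] [Module.Finite 𝒪 M] [Module.Free 𝒪 M]
    {θ : A →+* ResidueField 𝒪} {tw : A →+* Module.End 𝒪 M} [hloc : Fact (LocHyp 𝒪 θ tw)]
    (K : Submodule 𝒪 M) (hK : ∀ (t : A), ∀ x ∈ K, tw t x ∈ K) :
    Fact (LocHyp 𝒪 θ (restrictTw tw K hK)) :=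
  ⟨locHyp_restrictTw hloc.out K hK⟩

/-- `p ∥ N₀ * p` when `p ∤ N₀`. -/
theorem exactDvd_mul_self {N₀ p : ℕ} (hp : p.Prime) (hpN₀ : ¬ p ∣ N₀) : ExactDvd p (N₀ * p) :=
  ⟨hp, Dvd.intro_left N₀ rfl, fun hsq => hpN₀ (by
    rw [pow_two] at hsq
    exact Nat.dvd_of_mul_dvd_mul_right hp.pos hsq)⟩

/-- local instance (Prop-valued class) -/
local instance factPrimeOffPN {S : Set ℕ} (l : PrimesOff S) : Fact (l.1 : ℕ).Prime := ⟨l.1.2⟩

variable {Nl p : ℕ} [NeZero Nl] [hpF : Fact p.Prime] [NeZero (Nl * p)] {Kk : ℕ}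
  {r e N' N'₀ : ℕ → ℕ}
variable (Sy : Symbols (Nl * p)) (hpNl : ¬ p ∣ Nl)
variable {O : Type} [CommRing O] [IsDomain O] [IsDiscreteValuationRing O]
  [IsAdicComplete (IsLocalRing.maximalIdeal O) O] [Module.IsTorsionFree ℤ O] [CharZero O]
  [Finite (ResidueField O)]
variable (𝔪 : Ideal (Sy.𝕋 O)) [𝔪.IsMaximal]
variable (H : PrimeData (Nl * p) p Kk r e N') (H₀ : PrimeData Nl p Kk r e N'₀)
  {ϖ : O} {s0 : Sy.ι₁} (h : Plug.Hyp Sy 𝔪 p ϖ s0)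
variable (j : ℕ) (hj : j ≤ Kk) (hp2 : p ≠ 2)
  {N₀ : ℕ} [NeZero N₀] [NeZero (N₀ * p)] (hN₀ : N₀ * p = Nl * p * ∏ i : Fin j, r i)
  (hpN₀ : ¬ p ∣ N₀)
  (S : Finset ℕ) (hpS : p ∈ S) (hNS : ∀ q : ℕ, q.Prime → q ∣ N₀ * p → q ∈ S)
  (dℓ : PrimesOff (↑S : Set ℕ) → Gamma0 (Nl * p))
  (hdℓ : ∀ (l : PrimesOff (↑S : Set ℕ)) (u : (ZMod (Nl * p))ˣ),
    (u : ZMod (Nl * p)) = ((l.1 : ℕ) : ZMod (Nl * p)) →
    chi (Theta (Δs p e) H.psi j) (dℓ l) ^ 2 * Theta (Δs p e) H.psi j u = 1)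
  (tw : ↥(heckeAlgebra (N₀ * p) 2 (↑S : Set ℕ)) →+*
    Module.End O ↥(parabolicHoms O (GammaH (Theta (Δs p e) H.psi j)) O))
  (htw : ∀ (l : PrimesOff (↑S : Set ℕ))
      (v : ↥(parabolicHoms O (GammaH (Theta (Δs p e) H.psi j)) O)),
    ((tw (formsGenS (N₀ * p) (↑S : Set ℕ) l) v :
        ↥(parabolicHoms O (GammaH (Theta (Δs p e) H.psi j)) O)) :
        Additive (GammaH (Theta (Δs p e) H.psi j)) →+ O)
      = diaH (Theta (Δs p e) H.psi j) O (dℓ l) (GamH.TH (Theta (Δs p e) H.psi j) O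
          (not_dvd_level (↑S : Set ℕ) (Fermat.Agent.GB.B10.L.Ann.hS_of_hNS S hNS)
            (Dvd.intro _ hN₀.symm) l)
          (v : Additive (GammaH (Theta (Δs p e) H.psi j)) →+ O)))
  (hpar : ∀ x : (Plug.bigLevel Sy 𝔪 H h j).M,
    (Plug.bigReal Sy 𝔪 H h j).ι x ∈ parabolicHoms O (GammaH (Theta (Δs p e) H.psi j)) O)
  (twP : ↥(heckeAlgebra (N₀ * p) 2 (↑S : Set ℕ)) →+*
    Module.End O (Plug.bigLevel Sy 𝔪 H h j).M)
  (hιP : ∀ (t : ↥(heckeAlgebra (N₀ * p) 2 (↑S : Set ℕ))) (m : (Plug.bigLevel Sy 𝔪 H h j).M),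
    (Plug.bigReal Sy 𝔪 H h j).ι (twP t m) =
      ((tw t ⟨(Plug.bigReal Sy 𝔪 H h j).ι m, hpar m⟩ :
        ↥(parabolicHoms O (GammaH (Theta (Δs p e) H.psi j)) O)) :
        Additive (GammaH (Theta (Δs p e) H.psi j)) →+ O))
  {θA : ↥(heckeAlgebra (N₀ * p) 2 (↑S : Set ℕ)) →+* ResidueField O}

include hj hp2 hpN₀ hpS hdℓ htw hιP in
/-- **R4-G (g2): `ψ_Q : R^SO_Q ↠ T^new_Q` on the `p`-new kernel of the big level.**
`Ksub`, `hK`, `hKnew` are the binders of `NewAnn.hAnn_ker_new` VERBATIM (conjuncts of helper15's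
`MainPlug.exists_kerData` at `Ksub := ker (LevelHom.prod G G φα φβ).f`); (LOC) on the big level
(`TwRestrictPlug.locHyp_twP`) restricts by `locHyp_restrictTw`; `[Nontrivial Ksub]` is
`0 < (newLevel …).d`. -/
theorem exists_psi_ker_new [hlocP : Fact (LocHyp O θA twP)]
    (hpO : (p : O) ∈ maximalIdeal O)
    (ρbar : ResidualGaloisRep (ResidueField O)) (habs : ρbar.IsAbsolutelyIrreducible)
    (hfrob : ∀ (ℓ : ℕ) (hℓ : ℓ.Prime) (hℓN : ¬ ℓ ∣ N₀ * p) (hℓS : ℓ ∉ (↑S : Set ℕ)),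
      ∀ P : ValuationSubring Qb, P.LiesOverPrime ℓ → ∀ σ : GQ, P.IsFrobeniusAt σ ℓ →
        ∃ d₀ : ResidueField O, LinearMap.charpoly (ρbar.ρ σ) =
          X ^ 2 - C (θA (heckeAlgebra.T hℓ hℓN hℓS)) * X + C d₀)
    (hordbar : (GaloisRepAdic.ofResidualGaloisRep ρbar).IsOrdinaryAt p)
    (Ksub : Submodule O (Plug.bigLevel Sy 𝔪 H h j).M) [Nontrivial Ksub]
    (hK : ∀ (t : ↥(heckeAlgebra (N₀ * p) 2 (↑S : Set ℕ))), ∀ x ∈ Ksub, twP t x ∈ Ksub)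
    (hKnew : ∀ x ∈ Ksub,
      coresq (Theta (Δs p e) H₀.psi j) hpNl O
          (castθ (Theta_eq_infl H H₀ j) O ((Plug.bigReal Sy 𝔪 H h j).ι x)) = 0 ∧
        coresDq (Theta (Δs p e) H₀.psi j) hpNl O
          (castθ (Theta_eq_infl H H₀ j) O ((Plug.bigReal Sy 𝔪 H h j).ι x)) = 0)
    (Smin Q Sun : Finset ℕ) (hpT : p ∈ Smin ∪ Q)
    (hNT : ∀ q : ℕ, q.Prime → q ∣ N₀ * p → q ∈ Smin ∪ Q)
    (hSmin : ∀ q ∈ Smin, q.Prime → q ≠ p → q ∣ N₀ * p ∧ ¬ q ^ 2 ∣ N₀ * p)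
    (hSun : ∀ q ∈ Sun, q.Prime → q ≠ p → q ∣ N₀ * p ∧ ¬ q ^ 2 ∣ N₀ * p)
    (DQ : DeformationRingData O ρbar (condSO O p Smin Q)) :
    ∃ (ψ : DQ.R →ₐ[O] TQ O θA (restrictTw twP Ksub hK))
      (hψ : IsLocalHom (ψ : DQ.R →+* TQ O θA (restrictTw twP Ksub hK)))
      (ρQ : GaloisRepAdic (TQ O θA (restrictTw twP Ksub hK))),
      Function.Surjective ψ ∧
      (DQ.ρ.baseChangeAlong (ψ : DQ.R →+* TQ O θA (restrictTw twP Ksub hK)) hψ).IsEquiv ρQ ∧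
      (∀ (ℓ : ℕ) (hℓ : ℓ.Prime) (hℓN : ¬ ℓ ∣ N₀ * p) (hℓS : ℓ ∉ (↑S : Set ℕ))
        (A : ValuationSubring Qb), A.LiesOverPrime ℓ → ∀ σ : GQ, A.IsFrobeniusAt σ ℓ →
          LinearMap.charpoly (ρQ.ρ σ) =
            X ^ 2 - C (chi O θA (restrictTw twP Ksub hK) (heckeAlgebra.T hℓ hℓN hℓS)) * X
              + C ((ℓ : TQ O θA (restrictTw twP Ksub hK)))) ∧
      ρQ.DetIsCyclotomic p ∧
      (∀ q ∈ Sun, q.Prime → q ≠ p → ρQ.IsUnipotentOnInertiaAt q) ∧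
      ρQ.residual.IsEquiv
        (ρbar.baseChangeAlong
          (ResidueField.map (algebraMap O (TQ O θA (restrictTw twP Ksub hK))))) :=
  exists_psi_TQ_condSO_new (θ := θA) (tw := restrictTw twP Ksub hK) hp2 hpO
    (exactDvd_mul_self hpF.out hpN₀) hpS hNS ρbar habs hfrob hordbar
    (hAnn_ker_new Sy hpNl 𝔪 H H₀ h j hj hp2 hN₀ hpN₀ S hpS hNS dℓ hdℓ tw htw hpar twP hιP
      Ksub hK hKnew)
    Smin Q Sun hpT hNT hSmin hSun DQ

end Plug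

end Fermat.Agent.GE8.RaiseP.PsiNew

end
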