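/-
GATE-E / RISK-4 PNEW-STAGE, leaf R4-G NODE, layer 2, abstract part (helper55): **helper72's record
`NodeProof.RecordAt` on the `p`-new level `BaseB.newLevel φα φβ` of ANY pair of morphisms of
Taylor–Wiles levels, from the big-level suppliers.**

Everything is abstract in the levels (`F`, `G₁`, `G₂`, `φα`, `φβ`: no symbols, no level structure):

* `tNat`, `tNat_eq`, `adjoin_tNat` : the `ℕ`-indexed Hecke elements `t ℓ = tw' (T_ℓ)` of a twist
  homomorphism and (GEN);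
* `exists_rho_of_tw_det` : `ResTQ.exists_rho_of_tw` + the cyclotomic determinant;
* `hunit_newLevel'` : helper4's `BaseBUnit.hunit_newLevel` WITHOUT `hxpow` (labelled units have
  `p`-power order: `UnitTwE.pow_eq_one_of_labelledAt`) and WITHOUT `hdiagF` (the diagonalisation of
  `ρ_F|D_q` is `GE2/DeltaQ.exists_tw_unit`);
* **`nonempty_recordAt_newLevel`** : the record on `newLevel`: `T_Q := TQ 𝒪 θ (restrictTw twF K)`
  (`K = ker (φα, φβ)`), `a := act`, `ψ, ρ_Q` := helper32's `PsiNew.exists_psi_TQ_condSO_new`, (ES),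
  (GEN), (PI) restricted from the big level, (UNIT) := `hunit_newLevel'` with `res := ResTQ.resK`,
  `hres := ResTQ.coe_act_resK`, `hcp := ResTQ.hcp_of_frob`.
-/
import Fermat.Agent.GE8.RaiseP.NodeNew
import Fermat.Agent.GE8.RaiseP.ResTQ
import Fermat.Agent.GE6.Inst.UnitTwE
import Fermat.Agent.GB.B4.Datum.TQReduced

set_option autoImplicit false
set_option linter.unusedSectionVars false
set_option linter.unusedVariables false
set_option linter.style.haveILetI false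

noncomputable section

namespace Fermat.Agent.GE8.RaiseP.RecordNew

open TensorProduct IsLocalRing Function Polynomial CuspForm GaloisRep
open Fermat.Agent.GB.B3.TWLevel Fermat.Agent.GE8.RaiseP.NewLevel Fermat.Agent.GE8.RaiseP.BaseB
open Fermat.Agent.GB.B4.Datum.Carrier Fermat.Agent.GB.B4.Datum.ImageRing
  Fermat.Agent.GB.B4.Datum.TQFields Fermat.Agent.GB.B4.Datum.Push
open Fermat.Agent.GE8.RaiseP.NewAnn Fermat.Agent.GE8.RaiseP.PsiNew Fermat.Agent.GE8.RaiseP.ResTQ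
open Fermat.Agent.GB.B10.L.ThetaNew
open Fermat.Agent.GE6.Inst.NodeProof
open Fermat.Agent.GE.Graph Fermat.Agent.GE2.DeltaQData Fermat.Agent.GE2.LabelMap
  Fermat.Agent.GE2.DeltaQ Fermat.Agent.GB.E2.TameGenAdic Fermat.Agent.GJ.J2.Lat
open Fermat.Agent.GB.B9.ProviderFlat.G4 Fermat.Agent.GB.E2.TWDiag Fermat.Agent.GB.Glue.Points
  Fermat.Agent.Common_helper32

/-- `ℚ̄`. -/
local notation "Qb" => AlgebraicClosure ℚ
/-- `G_ℚ`. -/
local notation "GQ" => (AlgebraicClosure ℚ ≃ₐ[ℚ] AlgebraicClosure ℚ)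

/-! ### the `ℕ`-indexed Hecke elements -/

section TNat

variable {N : ℕ} [NeZero N] {S : Finset ℕ} {T' : Type} [CommRing T']

/-- **the `ℕ`-indexed Hecke elements** `t ℓ = tw' (T_ℓ)` (`0` at the bad `ℓ`). -/
def tNat (tw' : heckeAlgebra N 2 (↑S : Set ℕ) →+* T') (ℓ : ℕ) : T' :=
  if h : ℓ.Prime ∧ ¬ ℓ ∣ N ∧ ℓ ∉ (↑S : Set ℕ) then tw' (heckeAlgebra.T h.1 h.2.1 h.2.2) else 0

theorem tNat_eq (tw' : heckeAlgebra N 2 (↑S : Set ℕ) →+* T') {ℓ : ℕ} (hℓ : ℓ.Prime)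
    (hℓN : ¬ ℓ ∣ N) (hℓS : ℓ ∉ (↑S : Set ℕ)) :
    tNat tw' ℓ = tw' (heckeAlgebra.T hℓ hℓN hℓS) := dif_pos ⟨hℓ, hℓN, hℓS⟩

theorem tNat_map {T'' : Type} [CommRing T''] (tw' : heckeAlgebra N 2 (↑S : Set ℕ) →+* T')
    (f : T' →+* T'') (ℓ : ℕ) : tNat (f.comp tw') ℓ = f (tNat tw' ℓ) := by
  unfold tNat
  split_ifs
  · rfl
  · rw [map_zero]

/-- **(GEN)**: the `t ℓ`, `ℓ ∉ S`, generate. -/
theorem adjoin_tNat (𝒪 : Type) [CommRing 𝒪] [Algebra 𝒪 T']
    (hNS : ∀ q : ℕ, q.Prime → q ∣ N → q ∈ S)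
    (tw' : heckeAlgebra N 2 (↑S : Set ℕ) →+* T')
    (hgen : Algebra.adjoin 𝒪 (Set.range tw') = ⊤) :
    Algebra.adjoin 𝒪 {x : T' | ∃ ℓ : ℕ, ℓ.Prime ∧ ℓ ∉ S ∧ x = tNat tw' ℓ} = ⊤ := by
  rw [eq_top_iff, ← hgen]
  refine Algebra.adjoin_le ?_
  rintro _ ⟨t, rfl⟩
  have ht : t ∈ Subring.closure (Set.range (formsGenS N (↑S : Set ℕ))) := by
    rw [Fermat.Agent.GB.B4.Twist.TwHom.closure_range_formsGenS]
    exact Subring.mem_top t
  induction ht using Subring.closure_induction with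
  | mem x hx =>
    obtain ⟨l, rfl⟩ := hx
    have hlN : ¬ (l.1 : ℕ) ∣ N := fun h => l.2 (Finset.mem_coe.mpr (hNS _ l.1.2 h))
    refine Algebra.subset_adjoin ⟨(l.1 : ℕ), l.1.2, fun h => l.2 (Finset.mem_coe.mpr h), ?_⟩
    rw [formsGenS_of_not_dvd N (↑S : Set ℕ) l hlN, tNat_eq tw' l.1.2 hlN l.2]
  | zero => rw [map_zero]; exact Subalgebra.zero_mem _
  | one => rw [map_one]; exact Subalgebra.one_mem _
  | add x y _ _ hx hy => rw [map_add]; exact Subalgebra.add_mem _ hx hy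
  | neg x _ hx => rw [map_neg]; exact Subalgebra.neg_mem _ hx
  | mul x y _ _ hx hy => rw [map_mul]; exact Subalgebra.mul_mem _ hx hy

end TNat

/-! ### the raw representation, with its determinant -/

section Rho

variable {p N : ℕ} [NeZero N] [Fact p.Prime] {S : Finset ℕ}
  {𝒪 : Type} [CommRing 𝒪] [IsDomain 𝒪] [IsDiscreteValuationRing 𝒪]
  [IsAdicComplete (maximalIdeal 𝒪) 𝒪] [Finite (ResidueField 𝒪)] [CharZero 𝒪]
  {θ : heckeAlgebra N 2 (↑S : Set ℕ) →+* ResidueField 𝒪}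

/-- `ResTQ.exists_rho_of_tw` with the cyclotomic determinant. -/
theorem exists_rho_of_tw_det {TQ' : Type} [CommRing TQ'] [IsLocalRing TQ'] [Algebra 𝒪 TQ']
    [IsLocalHom (algebraMap 𝒪 TQ')] (hp2 : p ≠ 2)
    (hp𝒪 : (p : 𝒪) ∈ maximalIdeal 𝒪) (hpS : p ∈ S)
    (hNS : ∀ q : ℕ, q.Prime → q ∣ N → q ∈ S)
    (ρbar : ResidualGaloisRep (ResidueField 𝒪)) (habs : ρbar.IsAbsolutelyIrreducible)
    (hfrob : ∀ (ℓ : ℕ) (hℓ : ℓ.Prime) (hℓN : ¬ ℓ ∣ N) (hℓS : ℓ ∉ (↑S : Set ℕ)),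
      ∀ P : ValuationSubring Qb, P.LiesOverPrime ℓ → ∀ σ : GQ, P.IsFrobeniusAt σ ℓ →
        ∃ d₀ : ResidueField 𝒪, LinearMap.charpoly (ρbar.ρ σ) =
          X ^ 2 - C (θ (heckeAlgebra.T hℓ hℓN hℓS)) * X + C d₀)
    (tw' : heckeAlgebra N 2 (↑S : Set ℕ) →+* TQ')
    (hres : ∀ t, residue TQ' (tw' t) = ResidueField.map (algebraMap 𝒪 TQ') (θ t))
    (hgen : Algebra.adjoin 𝒪 (Set.range tw') = ⊤) :
    ∃ ρQ : GaloisRepAdic TQ',
      (∀ (ℓ : ℕ) (hℓ : ℓ.Prime) (hℓN : ¬ ℓ ∣ N) (hℓS : ℓ ∉ (↑S : Set ℕ))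
        (A : ValuationSubring Qb), A.LiesOverPrime ℓ → ∀ σ : GQ, A.IsFrobeniusAt σ ℓ →
          LinearMap.charpoly (ρQ.ρ σ) =
            X ^ 2 - C (tw' (heckeAlgebra.T hℓ hℓN hℓS)) * X + C ((ℓ : TQ'))) ∧
      ρQ.DetIsCyclotomic p ∧
      ρQ.residual.IsEquiv (ρbar.baseChangeAlong (ResidueField.map (algebraMap 𝒪 TQ'))) := by
  obtain ⟨H, hπ, -, -, hresH⟩ :=
    Fermat.Agent.GB.Glue.DatumOfRhobar.exists_datum p N S 𝒪 θ hp2 hpS hNS hp𝒪 ρbar habs hfrob
  obtain ⟨φ, hφ, hφloc, -⟩ := Fermat.Agent.GB.B4.Datum.PushTloc.exists_phi 𝒪 θ tw' hres hgen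
  refine ⟨pushRep H φ.toRingHom hφloc, ?_,
    detIsCyclotomic_push (Fact.out : p.Prime) hp𝒪 hpS H φ.toRingHom hφloc, ?_⟩
  · intro ℓ hℓ hℓN hℓS A hA σ hσ
    have h := charpoly_frob_push H φ.toRingHom hφloc ℓ hℓ hℓN hℓS A hA σ hσ
    rw [hπ] at h
    rw [h]
    congr 3
    exact congrArg _ (hφ _)
  · have h1 := Fermat.Agent.GB.B4.Datum.PushTloc.residual_push H.ρ φ.toRingHom hφloc ρbar
      (ResidueField.map (algebraMap 𝒪 (Tloc 𝒪 θ))) hresH
    have h2 : (haveI := hφloc; ResidueField.map φ.toRingHom).comp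
        (ResidueField.map (algebraMap 𝒪 (Tloc 𝒪 θ))) = ResidueField.map (algebraMap 𝒪 TQ') := by
      haveI := hφloc
      ext x
      obtain ⟨x, rfl⟩ := IsLocalRing.residue_surjective x
      show ResidueField.map φ.toRingHom (ResidueField.map (algebraMap 𝒪 (Tloc 𝒪 θ))
        (IsLocalRing.residue 𝒪 x)) = ResidueField.map (algebraMap 𝒪 TQ') (IsLocalRing.residue 𝒪 x)
      rw [ResidueField.map_residue, ResidueField.map_residue, ResidueField.map_residue]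
      exact congrArg _ (φ.commutes x)
    rw [h2] at h1
    exact h1

end Rho

/-! ### (UNIT) on the new level, without `hxpow` and `hdiagF` -/

section Unit

variable {O : Type} [CommRing O] [IsDomain O] [IsDiscreteValuationRing O]
  [IsAdicComplete (maximalIdeal O) O] [CharZero O]
  {𝕋 : Type} [CommRing 𝕋] [Algebra O 𝕋]
  {M0 : Type} [AddCommGroup M0] [Module O M0] {act0 : 𝕋 →ₐ[O] Module.End O M0}
  {P₁ : Type} [AddCommGroup P₁] [Module O P₁] {act₁ : 𝕋 →ₐ[O] Module.End O P₁}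
  {P₂ : Type} [AddCommGroup P₂] [Module O P₂] {act₂ : 𝕋 →ₐ[O] Module.End O P₂}
  {g : ℕ} {N : Fin g → ℕ} [∀ i, NeZero (N i)]
  {F : FreeLevel O 𝕋 M0 act0 g N} {G₁ : FreeLevel O 𝕋 P₁ act₁ g N}
  {G₂ : FreeLevel O 𝕋 P₂ act₂ g N} {f₁ : M0 →ₗ[O] P₁} {f₂ : M0 →ₗ[O] P₂}
  {p : ℕ} (hp : p.Prime) (hpO : (p : O) ∈ maximalIdeal O)
  (hNp : ∀ i, ∃ n : ℕ, N i = p ^ n) (φα : LevelHom F G₁ f₁) (φβ : LevelHom F G₂ f₂)
  (hf0 : Function.Surjective (f₁.prod f₂))
  {TF : Type} [CommRing TF] [IsLocalRing TF] [Algebra O TF]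
  (aF : TF →ₐ[O] Module.End O F.M)
  {TK : Type} [CommRing TK] [IsLocalRing TK] [Algebra O TK]
  (aK : TK →ₐ[O] Module.End O (newLevel hp hpO hNp φα φβ hf0).M)
  (res : TF →ₐ[O] TK)
  (hres : ∀ (t : TF) (x : LinearMap.ker (pairHom φα φβ).f),
    (LinearMap.ker (pairHom φα φβ).f).subtype (aK (res t) x)
      = aF t ((LinearMap.ker (pairHom φα φβ).f).subtype x))
  (ρF : GaloisRepAdic TF) (ρK : GaloisRepAdic TK)
  (hcp : ∀ σ : GQ, LinearMap.charpoly (ρK.ρ σ)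
    = (LinearMap.charpoly (ρF.ρ σ)).map (res : TF →+* TK))
  (r : Fin g → ℕ)

include hres hcp in
/-- **helper4's `BaseBUnit.hunit_newLevel` without `hxpow` and `hdiagF`.** -/
theorem hunit_newLevel' [hpF : Fact p.Prime] [Finite (ResidueField O)] (hp2 : p ≠ 2)
    (hN : ∀ i, p ∣ N i)
    [IsLocalHom (algebraMap O TK)] [Module.Finite O TK] [IsReduced TK] [IsNoetherianRing TK]
    [IsAdicComplete (maximalIdeal TK) TK]
    [IsLocalHom (algebraMap O TF)] [IsNoetherianRing TF] [IsAdicComplete (maximalIdeal TF) TF]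
    (aK_D : ∀ t i, aK t * (newLevel hp hpO hNp φα φβ hf0).D i
      = (newLevel hp hpO hNp φα φβ hf0).D i * aK t)
    (hresloc : IsLocalHom (res : TF →+* TK))
    (Ω : Type) [Field Ω] [IsAlgClosed Ω] [Algebra O Ω] [Module.IsTorsionFree O Ω]
    (hdetK : ρK.DetIsCyclotomic p) (hdetF : ρF.DetIsCyclotomic p)
    (ρbar : ResidualGaloisRep (ResidueField O))
    (hresidK : ρK.residual.IsEquiv
      (ρbar.baseChangeAlong (ResidueField.map (algebraMap O TK))))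
    (hresidF : ρF.residual.IsEquiv
      (ρbar.baseChangeAlong (ResidueField.map (algebraMap O TF))))
    (hr : ∀ i, (r i).Prime) (hpr : ∀ i, p ∣ r i - 1)
    (hunrbar : ∀ i, ρbar.IsUnramifiedAt (r i))
    (P : Fin g → ValuationSubring Qb) (hP : ∀ i, (P i).LiesOverPrime (r i))
    (φ' : Fin g → GQ) (hφ : ∀ i, (P i).IsFrobeniusAt (φ' i) (r i))
    (τ : Fin g → GQ) (hτ : ∀ i, IsTameGenerator (P i) p (τ i))
    (α β : Fin g → ResidueField O) (hαβ : ∀ i, α i ≠ β i)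
    (hchar : ∀ i, LinearMap.charpoly (ρbar.ρ (φ' i)) = (X - C (α i)) * (X - C (β i)))
    (x : Fin g → TKˣ)
    (hx : ∀ i, LabelledAt ρK (ResidueField.map (algebraMap O TK)) (P i) (φ' i) (τ i) (α i) (β i)
      (x i))
    (h1F : ∀ (i : Fin g) (Bas : Module.Basis (Fin 2) TF ρF.V)
      (χ : Fin 2 → (P i).decompositionSubgroup ℚ →* TFˣ),
      (∀ (j : Fin 2) (σ : (P i).decompositionSubgroup ℚ),
        ρF.ρ (σ : GQ) (Bas j) = (χ j σ : TF) • Bas j) →
      ∀ θ : TF →ₐ[O] Ω, Occ₁ F aF i θ →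
        θ (χ 0 ⟨τ i, inertia_le_decomposition (P i) (hτ i).1⟩ : TF) = 1)
    (hB5F : ∀ (i : Fin g) {O' : Type} [CommRing O'] [IsDomain O'] [IsDiscreteValuationRing O']
      [IsAdicComplete (maximalIdeal O') O'] [Finite (ResidueField O')] [CharZero O']
      (hpO' : (p : O') ∈ maximalIdeal O') (x : TF →+* O') (hx : IsLocalHom x),
      (∀ t : TF, (∀ m, aF t m ∈ F.unitSub p hN i) → x t = 0) →
      ¬ (ρF.baseChangeAlong x hx).IsUnipotentOnInertiaAt (r i)) :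
    ∀ i (m : (newLevel hp hpO hNp φα φβ hf0).M),
      ∃ m' : (newLevel hp hpO hNp φα φβ hf0).M,
        (newLevel hp hpO hNp φα φβ hf0).D i m - m = aK (x i : TK) m' - m' := by
  have hpne : ∀ i, p ≠ r i := by
    intro i h
    have h1 := hpr i
    rw [← h] at h1
    have := Nat.le_of_dvd (by have := hp.two_le; omega) h1
    have := hp.two_le
    omega
  have hliftK : ∀ c : ResidueField O, ∃ t : TK,
      residue TK t = ResidueField.map (algebraMap O TK) c := by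
    intro c
    obtain ⟨c₀, rfl⟩ := residue_surjective c
    exact ⟨algebraMap O TK c₀, (ResidueField.map_residue (algebraMap O TK) c₀).symm⟩
  choose liftK hliftK' using hliftK
  have hliftF : ∀ c : ResidueField O, ∃ t : TF,
      residue TF t = ResidueField.map (algebraMap O TF) c := by
    intro c
    obtain ⟨c₀, rfl⟩ := residue_surjective c
    exact ⟨algebraMap O TF c₀, (ResidueField.map_residue (algebraMap O TF) c₀).symm⟩
  choose liftF hliftF' using hliftF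
  refine Fermat.Agent.GE8.RaiseP.BaseBUnit.hunit_newLevel hp hpO hNp φα φβ hf0 aF aK res hres ρF ρK
    hcp r hp2 hN aK_D hresloc Ω hdetK ρbar hresidK hr hpr hunrbar P hP φ' hφ τ hτ α β hαβ hchar x hx
    (fun i => ?_) (fun i => ?_) h1F hB5F
  · -- the `p`-power order
    have hr1 : r i - 1 ≠ 0 := by
      have := (hr i).two_le
      omega
    obtain ⟨a', m, hm, ham⟩ := Nat.exists_eq_pow_mul_and_not_dvd hr1 p hp.ne_one
    have hram : r i = p ^ a' * m + 1 := by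
      have := (hr i).two_le
      omega
    obtain ⟨htr, hd, hab, -⟩ := Fermat.Agent.GB.B9.ProviderFlat.G4Res.twChars_inputs ρK ρbar
      (ResidueField.map (algebraMap O TK)) hresidK (P i) (hP i) (hunrbar i) (φ' i) (α i) (β i)
      (hαβ i) (hchar i) (liftK (α i)) (liftK (β i)) (hliftK' _) (hliftK' _)
    have hpow := Fermat.Agent.GE6.Inst.UnitTwE.pow_eq_one_of_labelledAt ρK
      (ResidueField.map (algebraMap O TK)) hp (hr i) (hpne i) hdetK
      (isUnramifiedAt_of_isEquiv_baseChangeAlong (ResidueField.map (algebraMap O TK)) ρbar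
        ρK.residual hresidK (hunrbar i))
      (Fermat.Agent.GB.B9.ProviderFlat.G4Res.natCast_sub_one_mem hdetK.1 (hr i).one_le (hpr i))
      (P i) (hP i) (hφ i) (hτ i) (hαβ i) (liftK (α i)) (liftK (β i)) (hliftK' _) (hliftK' _)
      htr hd hab (hx i) a' m hram hm
    refine ⟨a', ?_⟩
    have h' := congrArg Units.val hpow
    rwa [Units.val_pow_eq_pow_val, Units.val_one] at h'
  · -- ONE diagonalisation of `ρ_F|D_{P i}`
    obtain ⟨htr, hd, hab, -⟩ := Fermat.Agent.GB.B9.ProviderFlat.G4Res.twChars_inputs ρF ρbar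
      (ResidueField.map (algebraMap O TF)) hresidF (P i) (hP i) (hunrbar i) (φ' i) (α i) (β i)
      (hαβ i) (hchar i) (liftF (α i)) (liftF (β i)) (hliftF' _) (hliftF' _)
    obtain ⟨B, χ, hχ, -⟩ := exists_tw_unit ρF hp (hr i) (hpne i) hdetF
      (isUnramifiedAt_of_isEquiv_baseChangeAlong (ResidueField.map (algebraMap O TF)) ρbar
        ρF.residual hresidF (hunrbar i))
      (Fermat.Agent.GB.B9.ProviderFlat.G4Res.natCast_sub_one_mem hdetF.1 (hr i).one_le (hpr i))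
      (P i) (hP i) (hφ i) (liftF (α i)) (liftF (β i)) htr hd hab (hτ i)
    exact ⟨B, χ, hχ⟩

end Unit

/-! ### the record on the new level -/

section ActComm

variable {𝒪 : Type} [CommRing 𝒪] [IsLocalRing 𝒪] {A : Type} [CommRing A]
  (θ : A →+* ResidueField 𝒪) {M : Type} [AddCommGroup M] [Module 𝒪 M]

/-- an endomorphism commuting with the Hecke action commutes with the action of the image
ring. -/
theorem act_comm_of_comm (tw : A →+* Module.End 𝒪 M) (D : Module.End 𝒪 M)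
    (h : ∀ t, tw t * D = D * tw t) (x : TQ 𝒪 θ tw) :
    act 𝒪 θ tw x * D = D * act 𝒪 θ tw x := by
  obtain ⟨a, rfl⟩ := mkQ_surjective 𝒪 θ tw x
  rw [act_mkQ]
  induction a using TensorProduct.induction_on with
  | zero => rw [map_zero, zero_mul, mul_zero]
  | tmul c t => rw [twO_tmul, smul_mul_assoc, h, mul_smul_comm]
  | add a b ha hb => rw [map_add, add_mul, mul_add, ha, hb]

end ActComm

section ResMap

variable {O : Type} [CommRing O] [IsLocalRing O]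
  {A : Type} [CommRing A] [IsLocalRing A] [Algebra O A] [IsLocalHom (algebraMap O A)]
  {B : Type} [CommRing B] [IsLocalRing B] [Algebra O B] [IsLocalHom (algebraMap O B)]

/-- the residue maps of the structure maps are compatible with a local algebra homomorphism. -/
theorem residueMap_comp_algebraMap (f : A →ₐ[O] B) (hf : IsLocalHom (f : A →+* B)) :
    (haveI := hf; ResidueField.map (f : A →+* B)).comp (ResidueField.map (algebraMap O A))
      = ResidueField.map (algebraMap O B) := by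
  haveI := hf
  ext x
  obtain ⟨x, rfl⟩ := IsLocalRing.residue_surjective x
  show ResidueField.map (f : A →+* B) (ResidueField.map (algebraMap O A)
      (IsLocalRing.residue O x)) = ResidueField.map (algebraMap O B) (IsLocalRing.residue O x)
  rw [ResidueField.map_residue, ResidueField.map_residue, ResidueField.map_residue]
  exact congrArg (IsLocalRing.residue B) (f.commutes x)

end ResMap

section Record

open Fermat.Agent.GK.AL Fermat.Agent.GB.B10.KumLevelHecke Fermat.Agent.GB.B10.L.StrictQNew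

variable {O : Type} [CommRing O] [IsDomain O] [IsDiscreteValuationRing O]
  [IsAdicComplete (maximalIdeal O) O] [CharZero O] [Finite (ResidueField O)]
  {𝕋 : Type} [CommRing 𝕋] [Algebra O 𝕋]
  {M0 : Type} [AddCommGroup M0] [Module O M0] {act0 : 𝕋 →ₐ[O] Module.End O M0}
  {P₁ : Type} [AddCommGroup P₁] [Module O P₁] {act₁ : 𝕋 →ₐ[O] Module.End O P₁}
  {P₂ : Type} [AddCommGroup P₂] [Module O P₂] {act₂ : 𝕋 →ₐ[O] Module.End O P₂}
  {g : ℕ} {N : Fin g → ℕ} [∀ i, NeZero (N i)]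
  {F : FreeLevel O 𝕋 M0 act0 g N} {G₁ : FreeLevel O 𝕋 P₁ act₁ g N}
  {G₂ : FreeLevel O 𝕋 P₂ act₂ g N} {f₁ : M0 →ₗ[O] P₁} {f₂ : M0 →ₗ[O] P₂}
  {p : ℕ} [hpF : Fact p.Prime] (hpO : (p : O) ∈ maximalIdeal O)
  (hNp : ∀ i, ∃ n : ℕ, N i = p ^ n) (φα : LevelHom F G₁ f₁) (φβ : LevelHom F G₂ f₂)
  (hf0 : Function.Surjective (f₁.prod f₂))
  {N₀ : ℕ} [NeZero N₀] [NeZero (N₀ * p)] {S : Finset ℕ}
  (θ : heckeAlgebra (N₀ * p) 2 (↑S : Set ℕ) →+* ResidueField O)
  (twF : heckeAlgebra (N₀ * p) 2 (↑S : Set ℕ) →+* Module.End O F.M)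
  (hK : ∀ (t : heckeAlgebra (N₀ * p) 2 (↑S : Set ℕ)),
    ∀ x ∈ LinearMap.ker (pairHom φα φβ).f, twF t x ∈ LinearMap.ker (pairHom φα φβ).f)
  {Mχ : Type} [AddCommGroup Mχ] [Module O Mχ]
  (twχ : heckeAlgebra (N₀ * p) 2 (↑S : Set ℕ) →+* Module.End O Mχ)

set_option maxHeartbeats 1600000 in
/-- **R4-G NODE, layer 2, abstract part: the record on the `p`-new level of ANY pair of morphisms
of Taylor–Wiles levels, from the big-level suppliers.** -/
theorem nonempty_recordAt_newLevel (hp2 : p ≠ 2) (hN : ∀ i, p ∣ N i)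
    (hpN₀ : ¬ p ∣ N₀) (hpS : p ∈ S) (hNS : ∀ q : ℕ, q.Prime → q ∣ N₀ * p → q ∈ S)
    (hD : ∀ t i, twF t * F.D i = F.D i * twF t)
    [Fact (LocHyp O θ (prodTw O twF twχ))] [Module.Finite O (F.M × Mχ)]
    [Module.Free O (F.M × Mχ)] [Nontrivial (F.M × Mχ)]
    [Fact (LocHyp O θ twF)] [Nontrivial (LinearMap.ker (pairHom φα φβ).f)]
    -- the residual representation
    (ρbar : ResidualGaloisRep (ResidueField O)) (habs : ρbar.IsAbsolutelyIrreducible)
    (hfrob : ∀ (ℓ : ℕ) (hℓ : ℓ.Prime) (hℓN : ¬ ℓ ∣ N₀ * p) (hℓS : ℓ ∉ (↑S : Set ℕ)),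
      ∀ P : ValuationSubring Qb, P.LiesOverPrime ℓ → ∀ σ : GQ, P.IsFrobeniusAt σ ℓ →
        ∃ d₀ : ResidueField O, LinearMap.charpoly (ρbar.ρ σ) =
          X ^ 2 - C (θ (heckeAlgebra.T hℓ hℓN hℓS)) * X + C d₀)
    (hordbar : (GaloisRepAdic.ofResidualGaloisRep ρbar).IsOrdinaryAt p)
    -- (ANN) on the new level
    (hAnn : ∀ t₀ : O ⊗[ℤ] heckeAlgebra (N₀ * p) 2 (↑S : Set ℕ),
      (∀ (a : O), ∀ x ∈ (LamNew (not_dvd_of_exactDvd (exactDvd_mul_self hpF.out hpN₀)) :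
          AddSubgroup (levelData p (N₀ * p) hpS hNS).Λ),
        (levelData p (N₀ * p) hpS hNS).heckeTensor O t₀ (a ⊗ₜ[ℤ] x) = 0) →
          ∀ m : LinearMap.ker (pairHom φα φβ).f,
            twO O (restrictTw twF (LinearMap.ker (pairHom φα φβ).f) hK) t₀ m = 0)
    -- the deformation problem
    (Smin Q : Finset ℕ) (hpT : p ∈ Smin ∪ Q)
    (hNT : ∀ q : ℕ, q.Prime → q ∣ N₀ * p → q ∈ Smin ∪ Q)
    (hSmin : ∀ q ∈ Smin, q.Prime → q ≠ p → q ∣ N₀ * p ∧ ¬ q ^ 2 ∣ N₀ * p)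
    (DQ : DeformationRingData O ρbar (condSO O p Smin Q))
    -- the representation over the big Hecke ring
    (ρF : GaloisRepAdic (TQ O θ (prodTw O twF twχ)))
    (hESF : ∀ (ℓ : ℕ) (hℓ : ℓ.Prime) (hℓN : ¬ ℓ ∣ N₀ * p) (hℓS : ℓ ∉ (↑S : Set ℕ))
      (A : ValuationSubring Qb), A.LiesOverPrime ℓ → ∀ σ : GQ, A.IsFrobeniusAt σ ℓ →
        LinearMap.charpoly (ρF.ρ σ) =
          X ^ 2 - C (chi O θ (prodTw O twF twχ) (heckeAlgebra.T hℓ hℓN hℓS)) * X
            + C ((ℓ : TQ O θ (prodTw O twF twχ))))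
    (hdetF : ρF.DetIsCyclotomic p)
    (hresidF : ρF.residual.IsEquiv
      (ρbar.baseChangeAlong (ResidueField.map (algebraMap O (TQ O θ (prodTw O twF twχ))))))
    -- the labels
    (r : Fin g → ℕ) (hr : ∀ i, (r i).Prime) (hpr : ∀ i, p ∣ r i - 1)
    (hunrbar : ∀ i, ρbar.IsUnramifiedAt (r i))
    (P : Fin g → ValuationSubring Qb) (hP : ∀ i, (P i).LiesOverPrime (r i))
    (φ' : Fin g → GQ) (hφ : ∀ i, (P i).IsFrobeniusAt (φ' i) (r i))
    (τ : Fin g → GQ) (hτ : ∀ i, IsTameGenerator (P i) p (τ i))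
    (α β : Fin g → ResidueField O) (hαβ : ∀ i, α i ≠ β i)
    (hchar : ∀ i, LinearMap.charpoly (ρbar.ρ (φ' i)) = (X - C (α i)) * (X - C (β i)))
    (gu : Fin g → (DQ.R)ˣ)
    (hlab : ∀ j, LabelledAt DQ.ρ (ResidueField.map (algebraMap O DQ.R)) (P j) (φ' j) (τ j)
      (α j) (β j) (gu j))
    -- (1pt) and (B5) on the big level
    (Ω : Type) [Field Ω] [IsAlgClosed Ω] [Algebra O Ω] [Module.IsTorsionFree O Ω]
    (h1F : ∀ (i : Fin g) (Bas : Module.Basis (Fin 2) (TQ O θ (prodTw O twF twχ)) ρF.V)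
      (χ : Fin 2 → (P i).decompositionSubgroup ℚ →* (TQ O θ (prodTw O twF twχ))ˣ),
      (∀ (j : Fin 2) (σ : (P i).decompositionSubgroup ℚ),
        ρF.ρ (σ : GQ) (Bas j) = (χ j σ : TQ O θ (prodTw O twF twχ)) • Bas j) →
      ∀ θ' : TQ O θ (prodTw O twF twχ) →ₐ[O] Ω, Occ₁ F (actL O θ twF twχ) i θ' →
        θ' (χ 0 ⟨τ i, inertia_le_decomposition (P i) (hτ i).1⟩ :
          TQ O θ (prodTw O twF twχ)) = 1)
    (hB5F : ∀ (i : Fin g) {O' : Type} [CommRing O'] [IsDomain O'] [IsDiscreteValuationRing O']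
      [IsAdicComplete (maximalIdeal O') O'] [Finite (ResidueField O')] [CharZero O']
      (hpO' : (p : O') ∈ maximalIdeal O') (x : TQ O θ (prodTw O twF twχ) →+* O')
      (hx : IsLocalHom x),
      (∀ t : TQ O θ (prodTw O twF twχ),
        (∀ m, actL O θ twF twχ t m ∈ F.unitSub p hN i) → x t = 0) →
      ¬ (ρF.baseChangeAlong x hx).IsUnipotentOnInertiaAt (r i))
    -- (PI) on the big level
    {ι₁ : Type} (pr : ι₁ → ℕ) (sym : ι₁ → 𝕋)
    (hPIF : ∀ l : PrimesOff (↑S : Set ℕ), ∃ s : ι₁, pr s = (l.1 : ℕ) ∧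
      ∀ m : F.M, F.π (twF (formsGenS (N₀ * p) (↑S : Set ℕ) l) m) = F.π (F.act (sym s) m)) :
    Nonempty (RecordAt (newLevel hpF.out hpO hNp φα φβ hf0) ι₁ pr sym DQ gu) := by
  classical
  have hp : p.Prime := hpF.out
  -- the ring side on the new level
  obtain ⟨ψ, hψ, ρK, -, hQρ, hESK, hdetK, -, hresidK⟩ :=
    exists_psi_TQ_condSO_new (θ := θ)
      (tw := restrictTw twF (LinearMap.ker (pairHom φα φβ).f) hK) hp2 hpO
      (exactDvd_mul_self hp hpN₀) hpS hNS ρbar habs hfrob hordbar hAnn Smin Q ∅ hpT hNT hSmin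
      (fun q hq => absurd hq (Finset.notMem_empty q)) DQ
  haveI : IsReduced (TQ O θ (restrictTw twF (LinearMap.ker (pairHom φα φβ).f) hK)) :=
    Fermat.Agent.GB.B4.Datum.TQReduced.isReduced_TQ_hecke θ _ hNS
  have hlN : ∀ ℓ : ℕ, ℓ.Prime → ℓ ∉ S → ¬ ℓ ∣ N₀ * p := fun ℓ hℓ hℓS h => hℓS (hNS ℓ hℓ h)
  have hlS : ∀ ℓ : ℕ, ℓ ∉ S → ℓ ∉ (↑S : Set ℕ) := fun ℓ hℓS h => hℓS (Finset.mem_coe.mp h)
  -- the restriction map
  have hresloc : IsLocalHom ((resK O θ twF twχ (LinearMap.ker (pairHom φα φβ).f) hK :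
      TQ O θ (prodTw O twF twχ) →ₐ[O] TQ O θ (restrictTw twF (LinearMap.ker (pairHom φα φβ).f) hK)) : TQ O θ (prodTw O twF twχ) →+* TQ O θ (restrictTw twF (LinearMap.ker (pairHom φα φβ).f) hK)) :=
    isLocalHom_resTQ (ker_prodTw_le_restrictTw O twF twχ _ hK)
  have hcomp : ((resK O θ twF twχ (LinearMap.ker (pairHom φα φβ).f) hK :
      TQ O θ (prodTw O twF twχ) →ₐ[O] TQ O θ (restrictTw twF (LinearMap.ker (pairHom φα φβ).f) hK)) : TQ O θ (prodTw O twF twχ) →+* TQ O θ (restrictTw twF (LinearMap.ker (pairHom φα φβ).f) hK)).comp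
        (chi O θ (prodTw O twF twχ))
      = chi O θ (restrictTw twF (LinearMap.ker (pairHom φα φβ).f) hK) :=
    RingHom.ext fun t => resK_chi O θ twF twχ _ hK t
  have hι := residueMap_comp_algebraMap (O := O)
    (resK O θ twF twχ (LinearMap.ker (pairHom φα φβ).f) hK) hresloc
  have hcp : ∀ σ : GQ, LinearMap.charpoly (ρK.ρ σ) = (LinearMap.charpoly (ρF.ρ σ)).map
      ((resK O θ twF twχ (LinearMap.ker (pairHom φα φβ).f) hK :
      TQ O θ (prodTw O twF twχ) →ₐ[O] TQ O θ (restrictTw twF (LinearMap.ker (pairHom φα φβ).f) hK)) : TQ O θ (prodTw O twF twχ) →+* TQ O θ (restrictTw twF (LinearMap.ker (pairHom φα φβ).f) hK)) := fun σ =>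
    Fermat.Agent.GE8.RaiseP.ResTQ.hcp_of_frob ((resK O θ twF twχ (LinearMap.ker (pairHom φα φβ).f) hK :
      TQ O θ (prodTw O twF twχ) →ₐ[O] TQ O θ (restrictTw twF (LinearMap.ker (pairHom φα φβ).f) hK)) : TQ O θ (prodTw O twF twχ) →+* TQ O θ (restrictTw twF (LinearMap.ker (pairHom φα φβ).f) hK)) hresloc ρF ρK ρbar habs
      (ResidueField.map (algebraMap O (TQ O θ (prodTw O twF twχ))))
      (ResidueField.map (algebraMap O (TQ O θ (restrictTw twF (LinearMap.ker (pairHom φα φβ).f) hK)))) hι hresidF hresidK S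
      (tNat (chi O θ (prodTw O twF twχ)))
      (tNat (chi O θ (restrictTw twF (LinearMap.ker (pairHom φα φβ).f) hK)))
      (fun ℓ => by rw [← hcomp, tNat_map])
      (fun ℓ hℓ hℓS A hA σ hσ => by
        rw [tNat_eq _ hℓ (hlN ℓ hℓ hℓS) (hlS ℓ hℓS)]
        exact hESF ℓ hℓ (hlN ℓ hℓ hℓS) (hlS ℓ hℓS) A hA σ hσ)
      (fun ℓ hℓ hℓS A hA σ hσ => by
        rw [tNat_eq _ hℓ (hlN ℓ hℓ hℓS) (hlS ℓ hℓS)]
        exact hESK ℓ hℓ (hlN ℓ hℓ hℓS) (hlS ℓ hℓS) A hA σ hσ)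
      σ
  -- (UNIT)
  have hunit := hunit_newLevel' hp hpO hNp φα φβ hf0 (actL O θ twF twχ)
    (act O θ (restrictTw twF (LinearMap.ker (pairHom φα φβ).f) hK))
    (resK O θ twF twχ (LinearMap.ker (pairHom φα φβ).f) hK)
    (fun t x => Fermat.Agent.GE8.RaiseP.ResTQ.coe_act_resK O θ twF twχ _ hK t x)
    ρF ρK hcp r hp2 hN
    (fun t i => act_comm_of_comm θ _ _ (fun t' => by
      refine LinearMap.ext fun x => Subtype.ext ?_
      exact LinearMap.congr_fun (hD t' i) (x : F.M)) t)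
    hresloc Ω hdetK hdetF ρbar hresidK hresidF hr hpr hunrbar P hP φ' hφ τ hτ α β hαβ hchar
    (fun j => Units.map (((ψ : DQ.R →ₐ[O] TQ O θ (restrictTw twF (LinearMap.ker (pairHom φα φβ).f) hK)) : DQ.R →+* TQ O θ (restrictTw twF (LinearMap.ker (pairHom φα φβ).f) hK)) :
      DQ.R →* TQ O θ (restrictTw twF (LinearMap.ker (pairHom φα φβ).f) hK)) (gu j))
    (fun j => labelledAt_map_algHom ψ hψ hQρ (hlab j)) h1F hB5F
  exact ⟨{ TQ := TQ O θ (restrictTw twF (LinearMap.ker (pairHom φα φβ).f) hK)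
           a := act O θ (restrictTw twF (LinearMap.ker (pairHom φα φβ).f) hK)
           ψ := ψ
           hψ := hψ
           ρQ := ρK
           BQ := S
           tQ := tNat (chi O θ (restrictTw twF (LinearMap.ker (pairHom φα φβ).f) hK))
           hQρ := hQρ
           hES := fun ℓ hℓ hℓS A hA σ hσ => by
             rw [tNat_eq _ hℓ (hlN ℓ hℓ hℓS) (hlS ℓ hℓS)]
             exact hESK ℓ hℓ (hlN ℓ hℓ hℓS) (hlS ℓ hℓS) A hA σ hσ
           hGEN := adjoin_tNat O hNS _ (adjoin_range_chi O θ _)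
           hPI := fun ℓ hℓ hℓS => by
             obtain ⟨s, hs, hsm⟩ := hPIF ⟨⟨ℓ, hℓ⟩, hlS ℓ hℓS⟩
             refine ⟨s, hs, fun m => Subtype.ext ?_⟩
             have h1 := hsm ((LinearMap.ker (pairHom φα φβ).f).subtype m)
             rw [formsGenS_of_not_dvd (N₀ * p) (↑S : Set ℕ) ⟨⟨ℓ, hℓ⟩, hlS ℓ hℓS⟩
               (hlN ℓ hℓ hℓS)] at h1
             have h2 : act O θ (restrictTw twF (LinearMap.ker (pairHom φα φβ).f) hK)
                 (tNat (chi O θ (restrictTw twF (LinearMap.ker (pairHom φα φβ).f) hK)) ℓ)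
                 = restrictTw twF (LinearMap.ker (pairHom φα φβ).f) hK
                   (heckeAlgebra.T hℓ (hlN ℓ hℓ hℓS) (hlS ℓ hℓS)) := by
               rw [tNat_eq _ hℓ (hlN ℓ hℓ hℓS) (hlS ℓ hℓS), act_chi]
             exact (congrArg (fun e : Module.End O (LinearMap.ker (pairHom φα φβ).f) =>
               F.π ((e m : LinearMap.ker (pairHom φα φβ).f) : F.M)) h2).trans h1
           hUNIT := fun j m => hunit j m }⟩

end Record

end Fermat.Agent.GE8.RaiseP.RecordNew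

end
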