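/-
GATE-E (S59 pre-work) / E8.5-AUDIT (helper2): **the level-raising chain of `S41` on main never uses
`q' ≠ p`.**  `levelRaising_no_ne` is the frozen `S41` statement WITHOUT the binder `hq'p : q' ≠ p`,
proved by the SAME term as `Fermat.Agent.S41.result` (the binder is not consumed by
`GM/End/Plug.S41_of_remaining_leaves`, `GM/CSP/Main.cspStmt`, `GM/B5`, `GM/Theta/Outer`).
`raise_at_p` is the case `q' = p` (Ribet's level raising AT `p`: `p ∤ N`, `a_p(f)² ≡ (p+1)² ≡ 1`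
modulo `𝔪` ⟹ a `p`-new eigenform of level `N p` with the same residual eigenvalues away from
`N p`).
-/
import Fermat.Agent.S41

set_option autoImplicit false
open WeierstrassCurve WeierstrassCurve.Affine WeierstrassCurve.Affine.Point
open scoped CongruenceSubgroup
open WeierstrassCurve

namespace Fermat.Agent.GE8.RaiseP

/-- **`S41` without `q' ≠ p`.** -/
theorem levelRaising_no_ne
    (E : WeierstrassCurve ℚ) [E.IsElliptic] {W : WeierstrassCurve ℤ} (hW : W.IsIntegralModelOf E)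
    {p N q' : ℕ} (hp : p.Prime) (hp2 : p ≠ 2) (hN : 0 < N) (hq' : q'.Prime) (hq'N : ¬ q' ∣ N)
    (hirr : GaloisRepIsIrreducible (K := AlgebraicClosure ℚ) ℚ E p)
    (f : CuspForm (CongruenceSubgroup.Gamma0 N) 2) (𝔪 : Ideal (integralClosure ℤ ℂ))
    (hf : f.IsNormalizedEigenform) (hmax : 𝔪.IsMaximal) (hpm : (p : integralClosure ℤ ℂ) ∈ 𝔪)
    (hcong : ∀ ℓ : ℕ, ℓ.Prime → W.IsGoodPrimeFor ℓ → ¬ ℓ ∣ N → ℓ ≠ p →
      ∃ a : integralClosure ℤ ℂ, (a : ℂ) = ModularFormClass.qCoeff f ℓ ∧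
        a - ((W.apOfModel ℓ : ℤ) : integralClosure ℤ ℂ) ∈ 𝔪)
    (hLR : ∃ a : integralClosure ℤ ℂ, (a : ℂ) = ModularFormClass.qCoeff f q' ∧
      a ^ 2 - ((q' : integralClosure ℤ ℂ) + 1) ^ 2 ∈ 𝔪) :
    ∃ (g : CuspForm (CongruenceSubgroup.Gamma0 (N * q')) 2) (𝔪' : Ideal (integralClosure ℤ ℂ)),
      g.IsNormalizedEigenform ∧ 𝔪'.IsMaximal ∧ (p : integralClosure ℤ ℂ) ∈ 𝔪' ∧
      (∀ ℓ : ℕ, ℓ.Prime → W.IsGoodPrimeFor ℓ → ¬ ℓ ∣ N * q' → ℓ ≠ p →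
        ∃ a : integralClosure ℤ ℂ, (a : ℂ) = ModularFormClass.qCoeff g ℓ ∧
          a - ((W.apOfModel ℓ : ℤ) : integralClosure ℤ ℂ) ∈ 𝔪') ∧
      g.IsNewAt q' := by
  haveI : Fact q'.Prime := ⟨hq'⟩
  haveI : NeZero N := ⟨hN.ne'⟩
  haveI : NeZero (N * q') := ⟨Nat.mul_ne_zero hN.ne' hq'.ne_zero⟩
  exact Fermat.Agent.GM.End.S41_of_remaining_leaves E hW hp hp2 hq'N hirr f 𝔪 hf hmax hpm hcong hLR
    (Fermat.Agent.GM.CSP.Main.cspStmt hp hp2 hN hq'N)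
    (Fermat.Agent.GM.B5.alphaP_latT hq'N)
    (Fermat.Agent.GM.B5.betaP_latT hq'N)
    (fun z hz => Fermat.Agent.GM.B5.latT_latT_eq_of_betaP_eq_zero hq'N (Fact.out : q'.Prime) z hz)
    (Fermat.Agent.GM.Theta.Outer.dPackage_full p hq'N)

/-- **level raising AT `p`** (Hecke side of RAISE-P): `p ∤ N`, `a_p(f)² ≡ (p + 1)²` modulo `𝔪`. -/
theorem raise_at_p
    (E : WeierstrassCurve ℚ) [E.IsElliptic] {W : WeierstrassCurve ℤ} (hW : W.IsIntegralModelOf E)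
    {p N : ℕ} (hp : p.Prime) (hp2 : p ≠ 2) (hN : 0 < N) (hpN : ¬ p ∣ N)
    (hirr : GaloisRepIsIrreducible (K := AlgebraicClosure ℚ) ℚ E p)
    (f : CuspForm (CongruenceSubgroup.Gamma0 N) 2) (𝔪 : Ideal (integralClosure ℤ ℂ))
    (hf : f.IsNormalizedEigenform) (hmax : 𝔪.IsMaximal) (hpm : (p : integralClosure ℤ ℂ) ∈ 𝔪)
    (hcong : ∀ ℓ : ℕ, ℓ.Prime → W.IsGoodPrimeFor ℓ → ¬ ℓ ∣ N → ℓ ≠ p →
      ∃ a : integralClosure ℤ ℂ, (a : ℂ) = ModularFormClass.qCoeff f ℓ ∧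
        a - ((W.apOfModel ℓ : ℤ) : integralClosure ℤ ℂ) ∈ 𝔪)
    (hLR : ∃ a : integralClosure ℤ ℂ, (a : ℂ) = ModularFormClass.qCoeff f p ∧
      a ^ 2 - ((p : integralClosure ℤ ℂ) + 1) ^ 2 ∈ 𝔪) :
    ∃ (g : CuspForm (CongruenceSubgroup.Gamma0 (N * p)) 2) (𝔪' : Ideal (integralClosure ℤ ℂ)),
      g.IsNormalizedEigenform ∧ 𝔪'.IsMaximal ∧ (p : integralClosure ℤ ℂ) ∈ 𝔪' ∧
      (∀ ℓ : ℕ, ℓ.Prime → W.IsGoodPrimeFor ℓ → ¬ ℓ ∣ N * p → ℓ ≠ p →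
        ∃ a : integralClosure ℤ ℂ, (a : ℂ) = ModularFormClass.qCoeff g ℓ ∧
          a - ((W.apOfModel ℓ : ℤ) : integralClosure ℤ ℂ) ∈ 𝔪') ∧
      g.IsNewAt p :=
  levelRaising_no_ne E hW hp hp2 hN hp hpN hirr f 𝔪 hf hmax hpm hcong hLR

end Fermat.Agent.GE8.RaiseP
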