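/-
GATE-E / RISK-4 PNEW-STAGE, leaf R4-G (g1) (helper55): **the removal of the Taylor–Wiles primes
from the level carries invariants** — the invariant-carrying twin of helper49's
`GB/B8/LevelIter.exists_stage` / `exists_baseEquiv`, and its first application: the base
equivalence `Hom(Γ₀(M), 𝒪)_{𝔪_∅} ≃ Hom(Γ₀(M ∏ q), 𝒪)_{𝔪_Q}` COMMUTES WITH `U_p` (`p` a prime
which is not one of the Hecke symbols, e.g. the residue characteristic with `p ∥ M`).

WHY.  The `p`-new Taylor–Wiles levels (`GE8/RaiseP/BaseB.newLevel`) have the base module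
`K_Q = ker (cores_p, coresD_p) ⊆ Hom(Γ₀(M ∏ q), 𝒪)_{𝔪_Q}`, which depends on the Taylor–Wiles set
`Q`; the patching (`GE6/Inst/ModSide.ModSideStmt`) needs ONE base `K_∅`.  The equivalence
`e : M_∅ ≃ M_Q` of `exists_baseEquiv` is only known to exist (a `Finset` induction over
`Stage.exists_next`, Hensel roots chosen inside), so `e (K_∅) = K_Q` is not formal.  On the
`𝔪`-primary parts `K = ker (U_p² − 1)` (`⊆` : `Degen.U_U_of_ker`; `⊇` : `cores ∘ U = p • coresD`,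
`coresD ∘ U = T_p ∘ coresD − cores` and the injectivity of `T_p² − (1 + p)²` one level down), and
`U_p` IS carried along the induction: the stage maps are `j₁ = resD_q ∘ j₀ − res_q ∘ j₀ ∘ a` with `a`
a Hecke operator, and `res_q`, `resD_q` commute with `U_p` (`GB/B8/LevelGen.compat`).

Contents.
* `Stage.exists_next_inv` : one Taylor–Wiles prime, with the formula for `j₁` as a linear map;
* `exists_stage_inv` : the iteration, for an ARBITRARY predicate `Inv N j` on the stage maps which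
  holds for the inclusion at the base level and is preserved by `j₀ ↦ resD ∘ j₀ − res ∘ j₀ ∘ t`;
* `genOp_comm_actN`, `genOp_mem_locSub`, `locU` : the operator `genOp 𝒪 N p` (`U_p` or `T_p`)
  commutes with the uniform action and restricts to every primary part;
* `res_genOp`, `resD_genOp` : the two `q`-degeneracies commute with `genOp · p` (`p ≠ q`);
* **`exists_stage_U`** : the stage of `exists_stage` can be chosen with
  `S.j (U_p y) = U_p (S.j y)`;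
* **`exists_baseEquiv_U`** : the seam `exists_baseEquiv` with the extra clause
  `e (U_p y) = U_p (e y)` (values in `Hom(Γ₀(N), 𝒪)`).
-/
import Mathlib
import Fermat.Agent.GB.B8.LevelIter

set_option autoImplicit false
set_option linter.unusedSectionVars false
set_option linter.unusedVariables false
set_option linter.style.haveILetI false

open scoped MatrixGroups
open CongruenceSubgroup
open Fermat.Agent.GB.B8.LevelAbs Fermat.Agent.GB.B8.LevelGamma0 Fermat.Agent.GB.B8.LevelStage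
  Fermat.Agent.GB.B8.LevelGen Fermat.Agent.GB.B8.LevelIter
open Fermat.Agent.GB.B3.RealLevel

namespace Fermat.Agent.GE8.RaiseP.StageSub

open MvPolynomial

/-! ### one Taylor–Wiles prime -/

section Step

variable {𝒪 : Type} [CommRing 𝒪] [IsLocalRing 𝒪] [IsNoetherianRing 𝒪]
  [IsAdicComplete (IsLocalRing.maximalIdeal 𝒪) 𝒪]
variable {σ : Type} [DecidableEq σ] {i₀ : σ}
variable {L0 L1 : Type*} [AddCommGroup L0] [AddCommGroup L1] [Module 𝒪 L0] [Module 𝒪 L1]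
  [Module.Finite 𝒪 L0] [Module.Finite 𝒪 L1]
variable {P : Type*} [AddCommGroup P] [Module 𝒪 P]
variable {r : 𝒪} {D : Degen r L0 L1}
variable {act0 : MvPolynomial σ 𝒪 →ₐ[𝒪] Module.End 𝒪 L0}
  {act1 : MvPolynomial σ 𝒪 →ₐ[𝒪] Module.End 𝒪 L1}
variable {κ : Type} [Field κ] [Algebra 𝒪 κ] {lam0 lam1 : MvPolynomial σ 𝒪 →ₐ[𝒪] κ} {α β : 𝒪}

/-- **One Taylor–Wiles prime, with the stage map as a linear map**: `Stage.exists_next`, the new
embedding being `resD ∘ j₀ − res ∘ j₀ ∘ actP₀ t` for a Hecke operator `t`. -/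
theorem Stage.exists_next_inv (hC : Compat i₀ D act0 act1) (hR : Resid i₀ lam0 lam1 r α β)
    [h0 : (RingHom.ker (lam0 : MvPolynomial σ 𝒪 →+* κ)).IsMaximal]
    [h1 : (RingHom.ker (lam1 : MvPolynomial σ 𝒪 →+* κ)).IsMaximal]
    (S0 : Stage (MvPolynomial σ 𝒪) L0 act0 (RingHom.ker (lam0 : MvPolynomial σ 𝒪 →+* κ)) P) :
    ∃ (S1 : Stage (MvPolynomial σ 𝒪) L1 act1 (RingHom.ker (lam1 : MvPolynomial σ 𝒪 →+* κ)) P)
      (ρ : MvPolynomial σ 𝒪 →ₐ[𝒪] MvPolynomial σ 𝒪),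
      S1.actP = S0.actP.comp ρ ∧ (∀ i, i ≠ i₀ → ρ (X i) = X i) ∧ lam0.comp ρ = lam1 ∧
      ∃ t : MvPolynomial σ 𝒪, S1.j = D.resD ∘ₗ S0.j - D.res ∘ₗ S0.j ∘ₗ S0.actP t := by
  obtain ⟨S1, ρ, hact, hρ, hlam, hj, -⟩ := Stage.exists_next hC hR S0
  refine ⟨S1, ρ, hact, hρ, hlam, ρ (X i₀), LinearMap.ext fun y => ?_⟩
  rw [hj y, hact]
  rfl

end Step

/-! ### the iteration -/

section Iter

variable {𝒪 : Type} [CommRing 𝒪] [IsLocalRing 𝒪] [IsNoetherianRing 𝒪]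
  [IsAdicComplete (IsLocalRing.maximalIdeal 𝒪) 𝒪]
variable {σ : Type} [DecidableEq σ] (pr : σ → ℕ) (hpr : ∀ s, (pr s).Prime)
variable {κ : Type} [Field κ] [Algebra 𝒪 κ]

/-- **Removing the Taylor–Wiles primes from the level, with an invariant**: `exists_stage` for a
predicate `Inv N j` on the stage maps `j : Hom(Γ₀(M), 𝒪)_{𝔪_∅} → Hom(Γ₀(N), 𝒪)` which holds for the
inclusion (`hbase`) and is preserved by one step `j₀ ↦ resD_q ∘ j₀ − res_q ∘ j₀ ∘ t` at every prime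
`q = pr s`, `s ∈ Q` (`hstep`). -/
theorem exists_stage_inv (hinj : Function.Injective pr)
    (hsurj : Function.Surjective (algebraMap 𝒪 κ)) (M : ℕ) [NeZero M]
    (lamBase : MvPolynomial σ 𝒪 →ₐ[𝒪] κ) (α β : σ → 𝒪)
    (Inv : ∀ N : ℕ,
      (locSub (actN 𝒪 pr hpr M) (RingHom.ker (lamBase : MvPolynomial σ 𝒪 →+* κ))
        →ₗ[𝒪] (Additive (Gamma0 N) →+ 𝒪)) → Prop)
    (hbase : Inv M
      (locSub (actN 𝒪 pr hpr M) (RingHom.ker (lamBase : MvPolynomial σ 𝒪 →+* κ))).subtype)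
    (G : σ → Prop)
    (hstep : ∀ (N : ℕ) (s : σ) (hs : G s) (hqN : ¬ pr s ∣ N)
      (j₀ : locSub (actN 𝒪 pr hpr M) (RingHom.ker (lamBase : MvPolynomial σ 𝒪 →+* κ))
        →ₗ[𝒪] (Additive (Gamma0 N) →+ 𝒪)) (t : MvPolynomial σ 𝒪),
      Inv N j₀ →
        Inv (N * pr s)
          ((@degen N (pr s) ⟨hpr s⟩ hqN 𝒪 _ 𝒪 _ _).resD ∘ₗ j₀
            - (@degen N (pr s) ⟨hpr s⟩ hqN 𝒪 _ 𝒪 _ _).res ∘ₗ j₀ ∘ₗ
              (locAct (actN 𝒪 pr hpr M)
                (RingHom.ker (lamBase : MvPolynomial σ 𝒪 →+* κ)) t)))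
    (Q : Finset σ) :
    (∀ s ∈ Q, G s) →
    ∀ (N : ℕ) (lamTop : MvPolynomial σ 𝒪 →ₐ[𝒪] κ), N = M * ∏ s ∈ Q, pr s →
      (∀ s ∈ Q, ¬ pr s ∣ M) → (∀ s ∈ Q, TWCond pr lamBase lamTop α β s) →
      (∀ s, s ∉ Q → lamTop (X s) = lamBase (X s)) →
      ∃ (S : Stage (MvPolynomial σ 𝒪) (Additive (Gamma0 N) →+ 𝒪) (actN 𝒪 pr hpr N)
          (RingHom.ker (lamTop : MvPolynomial σ 𝒪 →+* κ))
          (locSub (actN 𝒪 pr hpr M) (RingHom.ker (lamBase : MvPolynomial σ 𝒪 →+* κ))))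
        (ρ : MvPolynomial σ 𝒪 →ₐ[𝒪] MvPolynomial σ 𝒪),
        S.actP = (locAct (actN 𝒪 pr hpr M)
            (RingHom.ker (lamBase : MvPolynomial σ 𝒪 →+* κ))).comp ρ ∧
        (∀ s, s ∉ Q → ρ (X s) = X s) ∧ lamBase.comp ρ = lamTop ∧ Inv N S.j := by
  classical
  refine Finset.induction_on Q ?_ ?_
  · intro _ N lamTop hN _ _ haway
    rw [Finset.prod_empty, mul_one] at hN
    subst hN
    have hlam : lamTop = lamBase :=
      MvPolynomial.algHom_ext fun s => haway s (Finset.notMem_empty s)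
    subst hlam
    exact ⟨Stage.base _ _, AlgHom.id 𝒪 _, rfl, fun _ _ => rfl, rfl, hbase⟩
  · intro s₀ Q' hs₀ IH hG N lamTop hN hQM hTW haway
    haveI : Fact (pr s₀).Prime := ⟨hpr s₀⟩
    have hN2 : N = (M * ∏ s ∈ Q', pr s) * pr s₀ := by
      rw [hN, Finset.prod_insert hs₀]
      ring
    clear hN
    subst hN2
    have hqN' : ¬ pr s₀ ∣ M * ∏ s ∈ Q', pr s :=
      not_dvd_level pr hpr hinj hs₀ (hQM s₀ (Finset.mem_insert_self _ _))
    have h0 := hTW s₀ (Finset.mem_insert_self _ _)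
    -- the middle character
    obtain ⟨lamMid, hmid0, hmid⟩ : ∃ lamMid : MvPolynomial σ 𝒪 →ₐ[𝒪] κ,
        lamMid (X s₀) = algebraMap 𝒪 κ (α s₀ + β s₀) ∧
          ∀ s, s ≠ s₀ → lamMid (X s) = lamTop (X s) := by
      refine ⟨aeval (Function.update (fun s => lamTop (X s)) s₀
        (algebraMap 𝒪 κ (α s₀ + β s₀))), ?_, ?_⟩
      · rw [aeval_X, Function.update_self]
      · intro s hs
        rw [aeval_X, Function.update_of_ne hs]
    have hTW' : ∀ s ∈ Q', TWCond pr lamBase lamMid α β s := by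
      intro s hs
      have hne : s ≠ s₀ := fun h => hs₀ (h ▸ hs)
      have h := hTW s (Finset.mem_insert_of_mem hs)
      exact ⟨h.base, (hmid s hne).trans h.top, h.prod, h.r_ne, h.ne, h.sq_α, h.sq_β⟩
    have haway' : ∀ s, s ∉ Q' → lamMid (X s) = lamBase (X s) := by
      intro s hs
      by_cases h : s = s₀
      · subst h
        rw [hmid0]
        exact h0.base.symm
      · rw [hmid s h]
        refine haway s fun hmem => ?_
        rcases Finset.mem_insert.1 hmem with h1 | h1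
        · exact h h1
        · exact hs h1
    obtain ⟨S', ρ', hact', hρ', hlam', hInv'⟩ :=
      IH (fun s hs => hG s (Finset.mem_insert_of_mem hs)) (M * ∏ s ∈ Q', pr s) lamMid rfl
        (fun s hs => hQM s (Finset.mem_insert_of_mem hs)) hTW' haway'
    have hR : Resid s₀ lamMid lamTop ((pr s₀ : ℕ) : 𝒪) (α s₀) (β s₀) :=
      ⟨fun i hi => (hmid i hi).symm, hmid0, h0.top, h0.prod, h0.r_ne, h0.ne, h0.sq_α, h0.sq_β⟩
    have hC : Compat s₀ (degen hqN' 𝒪 𝒪) (actN 𝒪 pr hpr (M * ∏ s ∈ Q', pr s))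
        (actN 𝒪 pr hpr ((M * ∏ s ∈ Q', pr s) * pr s₀)) := compat 𝒪 pr hpr hinj s₀ hqN'
    haveI hne1 : NeZero (M * ∏ s ∈ Q', pr s) :=
      ⟨Nat.mul_ne_zero (NeZero.ne M) (Finset.prod_ne_zero_iff.2 fun s _ => (hpr s).ne_zero)⟩
    haveI hne2 : NeZero ((M * ∏ s ∈ Q', pr s) * pr s₀) :=
      ⟨Nat.mul_ne_zero (NeZero.ne _) (hpr s₀).ne_zero⟩
    haveI := finite_hom 𝒪 (M * ∏ s ∈ Q', pr s)
    haveI := finite_hom 𝒪 ((M * ∏ s ∈ Q', pr s) * pr s₀)
    haveI := ker_isMaximal hsurj lamMid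
    haveI := ker_isMaximal hsurj lamTop
    obtain ⟨S1, ρ1, hact1, hρ1, hlam1, t, hj1⟩ := Stage.exists_next_inv hC hR S'
    refine ⟨S1, ρ'.comp ρ1, ?_, ?_, ?_, ?_⟩
    · rw [hact1, hact']
      rfl
    · intro s hs
      have hne : s ≠ s₀ := fun h => hs (h ▸ Finset.mem_insert_self _ _)
      have hnQ : s ∉ Q' := fun h => hs (Finset.mem_insert_of_mem h)
      rw [AlgHom.comp_apply, hρ1 s hne, hρ' s hnQ]
    · rw [← AlgHom.comp_assoc, hlam', hlam1]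
    · rw [hj1, hact']
      exact hstep (M * ∏ s ∈ Q', pr s) s₀ (hG s₀ (Finset.mem_insert_self _ _)) hqN' S'.j (ρ' t)
        hInv'

end Iter

/-! ### `U_p` on the primary parts -/

section GenOp

variable (𝒪 : Type) [CommRing 𝒪]
variable {σ : Type} (pr : σ → ℕ) (hpr : ∀ s, (pr s).Prime)

/-- `genOp 𝒪 N l` (`U_l` or `T_l`) commutes with the uniform action of the symbols -/
theorem genOp_comm_actN (N l : ℕ) [Fact l.Prime] (t : MvPolynomial σ 𝒪)
    (x : Additive (Gamma0 N) →+ 𝒪) :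
    genOp 𝒪 N l (actN 𝒪 pr hpr N t x) = actN 𝒪 pr hpr N t (genOp 𝒪 N l x) := by
  induction t using MvPolynomial.induction_on generalizing x with
  | C c =>
    rw [← MvPolynomial.algebraMap_eq, AlgHom.commutes, Module.algebraMap_end_apply,
      Module.algebraMap_end_apply, map_smul]
  | add a b ha hb =>
    rw [map_add, LinearMap.add_apply, LinearMap.add_apply, map_add, ha, hb]
  | mul_X a i ha =>
    rw [map_mul, Module.End.mul_apply, Module.End.mul_apply, ha, actN_X]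
    congr 1
    haveI : Fact (pr i).Prime := ⟨hpr i⟩
    have h := genOp_comm 𝒪 N l (pr i)
    have h2 := LinearMap.congr_fun h x
    rw [Module.End.mul_apply, Module.End.mul_apply] at h2
    exact h2

/-- `genOp 𝒪 N l` preserves every primary part -/
theorem genOp_mem_locSub (N l : ℕ) [Fact l.Prime] (𝔪 : Ideal (MvPolynomial σ 𝒪))
    {x : Additive (Gamma0 N) →+ 𝒪} (hx : x ∈ locSub (actN 𝒪 pr hpr N) 𝔪) :
    genOp 𝒪 N l x ∈ locSub (actN 𝒪 pr hpr N) 𝔪 := by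
  intro s hs
  obtain ⟨x', hx'⟩ := hx s hs
  exact ⟨genOp 𝒪 N l x', by rw [← genOp_comm_actN, hx']⟩

/-- **`U_l` (or `T_l`) on the `𝔪`-primary part of `Hom(Γ₀(N), 𝒪)`** -/
noncomputable def locU (N l : ℕ) [Fact l.Prime] (𝔪 : Ideal (MvPolynomial σ 𝒪)) :
    Module.End 𝒪 (locSub (actN 𝒪 pr hpr N) 𝔪) :=
  (genOp 𝒪 N l).restrict (fun _ hx => genOp_mem_locSub 𝒪 pr hpr N l 𝔪 hx)

@[simp] theorem coe_locU (N l : ℕ) [Fact l.Prime] (𝔪 : Ideal (MvPolynomial σ 𝒪))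
    (y : locSub (actN 𝒪 pr hpr N) 𝔪) :
    ((locU 𝒪 pr hpr N l 𝔪 y : locSub (actN 𝒪 pr hpr N) 𝔪) : Additive (Gamma0 N) →+ 𝒪)
      = genOp 𝒪 N l (y : Additive (Gamma0 N) →+ 𝒪) := rfl

/-- `U_l` commutes with the Hecke action on the primary part -/
theorem locU_locAct (N l : ℕ) [Fact l.Prime] (𝔪 : Ideal (MvPolynomial σ 𝒪))
    (t : MvPolynomial σ 𝒪) (y : locSub (actN 𝒪 pr hpr N) 𝔪) :
    locU 𝒪 pr hpr N l 𝔪 (locAct (actN 𝒪 pr hpr N) 𝔪 t y)
      = locAct (actN 𝒪 pr hpr N) 𝔪 t (locU 𝒪 pr hpr N l 𝔪 y) :=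
  Subtype.ext (genOp_comm_actN 𝒪 pr hpr N l t y)

/-- the two-symbol family `q, l` -/
private theorem cond_prime {q l : ℕ} [hq : Fact q.Prime] [hl : Fact l.Prime] (b : Bool) :
    (cond b q l).Prime := by
  cases b
  · exact hl.out
  · exact hq.out

private theorem cond_injective {q l : ℕ} (hql : l ≠ q) :
    Function.Injective (fun b : Bool => cond b q l) := by
  intro a b h
  cases a <;> cases b
  · rfl
  · exact absurd h hql
  · exact absurd h.symm hql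
  · rfl

/-- **`res_q` commutes with `U_l` / `T_l`** (`l ≠ q`), uniformly in the level -/
theorem res_genOp {N q l : ℕ} [Fact q.Prime] [Fact l.Prime] (hql : l ≠ q) (hqN : ¬ q ∣ N)
    (x : Additive (Gamma0 N) →+ 𝒪) :
    (degen hqN 𝒪 𝒪).res (genOp 𝒪 N l x) = genOp 𝒪 (N * q) l ((degen hqN 𝒪 𝒪).res x) := by
  have h := (compat 𝒪 (fun b : Bool => cond b q l) (fun b => cond_prime b) (cond_injective hql)
    true hqN).res false (by decide) x
  rw [actN_X, actN_X] at h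
  exact h

/-- **`resD_q` commutes with `U_l` / `T_l`** (`l ≠ q`), uniformly in the level -/
theorem resD_genOp {N q l : ℕ} [Fact q.Prime] [Fact l.Prime] (hql : l ≠ q) (hqN : ¬ q ∣ N)
    (x : Additive (Gamma0 N) →+ 𝒪) :
    (degen hqN 𝒪 𝒪).resD (genOp 𝒪 N l x) = genOp 𝒪 (N * q) l ((degen hqN 𝒪 𝒪).resD x) := by
  have h := (compat 𝒪 (fun b : Bool => cond b q l) (fun b => cond_prime b) (cond_injective hql)
    true hqN).resD false (by decide) x
  rw [actN_X, actN_X] at h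
  exact h

end GenOp

/-! ### the stage commutes with `U_p` -/

section StageU

variable {𝒪 : Type} [CommRing 𝒪] [IsLocalRing 𝒪] [IsNoetherianRing 𝒪]
  [IsAdicComplete (IsLocalRing.maximalIdeal 𝒪) 𝒪]
variable {σ : Type} [DecidableEq σ] (pr : σ → ℕ) (hpr : ∀ s, (pr s).Prime)
variable {κ : Type} [Field κ] [Algebra 𝒪 κ]

/-- **the stage of `exists_stage` commutes with `U_p`** for every prime `p` which is not one of the
Taylor–Wiles primes: `S.j (U_p y) = U_p (S.j y)` (`U_p = genOp`: `U_p` if `p` divides the level,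
`T_p` otherwise). -/
theorem exists_stage_U (hinj : Function.Injective pr)
    (hsurj : Function.Surjective (algebraMap 𝒪 κ)) (M : ℕ) [NeZero M]
    (lamBase : MvPolynomial σ 𝒪 →ₐ[𝒪] κ) (α β : σ → 𝒪) (p : ℕ) [Fact p.Prime] (Q : Finset σ)
    (hpQ : ∀ s ∈ Q, pr s ≠ p)
    (N : ℕ) (lamTop : MvPolynomial σ 𝒪 →ₐ[𝒪] κ) (hN : N = M * ∏ s ∈ Q, pr s)
    (hQM : ∀ s ∈ Q, ¬ pr s ∣ M) (hTW : ∀ s ∈ Q, TWCond pr lamBase lamTop α β s)
    (haway : ∀ s, s ∉ Q → lamTop (X s) = lamBase (X s)) :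
    ∃ (S : Stage (MvPolynomial σ 𝒪) (Additive (Gamma0 N) →+ 𝒪) (actN 𝒪 pr hpr N)
        (RingHom.ker (lamTop : MvPolynomial σ 𝒪 →+* κ))
        (locSub (actN 𝒪 pr hpr M) (RingHom.ker (lamBase : MvPolynomial σ 𝒪 →+* κ))))
      (ρ : MvPolynomial σ 𝒪 →ₐ[𝒪] MvPolynomial σ 𝒪),
      S.actP = (locAct (actN 𝒪 pr hpr M)
          (RingHom.ker (lamBase : MvPolynomial σ 𝒪 →+* κ))).comp ρ ∧
      (∀ s, s ∉ Q → ρ (X s) = X s) ∧ lamBase.comp ρ = lamTop ∧
      ∀ y, S.j (locU 𝒪 pr hpr M p (RingHom.ker (lamBase : MvPolynomial σ 𝒪 →+* κ)) y)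
        = genOp 𝒪 N p (S.j y) := by
  refine exists_stage_inv pr hpr hinj hsurj M lamBase α β
    (fun N j => ∀ y, j (locU 𝒪 pr hpr M p (RingHom.ker (lamBase : MvPolynomial σ 𝒪 →+* κ)) y)
      = genOp 𝒪 N p (j y))
    (fun y => rfl) (fun s => pr s ≠ p) ?_ Q hpQ N lamTop hN hQM hTW haway
  intro N s hs hqN j₀ t hj₀ y
  haveI : Fact (pr s).Prime := ⟨hpr s⟩
  rw [LinearMap.sub_apply, LinearMap.sub_apply, LinearMap.comp_apply, LinearMap.comp_apply,
    LinearMap.comp_apply, LinearMap.comp_apply, LinearMap.comp_apply, LinearMap.comp_apply,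
    ← locU_locAct, hj₀, hj₀, resD_genOp 𝒪 (Ne.symm hs) hqN, res_genOp 𝒪 (Ne.symm hs) hqN, map_sub]

end StageU

/-! ### the seam -/

section Seam

open Fermat.Agent.GB.B3.HeckeActH Fermat.Agent.GB.B3.Base

variable {N : ℕ} (Sy : Symbols N)
variable {𝒪 : Type} [CommRing 𝒪] [IsLocalRing 𝒪] [IsNoetherianRing 𝒪]
  [IsAdicComplete (IsLocalRing.maximalIdeal 𝒪) 𝒪]
variable {κ : Type} [Field κ] [Algebra 𝒪 κ]
variable [DecidableEq Sy.ι₁] [DecidableEq Sy.ι₂]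

/-- **THE SEAM, `U_p`-equivariant**: `LevelIter.exists_baseEquiv` with the extra clause
`e (U_p y) = U_p (e y)` for a prime `p` which is not a Taylor–Wiles prime of `Q` (`U_p` at the base
level `M` is `locU`; at the level `N` it is `genOp 𝒪 N p` on `Hom(Γ₀(N), 𝒪)`). -/
theorem exists_baseEquiv_U (hℓ : Function.Injective Sy.ℓ) (hr : Function.Injective Sy.r)
    (hsurj : Function.Surjective (algebraMap 𝒪 κ)) (M : ℕ) [NeZero M]
    (lamBase lamTop : Sy.𝕋 𝒪 →ₐ[𝒪] κ) (α β : Sy.ι₁ ⊕ Sy.ι₂ → 𝒪) (Q : Finset (Sy.ι₁ ⊕ Sy.ι₂))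
    (hN : N = M * ∏ s ∈ Q, prSy Sy s) (hQM : ∀ s ∈ Q, ¬ prSy Sy s ∣ M)
    (hTW : ∀ s ∈ Q, TWCond (prSy Sy) lamBase lamTop α β s)
    (haway : ∀ s, s ∉ Q → lamTop (X s) = lamBase (X s))
    (p : ℕ) [Fact p.Prime] (hpQ : ∀ s ∈ Q, prSy Sy s ≠ p) :
    ∃ (e : Fermat.Agent.GB.B8.LevelStage.locSub (actN 𝒪 (prSy Sy) (prSy_prime Sy) M)
          (RingHom.ker (lamBase : Sy.𝕋 𝒪 →+* κ)) ≃ₗ[𝒪]
          Fermat.Agent.GB.B3.Base.locSub (act0 Sy 𝒪) (RingHom.ker (lamTop : Sy.𝕋 𝒪 →+* κ)))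
      (ρ : Sy.𝕋 𝒪 →ₐ[𝒪] Sy.𝕋 𝒪),
      (∀ t y, e (locAct (actN 𝒪 (prSy Sy) (prSy_prime Sy) M)
          (RingHom.ker (lamBase : Sy.𝕋 𝒪 →+* κ)) (ρ t) y)
        = Fermat.Agent.GB.B3.Base.locSubAct (act0 Sy 𝒪)
            (RingHom.ker (lamTop : Sy.𝕋 𝒪 →+* κ)) t (e y)) ∧
      (∀ s, s ∉ Q → ρ (X s) = X s) ∧ lamBase.comp ρ = lamTop ∧
      ∀ y, ((e (locU 𝒪 (prSy Sy) (prSy_prime Sy) M p
            (RingHom.ker (lamBase : Sy.𝕋 𝒪 →+* κ)) y) :
            Fermat.Agent.GB.B3.Base.locSub (act0 Sy 𝒪)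
              (RingHom.ker (lamTop : Sy.𝕋 𝒪 →+* κ))) : Additive (Gamma0 N) →+ 𝒪)
        = genOp 𝒪 N p ((e y : Fermat.Agent.GB.B3.Base.locSub (act0 Sy 𝒪)
              (RingHom.ker (lamTop : Sy.𝕋 𝒪 →+* κ))) : Additive (Gamma0 N) →+ 𝒪) := by
  have key := exists_stage_U (prSy Sy) (prSy_prime Sy)
    (prSy_injective Sy hℓ hr) hsurj M lamBase α β p Q hpQ N lamTop hN hQM hTW haway
  rw [actN_eq_act0 Sy 𝒪] at key
  obtain ⟨S, ρ, hact, hρ, hlam, hU⟩ := key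
  refine ⟨stageEquiv S, ρ, fun t y => ?_, hρ, hlam, fun y => ?_⟩
  · rw [← stageEquiv_act S t y, hact]
    rfl
  · rw [coe_stageEquiv, coe_stageEquiv]
    exact hU y

end Seam

end Fermat.Agent.GE8.RaiseP.StageSub
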