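/-
GATE-E / RISK-4 R4-G (g1), route (D), HEDGE (helper41): **the removal of the Taylor–Wiles primes
from the level carries the `p`-new classes** — helper55's `StageSub.exists_stage_inv` at the
invariant `Inv N j := ∀ y, y ∈ pNew(M) → j y ∈ pNew(N)` (`DegComm.pNewSub`), discharged by
`DegComm.res_mem_pNewSub`, `resD_mem_pNewSub` and `DegCommGen.actN_mem_pNewSub`.

* `exists_stage_pNew` : the stage of `LevelIter.exists_stage` over the base level `M = M₀ p`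
  (`p ∤ M₀`, `p` none of the symbols) maps the `p`-new classes of the base primary part into the
  `p`-new classes of `Hom(Γ₀(M ∏ q), 𝒪)`;
* `exists_baseEquiv_pNew` : the seam `LevelIter.exists_baseEquiv` with the extra clause
  `y ∈ pNew(M) → e y ∈ pNew(N)`.

Kernel containment ONLY (no squares): a fallback for helper15's product-level construction
(`GE8/RaiseP/G1`), which gives the commuting squares with the FIXED base maps.
-/
import Mathlib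
import Fermat.Agent.GE8.RaiseP.StageSub
import Fermat.Agent.GE8.RaiseP.DegCommGen

set_option autoImplicit false
set_option linter.unusedSectionVars false
set_option linter.unusedVariables false
set_option linter.style.haveILetI false

open scoped MatrixGroups
open CongruenceSubgroup
open Fermat.Agent.GB.B8.LevelAbs Fermat.Agent.GB.B8.LevelGamma0 Fermat.Agent.GB.B8.LevelStage
  Fermat.Agent.GB.B8.LevelGen Fermat.Agent.GB.B8.LevelIter
open Fermat.Agent.GB.B3.RealLevel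
open Fermat.Agent.GE8.RaiseP.StageSub Fermat.Agent.GE8.RaiseP.DegComm
  Fermat.Agent.GE8.RaiseP.DegCommGen

namespace Fermat.Agent.GE8.RaiseP.StagePNew

open MvPolynomial

section Stage

variable {𝒪 : Type} [CommRing 𝒪] [IsLocalRing 𝒪] [IsNoetherianRing 𝒪]
  [IsAdicComplete (IsLocalRing.maximalIdeal 𝒪) 𝒪]
variable {σ : Type} [DecidableEq σ] (pr : σ → ℕ) (hpr : ∀ s, (pr s).Prime)
variable {κ : Type} [Field κ] [Algebra 𝒪 κ]

/-- **the stage of `exists_stage` carries the `p`-new classes**: base level `M = M₀ p`, `p ∤ M₀`,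
`p` none of the Hecke symbols. -/
theorem exists_stage_pNew (hinj : Function.Injective pr)
    (hsurj : Function.Surjective (algebraMap 𝒪 κ)) (M : ℕ) [NeZero M]
    (lamBase : MvPolynomial σ 𝒪 →ₐ[𝒪] κ) (α β : σ → 𝒪) (p : ℕ) [Fact p.Prime]
    (hne : ∀ s, pr s ≠ p) (M₀ : ℕ) (hM : M = M₀ * p) (hpM₀ : ¬ p ∣ M₀) (Q : Finset σ)
    (N : ℕ) (lamTop : MvPolynomial σ 𝒪 →ₐ[𝒪] κ) (hN : N = M * ∏ s ∈ Q, pr s)
    (hQM : ∀ s ∈ Q, ¬ pr s ∣ M) (hTW : ∀ s ∈ Q, TWCond pr lamBase lamTop α β s)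
    (haway : ∀ s, s ∉ Q → lamTop (X s) = lamBase (X s)) :
    ∃ (S : Stage (MvPolynomial σ 𝒪) (Additive (Gamma0 N) →+ 𝒪) (actN 𝒪 pr hpr N)
        (RingHom.ker (lamTop : MvPolynomial σ 𝒪 →+* κ))
        (locSub (actN 𝒪 pr hpr M) (RingHom.ker (lamBase : MvPolynomial σ 𝒪 →+* κ))))
      (ρ : MvPolynomial σ 𝒪 →ₐ[𝒪] MvPolynomial σ 𝒪),
      S.actP = (locAct (actN 𝒪 pr hpr M)
          (RingHom.ker (lamBase : MvPolynomial σ 𝒪 →+* κ))).comp ρ ∧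
      (∀ s, s ∉ Q → ρ (X s) = X s) ∧ lamBase.comp ρ = lamTop ∧
      ∀ y : locSub (actN 𝒪 pr hpr M) (RingHom.ker (lamBase : MvPolynomial σ 𝒪 →+* κ)),
        (y : Additive (Gamma0 M) →+ 𝒪) ∈ pNewSub p 𝒪 𝒪 M → S.j y ∈ pNewSub p 𝒪 𝒪 N := by
  refine exists_stage_inv pr hpr hinj hsurj M lamBase α β
    (fun N j => ∀ y : locSub (actN 𝒪 pr hpr M) (RingHom.ker (lamBase : MvPolynomial σ 𝒪 →+* κ)),
      (y : Additive (Gamma0 M) →+ 𝒪) ∈ pNewSub p 𝒪 𝒪 M → j y ∈ pNewSub p 𝒪 𝒪 N)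
    (fun y hy => hy) (fun _ => True) ?_ Q (fun _ _ => trivial) N lamTop hN hQM hTW haway
  intro N s _ hqN j₀ t hj₀ y hy
  haveI : Fact (pr s).Prime := ⟨hpr s⟩
  have hty : ((locAct (actN 𝒪 pr hpr M) (RingHom.ker (lamBase : MvPolynomial σ 𝒪 →+* κ)) t y :
      locSub (actN 𝒪 pr hpr M) (RingHom.ker (lamBase : MvPolynomial σ 𝒪 →+* κ))) :
        Additive (Gamma0 M) →+ 𝒪) ∈ pNewSub p 𝒪 𝒪 M :=
    actN_mem_pNewSub pr hpr hM hpM₀ hne t hy
  rw [LinearMap.sub_apply, LinearMap.comp_apply, LinearMap.comp_apply, LinearMap.comp_apply]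
  exact Submodule.sub_mem _ (resD_mem_pNewSub (hne s).symm (hj₀ y hy))
    (res_mem_pNewSub (hne s).symm (hj₀ _ hty))

end Stage

section Seam

open Fermat.Agent.GB.B3.HeckeActH Fermat.Agent.GB.B3.Base

variable {N : ℕ} (Sy : Symbols N)
variable {𝒪 : Type} [CommRing 𝒪] [IsLocalRing 𝒪] [IsNoetherianRing 𝒪]
  [IsAdicComplete (IsLocalRing.maximalIdeal 𝒪) 𝒪]
variable {κ : Type} [Field κ] [Algebra 𝒪 κ]
variable [DecidableEq Sy.ι₁] [DecidableEq Sy.ι₂]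

/-- **THE SEAM carries the `p`-new classes**: `LevelIter.exists_baseEquiv` with the extra clause
`y ∈ pNew(M) → e y ∈ pNew(N)`. -/
theorem exists_baseEquiv_pNew (hℓ : Function.Injective Sy.ℓ) (hr : Function.Injective Sy.r)
    (hsurj : Function.Surjective (algebraMap 𝒪 κ)) (M : ℕ) [NeZero M]
    (lamBase lamTop : Sy.𝕋 𝒪 →ₐ[𝒪] κ) (α β : Sy.ι₁ ⊕ Sy.ι₂ → 𝒪) (Q : Finset (Sy.ι₁ ⊕ Sy.ι₂))
    (hN : N = M * ∏ s ∈ Q, prSy Sy s) (hQM : ∀ s ∈ Q, ¬ prSy Sy s ∣ M)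
    (hTW : ∀ s ∈ Q, TWCond (prSy Sy) lamBase lamTop α β s)
    (haway : ∀ s, s ∉ Q → lamTop (X s) = lamBase (X s))
    (p : ℕ) [Fact p.Prime] (hne : ∀ s, prSy Sy s ≠ p) (M₀ : ℕ) (hM : M = M₀ * p)
    (hpM₀ : ¬ p ∣ M₀) :
    ∃ (e : Fermat.Agent.GB.B8.LevelStage.locSub (actN 𝒪 (prSy Sy) (prSy_prime Sy) M)
          (RingHom.ker (lamBase : Sy.𝕋 𝒪 →+* κ)) ≃ₗ[𝒪]
          Fermat.Agent.GB.B3.Base.locSub (act0 Sy 𝒪) (RingHom.ker (lamTop : Sy.𝕋 𝒪 →+* κ)))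
      (ρ : Sy.𝕋 𝒪 →ₐ[𝒪] Sy.𝕋 𝒪),
      (∀ t y, e (locAct (actN 𝒪 (prSy Sy) (prSy_prime Sy) M)
          (RingHom.ker (lamBase : Sy.𝕋 𝒪 →+* κ)) (ρ t) y)
        = Fermat.Agent.GB.B3.Base.locSubAct (act0 Sy 𝒪)
            (RingHom.ker (lamTop : Sy.𝕋 𝒪 →+* κ)) t (e y)) ∧
      (∀ s, s ∉ Q → ρ (X s) = X s) ∧ lamBase.comp ρ = lamTop ∧
      ∀ y : Fermat.Agent.GB.B8.LevelStage.locSub (actN 𝒪 (prSy Sy) (prSy_prime Sy) M)
          (RingHom.ker (lamBase : Sy.𝕋 𝒪 →+* κ)),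
        (y : Additive (Gamma0 M) →+ 𝒪) ∈ pNewSub p 𝒪 𝒪 M →
        ((e y : Fermat.Agent.GB.B3.Base.locSub (act0 Sy 𝒪)
              (RingHom.ker (lamTop : Sy.𝕋 𝒪 →+* κ))) : Additive (Gamma0 N) →+ 𝒪)
          ∈ pNewSub p 𝒪 𝒪 N := by
  have key := exists_stage_pNew (prSy Sy) (prSy_prime Sy)
    (prSy_injective Sy hℓ hr) hsurj M lamBase α β p hne M₀ hM hpM₀ Q N lamTop hN hQM hTW haway
  rw [actN_eq_act0 Sy 𝒪] at key
  obtain ⟨S, ρ, hact, hρ, hlam, hK⟩ := key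
  refine ⟨stageEquiv S, ρ, fun t y => ?_, hρ, hlam, fun y hy => ?_⟩
  · rw [← stageEquiv_act S t y, hact]
    rfl
  · rw [coe_stageEquiv]
    exact hK y hy

end Seam

end Fermat.Agent.GE8.RaiseP.StagePNew
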